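import Fermat.Agent.AbTors.GlueBasic

/-!
# A rational function vanishing along the axes over the generic point is zero
-/

set_option autoImplicit false
set_option linter.unusedSectionVars false
set_option linter.style.haveILetI false

noncomputable section

universe u

open CategoryTheory CategoryTheory.Limits AlgebraicGeometry TopologicalSpace IsLocalRing
open NeronModelInfra GoodReductionJacobian

namespace FA.AbTors

variable {K : Type u} [Field K] (V : AbVar K)

theorem AbVar.slice_fst (a b : V.RPt) (w : V.A) :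
    pullback.fst V.str2 V.str (V.slice3 a b w) =
      pullback.lift (V.hom a) (V.hom b) (by rw [V.hom_str, V.hom_str]) (closedPoint K) := by
  have h : V.slice3 a b ≫ pullback.fst V.str2 V.str =
      V.str ≫ pullback.lift (V.hom a) (V.hom b) (by rw [V.hom_str, V.hom_str]) := by
    rw [AbVar.slice3, AbVar.mk3, pullback.lift_fst]
    refine pullback.hom_ext ?_ ?_ <;>
      simp only [Category.assoc, pullback.lift_fst, pullback.lift_snd, AbVar.hom_cst]
  rw [← Scheme.Hom.comp_apply, h, Scheme.Hom.comp_apply, spec_pt_eq (V.str w)]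

/-- **Vanishing along the axes.** -/
theorem axesVanish [IsAlgClosed K] [IsIntegral V.A] [IsIntegral V.A3] : AxesVanish V := by
  intro n hn
  let R : V.A3.Opens := ⟨{z | RegAt z n}, isOpen_regAt n⟩
  haveI : IsProper (pullback.fst V.str2 V.str) := inferInstance
  let pr := pullback.fst V.str2 V.str
  have hfac2 : pullback.fst V.str2 V.str ≫ pullback.snd V.str V.str = V.hom V.pr2 := rfl
  have hfac1 : pullback.fst V.str2 V.str ≫ pullback.fst V.str V.str = V.hom V.pr1 := rfl
  -- the first variable of the generic point is generic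
  have hgen1 : V.hom V.pr1 (genericPoint V.A3) = genericPoint V.A := by
    have h1 := ((genericPoint_spec V.A3).specializes
      (trivial : V.mk3 V.self 0 0 (genericPoint V.A) ∈ _)).map (V.hom V.pr1).continuous
    rw [V.mk3_fst_apply] at h1
    exact (h1.antisymm ((genericPoint_spec V.A).specializes trivial)).eq.trans rfl
  set z₀ := V.mk3 V.self 0 0 (genericPoint V.A) with hz₀
  have hz₀1 : V.hom V.pr1 z₀ = genericPoint V.A := V.mk3_fst_apply _ _ _ _
  have hz₀2 : V.hom V.pr2 z₀ = V.origin := by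
    rw [hz₀, V.mk3_snd_apply, V.hom_zero_apply]
  let W : V.A2.Opens :=
    ⟨(pr '' (R : Set V.A3)ᶜ)ᶜ, (pr.isClosedMap _ R.2.isClosed_compl).isOpen_compl⟩
  let R' : V.A3.Opens := pr ⁻¹ᵁ W
  have hR' : ∀ z ∈ R', z ∈ R := fun z hz => by_contra fun h => hz ⟨z, h, rfl⟩
  have hz₀R : z₀ ∈ R' := by
    rintro ⟨z, hz, he⟩
    refine hz ((hn z ?_ (Or.inl ?_)).1)
    · rw [← hz₀1, ← hfac1, Scheme.Hom.comp_apply, Scheme.Hom.comp_apply]
      exact congrArg _ he
    · rw [← hz₀2, ← hfac2, Scheme.Hom.comp_apply, Scheme.Hom.comp_apply]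
      exact congrArg _ he
  obtain ⟨a, ha⟩ := exists_sec hz₀R fun z hz => hR' z hz
  set σ := V.mk3 V.pr1 V.pr2 0 with hσ
  have hσnot : ∀ z, σ z ∉ V.A3.basicOpen a := fun z hz => by
    have hmem : σ (genericPoint V.A3) ∈ V.A3.basicOpen a :=
      (((genericPoint_spec V.A3).specializes trivial).map σ.continuous).mem_open
        (V.A3.basicOpen a).2 hz
    refine (hn _ ?_ (Or.inr ?_)).2
      (unitAt_of_mem_basicOpen (V.A3.basicOpen_le a hmem) (n := n) ?_ hmem)
    · rw [hσ, V.mk3_fst_apply, hgen1]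
    · rw [hσ, V.mk3_thd_apply, V.hom_zero_apply]
    · exact ha
  have ha0 : a = 0 := eq_zero_of_slices V.str3 V.isField_top a fun z hz hzc => by
    obtain ⟨q₁, q₂, q₃, rfl⟩ := V.exists_pt3 hzc
    refine ⟨V.slice3 q₁ q₂, fun w => ?_, ⟨V.pt q₃, V.slice3_pt _ _ _⟩, V.pt 0, ?_⟩
    · show pr (V.slice3 q₁ q₂ w) ∈ W
      rw [show pr (V.slice3 q₁ q₂ w) = pr (V.slice3 q₁ q₂ (V.pt q₃)) from
        (V.slice_fst _ _ w).trans (V.slice_fst _ _ _).symm, V.slice3_pt]
      exact hz
    · rw [V.slice3_pt, ← V.sigma_pt3 q₁ q₂ q₃]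
      exact hσnot _
  rw [← ha, ha0, map_zero]

end FA.AbTors

end
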