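import Fermat.Agent.AbTors.Setup
import Fermat.Agent.PicTors.ConstExt
import Fermat.Agent.Curve.Value
import Mathlib.RingTheory.UniqueFactorizationDomain.Defs
import Mathlib.FieldTheory.Separable

/-!
# Torsion points of abelian varieties: the pieces

* `IntegralHolds`, `FactorialStalks`: local algebra of smooth varieties;
* `DegIsCard`: the degree of multiplication by `n` is the number of its `n`-torsion points;
* `ExtPullHolds`, `ExtExists`: constant extensions of function fields in any characteristic;
* `SpecialisationHolds`: specialisation of divisors on a curve along a valuation of the constants;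
* `JoinHolds`: a curve through a generic point and the origin;
* `CubeTorsion`: the theorem of the cube up to torsion;
* `QuadraticHolds`: pullback by multiplication by `n` of a symmetric class;
* `SqueezeHolds`: the degree is `n ^ (2 g)`.
-/

set_option autoImplicit false
set_option linter.style.haveILetI false
set_option linter.unusedVariables false

noncomputable section

universe u

open CategoryTheory CategoryTheory.Limits AlgebraicGeometry NeronModelInfra GoodReductionJacobian
open AlgebraicCurve FA.Curve FA.PicTors

namespace FA.AbTors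

variable {K : Type u} [Field K]

/-! ### Generic points -/

/-- The map of function fields of a dominant morphism. -/
def ffMap {X Y : Scheme.{u}} [IrreducibleSpace X] [IrreducibleSpace Y] (φ : X ⟶ Y)
    (h : φ (genericPoint X) = genericPoint Y) : Y.functionField →+* X.functionField :=
  ((Y.presheaf.stalkCongr (Inseparable.of_eq h.symm)).hom ≫ φ.stalkMap (genericPoint X)).hom

/-- The map of the function field given by a generic point with values in a field. -/
def ptFF {X : Scheme.{u}} [IrreducibleSpace X] {M : Type u} [Field M]
    (y : Spec (CommRingCat.of M) ⟶ X) (h : y (IsLocalRing.closedPoint M) = genericPoint X) :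
    X.functionField →+* M :=
  ((X.presheaf.stalkCongr (Inseparable.of_eq h.symm)).hom ≫
    Scheme.stalkClosedPointTo y).hom

variable (V : AbVar K)

/-! ### Local algebra -/

/-- `A` and `A × A × A` are integral. -/
def IntegralHolds : Prop := IsIntegral V.A ∧ IsIntegral V.A3

variable (K) in
/-- The local rings of smooth varieties are factorial. -/
def FactorialStalks : Prop :=
  ∀ (X : Scheme.{u}) (s : X ⟶ Spec (CommRingCat.of K)) [Smooth s] [IsIntegral X] (x : X),
    UniqueFactorizationMonoid (X.presheaf.stalk x)

/-! ### Torsion points -/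

/-- The number of `n`-torsion points. -/
def torsionCount (n : ℕ) : ℕ :=
  Nat.card {x : V.Pt (𝟙 (Spec (CommRingCat.of K))) // n • x = 0}

/-- A map of fields is finite separable of degree `d`. -/
def DegData {L L' : Type u} [Field L] [Field L'] (ψ : L →+* L') (d : ℕ) : Prop :=
  letI := ψ.toAlgebra
  Module.Finite L L' ∧ Algebra.IsSeparable L L' ∧ Module.finrank L L' = d

/-- The degree of multiplication by `n` is the number of torsion points. -/
def DegIsCard [IrreducibleSpace V.A] [IsIntegral V.A] : Prop :=
  ∀ n : ℕ, (n : K) ≠ 0 → ∃ h : V.mulHom n (genericPoint V.A) = genericPoint V.A,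
    DegData (ffMap (V.mulHom n) h) (torsionCount V n)

/-! ### Function fields of curves -/

/-- Riemann–Roch spaces and the genus under a constant extension, in any characteristic. -/
def ExtPullHolds : Prop :=
  ∀ (k L F F' : Type u) [Field k] [Field L] [Field F] [Field F'] [Algebra k F] [Algebra L F']
    [IsAlgClosed k] [IsAlgClosed L] (i : k →+* L) (φ : F →+* F') (h : IsExt i φ),
    FA.Curve.genus L F' = FA.Curve.genus k F ∧
      ∀ D : Divisor k F,
        riemannRochSpace (h.pull D) ≤ Submodule.span L (φ '' (riemannRochSpace D : Set F))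

/-- Constant extensions exist. -/
def ExtExists : Prop :=
  ∀ (k L F : Type u) [Field k] [Field L] [Field F] [Algebra k F] [IsAlgClosed k] [IsAlgClosed L]
    (i : k →+* L), IsFunctionField k F →
    ∃ (F' : Type u) (_ : Field F') (_ : Algebra L F') (φ : F →+* F'), IsExt i φ

/-- Specialisation along a valuation `w` of `L` trivial on `M`, with residue field `κ`: the
valuation `W` of `F L` extending it, its residue map, and the map `sp` of places, compatible with
principal divisors and with values. -/
def SpecialisationHolds : Prop :=
  ∀ (M L κ F FL Fκ : Type u) [Field M] [Field L] [Field κ] [Field F] [Field FL] [Field Fκ]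
    [IsAlgClosed M] [IsAlgClosed L] [IsAlgClosed κ] [Algebra M F] [Algebra L FL] [Algebra κ Fκ]
    (iL : M →+* L) (iκ : M →+* κ) (φ₁ : F →+* FL) (φ₂ : F →+* Fκ) (h₁ : IsExt iL φ₁)
    (h₂ : IsExt iκ φ₂) (w : ValuationSubring L) (res : w →+* κ),
    Function.Surjective res → IsLocalHom res →
    (∀ a : M, ∃ h : iL a ∈ w, res ⟨iL a, h⟩ = iκ a) →
    ∃ (W : ValuationSubring FL) (red : W →+* Fκ) (sp : Place L FL → Place κ Fκ),
      IsLocalHom red ∧
      (∀ e : F, ∃ h : φ₁ e ∈ W, red ⟨φ₁ e, h⟩ = φ₂ e) ∧
      (∀ a : w, ∃ h : algebraMap L FL a ∈ W,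
        red ⟨algebraMap L FL a, h⟩ = algebraMap κ Fκ (res a)) ∧
      (∀ f : FL, f ≠ 0 → ∃ c : L, c ≠ 0 ∧ ∃ h : algebraMap L FL c * f ∈ W,
        red ⟨algebraMap L FL c * f, h⟩ ≠ 0) ∧
      (∀ f : W, red f ≠ 0 →
        Finsupp.mapDomain sp (divOf h₁.isFunctionField (f : FL)) =
          divOf h₂.isFunctionField (red f)) ∧
      (∀ R : Place M F, sp (h₁.up R) = h₂.up R) ∧
      (∀ (v : Place L FL) (e : F) (a : L), HasValue v (φ₁ e) a →
        (∀ ha : a ∈ w, HasValue (sp v) (φ₂ e) (res ⟨a, ha⟩)) ∧
        (a ∉ w → (sp v).ord (φ₂ e) < 0))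

/-! ### A curve through a generic point -/

/-- The structure map of the ring of a place. -/
def placeHom {M F : Type u} [Field M] [Field F] [Algebra M F] (P : Place M F) :
    M →+* P.toValuationSubring :=
  (algebraMap M F).codRestrict P.toValuationSubring.toSubring fun a => P.algebraMap_mem' a

/-- The value at a place of a point with values in a function field. -/
def PtValue {M F : Type u} [Field M] [Field F] [Algebra K M] [Algebra M F] (P : Place M F)
    (φ : V.Pt (V.rng ((algebraMap M F).comp (algebraMap K M)))) (y : V.Pt (V.fld M)) : Prop :=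
  ∃ x : V.Pt (V.rng ((placeHom P).comp (algebraMap K M))),
    V.ringMap P.toValuationSubring.subtype rfl x = φ ∧
      V.ringMap (IsLocalRing.residue P.toValuationSubring) rfl x =
        V.ringMap ((IsLocalRing.residue P.toValuationSubring).comp (placeHom P)) rfl y

/-- A curve over the algebraic closure of the function field through the generic point and the
origin. -/
def JoinHolds [IrreducibleSpace V.A] : Prop :=
  ∃ (M : Type u) (_ : Field M) (_ : IsAlgClosed M) (_ : Algebra K M) (y : V.Pt (V.fld M))
    (h : V.hom y (IsLocalRing.closedPoint M) = genericPoint V.A),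
    (letI := (ptFF (V.hom y) h).toAlgebra; Algebra.IsAlgebraic V.A.functionField M) ∧
    ∃ (F : Type u) (_ : Field F) (_ : Algebra M F)
      (φ : V.Pt (V.rng ((algebraMap M F).comp (algebraMap K M)))) (P Q : Place M F),
      IsFunctionField M F ∧ PtValue V P φ 0 ∧ PtValue V Q φ y

/-! ### The main steps -/

/-- The theorem of the cube, up to torsion. -/
def CubeTorsion : Prop :=
  ∀ p : Pic V.A, ∃ r : ℕ, 0 < r ∧ r • V.cube p V.pr1 V.pr2 V.pr3 = 0

/-- Pullback of a symmetric class by multiplication by `n`, up to torsion. -/
def QuadraticHolds : Prop :=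
  ∀ p : Pic V.A, Pic.pull V.negHom p = p →
    ∃ r : ℕ, 0 < r ∧ ∀ n : ℕ, r • Pic.pull (V.mulHom n) p = (r * n ^ 2) • p

/-- The growth squeeze. -/
def SqueezeHolds : Prop :=
  ∀ [IrreducibleSpace V.A] [IsIntegral V.A], FactorialStalks K → DegIsCard V → QuadraticHolds V →
    ∀ n : ℕ, (n : K) ≠ 0 → torsionCount V n = n ^ (2 * V.dim)

end FA.AbTors

end
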