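import Fermat.Agent.AbTors.CountTangent
import Fermat.Agent.AbTors.Defs
import Mathlib.FieldTheory.PrimitiveElement
import Mathlib.FieldTheory.IsAlgClosed.AlgebraicClosure
import Mathlib.RingTheory.Smooth.Locus

/-!
# The degree of multiplication by `n` is the number of torsion points

Multiplication by `n` is dominant with finite separable extension of function fields, and the
points over the geometric generic point form a torsor under the torsion points.
-/

set_option autoImplicit false
set_option linter.style.haveILetI false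
set_option linter.unusedSectionVars false

noncomputable section

universe u

open CategoryTheory AlgebraicGeometry IsLocalRing

namespace FA.AbTors.Cnt

/-- A map of fields is finite and separable. -/
def FinSep {L L' : Type u} [Field L] [Field L'] (ψ : L →+* L') : Prop :=
  letI := ψ.toAlgebra; Module.Finite L L' ∧ Algebra.IsSeparable L L'

/-- The degree of a map of fields. -/
def degOf {L L' : Type u} [Field L] [Field L'] (ψ : L →+* L') : ℕ :=
  letI := ψ.toAlgebra; Module.finrank L L'

/-- The embeddings over a map of fields are as many as its degree. -/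
theorem natCard_lifts {L L' M : Type u} [Field L] [Field L'] [Field M] [IsAlgClosed M]
    (ψ : L →+* L') (j : L →+* M)
    (h : FinSep ψ) : Nonempty {σ : L' →+* M // σ.comp ψ = j} ∧
      Nat.card {σ : L' →+* M // σ.comp ψ = j} = degOf ψ := by
  letI := ψ.toAlgebra
  letI := j.toAlgebra
  haveI := h.1
  haveI := h.2
  let e : {σ : L' →+* M // σ.comp ψ = j} ≃ (L' →ₐ[L] M) :=
    { toFun := fun σ => ⟨σ.1, fun r => DFunLike.congr_fun σ.2 r⟩
      invFun := fun σ => ⟨σ.toRingHom, RingHom.ext σ.commutes⟩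
      left_inv := fun σ => rfl
      right_inv := fun σ => rfl }
  refine ⟨⟨e.symm IsAlgClosed.lift⟩, (Nat.card_congr e).trans ?_⟩
  exact AlgHom.natCard_of_splits L L' M fun x => IsAlgClosed.splits _

variable {K : Type u} [Field K] [IsAlgClosed K] (V : AbVar K)

/-- The local ring at the origin is that of a smooth variety at a rational point. -/
theorem exists_localData : IsNoetherianRing (O₀ V) ∧ Algebra.FormallySmooth K (O₀ V) ∧
    Algebra.EssFiniteType K (O₀ V) ∧ ∃ (g : ℕ) (c : Fin g → O₀ V), Loc.IsCoord (evO V) c := by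
  obtain ⟨U, hU, hx, hs⟩ := Loc.exists_chart V.str V.origin
  letI := (Loc.sectionsHom V.str U).toAlgebra
  letI : Algebra Γ(V.A, U) (O₀ V) :=
    TopCat.Presheaf.algebra_section_stalk V.A.presheaf ⟨V.origin, hx⟩
  haveI hloc : IsLocalization.AtPrime (O₀ V) (hU.primeIdealOf ⟨V.origin, hx⟩).asIdeal :=
    hU.isLocalization_stalk ⟨V.origin, hx⟩
  haveI : IsScalarTower K Γ(V.A, U) (O₀ V) := IsScalarTower.of_algebraMap_eq fun r =>
    (DFunLike.congr_fun (germ_comp_sectionsHom V.str hU hx) r).symm
  haveI := Loc.isNoetherianRing_of_smooth K (A := Γ(V.A, U))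
  set p := (hU.primeIdealOf ⟨V.origin, hx⟩).asIdeal
  haveI : IsNoetherianRing (O₀ V) :=
    IsLocalization.isNoetherianRing p.primeCompl _ inferInstance
  haveI : Algebra.FormallySmooth Γ(V.A, U) (O₀ V) :=
    Algebra.FormallySmooth.of_isLocalization p.primeCompl
  haveI : Algebra.EssFiniteType Γ(V.A, U) (O₀ V) :=
    Algebra.EssFiniteType.of_isLocalization (O₀ V) p.primeCompl
  refine ⟨inferInstance, Algebra.FormallySmooth.comp K Γ(V.A, U) (O₀ V),
    Algebra.EssFiniteType.comp K Γ(V.A, U) (O₀ V), ?_⟩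
  obtain ⟨g, hg⟩ := Loc.exists_relativeDimension (K := K) (A := Γ(V.A, U))
  let evA : Γ(V.A, U) →ₐ[K] K := (evO V).comp (IsScalarTower.toAlgHom K Γ(V.A, U) (O₀ V))
  have hker : RingHom.ker evA = p := by
    rw [← IsLocalization.AtPrime.under_maximalIdeal (O₀ V) p, maximalIdeal_eq_ker (evO V)]
    rfl
  haveI : (RingHom.ker evA).IsPrime := RingHom.ker_isPrime _
  haveI : IsLocalization.AtPrime (O₀ V) (RingHom.ker evA) := by
    convert hloc using 2
  obtain ⟨c, hc⟩ := Loc.exists_isCoord g evA
  exact ⟨g, _, isCoord_localization (evO V) evA (fun _ => rfl) hc⟩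

/-- Translation by a rational point. -/
def tr (q : V.Pt (𝟙 (Spec (CommRingCat.of K)))) : V.A ⟶ V.A :=
  V.hom (V.self + V.cst V.str q)

theorem hom_tr {T : Scheme.{u}} {t : T ⟶ Spec (CommRingCat.of K)} (x : V.Pt t)
    (q : V.Pt (𝟙 (Spec (CommRingCat.of K)))) : V.hom x ≫ tr V q = V.hom (x + V.cst t q) := by
  rw [tr, ← V.hom_precomp (V.hom x) (V.hom_str x), map_add]
  congr 1
  have h1 : V.precomp (V.hom x) (V.hom_str x) V.self = x := V.ptExt (Category.comp_id _)
  have h2 : V.precomp (V.hom x) (V.hom_str x) (V.cst V.str q) = V.cst t q := by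
    refine V.ptExt ?_
    show V.hom x ≫ V.str ≫ V.hom q = t ≫ V.hom q
    rw [← Category.assoc, V.hom_str]
  rw [h1, h2]

theorem tr_apply_tr_neg (q : V.Pt (𝟙 (Spec (CommRingCat.of K)))) (z : V.A) :
    tr V q (tr V (-q) z) = z := by
  have h : tr V (-q) ≫ tr V q = 𝟙 V.A := by
    rw [show tr V (-q) = V.hom (V.self + V.cst V.str (-q)) from rfl, hom_tr, add_assoc, AbVar.cst,
      AbVar.cst, ← map_add, neg_add_cancel, map_zero, add_zero]
    rfl
  exact congrArg (fun f : V.A ⟶ V.A => f z) h

theorem isClosed_origin : IsClosed {V.origin} :=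
  ((pointEquivClosedPoint V.str) ⟨V.hom (0 : V.Pt (𝟙 (Spec (CommRingCat.of K)))),
    V.hom_str _⟩).2

/-- The points over the origin are closed. -/
theorem isClosed_of_mulHom_eq {n : ℕ} (hn : (n : K) ≠ 0) {z : V.A}
    (hz : V.mulHom n z = V.origin) : IsClosed {z} := by
  obtain ⟨hN, -, -, g, c, hc⟩ := exists_localData V
  have hzero : ∀ w, w ⤳ V.origin → V.mulHom n w = V.origin → w = V.origin := by
    intro w hw hw'
    obtain ⟨q, rfl⟩ := exists_fromSpecStalk hw
    have h := congrArg (fun f : Spec (V.A.presheaf.stalk V.origin) ⟶ V.A => f q)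
      (specMap_stMap (V.mulHom n) (mulHom_origin V n))
    have hmax : Spec.map (stMap (V.mulHom n) (mulHom_origin V n)) q =
        closedPoint (V.A.presheaf.stalk V.origin) :=
      (V.A.fromSpecStalk V.origin).isEmbedding.injective
        ((h.trans hw').trans Scheme.fromSpecStalk_closedPoint.symm)
    have hle := eq_ker_of_comap hc hn (evO_mulO V n) (mulO_sub_mem V n) q.asIdeal (by
      rw [← maximalIdeal_eq_ker (evO V)]
      exact (congrArg PrimeSpectrum.asIdeal hmax).ge)
    rw [show q = closedPoint (V.A.presheaf.stalk V.origin) from PrimeSpectrum.ext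
      ((IsLocalRing.le_maximalIdeal q.isPrime.ne_top).antisymm
        ((maximalIdeal_eq_ker (evO V)).trans_le hle))]
    exact Scheme.fromSpecStalk_closedPoint
  obtain ⟨x, hxz, hxc⟩ := exists_closed_mem V.str (Z := closure {z})
    ⟨z, subset_closure rfl⟩ isClosed_closure.isLocallyClosed
  have hzx : z ⤳ x := specializes_iff_mem_closure.2 hxz
  let q : V.Pt (𝟙 (Spec (CommRingCat.of K))) :=
    V.mkPt (pointOfClosedPoint V.str x hxc) (pointOfClosedPoint_comp _ _ _)
  have hq : V.hom q (closedPoint K) = x := pointOfClosedPoint_apply _ _ _ _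
  have hnx : V.mulHom n x = V.origin := by
    have h := hzx.map (V.mulHom n).continuous
    rw [hz] at h
    simpa using specializes_iff_mem_closure.1 h |> (isClosed_origin V).closure_eq.le
  have hnq : n • q = 0 := by
    refine V.eq_zero_of_origin _ ?_
    rw [hom_nsmul]
    exact (congrArg (V.mulHom n) hq).trans hnx
  have htrn : tr V (-q) ≫ V.mulHom n = V.mulHom n := by
    rw [tr, ← hom_nsmul, nsmul_add, AbVar.cst, ← map_nsmul, smul_neg, hnq, neg_zero, map_zero,
      add_zero]
    rfl
  have htx : tr V (-q) x = V.origin := by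
    have h := hom_tr V q (-q)
    rw [AbVar.cst] at h
    rw [show V.precomp (𝟙 _) _ (-q) = -q from V.ptExt (Category.id_comp _), add_neg_cancel] at h
    rw [← hq]
    exact congrArg (fun f : Spec (CommRingCat.of K) ⟶ V.A => f (closedPoint K)) h
  have htz : tr V (-q) z = V.origin := by
    refine hzero _ (htx ▸ hzx.map (tr V (-q)).continuous) ?_
    rw [← Scheme.Hom.comp_apply, htrn, hz]
  rw [← tr_apply_tr_neg V q z, htz, ← htx, tr_apply_tr_neg]
  exact hxc

/-- The torsion points with values in a field are constant. -/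
def kerEquiv {n : ℕ} (hn : (n : K) ≠ 0) {F : Type u} [Field F]
    (t : Spec (CommRingCat.of F) ⟶ Spec (CommRingCat.of K)) :
    {x : V.Pt (𝟙 (Spec (CommRingCat.of K))) // n • x = 0} ≃ {y : V.Pt t // n • y = 0} :=
  Equiv.ofBijective (fun x => ⟨V.cst t x.1, by
    rw [AbVar.cst, ← map_nsmul, x.2, map_zero]⟩) <| by
    have hinj : ∀ x : V.Pt (𝟙 (Spec (CommRingCat.of K))), V.cst t x = 0 → x = 0 := by
      intro x hx
      refine V.eq_zero_of_origin x ?_
      have h := congrArg (fun y => V.hom y (closedPoint F)) hx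
      exact ((congrArg (V.hom x) (spec_pt_eq (t (closedPoint F))).symm).trans h).trans
        (V.hom_zero_apply t _)
    refine ⟨fun x x' h => Subtype.ext (sub_eq_zero.1 (hinj _ ?_)), fun ⟨y, hy⟩ => ?_⟩
    · rw [AbVar.cst, map_sub]
      exact sub_eq_zero.2 (congrArg Subtype.val h)
    · set z := V.hom y (closedPoint F)
      have hz : V.mulHom n z = V.origin := by
        refine Eq.trans ?_ (V.hom_zero_apply t (closedPoint F))
        refine Eq.trans ?_ (congrArg (fun w : V.Pt t => V.hom w (closedPoint F)) hy)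
        rw [hom_nsmul]
        rfl
      have hzc := isClosed_of_mulHom_eq V hn hz
      let q : V.Pt (𝟙 (Spec (CommRingCat.of K))) :=
        V.mkPt (pointOfClosedPoint V.str z hzc) (pointOfClosedPoint_comp _ _ _)
      have hyq : V.cst t q = y := by
        refine V.ptExt ?_
        rw [eq_const_of_apply_eq V.str (V.hom y) (V.hom q) (V.hom_str q)
          (pointOfClosedPoint_apply _ _ _ _).symm, V.hom_str y, V.hom_cst]
      refine ⟨⟨q, hinj _ ?_⟩, Subtype.ext hyq⟩
      rw [AbVar.cst, map_nsmul, ← AbVar.cst, hyq, hy]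

/-- Translations fix the generic point. -/
theorem tr_genericPoint [IsIntegral V.A] (q : V.Pt (𝟙 (Spec (CommRingCat.of K)))) :
    tr V q (genericPoint V.A) = genericPoint V.A := by
  have h := ((genericPoint_spec V.A).specializes
    (Set.mem_univ (tr V (-q) (genericPoint V.A)))).map (tr V q).continuous
  rw [tr_apply_tr_neg] at h
  exact (h.antisymm ((genericPoint_spec V.A).specializes (Set.mem_univ _))).eq

theorem mulHom_genericPoint [IsIntegral V.A] {n : ℕ} (hn : (n : K) ≠ 0) :
    V.mulHom n (genericPoint V.A) = genericPoint V.A := by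
  obtain ⟨hN, hF, hE, g, c, hc⟩ := exists_localData V
  haveI := Loc.isDomain_stalk V.str V.origin
  have hinj : Function.Injective (mulO V n) :=
    map_injective hc hn (evO_mulO V n) (mulO_sub_mem V n)
  have h := congrArg (fun f : Spec (V.A.presheaf.stalk V.origin) ⟶ V.A =>
      f (⟨⊥, Ideal.isPrime_bot⟩ : PrimeSpectrum (V.A.presheaf.stalk V.origin)))
    (specMap_stMap (V.mulHom n) (mulHom_origin V n))
  have hbot : Spec.map (stMap (V.mulHom n) (mulHom_origin V n))
      (⟨⊥, Ideal.isPrime_bot⟩ : PrimeSpectrum (V.A.presheaf.stalk V.origin)) =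
      (⟨⊥, Ideal.isPrime_bot⟩ : PrimeSpectrum (V.A.presheaf.stalk V.origin)) :=
    PrimeSpectrum.ext (Ideal.comap_bot_of_injective (mulO V n).toRingHom hinj)
  rw [← fromSpecStalk_bot V.origin]
  exact h.symm.trans (congrArg (V.A.fromSpecStalk V.origin) hbot)

theorem ff_finite_separable [IsIntegral V.A] {n : ℕ} (hn : (n : K) ≠ 0)
    (h : V.mulHom n (genericPoint V.A) = genericPoint V.A) :
    FinSep (ffMap (V.mulHom n) h) := by
  obtain ⟨hN, hF, hE, g, c, hc⟩ := exists_localData V
  haveI := Loc.isDomain_stalk V.str V.origin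
  have hsp : genericPoint V.A ⤳ V.origin := (genericPoint_spec V.A).specializes (Set.mem_univ _)
  refine finite_separable (L := V.A.functionField) (L' := V.A.functionField) hc hn (evO_mulO V n)
    (mulO_sub_mem V n) (ffMap (V.mulHom n) h) (stalkHom_ext ?_)
  show Spec.map (V.A.presheaf.stalkSpecializes hsp ≫ stMap (V.mulHom n) h) ≫ _ =
    Spec.map (stMap (V.mulHom n) (mulHom_origin V n) ≫ V.A.presheaf.stalkSpecializes hsp) ≫ _
  rw [Spec.map_comp (V.A.presheaf.stalkSpecializes hsp) (stMap (V.mulHom n) h),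
    Spec.map_comp (stMap (V.mulHom n) (mulHom_origin V n)) (V.A.presheaf.stalkSpecializes hsp),
    Category.assoc, Category.assoc, Scheme.SpecMap_stalkSpecializes_fromSpecStalk, specMap_stMap,
    specMap_stMap, Scheme.SpecMap_stalkSpecializes_fromSpecStalk_assoc]

theorem finrank_eq_torsionCount [IsIntegral V.A] {n : ℕ} (hn : (n : K) ≠ 0)
    (h : V.mulHom n (genericPoint V.A) = genericPoint V.A) :
    degOf (ffMap (V.mulHom n) h) = torsionCount V n := by
  let M := AlgebraicClosure V.A.functionField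
  let j : V.A.functionField →+* M := algebraMap V.A.functionField M
  let gen : Spec (CommRingCat.of V.A.functionField) ⟶ V.A :=
    V.A.fromSpecStalk (genericPoint V.A)
  let x₀ : Spec (CommRingCat.of M) ⟶ V.A := Spec.map (CommRingCat.ofHom j) ≫ gen
  let t := x₀ ≫ V.str
  let x : V.Pt t := V.mkPt x₀ rfl
  obtain ⟨⟨σ₀⟩, hcard⟩ := natCard_lifts (ffMap (V.mulHom n) h) j (ff_finite_separable V hn h)
  have hmul : ∀ σ : V.A.functionField →+* M, (Spec.map (CommRingCat.ofHom σ) ≫ gen) ≫ V.mulHom n =
      Spec.map (CommRingCat.ofHom (σ.comp (ffMap (V.mulHom n) h))) ≫ gen := by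
    intro σ
    rw [CommRingCat.ofHom_comp, Spec.map_comp, Category.assoc, Category.assoc]
    exact congrArg (fun k => Spec.map (CommRingCat.ofHom σ) ≫ k)
      (specMap_stMap (V.mulHom n) h).symm
  have hstr : ∀ σ : {σ : V.A.functionField →+* M // σ.comp (ffMap (V.mulHom n) h) = j},
      (Spec.map (CommRingCat.ofHom σ.1) ≫ gen) ≫ V.str = t := by
    intro σ
    have e := hmul σ.1
    rw [σ.2] at e
    refine Eq.trans ?_ (congrArg (fun k => k ≫ V.str) e)
    rw [Category.assoc _ (V.mulHom n), V.mulHom_str]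
  let Φ : {σ : V.A.functionField →+* M // σ.comp (ffMap (V.mulHom n) h) = j} →
      {y : V.Pt t // n • y = x} := fun σ =>
    ⟨V.mkPt _ (hstr σ), V.ptExt (by
      rw [hom_nsmul, AbVar.hom_mkPt, hmul, σ.2]
      rfl)⟩
  have hgen : ∀ σ : {σ : V.A.functionField →+* M // σ.comp (ffMap (V.mulHom n) h) = j},
      V.hom (Φ σ).1 (closedPoint M) = genericPoint V.A := fun σ => specMap_closedPoint σ.1
  set y₀ := Φ σ₀
  have hΦ : Function.Bijective Φ := by
    refine ⟨fun σ σ' he => Subtype.ext (stalkHom_ext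
      (congrArg (fun y : {y : V.Pt t // n • y = x} => V.hom y.1) he)), fun y => ?_⟩
    obtain ⟨q, hq⟩ := (kerEquiv V hn t).surjective
      ⟨y.1 - y₀.1, by rw [smul_sub, y.2, y₀.2, sub_self]⟩
    have hy : V.hom y.1 = V.hom y₀.1 ≫ tr V q.1 := by
      rw [hom_tr, show V.cst t q.1 = y.1 - y₀.1 from congrArg Subtype.val hq, add_sub_cancel]
    have hyg : V.hom y.1 (closedPoint M) = genericPoint V.A := by
      rw [hy]
      exact (congrArg (tr V q.1) (hgen σ₀)).trans (tr_genericPoint V q.1)
    obtain ⟨σ, -, hσ⟩ := exists_stalkHom (V.hom y.1) hyg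
    refine ⟨⟨σ, stalkHom_ext ?_⟩, Subtype.ext (V.ptExt hσ)⟩
    refine (hmul σ).symm.trans ?_
    rw [show Spec.map (CommRingCat.ofHom σ) ≫ gen = V.hom y.1 from hσ, ← hom_nsmul, y.2]
    rfl
  rw [← hcard]
  refine (Nat.card_congr ((Equiv.ofBijective Φ hΦ).trans ?_)).trans
    (Nat.card_congr (kerEquiv V hn t)).symm
  exact {
    toFun := fun y => ⟨y.1 - y₀.1, by rw [smul_sub, y.2, y₀.2, sub_self]⟩
    invFun := fun k => ⟨k.1 + y₀.1, by rw [smul_add, k.2, y₀.2, zero_add]⟩
    left_inv := fun y => Subtype.ext (sub_add_cancel _ _)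
    right_inv := fun k => Subtype.ext (add_sub_cancel_right _ _) }

end Cnt

/-- **The degree of multiplication by `n` is the number of `n`-torsion points.** -/
theorem degIsCard_aux {K : Type u} [Field K] [IsAlgClosed K] (V : AbVar K) [IsIntegral V.A]
    (n : ℕ) (hn : (n : K) ≠ 0) : ∃ h : V.mulHom n (genericPoint V.A) = genericPoint V.A,
      Cnt.FinSep (ffMap (V.mulHom n) h) ∧ Cnt.degOf (ffMap (V.mulHom n) h) = torsionCount V n :=
  ⟨Cnt.mulHom_genericPoint V hn, Cnt.ff_finite_separable V hn _,
    Cnt.finrank_eq_torsionCount V hn _⟩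

/-- The degree of multiplication by `n` is the number of torsion points. -/
theorem degIsCard {K : Type u} [Field K] [IsAlgClosed K] (V : AbVar K) [IrreducibleSpace V.A]
    [IsIntegral V.A] : DegIsCard V := fun n hn =>
  let ⟨h, ⟨hfin, hsep⟩, hdeg⟩ := degIsCard_aux V n hn
  ⟨h, hfin, hsep, hdeg⟩

end FA.AbTors

end
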