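import Fermat.Agent.AbTors.LocalCoord
import Mathlib.RingTheory.Unramified.Field
import Mathlib.RingTheory.EssentialFiniteness
import Mathlib.FieldTheory.Separable

/-!
# Endomorphisms of a local ring acting on the cotangent space by an invertible integer

Such an endomorphism is injective, only the closed point lies over the closed point, and the
extension of fraction fields is finite and separable.
-/

set_option autoImplicit false
set_option linter.style.haveILetI false
set_option linter.unusedSectionVars false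

noncomputable section

universe u

namespace FA.AbTors.Cnt

open MvPolynomial FA.AbTors.Loc

section Endo

variable {K O : Type u} [Field K] [CommRing O] [Algebra K O] {g : ℕ} {ev : O →ₐ[K] K}
  {c : Fin g → O} (hc : IsCoord ev c) {φ : O →ₐ[K] O} {n : ℕ} (hn : (n : K) ≠ 0)
  (hev : ∀ a, ev (φ a) = ev a) (hφ : ∀ a, ev a = 0 → φ a - (n : K) • a ∈ RingHom.ker ev ^ 2)

/-- The coordinates pulled back are coordinates. -/
theorem isCoord_map (hc : IsCoord ev c) (hn : (n : K) ≠ 0) (hev : ∀ a, ev (φ a) = ev a)
    (hφ : ∀ a, ev a = 0 → φ a - (n : K) • a ∈ RingHom.ker ev ^ 2) :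
    IsCoord ev (fun i => φ (c i)) := by
  have hsum : ∀ k : Fin g → K, (∑ i, k i • φ (c i)) - ∑ i, (k i * (n : K)) • c i ∈
      RingHom.ker ev ^ 2 := by
    intro k
    rw [← Finset.sum_sub_distrib]
    refine sum_mem fun i _ => ?_
    rw [mul_smul, ← smul_sub, Algebra.smul_def]
    exact Ideal.mul_mem_left _ _ (hφ _ (hc.vanish i))
  refine ⟨fun i => (hev _).trans (hc.vanish i), fun a ha => ?_, fun k hk => ?_⟩
  · obtain ⟨k, hk⟩ := hc.span a ha
    refine ⟨fun i => k i * (n : K)⁻¹, ?_⟩
    have h := sub_mem hk (hsum fun i => k i * (n : K)⁻¹)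
    simp only [mul_assoc, inv_mul_cancel₀ hn, mul_one] at h
    rwa [sub_sub, add_sub_cancel] at h
  · have h := sub_mem hk (hsum k)
    rw [sub_sub_cancel] at h
    funext i
    exact (mul_eq_zero.1 (congrFun (hc.indep _ h) i)).resolve_right hn

variable [IsLocalRing O]

theorem maximalIdeal_eq_ker (ev : O →ₐ[K] K) : IsLocalRing.maximalIdeal O = RingHom.ker ev :=
  (IsLocalRing.eq_maximalIdeal
    (RingHom.ker_isMaximal_of_surjective _ fun x => ⟨algebraMap K O x, ev.commutes x⟩)).symm

theorem isUnit_of_ev_ne_zero {t : O} (ht : ev t ≠ 0) : IsUnit t := by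
  by_contra h
  have h' : t ∈ IsLocalRing.maximalIdeal O := h
  rw [maximalIdeal_eq_ker ev] at h'
  exact ht h'

variable [IsNoetherianRing O]

include hc hn hev hφ

/-- Only the closed point lies over the closed point. -/
theorem eq_ker_of_comap (Q : Ideal O) (hQ : RingHom.ker ev ≤ Q.comap φ) :
    RingHom.ker ev ≤ Q := by
  intro x hx
  have hf := isCoord_map hc hn hev hφ
  obtain ⟨t, ht, htx⟩ := exists_mul_mem_of_forall_mem (ev := ev) (I := Q) (x := x) fun k => by
    rcases Nat.eq_zero_or_pos k with rfl | hk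
    · simp
    obtain ⟨p, hp⟩ := exists_aeval_sub_mem hf k x
    rw [← add_sub_cancel (aeval (fun i => φ (c i)) p) x]
    refine Submodule.add_mem_sup ?_ hp
    have hp0 : p ∈ idealOfVars (Fin g) K := by
      rw [mem_idealOfVars_iff, ← ev_aeval hf]
      have h := Ideal.pow_le_self hk.ne' hp
      rw [RingHom.mem_ker, map_sub, RingHom.mem_ker.1 hx, zero_sub, neg_eq_zero] at h
      exact h
    refine (Ideal.map_le_iff_le_comap (f := aeval fun i => φ (c i))).2 ?_
      (Ideal.mem_map_of_mem _ hp0)
    rw [idealOfVars, Ideal.span_le]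
    rintro _ ⟨i, rfl⟩
    rw [SetLike.mem_coe, Ideal.mem_comap, aeval_X]
    exact hQ (hc.vanish i)
  exact (Ideal.unit_mul_mem_iff_mem Q (isUnit_of_ev_ne_zero ht)).1 htx

variable [Algebra.FormallySmooth K O]

/-- The endomorphism is injective. -/
theorem map_injective : Function.Injective φ := by
  rw [injective_iff_map_eq_zero]
  intro a ha
  have hf := isCoord_map hc hn hev hφ
  obtain ⟨t, ht, hta⟩ := exists_mul_mem_of_forall_mem (ev := ev) (I := ⊥) (x := a) fun k => by
    obtain ⟨p, hp⟩ := exists_aeval_sub_mem hc k a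
    refine Ideal.mem_sup_right ?_
    rw [← sub_add_cancel a (aeval c p)]
    refine add_mem hp (aeval_mem_pow hc (mem_pow_of_aeval_mem hf ?_))
    have hcomp : aeval (fun i => φ (c i)) p = φ (aeval c p) := by
      rw [← AlgHom.comp_apply, comp_aeval]
    rw [hcomp, ← sub_sub_cancel a (aeval c p), map_sub, ha, zero_sub]
    refine neg_mem ?_
    have hle : RingHom.ker ev ≤ (RingHom.ker ev).comap φ := fun x hx => (hev x).trans hx
    exact Ideal.le_comap_pow φ.toRingHom k (Ideal.pow_right_mono hle k hp)
  rw [Ideal.mem_bot] at hta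
  exact (isUnit_of_ev_ne_zero ht).mul_right_eq_zero.1 hta

variable [Module.Finite O Ω[O⁄K]]

/-- The differentials of the coordinates pulled back generate. -/
theorem span_D_eq_top :
    Submodule.span O (Set.range fun i => KaehlerDifferential.D K O (φ (c i))) = ⊤ := by
  have hf := isCoord_map hc hn hev hφ
  refine top_le_iff.1 (Submodule.le_of_le_smul_of_le_jacobson_bot (I := RingHom.ker ev)
    Module.Finite.fg_top ?_ fun ω _ => ?_)
  · rw [IsLocalRing.jacobson_eq_maximalIdeal ⊥ bot_ne_top, maximalIdeal_eq_ker ev]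
  · obtain ⟨a, ha, ha'⟩ := exists_D_eq ev ω
    obtain ⟨k, hk⟩ := hf.span a ha
    rw [← sub_add_cancel ω (KaehlerDifferential.D K O a), add_comm,
      ← sub_add_cancel a (∑ i, k i • φ (c i)), map_add,
      add_comm (KaehlerDifferential.D K O (a - _)) _, add_assoc]
    refine Submodule.add_mem_sup ?_ (add_mem (D_mem_of_mem_sq ev hk) ?_)
    · rw [map_sum]
      refine sum_mem fun i _ => ?_
      rw [Derivation.map_smul, ← algebraMap_smul O (k i)]
      exact Submodule.smul_mem _ _ (Submodule.subset_span ⟨i, rfl⟩)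
    · rwa [← map_add, add_sub_cancel]

/-- The extension of fraction fields is finite and separable. -/
theorem finite_separable [Algebra.EssFiniteType K O] [IsDomain O] {L L' : Type u} [Field L]
    [Field L'] [Algebra O L] [Algebra O L'] [IsFractionRing O L'] (ψ : L →+* L')
    (hψ : ψ.comp (algebraMap O L) = (algebraMap O L').comp φ.toRingHom) :
    letI := ψ.toAlgebra; Module.Finite L L' ∧ Algebra.IsSeparable L L' := by
  letI := ψ.toAlgebra
  letI : Algebra K L := ((algebraMap O L).comp (algebraMap K O)).toAlgebra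
  letI : Algebra K L' := ((algebraMap O L').comp (algebraMap K O)).toAlgebra
  haveI : IsScalarTower K O L' := IsScalarTower.of_algebraMap_eq fun _ => rfl
  haveI : IsScalarTower K L L' := IsScalarTower.of_algebraMap_eq fun x => by
    show algebraMap O L' (algebraMap K O x) = ψ (algebraMap O L (algebraMap K O x))
    rw [← RingHom.comp_apply ψ, hψ, RingHom.comp_apply]
    exact congrArg _ (φ.commutes x).symm
  haveI : Algebra.EssFiniteType O L' :=
    Algebra.EssFiniteType.of_isLocalization L' (nonZeroDivisors O)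
  haveI : Algebra.EssFiniteType K L' := Algebra.EssFiniteType.comp K O L'
  haveI : Algebra.EssFiniteType L L' := Algebra.EssFiniteType.of_comp K L L'
  let d : Derivation K O Ω[L'⁄L] :=
    ((KaehlerDifferential.D L L').restrictScalars K).compAlgebraMap O
  have hd : ∀ a, KaehlerDifferential.D L L' (algebraMap O L' a) = 0 := by
    intro a
    have hker : (⊤ : Submodule O Ω[O⁄K]) ≤ LinearMap.ker d.liftKaehlerDifferential := by
      rw [← span_D_eq_top hc hn hev hφ, Submodule.span_le]
      rintro _ ⟨i, rfl⟩
      show d.liftKaehlerDifferential (KaehlerDifferential.D K O (φ (c i))) = 0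
      rw [Derivation.liftKaehlerDifferential_comp_D]
      show KaehlerDifferential.D L L' (algebraMap O L' (φ (c i))) = 0
      rw [show algebraMap O L' (φ (c i)) = algebraMap L L' (algebraMap O L (c i)) from
        (DFunLike.congr_fun hψ (c i)).symm]
      exact Derivation.map_algebraMap _ _
    have := hker (Submodule.mem_top (x := KaehlerDifferential.D K O a))
    rw [LinearMap.mem_ker, Derivation.liftKaehlerDifferential_comp_D] at this
    exact this
  haveI : Algebra.FormallyUnramified L L' := by
    refine ⟨subsingleton_iff_forall_eq 0 |>.2 fun ω => ?_⟩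
    have hω : ω ∈ Submodule.span L' (Set.range (KaehlerDifferential.D L L')) := by
      rw [KaehlerDifferential.span_range_derivation]; trivial
    have hbot : Submodule.span L' (Set.range (KaehlerDifferential.D L L')) ≤ ⊥ := by
      rw [Submodule.span_le]
      rintro _ ⟨z, rfl⟩
      obtain ⟨a, b, hb, rfl⟩ := IsFractionRing.div_surjective (A := O) z
      simp [Derivation.leibniz_div, hd]
    exact (Submodule.mem_bot L').1 (hbot hω)
  exact ⟨Algebra.FormallyUnramified.finite_of_free L L',
    Algebra.FormallyUnramified.isSeparable L L'⟩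

end Endo

variable {K O : Type u} [Field K] [CommRing O] {g : ℕ}

/-- Coordinates of an algebra are coordinates of its local ring. -/
theorem isCoord_localization {A : Type u} [CommRing A] [Algebra K A] [Algebra A O] [Algebra K O]
    [IsScalarTower K A O] (ev : O →ₐ[K] K) {c : Fin g → A}
    (evA : A →ₐ[K] K) (hevA : ∀ a, evA a = ev (algebraMap A O a))
    [(RingHom.ker evA).IsPrime] [IsLocalization.AtPrime O (RingHom.ker evA)]
    (hc : IsCoord evA c) : IsCoord ev (fun i => algebraMap A O (c i)) := by
  haveI := IsLocalization.AtPrime.isLocalRing O (RingHom.ker evA)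
  set M := (RingHom.ker evA).primeCompl
  have hkey : ∀ x, ev x = 0 → ∃ t a, evA t ≠ 0 ∧ evA a = 0 ∧
      x * algebraMap A O t = algebraMap A O a := by
    intro x hx
    obtain ⟨⟨a, t⟩, h⟩ := IsLocalization.surj M x
    refine ⟨t, a, t.2, ?_, h⟩
    rw [hevA, ← h, map_mul, hx, zero_mul]
  have hker : RingHom.ker ev = (RingHom.ker evA).map (algebraMap A O) := by
    refine le_antisymm (fun x hx => ?_) (Ideal.map_le_iff_le_comap.2 fun a ha => ?_)
    · obtain ⟨t, a, ht, ha, h⟩ := hkey x hx
      refine (Ideal.mul_unit_mem_iff_mem _ (IsLocalization.map_units O (⟨t, ht⟩ : M))).1 ?_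
      rw [h]
      exact Ideal.mem_map_of_mem _ ha
    · rw [Ideal.mem_comap, RingHom.mem_ker, ← hevA]
      exact ha
  refine ⟨fun i => (hevA _).symm.trans (hc.vanish i), fun x hx => ?_, fun k hk => hc.indep k ?_⟩
  · obtain ⟨t, a, ht, ha, h⟩ := hkey x hx
    obtain ⟨k, hk⟩ := hc.span a ha
    refine ⟨fun i => (evA t)⁻¹ * k i, ?_⟩
    have h1 : algebraMap A O (a - ∑ i, k i • c i) ∈ RingHom.ker ev ^ 2 := by
      rw [hker, ← Ideal.map_pow]
      exact Ideal.mem_map_of_mem _ hk
    have h2 : x * (1 - algebraMap K O (evA t)⁻¹ * algebraMap A O t) ∈ RingHom.ker ev ^ 2 := by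
      rw [pow_two]
      refine Ideal.mul_mem_mul hx ?_
      rw [RingHom.mem_ker, map_sub, map_one, map_mul, AlgHom.commutes, ← hevA]
      exact sub_eq_zero.2 (inv_mul_cancel₀ ht).symm
    rw [map_sub, map_sum] at h1
    simp only [Algebra.smul_def, map_mul, ← IsScalarTower.algebraMap_apply] at h1 ⊢
    convert add_mem (Ideal.mul_mem_left _ (algebraMap K O (evA t)⁻¹) h1) h2 using 1
    rw [← h, mul_sub, Finset.mul_sum]
    simp only [← mul_assoc]
    ring
  · have h : algebraMap A O (∑ i, k i • c i) ∈ (RingHom.ker evA ^ 2).map (algebraMap A O) := by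
      rw [Ideal.map_pow, ← hker, map_sum]
      simpa only [Algebra.smul_def, map_mul, ← IsScalarTower.algebraMap_apply] using hk
    obtain ⟨⟨⟨a, ha⟩, t⟩, he⟩ := (IsLocalization.mem_map_algebraMap_iff M O).1 h
    rw [← map_mul] at he
    obtain ⟨w, hw⟩ := (IsLocalization.eq_iff_exists M O).1 he
    refine (mul_mem_pow_iff (t := (w : A) * t) ?_ 2).1 ?_
    · rw [map_mul]
      exact mul_ne_zero w.2 t.2
    · rw [mul_assoc, mul_comm (t : A), hw]
      exact Ideal.mul_mem_left _ _ ha

end FA.AbTors.Cnt

end
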