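import Fermat.Agent.AbTors.LocalStalk
import Mathlib.AlgebraicGeometry.Stalk

/-!
# Points with values in local rings and the local rings they factor through
-/

set_option autoImplicit false
set_option linter.style.haveILetI false

noncomputable section

universe u

open CategoryTheory AlgebraicGeometry IsLocalRing

namespace FA.AbTors.Cnt

variable {X Y : Scheme.{u}}

/-- The map of local rings. -/
abbrev stMap (f : X ⟶ Y) {x : X} {y : Y} (h : f x = y) :
    Y.presheaf.stalk y ⟶ X.presheaf.stalk x :=
  (Y.presheaf.stalkCongr (Inseparable.of_eq h.symm)).hom ≫ f.stalkMap x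

theorem specMap_stMap (f : X ⟶ Y) {x : X} {y : Y} (h : f x = y) :
    Spec.map (stMap f h) ≫ Y.fromSpecStalk y = X.fromSpecStalk x ≫ f := by
  subst h
  rw [stMap, show (Y.presheaf.stalkCongr _).hom = 𝟙 (Y.presheaf.stalk _) from
    Y.presheaf.stalkSpecializes_refl _]
  erw [Category.id_comp]
  exact Scheme.SpecMap_stalkMap_fromSpecStalk f

theorem exists_stalkHom {R : Type u} [CommRing R] [IsLocalRing R]
    (z : Spec (CommRingCat.of R) ⟶ X) {p : X} (h : z (closedPoint R) = p) :
    ∃ χ : X.presheaf.stalk p →+* R, IsLocalHom χ ∧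
      Spec.map (CommRingCat.ofHom χ) ≫ X.fromSpecStalk p = z := by
  subst h
  exact ⟨(Scheme.stalkClosedPointTo z).hom, Scheme.isLocalHom_stalkClosedPointTo' z,
    Scheme.Spec_stalkClosedPointTo_fromSpecStalk z⟩

theorem stalkHom_ext {R : Type u} [CommRing R] {p : X} {a b : X.presheaf.stalk p →+* R}
    (h : Spec.map (CommRingCat.ofHom a) ≫ X.fromSpecStalk p =
      Spec.map (CommRingCat.ofHom b) ≫ X.fromSpecStalk p) : a = b :=
  congrArg CommRingCat.Hom.hom (Spec.map_injective ((cancel_mono (X.fromSpecStalk p)).1 h))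

theorem specMap_closedPoint {R : Type u} [CommRing R] [IsLocalRing R] {p : X}
    (χ : X.presheaf.stalk p →+* R) [IsLocalHom χ] :
    (Spec.map (CommRingCat.ofHom χ) ≫ X.fromSpecStalk p) (closedPoint R) = p := by
  refine (congrArg (X.fromSpecStalk p) ?_).trans (Scheme.fromSpecStalk_closedPoint (x := p))
  exact IsLocalRing.comap_closedPoint χ

theorem exists_fromSpecStalk {x y : X} (h : y ⤳ x) :
    ∃ q : Spec (X.presheaf.stalk x), X.fromSpecStalk x q = y := by
  have : y ∈ Set.range (X.fromSpecStalk x) := by rw [Scheme.range_fromSpecStalk]; exact h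
  exact this

/-- The zero ideal of a local ring is the generic point. -/
theorem fromSpecStalk_bot [IsIntegral X] (x : X) [IsDomain (X.presheaf.stalk x)] :
    X.fromSpecStalk x (⟨⊥, Ideal.isPrime_bot⟩ : PrimeSpectrum (X.presheaf.stalk x)) =
      genericPoint X := by
  obtain ⟨q, hq⟩ := exists_fromSpecStalk ((genericPoint_spec X).specializes (Set.mem_univ x))
  have h : (⟨⊥, Ideal.isPrime_bot⟩ : PrimeSpectrum (X.presheaf.stalk x)) ⤳ q :=
    (PrimeSpectrum.le_iff_specializes _ _).1 bot_le
  exact ((h.map (X.fromSpecStalk x).continuous).trans (specializes_of_eq hq)).antisymm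
    ((genericPoint_spec X).specializes (Set.mem_univ _)) |>.eq

variable {K : Type u} [Field K] (s : X ⟶ Spec (CommRingCat.of K))

/-- The field in a local ring. -/
def baseHom (x : X) : K →+* X.presheaf.stalk x :=
  (Spec.preimage (X.fromSpecStalk x ≫ s)).hom

theorem baseHom_spec (x : X) :
    Spec.map (CommRingCat.ofHom (baseHom s x)) = X.fromSpecStalk x ≫ s :=
  Spec.map_preimage _

theorem germ_comp_sectionsHom {U : X.Opens} (hU : IsAffineOpen U) {x : X} (hx : x ∈ U) :
    (X.presheaf.germ U x hx).hom.comp (Loc.sectionsHom s U) = baseHom s x := by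
  have h : Spec.map (CommRingCat.ofHom
      ((X.presheaf.germ U x hx).hom.comp (Loc.sectionsHom s U))) = X.fromSpecStalk x ≫ s := by
    rw [← hU.fromSpecStalk_eq_fromSpecStalk hx, IsAffineOpen.fromSpecStalk, Category.assoc,
      ← IsAffineOpen.SpecMap_appLE_fromSpec s (isAffineOpen_top _) hU (by simp),
      IsAffineOpen.fromSpec_top, Scheme.isoSpec_Spec_inv, ← Spec.map_comp, ← Spec.map_comp]
    rfl
  rw [← baseHom_spec] at h
  exact congrArg CommRingCat.Hom.hom (Spec.map_injective h)

theorem stMap_comp_baseHom {t : Y ⟶ Spec (CommRingCat.of K)} (f : X ⟶ Y) (hf : f ≫ t = s)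
    {x : X} {y : Y} (h : f x = y) : (stMap f h).hom.comp (baseHom t y) = baseHom s x := by
  have h' : Spec.map (CommRingCat.ofHom ((stMap f h).hom.comp (baseHom t y))) =
      X.fromSpecStalk x ≫ s := by
    rw [← hf, ← Category.assoc, ← specMap_stMap f h, Category.assoc, ← baseHom_spec,
      ← Spec.map_comp]
    rfl
  rw [← baseHom_spec] at h'
  exact congrArg CommRingCat.Hom.hom (Spec.map_injective h')

end FA.AbTors.Cnt

end
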