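import Fermat.Agent.AbTors.Setup
import Mathlib.AlgebraicGeometry.AlgClosed.Basic
import Mathlib.AlgebraicGeometry.Morphisms.Proper
import Mathlib.AlgebraicGeometry.Properties

/-!
# Points, slices and the vanishing of functions on unions of slices
-/

set_option autoImplicit false

noncomputable section

universe u

open CategoryTheory CategoryTheory.Limits AlgebraicGeometry TopologicalSpace IsLocalRing
open NeronModelInfra GoodReductionJacobian

namespace FA.AbTors

section General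

variable {X : Scheme.{u}} {K : Type u} [Field K] (s : X ⟶ Spec (CommRingCat.of K))

theorem subsingleton_spec (K : Type u) [Field K] : Subsingleton (Spec (CommRingCat.of K)) :=
  inferInstanceAs (Subsingleton (PrimeSpectrum K))

theorem spec_pt_eq {K : Type u} [Field K] (q : Spec (CommRingCat.of K)) : q = closedPoint K :=
  (subsingleton_spec K).elim _ _

/-- A point with values in a field at a rational point is constant. -/
theorem eq_const_of_apply_eq [IsAlgClosed K] [LocallyOfFiniteType s] {F : Type u} [Field F]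
    (g : Spec (CommRingCat.of F) ⟶ X) (o : Spec (CommRingCat.of K) ⟶ X)
    (ho : o ≫ s = 𝟙 _) (h : g (closedPoint F) = o (closedPoint K)) : g = (g ≫ s) ≫ o := by
  set x : X := o (closedPoint K)
  have hx : IsClosed {x} := ((pointEquivClosedPoint s) ⟨o, ho⟩).2
  have ho' : o = pointOfClosedPoint s x hx :=
    ext_of_apply_closedPoint_eq s ho (pointOfClosedPoint_comp s x hx)
      (pointOfClosedPoint_apply s x hx _).symm
  obtain ⟨α, hα⟩ : ∃ α : X.residueField x ⟶ CommRingCat.of F,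
      Spec.map α ≫ X.fromSpecResidueField x = g := by
    rw [← h]
    exact ⟨_, Scheme.descResidueField_stalkClosedPointTo_fromSpecResidueField F X g⟩
  have hiso : X.fromSpecResidueField x ≫ s ≫ Spec.map (residueFieldIsoBase s x hx).hom = 𝟙 _ := by
    rw [← SpecMap_residueFieldIsoBase_inv_assoc s x hx, ← Spec.map_comp, Iso.hom_inv_id,
      Spec.map_id]
  rw [ho', pointOfClosedPoint, ← hα]
  simp only [Category.assoc]
  rw [reassoc_of% hiso]

theorem exists_closed_mem [LocallyOfFiniteType s] {Z : Set X} (hZ : Z.Nonempty)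
    (hZ' : IsLocallyClosed Z) : ∃ z ∈ Z, IsClosed {z} :=
  haveI : JacobsonSpace X := LocallyOfFiniteType.jacobsonSpace s
  let ⟨z, hz, hz'⟩ := nonempty_inter_closedPoints hZ hZ'
  ⟨z, hz, hz'⟩

/-- A section vanishing somewhere on every slice through a closed point vanishes. -/
theorem eq_zero_of_slices [IsReduced X] [LocallyOfFiniteType s] {A : Scheme.{u}} [IsIntegral A]
    (hA : IsField Γ(A, ⊤)) {R : X.Opens} (a : Γ(X, R))
    (h : ∀ z ∈ R, IsClosed {z} → ∃ j : A ⟶ X, (∀ q, j q ∈ R) ∧ (∃ q, j q = z) ∧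
      ∃ q, j q ∉ X.basicOpen a) : a = 0 := by
  rw [← basicOpen_eq_bot_iff]
  by_contra hne
  obtain ⟨z, hz, hzc⟩ := exists_closed_mem s (Z := (X.basicOpen a : Set X))
    (not_not.mp fun hem => hne ((Opens.not_nonempty_iff_eq_bot _).mp hem))
    (X.basicOpen a).2.isLocallyClosed
  obtain ⟨j, hj, ⟨q, rfl⟩, q₀, hq₀⟩ := h z (X.basicOpen_le a hz) hzc
  have htop : ⊤ ≤ j ⁻¹ᵁ R := fun q' _ => hj q'
  set b := (j.appLE R ⊤ htop).hom a
  have hb : A.basicOpen b = ⊤ ⊓ j ⁻¹ᵁ X.basicOpen a := Scheme.basicOpen_appLE j ⊤ R htop a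
  rcases eq_or_ne b 0 with h0 | h0
  · rw [h0, Scheme.basicOpen_zero, top_inf_eq] at hb
    exact (hb.symm.le (show q ∈ j ⁻¹ᵁ X.basicOpen a from hz) :)
  · obtain ⟨c, hc⟩ := hA.mul_inv_cancel h0
    rw [A.basicOpen_of_isUnit (IsUnit.of_mul_eq_one _ hc), top_inf_eq] at hb
    exact hq₀ (hb.le (trivial : q₀ ∈ (⊤ : A.Opens)))

end General

variable {K : Type u} [Field K] (V : AbVar K)

theorem AbVar.isField_top [IsIntegral V.A] : IsField Γ(V.A, ⊤) :=
  isField_of_universallyClosed K V.str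

/-- The point of `A ×ₖ A ×ₖ A` with given components. -/
def AbVar.mk3 {T : Scheme.{u}} {t : T ⟶ Spec (CommRingCat.of K)} (a b c : V.Pt t) : T ⟶ V.A3 :=
  pullback.lift (pullback.lift (V.hom a) (V.hom b) (by rw [V.hom_str, V.hom_str])) (V.hom c)
    (by rw [AbVar.str2, pullback.lift_fst_assoc, V.hom_str, V.hom_str])

variable {T : Scheme.{u}} {t : T ⟶ Spec (CommRingCat.of K)}

theorem AbVar.mk3_pr1 (a b c : V.Pt t) : V.mk3 a b c ≫ V.hom V.pr1 = V.hom a := by
  rw [AbVar.pr1, AbVar.hom_mkPt, AbVar.mk3, pullback.lift_fst_assoc, pullback.lift_fst]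

theorem AbVar.mk3_pr2 (a b c : V.Pt t) : V.mk3 a b c ≫ V.hom V.pr2 = V.hom b := by
  rw [AbVar.pr2, AbVar.hom_mkPt, AbVar.mk3, pullback.lift_fst_assoc, pullback.lift_snd]

theorem AbVar.mk3_pr3 (a b c : V.Pt t) : V.mk3 a b c ≫ V.hom V.pr3 = V.hom c := by
  rw [AbVar.pr3, AbVar.hom_mkPt, AbVar.mk3, pullback.lift_snd]

theorem AbVar.mk3_str (a b c : V.Pt t) : V.mk3 a b c ≫ V.str3 = t := by
  rw [AbVar.str3, AbVar.mk3, pullback.lift_fst_assoc, AbVar.str2, pullback.lift_fst_assoc, V.hom_str]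

theorem AbVar.hom3_ext {e e' : T ⟶ V.A3} (h1 : e ≫ V.hom V.pr1 = e' ≫ V.hom V.pr1)
    (h2 : e ≫ V.hom V.pr2 = e' ≫ V.hom V.pr2) (h3 : e ≫ V.hom V.pr3 = e' ≫ V.hom V.pr3) :
    e = e' :=
  pullback.hom_ext (pullback.hom_ext (by simpa [AbVar.pr1] using h1)
    (by simpa [AbVar.pr2] using h2)) (by simpa [AbVar.pr3] using h3)

theorem AbVar.precomp_mk3 {T' : Scheme.{u}} {t' : T' ⟶ Spec (CommRingCat.of K)} (ψ : T' ⟶ T)
    (h : ψ ≫ t = t') (a b c : V.Pt t) :
    ψ ≫ V.mk3 a b c = V.mk3 (V.precomp ψ h a) (V.precomp ψ h b) (V.precomp ψ h c) := by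
  refine V.hom3_ext ?_ ?_ ?_ <;>
    simp only [Category.assoc, AbVar.mk3_pr1, AbVar.mk3_pr2, AbVar.mk3_pr3, AbVar.hom_precomp]

theorem AbVar.precomp_pr1 (a b c : V.Pt t) :
    V.precomp (V.mk3 a b c) (V.mk3_str a b c) V.pr1 = a :=
  V.ptExt (V.mk3_pr1 a b c)

theorem AbVar.precomp_pr2 (a b c : V.Pt t) :
    V.precomp (V.mk3 a b c) (V.mk3_str a b c) V.pr2 = b :=
  V.ptExt (V.mk3_pr2 a b c)

theorem AbVar.precomp_pr3 (a b c : V.Pt t) :
    V.precomp (V.mk3 a b c) (V.mk3_str a b c) V.pr3 = c :=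
  V.ptExt (V.mk3_pr3 a b c)

theorem AbVar.mk3_eta (e : T ⟶ V.A3) (h : e ≫ V.str3 = t) :
    e = V.mk3 (V.precomp e h V.pr1) (V.precomp e h V.pr2) (V.precomp e h V.pr3) :=
  V.hom3_ext (by rw [AbVar.mk3_pr1]; rfl) (by rw [AbVar.mk3_pr2]; rfl)
    (by rw [AbVar.mk3_pr3]; rfl)

/-- The pullback of the cube along a point of the triple product. -/
theorem AbVar.pull_mk3 (p : Pic V.A) (a b c : V.Pt t) :
    Pic.pull (V.mk3 a b c) (V.cube p V.pr1 V.pr2 V.pr3) = V.cube p a b c := by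
  rw [V.pull_cube p (V.mk3 a b c) (V.mk3_str a b c), V.precomp_pr1, V.precomp_pr2, V.precomp_pr3]

theorem AbVar.cube_zero_left (p : Pic V.A) (b c : V.Pt t) : V.cube p 0 b c = 0 := by
  simp only [AbVar.cube, zero_add]; abel

theorem AbVar.cube_zero_mid (p : Pic V.A) (a c : V.Pt t) : V.cube p a 0 c = 0 := by
  simp only [AbVar.cube, add_zero, zero_add]; abel

theorem AbVar.cube_zero_right (p : Pic V.A) (a b : V.Pt t) : V.cube p a b 0 = 0 := by
  simp only [AbVar.cube, add_zero]; abel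

/-- A rational point, over any base. -/
def AbVar.cst {T : Scheme.{u}} (t : T ⟶ Spec (CommRingCat.of K))
    (q : V.Pt (𝟙 (Spec (CommRingCat.of K)))) : V.Pt t :=
  V.precomp t (Category.comp_id t) q

theorem AbVar.hom_cst {T : Scheme.{u}} (t : T ⟶ Spec (CommRingCat.of K))
    (q : V.Pt (𝟙 (Spec (CommRingCat.of K)))) : V.hom (V.cst t q) = t ≫ V.hom q := rfl

theorem AbVar.cst_zero {T : Scheme.{u}} (t : T ⟶ Spec (CommRingCat.of K)) : V.cst t 0 = 0 :=
  map_zero _

/-- The origin. -/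
def AbVar.origin : V.A := V.hom (0 : V.Pt (𝟙 (Spec (CommRingCat.of K)))) (closedPoint K)

theorem AbVar.hom_zero_apply {T : Scheme.{u}} (t : T ⟶ Spec (CommRingCat.of K)) (z : T) :
    V.hom (0 : V.Pt t) z = V.origin := by
  rw [← V.cst_zero t, AbVar.hom_cst, Scheme.Hom.comp_apply, spec_pt_eq (t z)]
  rfl

/-- Every closed point of the triple product is given by three rational points. -/
theorem AbVar.exists_of_isClosed [IsAlgClosed K] {z : V.A3} (hz : IsClosed {z}) :
    ∃ a b c : V.Pt (𝟙 (Spec (CommRingCat.of K))), V.mk3 a b c (closedPoint K) = z := by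
  let e := pointOfClosedPoint V.str3 z hz
  have he : e ≫ V.str3 = 𝟙 _ := pointOfClosedPoint_comp _ _ _
  exact ⟨_, _, _, (congrArg (fun f : Spec (CommRingCat.of K) ⟶ V.A3 => f (closedPoint K))
    (V.mk3_eta e he)).symm.trans (pointOfClosedPoint_apply _ _ _ _)⟩

/-- A point with values in a field lying over the origin is the origin. -/
theorem AbVar.eq_zero_of_origin [IsAlgClosed K] {F : Type u} [Field F]
    {t : Spec (CommRingCat.of F) ⟶ Spec (CommRingCat.of K)} (a : V.Pt t)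
    (h : V.hom a (closedPoint F) = V.origin) : a = 0 := by
  refine V.ptExt ?_
  rw [eq_const_of_apply_eq V.str (V.hom a) _ (V.hom_str (0 : V.Pt (𝟙 (Spec (CommRingCat.of K))))) h,
    V.hom_str a, ← AbVar.hom_cst, V.cst_zero]

end FA.AbTors

end
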