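import Fermat.Agent.AbTors.CountStalk
import Fermat.Agent.AbTors.CountLocal
import Fermat.Agent.AbTors.Slices
import Mathlib.Algebra.TrivSqZeroExt.Basic
import Mathlib.LinearAlgebra.Dual.Basis

/-!
# The tangent map of multiplication by `n`

Tangent vectors at the origin are points with values in trivial square-zero extensions.  Their sum
is computed componentwise, so multiplication by `n` acts by `n` on the cotangent space.
-/

set_option autoImplicit false
set_option linter.style.haveILetI false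
set_option linter.unusedSectionVars false

noncomputable section

universe u

open CategoryTheory AlgebraicGeometry IsLocalRing TrivSqZeroExt

namespace FA.AbTors.Cnt

variable {K : Type u} [Field K] (V : AbVar K)

/-- The local ring at the origin. -/
abbrev O₀ : Type u := V.A.presheaf.stalk V.origin

scoped instance algebraO₀ : Algebra K (O₀ V) := (baseHom V.str V.origin).toAlgebra

theorem hom_nsmul {T : Scheme.{u}} {t : T ⟶ Spec (CommRingCat.of K)} (n : ℕ) (x : V.Pt t) :
    V.hom (n • x) = V.hom x ≫ V.mulHom n := by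
  have hx : V.precomp (V.hom x) (V.hom_str x) V.self = x :=
    V.ptExt (Category.comp_id (V.hom x))
  conv_lhs => rw [← hx, ← map_nsmul, AbVar.hom_precomp]
  rfl

theorem exists_ev : ∃ ev : O₀ V →ₐ[K] K, IsLocalHom ev.toRingHom ∧
    Spec.map (CommRingCat.ofHom ev.toRingHom) ≫ V.A.fromSpecStalk V.origin =
      V.hom (0 : V.Pt (𝟙 (Spec (CommRingCat.of K)))) := by
  obtain ⟨χ, hχ, hχe⟩ := exists_stalkHom (V.hom (0 : V.Pt (𝟙 (Spec (CommRingCat.of K)))))
    (p := V.origin) rfl
  have h : χ.comp (baseHom V.str V.origin) = RingHom.id K := by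
    have h1 := V.hom_str (0 : V.Pt (𝟙 (Spec (CommRingCat.of K))))
    rw [← hχe, Category.assoc, ← baseHom_spec, ← Spec.map_comp, ← Spec.map_id] at h1
    exact congrArg CommRingCat.Hom.hom (Spec.map_injective h1)
  exact ⟨⟨χ, fun r => DFunLike.congr_fun h r⟩, hχ, hχe⟩

/-- The value at the origin. -/
def evO : O₀ V →ₐ[K] K := (exists_ev V).choose

theorem evO_spec : Spec.map (CommRingCat.ofHom (evO V).toRingHom) ≫
    V.A.fromSpecStalk V.origin = V.hom (0 : V.Pt (𝟙 (Spec (CommRingCat.of K)))) :=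
  (exists_ev V).choose_spec.2

/-- The cotangent space at the origin. -/
abbrev Cot : Type u := (RingHom.ker (evO V)).Cotangent

theorem smul_cot (a : O₀ V) (x : Cot V) : a • x = evO V a • x := by
  rw [← algebraMap_smul (O₀ V) (evO V a) x, ← sub_eq_zero, ← sub_smul]
  obtain ⟨y, rfl⟩ := (RingHom.ker (evO V)).toCotangent_surjective x
  rw [← LinearMap.map_smul, Ideal.toCotangent_eq_zero, pow_two]
  exact Ideal.mul_mem_mul (Loc.sub_ev_mem (evO V) a) y.2

variable {M N : Type u} [AddCommGroup M] [Module K M] [Module Kᵐᵒᵖ M] [IsCentralScalar K M]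
  [AddCommGroup N] [Module K N] [Module Kᵐᵒᵖ N] [IsCentralScalar K N]

/-- Trivial extensions of a field are local. -/
scoped instance isLocalRing_tsze : IsLocalRing (TrivSqZeroExt K M) where
  isUnit_or_isUnit_of_add_one {a b} h := by
    rcases eq_or_ne (fst a) 0 with ha | ha
    · right
      rw [TrivSqZeroExt.isUnit_iff_isUnit_fst, isUnit_iff_ne_zero]
      intro hb
      have h1 := congrArg fst h
      rw [fst_add, ha, hb, add_zero, fst_one] at h1
      exact zero_ne_one h1
    · left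
      rw [TrivSqZeroExt.isUnit_iff_isUnit_fst, isUnit_iff_ne_zero]
      exact ha

/-- The homomorphism of a tangent vector. -/
def tanHom (ℓ : Cot V →ₗ[K] M) : O₀ V →ₐ[K] TrivSqZeroExt K M where
  toFun a := inl (evO V a) + inr (ℓ (Loc.cotDer (evO V) a))
  map_one' := by simp
  map_zero' := by simp
  map_add' a b := by
    ext <;> simp [map_add]
  map_mul' a b := by
    ext
    · simp
    · simp [Derivation.leibniz, smul_cot V, add_comm]
  commutes' r := by
    simp [algebraMap_eq_inl]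

theorem fst_tanHom (ℓ : Cot V →ₗ[K] M) (a : O₀ V) : fst (tanHom V ℓ a) = evO V a := by
  show fst (inl (evO V a) + inr (ℓ (Loc.cotDer (evO V) a))) = _
  simp

theorem snd_tanHom (ℓ : Cot V →ₗ[K] M) (a : O₀ V) :
    snd (tanHom V ℓ a) = ℓ (Loc.cotDer (evO V) a) := by
  show snd (inl (evO V a) + inr (ℓ (Loc.cotDer (evO V) a))) = _
  simp

theorem isLocalHom_evO : IsLocalHom (evO V).toRingHom := (exists_ev V).choose_spec.1

theorem isLocalHom_tanHom (ℓ : Cot V →ₗ[K] M) : IsLocalHom (tanHom V ℓ).toRingHom := by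
  refine ⟨fun a ha => (isLocalHom_evO V).map_nonunit a ?_⟩
  show IsUnit (evO V a)
  rw [← fst_tanHom V ℓ a]
  exact TrivSqZeroExt.isUnit_iff_isUnit_fst.1 ha

variable (K M) in
/-- The structure map of a trivial extension. -/
abbrev tsM : Spec (CommRingCat.of (TrivSqZeroExt K M)) ⟶ Spec (CommRingCat.of K) :=
  V.rng (algebraMap K (TrivSqZeroExt K M))

/-- A tangent vector as a point. -/
def tanPt (ℓ : Cot V →ₗ[K] M) : V.Pt (tsM K V M) :=
  V.mkPt (Spec.map (CommRingCat.ofHom (tanHom V ℓ).toRingHom) ≫ V.A.fromSpecStalk V.origin) (by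
    rw [Category.assoc, ← baseHom_spec, ← Spec.map_comp, ← CommRingCat.ofHom_comp]
    exact congrArg (fun φ => Spec.map (CommRingCat.ofHom φ)) (tanHom V ℓ).comp_algebraMap)

theorem ringMap_tanPt (f : M →ₗ[K] N) (ℓ : Cot V →ₗ[K] M) :
    V.ringMap (TrivSqZeroExt.map f).toRingHom (TrivSqZeroExt.map f).comp_algebraMap
      (tanPt V ℓ) = tanPt V (f ∘ₗ ℓ) := by
  refine V.ptExt ?_
  show Spec.map _ ≫ Spec.map _ ≫ _ = Spec.map _ ≫ _
  rw [← Category.assoc, ← Spec.map_comp, ← CommRingCat.ofHom_comp]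
  congr 3
  refine RingHom.ext fun a => ?_
  ext <;> simp [fst_tanHom, snd_tanHom]

theorem tanPt_zero : tanPt V (0 : Cot V →ₗ[K] M) = 0 := by
  refine V.ptExt ?_
  rw [← V.cst_zero, AbVar.hom_cst, ← evO_spec]
  show Spec.map _ ≫ _ = Spec.map _ ≫ Spec.map _ ≫ _
  rw [← Category.assoc, ← Spec.map_comp, ← CommRingCat.ofHom_comp]
  congr 3
  refine RingHom.ext fun a => ?_
  ext <;> simp [fst_tanHom, snd_tanHom, algebraMap_eq_inl]

/-- Tangent vectors add componentwise. -/
theorem tanPt_add (ℓ ℓ' : Cot V →ₗ[K] M) : tanPt V ℓ + tanPt V ℓ' = tanPt V (ℓ + ℓ') := by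
  let z₁ := tanPt V (ℓ.prod (0 : Cot V →ₗ[K] M))
  let z₂ := tanPt V ((0 : Cot V →ₗ[K] M).prod ℓ')
  let p : TrivSqZeroExt K (M × M) →ₐ[K] K := fstHom K K (M × M)
  have hp : IsLocalHom p.toRingHom := ⟨fun a ha => TrivSqZeroExt.isUnit_iff_isUnit_fst.2 ha⟩
  have hred : ∀ m : Cot V →ₗ[K] M × M,
      V.ringMap p.toRingHom p.comp_algebraMap (tanPt V m) = 0 := by
    intro m
    refine V.ptExt ?_
    rw [← V.cst_zero, AbVar.hom_cst, ← evO_spec]
    show Spec.map _ ≫ Spec.map _ ≫ _ = Spec.map _ ≫ Spec.map _ ≫ _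
    rw [← Category.assoc, ← Spec.map_comp, ← CommRingCat.ofHom_comp,
      ← Category.assoc, ← Spec.map_comp, ← CommRingCat.ofHom_comp]
    congr 3
    refine RingHom.ext fun a => ?_
    exact fst_tanHom V m a
  have hw : V.hom (z₁ + z₂) (closedPoint (TrivSqZeroExt K (M × M))) = V.origin := by
    have h0 : V.ringMap p.toRingHom p.comp_algebraMap (z₁ + z₂) = 0 := by
      rw [map_add, hred, hred, add_zero]
    have h1 := congrArg (fun x => V.hom x (closedPoint K)) h0
    refine Eq.trans (congrArg (V.hom (z₁ + z₂)) ?_) (h1.trans (V.hom_zero_apply _ _))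
    exact (IsLocalRing.comap_closedPoint p.toRingHom).symm
  obtain ⟨χ, -, hχ⟩ := exists_stalkHom (V.hom (z₁ + z₂)) hw
  have hproj : ∀ (f : M × M →ₗ[K] M) (m : Cot V →ₗ[K] M),
      f ∘ₗ (ℓ.prod 0) = m ∧ f ∘ₗ LinearMap.prod 0 ℓ' = 0 ∨
        f ∘ₗ (ℓ.prod 0) = 0 ∧ f ∘ₗ LinearMap.prod 0 ℓ' = m →
      (TrivSqZeroExt.map f).toRingHom.comp χ = (tanHom V m).toRingHom := by
    intro f m hf
    refine stalkHom_ext ?_
    have h : V.ringMap (TrivSqZeroExt.map f).toRingHom (TrivSqZeroExt.map f).comp_algebraMap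
        (z₁ + z₂) = tanPt V m := by
      rw [map_add, ringMap_tanPt, ringMap_tanPt]
      rcases hf with ⟨h₁, h₂⟩ | ⟨h₁, h₂⟩ <;> simp [h₁, h₂, tanPt_zero]
    refine Eq.trans ?_ (congrArg V.hom h)
    rw [CommRingCat.ofHom_comp, Spec.map_comp, Category.assoc, hχ]
    rfl
  have h₁ := hproj (LinearMap.fst K M M) ℓ (Or.inl ⟨rfl, rfl⟩)
  have h₂ := hproj (LinearMap.snd K M M) ℓ' (Or.inr ⟨rfl, rfl⟩)
  let s : M × M →ₗ[K] M := LinearMap.fst K M M + LinearMap.snd K M M
  have hs : V.ringMap (TrivSqZeroExt.map s).toRingHom (TrivSqZeroExt.map s).comp_algebraMap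
      (z₁ + z₂) = tanPt V ℓ + tanPt V ℓ' := by
    rw [map_add, ringMap_tanPt, ringMap_tanPt]
    congr 2 <;> (ext x; simp [s])
  rw [← hs]
  refine V.ptExt ?_
  show Spec.map _ ≫ V.hom (z₁ + z₂) = Spec.map _ ≫ _
  rw [← hχ, ← Category.assoc, ← Spec.map_comp, ← CommRingCat.ofHom_comp]
  congr 3
  refine RingHom.ext fun a => ?_
  have e₁ := DFunLike.congr_fun h₁ a
  have e₂ := DFunLike.congr_fun h₂ a
  ext
  · have := congrArg fst e₁
    simp [fst_tanHom] at this ⊢
    exact this
  · have f₁ := congrArg snd e₁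
    have f₂ := congrArg snd e₂
    simp [snd_tanHom, s] at f₁ f₂ ⊢
    rw [f₁, f₂]

theorem tanPt_nsmul (n : ℕ) (ℓ : Cot V →ₗ[K] M) : n • tanPt V ℓ = tanPt V (n • ℓ) := by
  induction n with
  | zero => rw [zero_nsmul, zero_nsmul, tanPt_zero]
  | succ n ih => rw [succ_nsmul, succ_nsmul, ih, tanPt_add]

theorem mulHom_origin (n : ℕ) : V.mulHom n V.origin = V.origin := by
  have h := hom_nsmul V n (0 : V.Pt (𝟙 (Spec (CommRingCat.of K))))
  rw [nsmul_zero] at h
  exact (congrArg (fun f : Spec (CommRingCat.of K) ⟶ V.A => f (closedPoint K)) h).symm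

/-- Multiplication by `n` on the local ring at the origin. -/
def mulO (n : ℕ) : O₀ V →ₐ[K] O₀ V where
  __ := (stMap (V.mulHom n) (mulHom_origin V n)).hom
  commutes' r := DFunLike.congr_fun
    (stMap_comp_baseHom V.str (V.mulHom n) (V.mulHom_str n) (mulHom_origin V n)) r

theorem tanHom_mulO (n : ℕ) (ℓ : Cot V →ₗ[K] K) :
    (tanHom V ℓ).toRingHom.comp (mulO V n).toRingHom = (tanHom V (n • ℓ)).toRingHom := by
  refine stalkHom_ext ?_
  rw [CommRingCat.ofHom_comp, Spec.map_comp, Category.assoc]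
  refine Eq.trans ?_ ((hom_nsmul V n (tanPt V ℓ)).symm.trans (congrArg V.hom (tanPt_nsmul V n ℓ)))
  refine (congrArg (fun k => Spec.map (CommRingCat.ofHom (tanHom V ℓ).toRingHom) ≫ k)
    (specMap_stMap (V.mulHom n) (mulHom_origin V n))).trans ?_
  rw [← Category.assoc]
  rfl

theorem evO_mulO (n : ℕ) (a : O₀ V) : evO V (mulO V n a) = evO V a := by
  have h := congrArg fst (DFunLike.congr_fun (tanHom_mulO V n 0) a)
  simpa [fst_tanHom] using h

/-- Multiplication by `n` acts by `n` on the cotangent space. -/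
theorem mulO_sub_mem (n : ℕ) (a : O₀ V) (ha : evO V a = 0) :
    mulO V n a - (n : K) • a ∈ RingHom.ker (evO V) ^ 2 := by
  have h : ∀ ℓ : Cot V →ₗ[K] K,
      ℓ (Loc.cotDer (evO V) (mulO V n a - (n : K) • a)) = 0 := by
    intro ℓ
    have h := congrArg snd (DFunLike.congr_fun (tanHom_mulO V n ℓ) a)
    simp only [RingHom.comp_apply, AlgHom.toRingHom_eq_coe, RingHom.coe_coe, snd_tanHom] at h
    rw [map_sub, map_sub, Derivation.map_smul, LinearMap.map_smul, h]
    simp
  have h0 : Loc.cotDer (evO V) (mulO V n a - (n : K) • a) = 0 :=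
    (Module.forall_dual_apply_eq_zero_iff K _).1 h
  rw [Loc.cotDer_apply, Ideal.toCotangent_eq_zero] at h0
  simpa [evO_mulO, ha] using h0

end FA.AbTors.Cnt

end
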