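import Fermat.Agent.AbTors.Ext
import Fermat.Agent.PicTors.Model
import Mathlib.FieldTheory.PrimitiveElement

/-!
# Constant extensions exist

A separable plane model of `F` stays irreducible over `L`; its function field is `F L`.
-/

set_option autoImplicit false
set_option linter.style.haveILetI false
set_option linter.unusedSectionVars false

noncomputable section

universe u

namespace FA.AbTors

open AlgebraicCurve FA.Curve FA.PicTors FA.ModField Polynomial

variable {K F : Type*} [Field K] [Field F] [Algebra K F]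

/-- A plane model over the field itself. -/
theorem exists_planeModel [PerfectField K] (hF : IsFunctionField K F) :
    ∃ (x y : F) (Q : K[X][X]), Transcendental K x ∧ Q.Monic ∧ Irreducible Q ∧
      Q.eval₂ (evalX (RingHom.id K) x) y = 0 ∧
      IntermediateField.adjoin K ({x, y} : Set F) = ⊤ := by
  obtain ⟨x, hx, hsep⟩ := exists_sepVar hF
  haveI := hF.finiteDimensional hx
  haveI := hsep
  obtain ⟨y₀, hy₀⟩ := Field.exists_primitive_element (IntermediateField.adjoin K ({x} : Set F)) F
  letI : Algebra K[X] F := (aeval x).toRingHom.toAlgebra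
  have hinj : Function.Injective (algebraMap K[X] F) := transcendental_iff_injective.1 hx
  haveI : Module.IsTorsionFree K[X] F := Module.isTorsionFree_iff_algebraMap_injective.2 hinj
  set E := IntermediateField.adjoin K ({x} : Set F)
  have halg : IsAlgebraic K[X] y₀ := by
    open scoped IntermediateField.algebraAdjoinAdjoin in
    have h1 : IsAlgebraic (Algebra.adjoin K ({x} : Set F)) y₀ :=
      (IsFractionRing.isAlgebraic_iff (Algebra.adjoin K ({x} : Set F)) E F).2
        (Algebra.IsAlgebraic.isAlgebraic y₀)
    have hmem : ∀ p : K[X], aeval x p ∈ Algebra.adjoin K ({x} : Set F) := fun p =>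
      aeval_mem_adjoin_singleton K x
    refine h1.of_ringHom_of_comp_eq ((aeval x).toRingHom.codRestrict
      (Algebra.adjoin K ({x} : Set F)) hmem) (RingHom.id F) ?_ Function.injective_id
      (RingHom.ext fun p => rfl)
    rintro ⟨z, hz⟩
    rw [Algebra.adjoin_singleton_eq_range_aeval] at hz
    obtain ⟨p, hp⟩ := hz
    exact ⟨p, Subtype.ext hp⟩
  obtain ⟨d, hd0, hd⟩ := halg.exists_integral_multiple
  set y := d • y₀ with hy
  have hev : evalX (RingHom.id K) x = algebraMap K[X] F := RingHom.ext fun p => by
    rw [evalX_eq, Polynomial.map_id]; rfl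
  refine ⟨x, y, minpoly K[X] y, hx, minpoly.monic hd, minpoly.irreducible hd, ?_, ?_⟩
  · rw [hev]; exact minpoly.aeval K[X] y
  · rw [← IntermediateField.adjoin_simple_adjoin_simple, eq_top_iff]
    intro z _
    rw [IntermediateField.mem_restrictScalars]
    have hy₀' : y₀ ∈ IntermediateField.adjoin E ({y} : Set F) := by
      have hd' : aeval x d ∈ E :=
        IntermediateField.algebra_adjoin_le_adjoin K _ (aeval_mem_adjoin_singleton K x)
      have e : y₀ = (algebraMap E F ⟨aeval x d, hd'⟩)⁻¹ * y := by
        rw [hy, Algebra.smul_def]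
        exact (inv_mul_cancel_left₀ (fun h0 => hd0 (hinj (by rw [map_zero]; exact h0))) y₀).symm
      rw [e]
      exact mul_mem (inv_mem (IntermediateField.algebraMap_mem _ _))
        (IntermediateField.mem_adjoin_simple_self E y)
    have h1 : z ∈ IntermediateField.adjoin E ({y₀} : Set F) := hy₀ ▸ IntermediateField.mem_top
    exact IntermediateField.adjoin_simple_le_iff.2 hy₀' h1

/-- Constant extensions exist. -/
theorem extExists : ExtExists.{u} := by
  intro k L F _ _ _ _ _ _ i hF
  obtain ⟨x, y, Q, hx, hQ, hirr, hy, hgen⟩ := exists_planeModel hF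
  haveI : Fact (Irreducible (fracQ Q)) := ⟨irreducible_fracQ hQ hirr⟩
  set Q' := Q.map (mapRingHom i) with hQ'
  have hQ'm : Q'.Monic := hQ.map _
  haveI : Fact (Irreducible (fracQ Q')) :=
    ⟨irreducible_fracQ hQ'm (irreducible_map i hQ hirr)⟩
  set ψ := modelHom (RingHom.id k) hx hy
  have hsurj : Function.Surjective ψ := by
    rw [← RingHom.range_eq_top, eq_top_iff]
    intro z _
    let E : IntermediateField k F :=
      ψ.fieldRange.toIntermediateField fun a => ⟨algebraMap k _ a, modelHom_C _ hx hy a⟩
    have hE : IntermediateField.adjoin k ({x, y} : Set F) ≤ E := by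
      rw [IntermediateField.adjoin_le_iff]
      rintro _ (rfl | rfl)
      · exact ⟨mX Q, modelHom_mX _ hx hy⟩
      · exact ⟨mY Q, modelHom_mY _ hx hy⟩
    exact hE (hgen ▸ IntermediateField.mem_top)
  let eψ : MField Q ≃+* F := RingEquiv.ofBijective ψ ⟨ψ.injective, hsurj⟩
  have hx' : Transcendental L (mX Q') := transcendental_mX
  have hy' : Q.eval₂ (evalX i (mX Q')) (mY Q') = 0 := by
    have h1 := root_mY (Q := Q')
    rw [← evalX_mX] at h1
    have e : (evalX (RingHom.id L) (mX Q')).comp (mapRingHom i) = evalX i (mX Q') := by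
      rw [evalX_comp, RingHom.id_comp]
    rw [← e, ← eval₂_map]
    exact h1
  have h := isExt_modelHom i hx' hy' hQ adjoin_mX_mY
  refine ⟨MField Q', inferInstance, inferInstance,
    (modelHom i hx' hy').comp eψ.symm.toRingHom, ⟨fun a => ?_, ?_, hF, ?_⟩⟩
  · have e : eψ.symm (algebraMap k F a) = algebraMap k (MField Q) a := by
      rw [RingEquiv.symm_apply_eq]
      exact (modelHom_C (RingHom.id k) hx hy a).symm
    rw [RingHom.comp_apply, RingEquiv.toRingHom_eq_coe, RingEquiv.coe_toRingHom, e, h.comm]
  · refine Eq.trans (congrArg _ ?_) h.adjoin_top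
    exact Set.ext fun z => ⟨fun ⟨w, hw⟩ => ⟨eψ.symm w, hw⟩,
      fun ⟨w, hw⟩ => ⟨eψ w, by simpa using hw⟩⟩
  · refine ⟨x, hx, ?_⟩
    have e : eψ.symm x = mX Q := by
      rw [RingEquiv.symm_apply_eq]
      exact (modelHom_mX (RingHom.id k) hx hy).symm
    rw [RingHom.comp_apply, RingEquiv.toRingHom_eq_coe, RingEquiv.coe_toRingHom, e, modelHom_mX]
    exact hx'

end FA.AbTors

end
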