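import Fermat.Agent.AbTors.GlueSlice

/-!
# From a nonempty open of the first factor to everything

The trivialisations over the translated opens are normalised along the axis of the first variable;
their ratios are then `1` there, hence everywhere.
-/

set_option autoImplicit false
set_option linter.unusedSectionVars false
set_option linter.style.haveILetI false

noncomputable section

universe u

open CategoryTheory CategoryTheory.Limits AlgebraicGeometry TopologicalSpace IsLocalRing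
open NeronModelInfra GoodReductionJacobian

namespace FA.AbTors

variable {K : Type u} [Field K] (V : AbVar K)

/-- The axis of the first variable. -/
def AbVar.axis1 : V.A ⟶ V.A3 := V.mk3 V.self 0 0

theorem AbVar.axis1_fst : V.axis1 ≫ V.hom V.pr1 = 𝟙 V.A := V.mk3_pr1 _ _ _

theorem AbVar.axis1_fst_apply (z : V.A) : V.hom V.pr1 (V.axis1 z) = z := by
  rw [AbVar.axis1, V.mk3_fst_apply]; rfl

theorem AbVar.axis1_pt (q : V.RPt) : V.axis1 (V.pt q) = V.pt3 q 0 0 := by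
  rw [AbVar.pt, AbVar.axis1, ← Scheme.Hom.comp_apply, V.precomp_mk3 (V.hom q) (V.hom_str q),
    V.precomp_self, map_zero]
  rfl

variable [IsAlgClosed K] [IsIntegral V.A] [IsIntegral V.A3]

/-- A unit on `pr₁⁻¹ W` equal to one along the axis is one. -/
theorem AbVar.eq_one_of_axis {n : V.A3.functionField} {W : V.A.Opens} {x : V.A} (hx : x ∈ W)
    (hu : ∀ z ∈ V.hom V.pr1 ⁻¹ᵁ W, UnitAt z n) (h1 : PullsTo V.axis1 n 1) : n = 1 := by
  set R := V.hom V.pr1 ⁻¹ᵁ W with hR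
  have hxR : V.axis1 x ∈ R := by
    show V.hom V.pr1 (V.axis1 x) ∈ W
    rw [V.axis1_fst_apply]; exact hx
  have hη : V.axis1 (genericPoint V.A) ∈ R := by
    show V.hom V.pr1 (V.axis1 (genericPoint V.A)) ∈ W
    rw [V.axis1_fst_apply]; exact genericPoint_mem hx
  obtain ⟨a, ha⟩ := exists_sec hη fun z hz => (hu z hz).regAt
  set a₁ := a - 1 with ha₁
  have haxis : ∀ z, V.axis1 z ∉ V.A3.basicOpen a₁ :=
    notMem_basicOpen_of_evF_eq_zero V.axis1 hη (by
      rw [ha₁, map_sub, map_one, h1.evF_eq hη ha, sub_self])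
  set σ := V.mk3 V.pr1 V.pr2 0 with hσ
  have hσR : R ≤ σ ⁻¹ᵁ R := fun z hz => by
    show V.hom V.pr1 (σ z) ∈ W
    rw [hσ, V.mk3_fst_apply]; exact hz
  set a₂ := (σ.appLE R R hσR).hom a₁ with ha₂
  have hbo : V.A3.basicOpen a₂ = R ⊓ σ ⁻¹ᵁ V.A3.basicOpen a₁ := Scheme.basicOpen_appLE σ R R hσR a₁
  have h2 : a₂ = 0 := eq_zero_of_slices V.str3 V.isField_top a₂ fun z hz hzc => by
    obtain ⟨q₁, q₂, q₃, rfl⟩ := V.exists_pt3 hzc
    have hq : V.pt q₁ ∈ W := by
      have : V.hom V.pr1 (V.pt3 q₁ q₂ q₃) ∈ W := hz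
      rwa [V.pt3_fst] at this
    refine ⟨V.slice2 q₁ q₃, fun w => ?_, ⟨V.pt q₂, V.slice2_pt _ _ _⟩, V.pt 0, ?_⟩
    · show V.hom V.pr1 (V.slice2 q₁ q₃ w) ∈ W
      rw [AbVar.slice2, V.mk3_fst_apply, V.hom_cst_apply]
      exact hq
    · rw [V.slice2_pt, hbo]
      intro hm
      have hm2 : σ (V.pt3 q₁ 0 q₃) ∈ V.A3.basicOpen a₁ := hm.2
      rw [hσ, V.sigma_pt3, ← V.axis1_pt] at hm2
      exact haxis _ hm2
  have h3 : a₁ = 0 := eq_zero_of_slices V.str3 V.isField_top a₁ fun z hz hzc => by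
    obtain ⟨q₁, q₂, q₃, rfl⟩ := V.exists_pt3 hzc
    have hq : V.pt q₁ ∈ W := by
      have : V.hom V.pr1 (V.pt3 q₁ q₂ q₃) ∈ W := hz
      rwa [V.pt3_fst] at this
    refine ⟨V.slice3 q₁ q₂, fun w => ?_, ⟨V.pt q₃, V.slice3_pt _ _ _⟩, V.pt 0, ?_⟩
    · show V.hom V.pr1 (V.slice3 q₁ q₂ w) ∈ W
      rw [AbVar.slice3, V.mk3_fst_apply, V.hom_cst_apply]
      exact hq
    · rw [V.slice3_pt, ← V.sigma_pt3 q₁ q₂ q₃]
      intro hm
      have hmem : V.pt3 q₁ q₂ q₃ ∈ V.A3.basicOpen a₂ := by rw [hbo]; exact ⟨hz, hm⟩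
      rw [h2, Scheme.basicOpen_zero] at hmem
      exact hmem
  rw [ha₁, sub_eq_zero] at h3
  rw [← ha, h3, map_one]

variable {p : Pic V.A} {r : ℕ} {c : Coc V.A3}

/-- A trivialisation can be normalised along the axis. -/
theorem AbVar.exists_normalised (hc : Pic.mk c = r • V.cube p V.pr1 V.pr2 V.pr3)
    {t : V.A.functionField} (ht : IsTriv (c.pull V.axis1) t ⊤) {U' : V.A.Opens} {x : V.A}
    (hx : x ∈ U') {N : V.A3.functionField} (hN : IsTriv c N (V.hom V.pr1 ⁻¹ᵁ U')) :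
    ∃ M, IsTriv c M (V.hom V.pr1 ⁻¹ᵁ U') ∧
      PullsTo V.axis1 (c.rat (V.axis1 (genericPoint V.A)) (genericPoint V.A3) * M) t := by
  have hη : V.axis1 (genericPoint V.A) ∈ V.hom V.pr1 ⁻¹ᵁ U' := by
    show V.hom V.pr1 (V.axis1 (genericPoint V.A)) ∈ U'
    rw [V.axis1_fst_apply]; exact genericPoint_mem hx
  obtain ⟨N', hN', hpull⟩ := hN.pull hη
  have he : ∀ z ∈ U', UnitAt z (t / N') := fun z hz =>
    (ht.mono le_top).ratio hN' (show V.hom V.pr1 (V.axis1 z) ∈ U' by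
      rw [V.axis1_fst_apply]; exact hz)
  have hg : V.hom V.pr1 (genericPoint V.A3) ∈ U' :=
    genericPoint_mem (W := V.hom V.pr1 ⁻¹ᵁ U') (z := V.axis1 x) (by
      show V.hom V.pr1 (V.axis1 x) ∈ U'
      rw [V.axis1_fst_apply]; exact hx)
  obtain ⟨e', he'⟩ := PullsTo.exists (f := V.hom V.pr1) (he _ hg)
  refine ⟨N * e', ⟨mul_ne_zero hN.1 ((he'.unitAt (q' := genericPoint V.A3) (he _ hg)).ne_zero),
    fun z hz => ?_⟩, ?_⟩
  · rw [← mul_assoc]
    exact (hN.2 z hz).mul (he'.unitAt (he _ hz))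
  · have h := hpull.mul (he'.of_section V.axis1_fst)
    rw [mul_div_cancel₀ _ hN'.1, mul_assoc] at h
    exact h

/-- **From a nonempty open of the first factor to everything.** -/
theorem glueHolds : GlueHolds V := by
  intro p r U hU ⟨c, N, hc, hN⟩
  have h0 : Pic.mk (c.pull V.axis1) = 0 := by
    rw [← Pic.pull_mk, hc, map_nsmul, AbVar.axis1, V.pull_mk3, V.cube_zero_mid, smul_zero]
  obtain ⟨t, ht⟩ := exists_isTriv_of_eq_zero h0
  choose U' hmem N' hN' using V.exists_triv_at hc hN hU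
  choose M hM hMt using fun z => V.exists_normalised hc ht (hmem z) (hN' z)
  have heq : ∀ z z', M z = M z' := fun z z' => by
    refine eq_of_div_eq_one ?_
    refine V.eq_one_of_axis (W := U' z ⊓ U' z') (x := genericPoint V.A)
      ⟨genericPoint_mem (hmem z), genericPoint_mem (hmem z')⟩
      (fun w hw => ((hM z).mono (fun y (hy : y ∈ V.hom V.pr1 ⁻¹ᵁ (U' z ⊓ U' z')) => hy.1)).ratio
        ((hM z').mono (fun y (hy : y ∈ V.hom V.pr1 ⁻¹ᵁ (U' z ⊓ U' z')) => hy.2)) hw) ?_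
    have h := (hMt z).div (hMt z')
    rwa [mul_div_mul_left _ _ (c.rat_ne_zero _ _), div_self ht.1] at h
  have hall : IsTriv c (M (genericPoint V.A)) ⊤ := ⟨(hM _).1, fun q _ => by
    rw [heq _ (V.hom V.pr1 q)]
    exact (hM _).2 q (hmem _)⟩
  rw [← hc]
  exact hall.mk_eq_zero

end FA.AbTors

end
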