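import Fermat.Agent.Curve.Basic
import Mathlib.RingTheory.NoetherNormalization
import Mathlib.FieldTheory.RatFunc.IntermediateField

/-!
# A curve joining a generic point of an affine variety to a rational one

Over a Noether normalisation `K[t] ⊆ B` the line `t = s β` is lifted to a function field: at
`s = 1` the value is a generic point, at `s = 0` a rational one.
-/

set_option autoImplicit false
set_option linter.style.haveILetI false
set_option linter.unusedSectionVars false

noncomputable section

universe u

namespace FA.AbTors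

open AlgebraicCurve FA.Curve Polynomial

section place

variable {M F : Type u} [Field M] [Field F] [Algebra M F]

/-- A field finite over the rational functions is a function field. -/
theorem isFunctionField_of_finite_ratFunc [Algebra (RatFunc M) F]
    [IsScalarTower M (RatFunc M) F] [FiniteDimensional (RatFunc M) F] :
    IsFunctionField M F := by
  set ι := IsScalarTower.toAlgHom M (RatFunc M) F with hι
  have hrange : ∀ a : RatFunc M, ι a ∈ IntermediateField.adjoin M {ι RatFunc.X} := fun a => by
    have h : (IntermediateField.adjoin M {(RatFunc.X : RatFunc M)}).map ι =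
        IntermediateField.adjoin M {ι RatFunc.X} := by
      rw [IntermediateField.adjoin_map, Set.image_singleton]
    rw [← h]
    exact ⟨a, (RatFunc.adjoin_X (K := M)).symm ▸ IntermediateField.mem_top, rfl⟩
  refine ⟨ι RatFunc.X, fun h => RatFunc.transcendental_X
    ((isAlgebraic_algebraMap_iff (algebraMap (RatFunc M) F).injective).1 h), ?_⟩
  set E := IntermediateField.adjoin M {ι RatFunc.X}
  letI : Algebra (RatFunc M) E := ((ι : RatFunc M →+* F).codRestrict E hrange).toAlgebra
  haveI : IsScalarTower (RatFunc M) E F := IsScalarTower.of_algebraMap_eq fun _ => rfl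
  exact Module.Finite.of_restrictScalars_finite (RatFunc M) E F

/-- A place over a value of a transcendental element. -/
theorem exists_place_value [IsAlgClosed M] (hF : IsFunctionField M F) {x : F}
    (hx : Transcendental M x) (c : M) :
    ∃ P : Place M F, ∃ hP : x ∈ P.toValuationSubring,
      IsLocalRing.residue P.toValuationSubring ⟨x, hP⟩ =
        IsLocalRing.residue P.toValuationSubring (algebraMap M P.toValuationSubring c) := by
  set S := Algebra.adjoin M ({x} : Set F)
  let i : S.toSubring := ⟨x - algebraMap M F c,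
    sub_mem (Algebra.subset_adjoin rfl) (S.algebraMap_mem c)⟩
  have hI : Ideal.span ({i} : Set S.toSubring) ≠ ⊤ := by
    rw [Ne, Ideal.span_singleton_eq_top, isUnit_iff_exists_inv]
    rintro ⟨⟨b, hb⟩, hib⟩
    have hib' : (x - algebraMap M F c) * b = 1 := congrArg Subtype.val hib
    obtain ⟨r, rfl⟩ := (Algebra.adjoin_singleton_eq_range_aeval M x).le hb
    have h2 : (X - C c) * r - 1 = 0 := transcendental_iff_injective.1 hx (by
      rw [map_zero, map_sub, map_mul, map_sub, aeval_X, aeval_C, map_one]
      exact sub_eq_zero.2 hib')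
    simpa using congrArg (fun p : M[X] => p.eval c) h2
  obtain ⟨O, hO, hsub⟩ := Ideal.image_subset_nonunits_valuationSubring _ hI
  have hK : ∀ a : M, algebraMap M F a ∈ O := fun a => hO (S.algebraMap_mem a)
  have hnu : O.valuation (x - algebraMap M F c) < 1 :=
    O.mem_nonunits_iff.1 (hsub ⟨i, Ideal.subset_span rfl, rfl⟩)
  have hne : O ≠ ⊤ := fun h => by
    have h0 : x - algebraMap M F c ≠ 0 := fun h0 => hx (by
      rw [sub_eq_zero.1 h0]; exact isAlgebraic_algebraMap c)
    have h1 : (x - algebraMap M F c)⁻¹ ∈ O := h ▸ ValuationSubring.mem_top _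
    rw [← O.valuation_le_one_iff, map_inv₀] at h1
    exact h1.not_gt ((one_lt_inv₀ (zero_lt_iff.2 ((Valuation.ne_zero_iff _).2 h0))).2 hnu)
  refine ⟨toPlace hF O hK hne, hO (Algebra.subset_adjoin rfl), ?_⟩
  rw [← sub_eq_zero, ← map_sub, IsLocalRing.residue_eq_zero_iff]
  exact (O.valuation_lt_one_iff _).2 hnu

/-- The residue field of a place is the field of constants. -/
theorem bijective_residue [IsAlgClosed M] (hF : IsFunctionField M F) (P : Place M F) :
    Function.Bijective ((IsLocalRing.residue P.toValuationSubring).comp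
      (algebraMap M P.toValuationSubring)) := by
  have h : Module.finrank M P.ResidueField = 1 := hF.deg_eq_one P
  haveI : Module.Finite M P.ResidueField := Module.finite_of_finrank_eq_succ h
  exact IsAlgClosed.algebraMap_bijective_of_isIntegral (k := M) (K := P.ResidueField)

end place

/-- A root of a monic polynomial over an algebraically closed field is in it. -/
theorem mem_range_of_monic_root {K M : Type*} [Field K] [IsAlgClosed K] [Field M] (i : K →+* M)
    {p : K[X]} (hp : p.Monic) {a : M} (ha : p.eval₂ i a = 0) : a ∈ i.range := by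
  have hs : p.Splits := IsAlgClosed.splits p
  rw [hs.eq_prod_roots, hp.leadingCoeff, map_one, one_mul, eval₂_multiset_prod,
    Multiset.prod_eq_zero_iff, Multiset.map_map] at ha
  obtain ⟨b, -, hb⟩ := Multiset.mem_map.1 ha
  rw [Function.comp_apply, eval₂_sub, eval₂_X, eval₂_C, sub_eq_zero] at hb
  exact ⟨b, hb.symm⟩

section join

variable (K B M : Type u) [Field K] [IsAlgClosed K] [CommRing B] [IsDomain B] [Algebra K B]
  [Algebra.FiniteType K B] [Field M] [IsAlgClosed M] [Algebra K M]

set_option maxHeartbeats 800000 in
/-- **The curve.** -/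
theorem exists_join_field (ι : B →ₐ[K] M) (hι : Function.Injective ι) :
    ∃ (F : Type u) (_ : Field F) (_ : Algebra M F) (ψ : B →+* F) (P Q : Place M F)
      (π : B →+* K) (ν : B →+* M),
      IsFunctionField M F ∧
      ψ.comp (algebraMap K B) = (algebraMap M F).comp (algebraMap K M) ∧
      π.comp (algebraMap K B) = RingHom.id K ∧
      ν.comp (algebraMap K B) = algebraMap K M ∧
      Function.Injective ν ∧
      (∀ b, ∃ p : B[X], p.Monic ∧ p.eval₂ ν (ι b) = 0) ∧
      (∃ x : B →+* P.toValuationSubring, P.toValuationSubring.subtype.comp x = ψ ∧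
        (IsLocalRing.residue P.toValuationSubring).comp x =
          ((IsLocalRing.residue P.toValuationSubring).comp (algebraMap M P.toValuationSubring)).comp
            ((algebraMap K M).comp π)) ∧
      (∃ x : B →+* Q.toValuationSubring, Q.toValuationSubring.subtype.comp x = ψ ∧
        (IsLocalRing.residue Q.toValuationSubring).comp x =
          ((IsLocalRing.residue Q.toValuationSubring).comp (algebraMap M Q.toValuationSubring)).comp
            ν) := by
  classical
  obtain ⟨r, g, hginj, hgfin⟩ := exists_finite_inj_algHom_of_fg K B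
  letI : Algebra (MvPolynomial (Fin r) K) B := g.toRingHom.toAlgebra
  haveI hfin : Module.Finite (MvPolynomial (Fin r) K) B := hgfin
  haveI : Algebra.IsIntegral (MvPolynomial (Fin r) K) B := Algebra.IsIntegral.of_finite _ _
  haveI : Algebra.IsAlgebraic (MvPolynomial (Fin r) K) B := Algebra.IsIntegral.isAlgebraic
  haveI : FaithfulSMul (MvPolynomial (Fin r) K) B :=
    (faithfulSMul_iff_algebraMap_injective _ _).2 hginj
  set β : Fin r → M := fun i => ι (g (MvPolynomial.X i))
  set θ₁ : MvPolynomial (Fin r) K →ₐ[K] M[X] := MvPolynomial.aeval fun i => X * C (β i)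
  have hev1 : (Polynomial.evalRingHom (1 : M)).comp θ₁.toRingHom =
      ι.toRingHom.comp g.toRingHom := by
    refine MvPolynomial.ringHom_ext (fun a => ?_) (fun i => ?_)
    · simp [θ₁, Polynomial.algebraMap_apply]
    · simp [θ₁, β]
  have hev0 : (Polynomial.evalRingHom (0 : M)).comp θ₁.toRingHom =
      (algebraMap K M).comp (MvPolynomial.aeval (fun _ : Fin r => (0 : K))).toRingHom := by
    refine MvPolynomial.ringHom_ext (fun a => ?_) (fun i => ?_)
    · simp [θ₁, Polynomial.algebraMap_apply]
    · simp [θ₁]
  have hθ₁ : Function.Injective θ₁ := fun a b h => hginj (hι (by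
    have h' := congrArg (Polynomial.eval (1 : M)) h
    exact (RingHom.congr_fun hev1 a).symm.trans (h'.trans (RingHom.congr_fun hev1 b))))
  set θ : MvPolynomial (Fin r) K →+* AlgebraicClosure (RatFunc M) :=
    ((algebraMap (RatFunc M) (AlgebraicClosure (RatFunc M))).comp
      (algebraMap M[X] (RatFunc M))).comp θ₁.toRingHom
  have hθ : Function.Injective θ := (algebraMap (RatFunc M) _).injective.comp
    ((IsFractionRing.injective M[X] (RatFunc M)).comp hθ₁)
  letI : Algebra (MvPolynomial (Fin r) K) (AlgebraicClosure (RatFunc M)) := θ.toAlgebra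
  haveI : FaithfulSMul (MvPolynomial (Fin r) K) (AlgebraicClosure (RatFunc M)) :=
    (faithfulSMul_iff_algebraMap_injective _ _).2 hθ
  set ψ₀ : B →ₐ[MvPolynomial (Fin r) K] AlgebraicClosure (RatFunc M) := IsAlgClosed.lift
  obtain ⟨s, hs⟩ := hfin.fg_top
  set F₀ : IntermediateField (RatFunc M) (AlgebraicClosure (RatFunc M)) :=
    IntermediateField.adjoin (RatFunc M) (ψ₀ '' (s : Set B))
  haveI : FiniteDimensional (RatFunc M) F₀ :=
    IntermediateField.finiteDimensional_adjoin fun z _ =>
      (Algebra.IsAlgebraic.isAlgebraic z).isIntegral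
  have hmem : ∀ b, ψ₀ b ∈ F₀ := fun b => by
    have hb : b ∈ Submodule.span (MvPolynomial (Fin r) K) (s : Set B) := hs ▸ Submodule.mem_top
    induction hb using Submodule.span_induction with
    | mem y hy => exact IntermediateField.subset_adjoin _ _ ⟨y, hy, rfl⟩
    | zero => rw [map_zero]; exact zero_mem _
    | add y z _ _ hy hz => rw [map_add]; exact add_mem hy hz
    | smul a y _ hy =>
      rw [map_smul, Algebra.smul_def]
      exact mul_mem (IntermediateField.algebraMap_mem F₀ (algebraMap M[X] (RatFunc M) (θ₁ a))) hy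
  set ψ : B →+* F₀ := ψ₀.toRingHom.codRestrict F₀ hmem
  haveI hF : IsFunctionField M F₀ := isFunctionField_of_finite_ratFunc
  set x : F₀ := algebraMap (RatFunc M) F₀ RatFunc.X
  have hx : Transcendental M x := fun h => RatFunc.transcendental_X
    ((isAlgebraic_algebraMap_iff (algebraMap (RatFunc M) F₀).injective).1 h)
  have hψ : ψ.comp g.toRingHom = (aeval x).toRingHom.comp θ₁.toRingHom := by
    refine RingHom.ext fun a => Subtype.ext ?_
    show ψ₀ (algebraMap (MvPolynomial (Fin r) K) B a) = _
    rw [AlgHom.commutes]
    show θ a = _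
    have e : (aeval x : M[X] →ₐ[M] F₀) =
        (IsScalarTower.toAlgHom M (RatFunc M) F₀).comp (IsScalarTower.toAlgHom M M[X] (RatFunc M)) :=
      Polynomial.algHom_ext (by simp [x, RatFunc.algebraMap_X])
    rw [e]
    rfl
  have hKB : ∀ a : K, algebraMap K B a = g (MvPolynomial.C a) := fun a => (g.commutes a).symm
  have hroot : ∀ b : B, ∃ p : (MvPolynomial (Fin r) K)[X], p.Monic ∧ p.eval₂ g.toRingHom b = 0 :=
    fun b => Algebra.IsIntegral.isIntegral (R := MvPolynomial (Fin r) K) b
  -- the value at a place over `c`
  have hpt : ∀ c : M, ∃ (P : Place M F₀) (xP : B →+* P.toValuationSubring) (ν : B →+* M),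
      P.toValuationSubring.subtype.comp xP = ψ ∧
      (IsLocalRing.residue P.toValuationSubring).comp xP =
        ((IsLocalRing.residue P.toValuationSubring).comp
          (algebraMap M P.toValuationSubring)).comp ν ∧
      ν.comp g.toRingHom = (Polynomial.evalRingHom c).comp θ₁.toRingHom := by
    intro c
    obtain ⟨P, hxP, hres⟩ := exists_place_value hF hx c
    have hpoly : ∀ p : M[X], aeval x p ∈ P.toValuationSubring := fun p => by
      rw [aeval_eq_sum_range]
      refine sum_mem fun k _ => ?_
      rw [Algebra.smul_def]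
      exact mul_mem (P.algebraMap_mem' _) (pow_mem hxP _)
    have hψP : ∀ b, ψ b ∈ P.toValuationSubring := fun b => by
      obtain ⟨p, hp, hb⟩ := hroot b
      refine mem_place_of_isIntegral_adjoin hxP ?_
      set θS : MvPolynomial (Fin r) K →+* Algebra.adjoin M ({x} : Set F₀) :=
        (((aeval x).toRingHom).codRestrict (Algebra.adjoin M ({x} : Set F₀))
          fun q => aeval_mem_adjoin_singleton M x).comp θ₁.toRingHom
      refine ⟨p.map θS, hp.map _, ?_⟩
      have h := congrArg ψ hb
      rw [hom_eval₂, map_zero, hψ] at h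
      rw [eval₂_map]
      exact h
    set xP : B →+* P.toValuationSubring := ψ.codRestrict P.toValuationSubring.toSubring hψP
    set e := RingEquiv.ofBijective _ (bijective_residue hF P)
    refine ⟨P, xP, e.symm.toRingHom.comp ((IsLocalRing.residue P.toValuationSubring).comp xP),
      RingHom.ext fun b => rfl, RingHom.ext fun b => (e.apply_symm_apply _).symm, ?_⟩
    set ev : M[X] →+* P.toValuationSubring :=
      (aeval x).toRingHom.codRestrict P.toValuationSubring.toSubring hpoly
    have hev : (IsLocalRing.residue P.toValuationSubring).comp ev =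
        ((IsLocalRing.residue P.toValuationSubring).comp (algebraMap M P.toValuationSubring)).comp
          (Polynomial.evalRingHom c) := by
      refine Polynomial.ringHom_ext (fun a => ?_) ?_
      · simp only [RingHom.comp_apply, Polynomial.coe_evalRingHom, eval_C]
        exact congrArg _ (Subtype.ext (aeval_C x a))
      · simp only [RingHom.comp_apply, Polynomial.coe_evalRingHom, eval_X]
        refine Eq.trans (congrArg _ ?_) hres
        exact Subtype.ext (aeval_X x)
    refine RingHom.ext fun a => ?_
    show e.symm (IsLocalRing.residue _ (xP (g a))) = (θ₁ a).eval c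
    rw [RingEquiv.symm_apply_eq]
    refine Eq.trans (congrArg _ ?_) (RingHom.congr_fun hev (θ₁ a))
    exact Subtype.ext (RingHom.congr_fun hψ a)
  obtain ⟨P, xP, ν₀, hP1, hP2, hP3⟩ := hpt 0
  obtain ⟨Q, xQ, ν, hQ1, hQ2, hQ3⟩ := hpt 1
  rw [hev1] at hQ3
  rw [hev0] at hP3
  have hν₀ : ∀ b, ν₀ b ∈ (algebraMap K M).range := fun b => by
    obtain ⟨p, hp, hb⟩ := hroot b
    have h := congrArg ν₀ hb
    rw [hom_eval₂, map_zero, hP3, ← eval₂_map] at h
    exact mem_range_of_monic_root _ (hp.map _) h
  choose π hπ using hν₀
  have hinj := (algebraMap K M).injective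
  let π' : B →+* K :=
    { toFun := π
      map_one' := hinj (by rw [hπ, map_one, map_one])
      map_zero' := hinj (by rw [hπ, map_zero, map_zero])
      map_add' := fun a b => hinj (by rw [hπ, map_add, map_add, hπ, hπ])
      map_mul' := fun a b => hinj (by rw [hπ, map_mul, map_mul, hπ, hπ]) }
  have hπ' : (algebraMap K M).comp π' = ν₀ := RingHom.ext hπ
  have hνK : ∀ a : K, ν (algebraMap K B a) = algebraMap K M a := fun a => by
    rw [hKB]
    refine (RingHom.congr_fun hQ3 (MvPolynomial.C a)).trans ?_
    show ι (g (MvPolynomial.C a)) = _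
    rw [← hKB, AlgHom.commutes]
  refine ⟨F₀, inferInstance, inferInstance, ψ, P, Q, π', ν, hF, RingHom.ext fun a => ?_,
    RingHom.ext fun a => hinj ?_, RingHom.ext hνK, ?_, fun b => ?_, ⟨xP, hP1, ?_⟩, ⟨xQ, hQ1, hQ2⟩⟩
  · rw [RingHom.comp_apply, hKB]
    refine (RingHom.congr_fun hψ (MvPolynomial.C a)).trans ?_
    simp [θ₁, Polynomial.algebraMap_apply]
  · show algebraMap K M (π (algebraMap K B a)) = algebraMap K M a
    rw [hπ, hKB]
    refine (RingHom.congr_fun hP3 (MvPolynomial.C a)).trans ?_
    simp
  · rw [RingHom.injective_iff_ker_eq_bot]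
    refine Ideal.eq_bot_of_comap_eq_bot (R := MvPolynomial (Fin r) K) ?_
    rw [RingHom.comap_ker, show ν.comp (algebraMap (MvPolynomial (Fin r) K) B) =
      ι.toRingHom.comp g.toRingHom from hQ3, ← RingHom.injective_iff_ker_eq_bot]
    exact hι.comp hginj
  · obtain ⟨p, hp, hb⟩ := hroot b
    refine ⟨p.map g.toRingHom, hp.map _, ?_⟩
    have h := congrArg ι.toRingHom hb
    rw [hom_eval₂, map_zero, ← hQ3] at h
    rw [eval₂_map]
    exact h
  · rw [hπ']; exact hP2

end join

end FA.AbTors

end
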