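import Fermat.Agent.AbTors.Defs
import Fermat.Agent.AbTors.JoinField
import Mathlib.AlgebraicGeometry.Morphisms.FiniteType

/-!
# A curve through a generic point and the origin
-/

set_option autoImplicit false
set_option linter.style.haveILetI false
set_option linter.unusedSectionVars false

noncomputable section

universe u

open CategoryTheory CategoryTheory.Limits AlgebraicGeometry NeronModelInfra GoodReductionJacobian
open AlgebraicCurve FA.Curve TopologicalSpace

namespace FA.AbTors

/-- Algebraicity can be tested on a field over which the extension is algebraic. -/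
theorem isAlgebraic_of_forall {L E M : Type*} [Field L] [Field E] [Field M] [Algebra L M]
    [Algebra E M] [Algebra.IsAlgebraic E M]
    (h : ∀ a : E, IsAlgebraic L (algebraMap E M a)) : Algebra.IsAlgebraic L M := by
  set C := algebraicClosure L M
  haveI : Algebra.IsAlgebraic L C := algebraicClosure.isAlgebraic L M
  letI : Algebra E C :=
    ((algebraMap E M).codRestrict C fun a => mem_algebraicClosure_iff.2 (h a)).toAlgebra
  haveI : IsScalarTower E C M := IsScalarTower.of_algebraMap_eq fun _ => rfl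
  haveI : Algebra.IsAlgebraic C M := Algebra.IsAlgebraic.tower_top (K := E) C
  exact Algebra.IsAlgebraic.trans L C M

/-- A generic point through an open immersion of an affine scheme sends closed to generic. -/
theorem map_closedPoint_eq {X : Scheme.{u}} [IrreducibleSpace X] {B : CommRingCat.{u}} [IsDomain B]
    {M : Type u} [Field M] (j : Spec B ⟶ X) [IsOpenImmersion j]
    (ν : B ⟶ CommRingCat.of M) (hν : Function.Injective ν.hom) :
    (Spec.map ν ≫ j) (IsLocalRing.closedPoint M) = genericPoint X := by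
  rw [Scheme.Hom.comp_apply]
  refine Eq.trans (congrArg _ ?_) (genericPoint_eq_of_isOpenImmersion j)
  rw [genericPoint_eq_bot_of_affine]
  refine PrimeSpectrum.ext ?_
  show Ideal.comap ν.hom (IsLocalRing.maximalIdeal M) = (⊥ : Ideal B)
  rw [IsLocalRing.maximalIdeal_eq_bot]
  exact (RingHom.injective_iff_ker_eq_bot _).1 hν

/-- The values of an affine chart are values of rational functions. -/
theorem mem_range_ptFF {X : Scheme.{u}} [IrreducibleSpace X] {B : CommRingCat.{u}}
    {M : Type u} [Field M] (j : Spec B ⟶ X) [IsOpenImmersion j] (ν : B ⟶ CommRingCat.of M)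
    (y : Spec (CommRingCat.of M) ⟶ X) (hy : y = Spec.map ν ≫ j)
    (h : y (IsLocalRing.closedPoint M) = genericPoint X) (b : B) :
    ν.hom b ∈ (ptFF y h).range := by
  subst hy
  set p : Spec B := Spec.map ν (IsLocalRing.closedPoint M)
  obtain ⟨a, ha⟩ := (ConcreteCategory.bijective_of_isIso (j.stalkMap p)).2
    ((Spec B).presheaf.germ ⊤ p trivial ((Scheme.ΓSpecIso B).inv b))
  obtain ⟨a', ha'⟩ := (ConcreteCategory.bijective_of_isIso
    (X.presheaf.stalkCongr (Inseparable.of_eq h.symm)).hom).2 a
  refine ⟨a', ?_⟩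
  show (Scheme.stalkClosedPointTo (Spec.map ν ≫ j)).hom
    ((X.presheaf.stalkCongr (Inseparable.of_eq h.symm)).hom a') = _
  rw [show (X.presheaf.stalkCongr (Inseparable.of_eq h.symm)).hom a' = a from ha']
  have h1 : (Scheme.stalkClosedPointTo (Spec.map ν ≫ j)).hom a =
      (Scheme.stalkClosedPointTo (Spec.map ν)).hom ((j.stalkMap p).hom a) :=
    congrArg (fun φ => φ.hom a) (Scheme.stalkClosedPointTo_comp (Spec.map ν) j)
  rw [h1, show (j.stalkMap p).hom a = _ from ha]
  have h2 := congrArg (fun φ : Γ(Spec B, ⊤) ⟶ CommRingCat.of M => φ.hom ((Scheme.ΓSpecIso B).inv b))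
    (Scheme.germ_stalkClosedPointTo_Spec ν)
  refine h2.trans ?_
  show ν.hom ((Scheme.ΓSpecIso B).hom ((Scheme.ΓSpecIso B).inv b)) = ν.hom b
  rw [Iso.inv_hom_id_apply]

variable {K : Type u} [Field K] (V : AbVar K)

/-- A constant point. -/
def AbVar.constPt (p : V.Pt (𝟙 (Spec (CommRingCat.of K)))) {T : Scheme.{u}}
    (t : T ⟶ Spec (CommRingCat.of K)) : V.Pt t := V.precomp t (Category.comp_id t) p

theorem AbVar.precomp_constPt (p : V.Pt (𝟙 (Spec (CommRingCat.of K)))) {T T' : Scheme.{u}}
    {t : T ⟶ Spec (CommRingCat.of K)} {t' : T' ⟶ Spec (CommRingCat.of K)} (ψ : T' ⟶ T)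
    (h : ψ ≫ t = t') : V.precomp ψ h (V.constPt p t) = V.constPt p t' := by
  refine V.ptExt ?_
  simp only [AbVar.constPt, AbVar.hom_precomp, ← h, Category.assoc]

theorem AbVar.precomp_self {T : Scheme.{u}} {t : T ⟶ Spec (CommRingCat.of K)} (x : V.Pt t) :
    V.precomp (V.hom x) (V.hom_str x) V.self = x :=
  V.ptExt (Category.comp_id _)

/-- Translation is an isomorphism. -/
theorem AbVar.isIso_translate (p : V.Pt (𝟙 (Spec (CommRingCat.of K)))) :
    IsIso (V.hom (V.self - V.constPt p V.str)) := by
  set x := V.self - V.constPt p V.str with hx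
  set x' := V.self + V.constPt p V.str with hx'
  refine ⟨V.hom x', ?_, ?_⟩
  · rw [← V.hom_precomp (V.hom x) (V.hom_str x) x', hx', map_add, V.precomp_self,
      V.precomp_constPt, hx, sub_add_cancel]
    rfl
  · rw [← V.hom_precomp (V.hom x') (V.hom_str x') x, hx, map_sub, V.precomp_self,
      V.precomp_constPt, hx', add_sub_cancel_right]
    rfl

set_option maxHeartbeats 800000 in
/-- **A curve through a generic point and the origin.** -/
theorem joinHolds [IsAlgClosed K] (V : AbVar K) [IrreducibleSpace V.A] [IsIntegral V.A] :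
    JoinHolds V := by
  obtain ⟨U, hU, hgU, -⟩ :=
    exists_isAffineOpen_mem_and_subset (X := V.A) (x := genericPoint V.A) (U := ⊤) trivial
  haveI : Nonempty U := ⟨⟨_, hgU⟩⟩
  haveI : LocallyOfFiniteType (hU.fromSpec ≫ V.str) := inferInstance
  set k₀ : CommRingCat.of K ⟶ Γ(V.A, U) := Spec.preimage (hU.fromSpec ≫ V.str) with hk₀
  have hk : Spec.map k₀ = hU.fromSpec ≫ V.str := Spec.map_preimage _
  letI : Algebra K Γ(V.A, U) := k₀.hom.toAlgebra
  haveI hft : Algebra.FiniteType K Γ(V.A, U) := by
    have h1 : LocallyOfFiniteType (Spec.map k₀) := by rw [hk]; infer_instance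
    exact (HasRingHomProperty.Spec_iff (P := @LocallyOfFiniteType)).1 h1
  haveI := functionField_isFractionRing_of_isAffineOpen V.A U hU
  set M := AlgebraicClosure V.A.functionField
  letI : Algebra K M := ((algebraMap V.A.functionField M).comp
    ((algebraMap Γ(V.A, U) V.A.functionField).comp k₀.hom)).toAlgebra
  let ι : Γ(V.A, U) →ₐ[K] M :=
    { (algebraMap V.A.functionField M).comp (algebraMap Γ(V.A, U) V.A.functionField) with
      commutes' := fun _ => rfl }
  have hι : Function.Injective ι :=
    (algebraMap V.A.functionField M).injective.comp (IsFractionRing.injective _ _)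
  obtain ⟨F, _, _, ψ, P, Q, π, ν, hF, hψ, hπ, hν, hνinj, hroot, ⟨xP, hP1, hP2⟩, ⟨xQ, hQ1, hQ2⟩⟩ :=
    exists_join_field K Γ(V.A, U) M ι hι
  let pB : ∀ {T : Type u} [CommRing T] {i : K →+* T} (f : Γ(V.A, U) →+* T),
      f.comp k₀.hom = i → V.Pt (V.rng i) := fun {T} _ {i} f h =>
    V.mkPt (Spec.map (CommRingCat.ofHom f) ≫ hU.fromSpec) (by
      subst h; rw [Category.assoc, ← hk, ← Spec.map_comp]; rfl)
  have hnat : ∀ {R S : Type u} [CommRing R] [CommRing S] {i : K →+* R} {j : K →+* S}
      (f : Γ(V.A, U) →+* R) (h : f.comp k₀.hom = i) (χ : R →+* S) (hχ : χ.comp i = j),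
      V.ringMap χ hχ (pB f h) = pB (χ.comp f) (by rw [RingHom.comp_assoc, h, hχ]) := by
    intros
    refine V.ptExt ?_
    simp only [AbVar.ringMap, AbVar.hom_precomp, pB, AbVar.hom_mkPt, CommRingCat.ofHom_comp,
      Spec.map_comp, Category.assoc]
  let p : V.Pt (𝟙 (Spec (CommRingCat.of K))) :=
    V.mkPt (Spec.map (CommRingCat.ofHom π) ≫ hU.fromSpec) (by
      rw [Category.assoc, ← hk, ← Spec.map_comp, ← Spec.map_id]
      exact congrArg Spec.map (CommRingCat.hom_ext hπ))
  have hconst : ∀ {R : Type u} [CommRing R] (i : K →+* R),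
      pB (i.comp π) (by rw [RingHom.comp_assoc]; exact (congrArg i.comp hπ).trans i.comp_id) =
        V.constPt p (V.rng i) := by
    intro R _ i
    refine V.ptExt ?_
    simp only [AbVar.constPt, AbVar.hom_precomp, pB, p, AbVar.hom_mkPt, CommRingCat.ofHom_comp,
      Spec.map_comp, Category.assoc]
  let y₀ : V.Pt (V.fld M) := pB ν hν
  set τ := V.hom (V.self - V.constPt p V.str)
  haveI : IsIso τ := V.isIso_translate p
  let y : V.Pt (V.fld M) := y₀ - V.constPt p (V.fld M)
  have hy : V.hom y = Spec.map (CommRingCat.ofHom ν) ≫ (hU.fromSpec ≫ τ) := by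
    have e : V.precomp (V.hom y₀) (V.hom_str y₀) (V.self - V.constPt p V.str) = y := by
      rw [map_sub, V.precomp_self, V.precomp_constPt]
    rw [← e, AbVar.hom_precomp, ← Category.assoc]
    rfl
  have hgen : V.hom y (IsLocalRing.closedPoint M) = genericPoint V.A := by
    rw [hy]
    exact map_closedPoint_eq (hU.fromSpec ≫ τ) (CommRingCat.ofHom ν) hνinj
  refine ⟨M, inferInstance, inferInstance, inferInstance, y, hgen, ?_,
    F, inferInstance, inferInstance, pB ψ hψ - V.constPt p _, P, Q, hF, ?_, ?_⟩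
  · refine @isAlgebraic_of_forall V.A.functionField V.A.functionField M _ _ _
      ((ptFF (V.hom y) hgen).toAlgebra) _ _ fun a => ?_
    letI : Algebra V.A.functionField M := (ptFF (V.hom y) hgen).toAlgebra
    obtain ⟨b, c, -, rfl⟩ := IsFractionRing.div_surjective (A := Γ(V.A, U)) a
    have hint : ∀ b, IsAlgebraic V.A.functionField (ι b) := fun b => by
      obtain ⟨f, hf, hb⟩ := hroot b
      have hl : f.map ν ∈ Polynomial.lifts (ptFF (V.hom y) hgen) :=
        (Polynomial.lifts_iff_coeff_lifts _).2 fun k => by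
          rw [Polynomial.coeff_map]
          exact mem_range_ptFF (hU.fromSpec ≫ τ) (CommRingCat.ofHom ν) _ hy hgen _
      obtain ⟨f', hf', -, hm⟩ := Polynomial.lifts_and_degree_eq_and_monic hl (hf.map _)
      refine IsIntegral.isAlgebraic ⟨f', hm, ?_⟩
      rw [← Polynomial.eval_map]
      show (f'.map (ptFF (V.hom y) hgen)).eval (ι b) = 0
      rw [hf', Polynomial.eval_map, hb]
    rw [map_div₀]
    exact ((hint b).mul (hint c).inv)
  · have hx : xP.comp k₀.hom = (placeHom P).comp (algebraMap K M) :=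
      RingHom.ext fun a => Subtype.ext
        ((RingHom.congr_fun hP1 (k₀.hom a)).trans (RingHom.congr_fun hψ a))
    refine ⟨pB xP hx - V.constPt p _, ?_, ?_⟩
    · rw [map_sub, hnat _ hx]
      exact congrArg₂ _ (V.ptExt (by simp only [hP1]; rfl)) (V.precomp_constPt p _ _)
    · rw [map_sub, hnat _ hx, map_zero]
      refine sub_eq_zero.2 (Eq.trans ?_ (V.precomp_constPt p _ _).symm)
      refine Eq.trans (V.ptExt ?_) (hconst (((IsLocalRing.residue P.toValuationSubring).comp
        (placeHom P)).comp (algebraMap K M)))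
      simp only [pB, AbVar.hom_mkPt]
      rw [hP2]
      rfl
  · have hx : xQ.comp k₀.hom = (placeHom Q).comp (algebraMap K M) :=
      RingHom.ext fun a => Subtype.ext
        ((RingHom.congr_fun hQ1 (k₀.hom a)).trans (RingHom.congr_fun hψ a))
    refine ⟨pB xQ hx - V.constPt p _, ?_, ?_⟩
    · rw [map_sub, hnat _ hx]
      exact congrArg₂ _ (V.ptExt (by simp only [hQ1]; rfl)) (V.precomp_constPt p _ _)
    · rw [map_sub, hnat _ hx, map_sub (V.ringMap _ _) y₀]
      refine congrArg₂ _ ?_ ((V.precomp_constPt p _ _).trans (V.precomp_constPt p _ _).symm)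
      rw [hnat _ hν]
      refine V.ptExt ?_
      simp only [pB, AbVar.hom_mkPt]
      rw [hQ2]
      rfl

end FA.AbTors

end
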