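import Fermat.Agent.AbTors.LocalCoord
import Mathlib.AlgebraicGeometry.Morphisms.Smooth
import Mathlib.AlgebraicGeometry.Morphisms.UniversallyOpen
import Mathlib.AlgebraicGeometry.AlgClosed.Basic
import Mathlib.AlgebraicGeometry.PullbackCarrier
import Mathlib.AlgebraicGeometry.FunctionField
import Mathlib.RingTheory.Jacobson.Ring

/-!
# Smooth varieties are locally integral

The stalks of a smooth scheme over an algebraically closed field are domains; connected ones are
integral, and so are products of such.
-/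

set_option autoImplicit false
set_option linter.style.haveILetI false
set_option linter.unusedSectionVars false

noncomputable section

universe u

open CategoryTheory CategoryTheory.Limits AlgebraicGeometry

namespace FA.AbTors.Loc

section Algebra

variable {K A : Type u} [Field K] [IsAlgClosed K] [CommRing A] [Algebra K A]

/-- A maximal ideal above a prime is the ideal of a point. -/
theorem exists_ev_of_prime [Algebra.FiniteType K A] (p : Ideal A) [p.IsPrime] :
    ∃ ev : A →ₐ[K] K, p ≤ RingHom.ker ev := by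
  obtain ⟨m, hm, hpm⟩ := p.exists_le_maximal Ideal.IsPrime.ne_top'
  letI := Ideal.Quotient.field m
  haveI : Algebra.FiniteType K (A ⧸ m) :=
    Algebra.FiniteType.of_surjective (Ideal.Quotient.mkₐ K m) (Ideal.Quotient.mkₐ_surjective K m)
  haveI : Module.Finite K (A ⧸ m) := finite_of_finite_type_of_isJacobsonRing K (A ⧸ m)
  let e : K ≃ₐ[K] A ⧸ m := AlgEquiv.ofBijective (Algebra.ofId K (A ⧸ m))
    IsAlgClosed.algebraMap_bijective_of_isIntegral
  refine ⟨e.symm.toAlgHom.comp (Ideal.Quotient.mkₐ K m), fun x hx => ?_⟩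
  show e.symm (Ideal.Quotient.mk m x) = 0
  rw [Ideal.Quotient.eq_zero_iff_mem.2 (hpm hx), map_zero]

variable [Algebra.IsStandardSmooth K A]

/-- A standard smooth algebra has a relative dimension. -/
theorem exists_relativeDimension :
    ∃ g, Algebra.IsStandardSmoothOfRelativeDimension g K A := by
  obtain ⟨ι, σ, _, hι, ⟨P⟩⟩ := Algebra.IsStandardSmooth.out (R := K) (S := A)
  exact ⟨P.dimension, ⟨ι, σ, inferInstance, hι, P, rfl⟩⟩

theorem isNoetherianRing_of_smooth (L : Type u) [Field L] [Algebra L A]
    [Algebra.IsStandardSmooth L A] : IsNoetherianRing A :=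
  Algebra.FiniteType.isNoetherianRing L A

/-- Near a point one of two factors of zero vanishes. -/
theorem exists_mul_eq_zero_or (ev : A →ₐ[K] K) {a b : A} (h : a * b = 0) :
    ∃ t, ev t ≠ 0 ∧ (t * a = 0 ∨ t * b = 0) := by
  haveI := isNoetherianRing_of_smooth K (A := A)
  obtain ⟨g, hg⟩ := exists_relativeDimension (K := K) (A := A)
  obtain ⟨f, hf⟩ := exists_isCoord g ev
  rcases forall_mem_pow_or hf (a := a) (b := b) fun n => h ▸ zero_mem _ with ha | hb
  · obtain ⟨t, ht, hta⟩ := exists_mul_mem_of_forall_mem (ev := ev) (I := ⊥) (x := a)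
      fun n => Ideal.mem_sup_right (ha n)
    exact ⟨t, ht, Or.inl hta⟩
  · obtain ⟨t, ht, htb⟩ := exists_mul_mem_of_forall_mem (ev := ev) (I := ⊥) (x := b)
      fun n => Ideal.mem_sup_right (hb n)
    exact ⟨t, ht, Or.inr htb⟩

/-- The local rings of a standard smooth algebra are domains. -/
theorem isDomain_atPrime (L : Type u) [Field L] [IsAlgClosed L] [Algebra L A]
    [Algebra.IsStandardSmooth L A] (p : Ideal A) [p.IsPrime] (R : Type*) [CommRing R] [Algebra A R]
    [IsLocalization.AtPrime R p] : IsDomain R := by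
  haveI := IsLocalization.AtPrime.isLocalRing R p
  suffices NoZeroDivisors R from NoZeroDivisors.to_isDomain R
  refine ⟨fun {x y} hxy => ?_⟩
  obtain ⟨⟨a, s⟩, hx⟩ := IsLocalization.surj p.primeCompl x
  obtain ⟨⟨b, t⟩, hy⟩ := IsLocalization.surj p.primeCompl y
  have hab : algebraMap A R (a * b) = algebraMap A R 0 := by
    rw [map_mul, ← hx, ← hy, map_zero, mul_mul_mul_comm, hxy, zero_mul]
  obtain ⟨w, hw⟩ := (IsLocalization.eq_iff_exists p.primeCompl R).1 hab
  rw [mul_zero, ← mul_assoc] at hw
  obtain ⟨ev, hev⟩ := exists_ev_of_prime (K := L) p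
  obtain ⟨c, hc, hc'⟩ := exists_mul_eq_zero_or ev hw
  have hcp : c ∈ p.primeCompl := fun h => hc (hev h)
  rcases hc' with h | h
  · left
    refine (IsLocalization.map_units R s).mul_left_eq_zero.1 ?_
    rw [hx, ← map_zero (algebraMap A R), IsLocalization.eq_iff_exists p.primeCompl R]
    exact ⟨⟨c, hcp⟩ * w, by simpa [mul_assoc] using h⟩
  · right
    refine (IsLocalization.map_units R t).mul_left_eq_zero.1 ?_
    rw [hy, ← map_zero (algebraMap A R), IsLocalization.eq_iff_exists p.primeCompl R]
    exact ⟨⟨c, hcp⟩, by simpa using h⟩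

end Algebra

variable {K : Type u} [Field K] {X : Scheme.{u}} (s : X ⟶ Spec (CommRingCat.of K))

/-- The structure of an algebra on the functions on an open. -/
abbrev sectionsHom (U : X.Opens) : K →+* Γ(X, U) :=
  ((Scheme.ΓSpecIso (CommRingCat.of K)).inv ≫ s.appLE ⊤ U (by simp)).hom

/-- Smooth charts. -/
theorem exists_chart [Smooth s] (x : X) : ∃ (U : X.Opens), IsAffineOpen U ∧ x ∈ U ∧
    letI := (sectionsHom s U).toAlgebra
    Algebra.IsStandardSmooth K Γ(X, U) := by
  obtain ⟨W, hW, U, hU, hx, e, hf⟩ := Smooth.exists_isStandardSmooth s x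
  have hW' : W = ⊤ := by
    ext y
    simp only [TopologicalSpace.Opens.coe_top, Set.mem_univ, iff_true, SetLike.mem_coe]
    rw [Subsingleton.elim y (s x)]
    exact e hx
  subst hW'
  refine ⟨U, hU, hx, ?_⟩
  exact RingHom.isStandardSmooth_respectsIso.right (s.appLE ⊤ U e).hom
    (Scheme.ΓSpecIso (CommRingCat.of K)).symm.commRingCatIsoToRingEquiv hf

variable [IsAlgClosed K]

include s in
/-- The stalks of a smooth scheme are domains. -/
theorem isDomain_stalk [Smooth s] (x : X) : IsDomain (X.presheaf.stalk x) := by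
  obtain ⟨U, hU, hx, hs⟩ := exists_chart s x
  letI := (sectionsHom s U).toAlgebra
  letI : Algebra Γ(X, U) (X.presheaf.stalk x) := TopCat.Presheaf.algebra_section_stalk X.presheaf ⟨x, hx⟩
  haveI := hU.isLocalization_stalk ⟨x, hx⟩
  exact isDomain_atPrime K (hU.primeIdealOf ⟨x, hx⟩).asIdeal _

include s in
theorem isReduced_of_smooth [Smooth s] : IsReduced X := by
  haveI : ∀ x : X, _root_.IsReduced (X.presheaf.stalk x) := fun x => by
    haveI := isDomain_stalk s x
    infer_instance
  exact isReduced_of_isReduced_stalk X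

include s in
/-- Every point of a smooth scheme has an irreducible neighbourhood. -/
theorem exists_irreducible_nhd [Smooth s] (x : X) :
    ∃ O : Set X, IsOpen O ∧ x ∈ O ∧ IsPreirreducible O := by
  classical
  obtain ⟨U, hU, hx, hs⟩ := exists_chart s x
  letI := (sectionsHom s U).toAlgebra
  haveI := isNoetherianRing_of_smooth K (A := Γ(X, U))
  letI : Algebra Γ(X, U) (X.presheaf.stalk x) := TopCat.Presheaf.algebra_section_stalk X.presheaf ⟨x, hx⟩
  haveI := hU.isLocalization_stalk ⟨x, hx⟩
  haveI := isDomain_stalk s x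
  set p := hU.primeIdealOf ⟨x, hx⟩ with hp
  let q : Ideal Γ(X, U) := RingHom.ker (algebraMap Γ(X, U) (X.presheaf.stalk x))
  haveI : q.IsPrime := RingHom.ker_isPrime _
  obtain ⟨T, hT⟩ := IsNoetherian.noetherian q
  have hkill : ∀ r ∈ T, ∃ t ∈ p.asIdeal.primeCompl, t * r = 0 := by
    intro r hr
    have h : algebraMap Γ(X, U) (X.presheaf.stalk x) r =
        algebraMap Γ(X, U) (X.presheaf.stalk x) 0 := by
      rw [map_zero, ← RingHom.mem_ker]
      exact (SetLike.ext_iff.1 hT r).1 (Submodule.subset_span hr)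
    obtain ⟨t, ht⟩ := (IsLocalization.eq_iff_exists p.asIdeal.primeCompl _).1 h
    exact ⟨t, t.2, by simpa using ht⟩
  choose! t htp htr using hkill
  let w := ∏ r ∈ T, t r
  have hw : w ∈ p.asIdeal.primeCompl := prod_mem htp
  have hwq : ∀ r ∈ q, w * r = 0 := by
    intro r hr
    rw [← hT] at hr
    induction hr using Submodule.span_induction with
    | mem r hr =>
      rw [show w = (∏ i ∈ T.erase r, t i) * t r from (Finset.prod_erase_mul _ _ hr).symm,
        mul_assoc, htr r hr, mul_zero]
    | zero => rw [mul_zero]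
    | add a b _ _ ha hb => rw [mul_add, ha, hb, add_zero]
    | smul c a _ ha => rw [smul_eq_mul, mul_left_comm, ha, mul_zero]
  refine ⟨hU.fromSpec '' ((PrimeSpectrum.basicOpen w : TopologicalSpace.Opens (PrimeSpectrum Γ(X, U))) : Set (PrimeSpectrum Γ(X, U))),
    hU.fromSpec.isOpenEmbedding.isOpenMap _ (PrimeSpectrum.basicOpen w).2,
    ⟨p, hw, hU.fromSpec_primeIdealOf ⟨x, hx⟩⟩, ?_⟩
  refine IsPreirreducible.image ?_ _ hU.fromSpec.continuous.continuousOn
  have hsub : ((PrimeSpectrum.basicOpen w : TopologicalSpace.Opens (PrimeSpectrum Γ(X, U))) : Set (PrimeSpectrum Γ(X, U))) ⊆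
      PrimeSpectrum.zeroLocus (q : Set Γ(X, U)) := by
    intro P hP r hr
    have h0 : w * r ∈ P.asIdeal := by rw [hwq r hr]; exact zero_mem _
    exact (P.2.mem_or_mem h0).resolve_left hP
  have hirr : IsPreirreducible (PrimeSpectrum.zeroLocus (q : Set Γ(X, U))) := by
    refine IsIrreducible.isPreirreducible ((PrimeSpectrum.isIrreducible_zeroLocus_iff _).2 ?_)
    rwa [Ideal.IsPrime.radical ‹q.IsPrime›]
  exact hirr.open_subset (PrimeSpectrum.basicOpen w).2 hsub

include s in
/-- A connected smooth scheme is integral. -/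
theorem isIntegral_of_connected [Smooth s] [ConnectedSpace X] : IsIntegral X := by
  haveI := isReduced_of_smooth s
  obtain ⟨x₀⟩ := (inferInstance : Nonempty X)
  let C := irreducibleComponent x₀
  have hCopen : IsOpen C := by
    rw [isOpen_iff_forall_mem_open]
    intro x hx
    obtain ⟨O, hO, hxO, hirr⟩ := exists_irreducible_nhd s x
    refine ⟨O, ?_, hO, hxO⟩
    have hne : (C ∩ O).Nonempty := ⟨x, hx, hxO⟩
    have hC : C ⊆ closure O :=
      (subset_closure_inter_of_isPreirreducible_of_isOpen
        isIrreducible_irreducibleComponent.isPreirreducible hO hne).trans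
        (closure_mono Set.inter_subset_right)
    exact subset_closure.trans_eq
      (eq_irreducibleComponent hirr.closure hC)
  have huniv : C = Set.univ :=
    IsClopen.eq_univ ⟨isClosed_irreducibleComponent, hCopen⟩ ⟨x₀, mem_irreducibleComponent⟩
  haveI : PreirreducibleSpace X :=
    ⟨huniv ▸ isIrreducible_irreducibleComponent.isPreirreducible⟩
  haveI : IrreducibleSpace X := ⟨inferInstance⟩
  exact isIntegral_of_irreducibleSpace_of_isReduced X

variable {Y : Scheme.{u}} (t : Y ⟶ Spec (CommRingCat.of K))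

/-- A product of irreducible varieties is irreducible. -/
theorem irreducibleSpace_pullback [LocallyOfFiniteType t] [Flat s] [LocallyOfFinitePresentation s]
    [IrreducibleSpace X] [IrreducibleSpace Y] : IrreducibleSpace (pullback s t : Scheme.{u}) := by
  haveI := LocallyOfFiniteType.jacobsonSpace t
  haveI : UniversallyOpen s := inferInstance
  have hopen : IsOpenMap (pullback.snd s t) := (pullback.snd s t).isOpenMap
  haveI : Nonempty (pullback s t : Scheme.{u}) := by
    obtain ⟨x⟩ := (inferInstance : Nonempty X)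
    obtain ⟨y⟩ := (inferInstance : Nonempty Y)
    obtain ⟨z, -, -⟩ := Scheme.Pullback.exists_preimage_pullback (f := s) (g := t) x y
      (Subsingleton.elim _ _)
    exact ⟨z⟩
  haveI : PreirreducibleSpace (pullback s t : Scheme.{u}) := by
    refine ⟨fun U V hU hV hU' hV' => ?_⟩
    rw [Set.univ_inter] at hU' hV' ⊢
    have h := (PreirreducibleSpace.isPreirreducible_univ (X := Y)) _ _ (hopen _ hU) (hopen _ hV)
      (by simpa using hU') (by simpa using hV')
    rw [Set.univ_inter] at h
    obtain ⟨y, hy, hyc⟩ := nonempty_inter_closedPoints h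
      ((hopen _ hU).inter (hopen _ hV)).isLocallyClosed
    let η := (pointEquivClosedPoint t).symm ⟨y, hyc⟩
    have hη : η.1 (IsLocalRing.closedPoint K) = y :=
      congrArg Subtype.val ((pointEquivClosedPoint t).apply_symm_apply ⟨y, hyc⟩)
    let j : X ⟶ pullback s t := pullback.lift (𝟙 X) (s ≫ η.1) (by
      rw [Category.assoc, η.2, Category.id_comp, Category.comp_id])
    have hsec : 𝟙 (Spec (CommRingCat.of K)) ≫ 𝟙 _ = η.1 ≫ t := by rw [η.2, Category.comp_id]
    let m : pullback s (𝟙 _) ⟶ pullback s t := pullback.map s (𝟙 _) s t (𝟙 _) η.1 (𝟙 _)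
      (by rw [Category.id_comp, Category.comp_id]) hsec
    have hm : pullback.fst s (𝟙 _) ≫ j = m := by
      apply pullback.hom_ext
      · simp only [j, m, Category.assoc, pullback.lift_fst, pullback.map, Category.comp_id]
      · simp only [j, m, Category.assoc, pullback.lift_snd]
        rw [← Category.assoc, pullback.condition, Category.comp_id]
    have hfib : ∀ z : (pullback s t : Scheme.{u}), pullback.snd s t z = y → ∃ x, j x = z := by
      intro z hz
      have hr := Scheme.Pullback.range_map s (𝟙 _) s t (𝟙 _) η.1 (𝟙 (Spec (CommRingCat.of K)))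
        (by rw [Category.id_comp, Category.comp_id]) hsec
      have hzm : z ∈ Set.range m := by
        rw [show Set.range m = _ from hr]
        exact ⟨⟨_, rfl⟩, ⟨IsLocalRing.closedPoint K, hη.trans hz.symm⟩⟩
      obtain ⟨w, rfl⟩ := hzm
      exact ⟨pullback.fst s (𝟙 _) w, by rw [← Scheme.Hom.comp_apply, hm]⟩
    have hne : ∀ W : Set (pullback s t : Scheme.{u}), y ∈ pullback.snd s t '' W →
        (j ⁻¹' W).Nonempty := by
      rintro W ⟨z, hzW, hzy⟩
      obtain ⟨x, rfl⟩ := hfib z hzy
      exact ⟨x, hzW⟩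
    obtain ⟨x, hx⟩ := nonempty_preirreducible_inter (hU.preimage j.continuous)
      (hV.preimage j.continuous) (hne U hy.1) (hne V hy.2)
    exact ⟨j x, hx.1, hx.2⟩
  exact ⟨inferInstance⟩

end FA.AbTors.Loc

end
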