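import Fermat.Agent.AbTors.Defs
import Fermat.Agent.AbTors.LocalStalk

/-!
# An abelian variety and its cube are integral
-/

set_option autoImplicit false
set_option linter.style.haveILetI false

noncomputable section

universe u

open CategoryTheory CategoryTheory.Limits AlgebraicGeometry

namespace FA.AbTors

variable {K : Type u} [Field K] (V : AbVar K)

theorem AbVar.connectedSpace : ConnectedSpace V.A := by
  have h := V.prop.connectedFibres (IsLocalRing.closedPoint K)
  have e : V.str ⁻¹' {IsLocalRing.closedPoint K} = Set.univ :=
    Set.eq_univ_of_forall fun a => Subsingleton.elim (α := PrimeSpectrum K) _ _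
  replace h : _root_.IsConnected (Set.univ : Set V.A) := e ▸ h
  exact connectedSpace_iff_univ.2 h

theorem integralHolds [IsAlgClosed K] (V : AbVar K) : IntegralHolds V := by
  haveI := V.connectedSpace
  haveI hA : IsIntegral V.A := Loc.isIntegral_of_connected V.str
  refine ⟨hA, ?_⟩
  haveI : IrreducibleSpace V.A2 := Loc.irreducibleSpace_pullback V.str V.str
  haveI : Smooth V.str2 := inferInstance
  haveI : IrreducibleSpace V.A3 := Loc.irreducibleSpace_pullback V.str2 V.str
  haveI : Smooth V.str3 := inferInstance
  haveI := Loc.isReduced_of_smooth V.str3
  exact isIntegral_of_irreducibleSpace_of_isReduced _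

end FA.AbTors

end
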