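import Fermat.Agent.AbTors.LocalPrime
import Fermat.Agent.AbTors.Defs
import Mathlib.RingTheory.UniqueFactorizationDomain.Kaplansky

/-!
# The local rings of smooth varieties are factorial
-/

set_option autoImplicit false
set_option linter.style.haveILetI false

noncomputable section

universe u

open CategoryTheory AlgebraicGeometry

namespace FA.AbTors

variable {K : Type u} [Field K] [IsAlgClosed K]

/-- The localisations of a smooth domain at its primes are factorial. -/
theorem Loc.factorial_atPrime {A : Type u} [CommRing A] [IsDomain A] [Algebra K A]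
    [Algebra.IsStandardSmooth K A] (p : Ideal A) [p.IsPrime] (R : Type u) [CommRing R] [IsDomain R]
    [Algebra A R] [IsLocalization.AtPrime R p] : UniqueFactorizationMonoid R := by
  haveI := Loc.isNoetherianRing_of_smooth K (A := A)
  obtain ⟨g, hg⟩ := Loc.exists_relativeDimension (K := K) (A := A)
  obtain ⟨ev, hev⟩ := Loc.exists_ev_of_prime (K := K) p
  rw [UniqueFactorizationMonoid.iff_exists_prime_mem_of_isPrime]
  intro Q hQ0 hQ
  have hinj : Function.Injective (algebraMap A R) :=
    IsLocalization.injective R p.primeCompl_le_nonZeroDivisors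
  set Q₀ := Q.comap (algebraMap A R) with hQ₀
  obtain ⟨hQ₀p, hdis⟩ := (IsLocalization.isPrime_iff_isPrime_disjoint p.primeCompl R Q).1 hQ
  have hQ₀le : Q₀ ≤ p := fun y hy => by
    by_contra hyp
    exact Set.disjoint_left.1 hdis (show y ∈ p.primeCompl from hyp) hy
  have hQ₀0 : Q₀ ≠ ⊥ := fun h => hQ0 (by
    rw [← IsLocalization.map_under p.primeCompl R Q, show Q.under A = ⊥ from h, Ideal.map_bot])
  obtain ⟨a, ha, ha0⟩ := Submodule.exists_mem_ne_zero_of_ne_bot hQ₀0
  obtain ⟨P, hP, hPQ⟩ :=
    Ideal.exists_minimalPrimes_le (J := Q₀) ((Ideal.span_singleton_le_iff_mem Q₀).2 ha)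
  obtain ⟨h, hhP, hh0, hgen⟩ :=
    Loc.exists_generator g ev ha0 hP (hPQ.trans (hQ₀le.trans hev))
  refine ⟨algebraMap A R h, hPQ hhP,
    (Ideal.span_singleton_prime ((map_ne_zero_iff _ hinj).2 hh0)).1 ?_⟩
  haveI : P.IsPrime := hP.1.1
  have hPp : Disjoint (p.primeCompl : Set A) P :=
    Set.disjoint_left.2 fun y hy hy' => hy (hQ₀le (hPQ hy'))
  convert IsLocalization.isPrime_of_isPrime_disjoint p.primeCompl R P inferInstance hPp using 1
  refine le_antisymm ((Ideal.span_singleton_le_iff_mem _).2 (Ideal.mem_map_of_mem _ hhP))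
    (Ideal.map_le_iff_le_comap.2 fun r hr => ?_)
  obtain ⟨t, ht, htr⟩ := hgen r hr
  obtain ⟨w, hw⟩ := Ideal.mem_span_singleton.1 htr
  have htu : IsUnit (algebraMap A R t) :=
    IsLocalization.map_units R (⟨t, fun htp => ht (hev htp)⟩ : p.primeCompl)
  rw [Ideal.mem_comap, Ideal.mem_span_singleton, ← htu.dvd_mul_left, ← map_mul, hw, map_mul]
  exact dvd_mul_right _ _

theorem factorialStalks : FactorialStalks K := by
  intro X s _ _ x
  obtain ⟨U, hU, hx, hs⟩ := Loc.exists_chart s x
  letI := (Loc.sectionsHom s U).toAlgebra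
  haveI : Nonempty U := ⟨⟨x, hx⟩⟩
  letI : Algebra Γ(X, U) (X.presheaf.stalk x) :=
    TopCat.Presheaf.algebra_section_stalk X.presheaf ⟨x, hx⟩
  haveI := hU.isLocalization_stalk ⟨x, hx⟩
  haveI := Loc.isDomain_stalk s x
  exact Loc.factorial_atPrime (K := K) (hU.primeIdealOf ⟨x, hx⟩).asIdeal _

end FA.AbTors

end
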