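import Fermat.Agent.AbTors.Defs

/-!
# Pullback of a symmetric class by multiplication by `n`

From the theorem of the cube, up to torsion.
-/

set_option autoImplicit false

noncomputable section

universe u

open CategoryTheory CategoryTheory.Limits AlgebraicGeometry NeronModelInfra GoodReductionJacobian

namespace FA.AbTors

variable {K : Type u} [Field K] (V : AbVar K)

/-- A class vanishes on every triple of points if it does so on the projections. -/
theorem cube_eq_zero_of_proj {p : Pic V.A} {r : ℕ}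
    (h : r • V.cube p V.pr1 V.pr2 V.pr3 = 0) {T : Scheme.{u}}
    {t : T ⟶ Spec (CommRingCat.of K)} (a b c : V.Pt t) : r • V.cube p a b c = 0 := by
  let ψ₂ : T ⟶ V.A2 := pullback.lift (V.hom a) (V.hom b) (by rw [V.hom_str, V.hom_str])
  let ψ : T ⟶ V.A3 := pullback.lift ψ₂ (V.hom c) (by
    show ψ₂ ≫ pullback.fst V.str V.str ≫ V.str = V.hom c ≫ V.str
    rw [pullback.lift_fst_assoc, V.hom_str, V.hom_str])
  have hψ : ψ ≫ V.str3 = t := by
    rw [AbVar.str3, pullback.lift_fst_assoc, AbVar.str2, pullback.lift_fst_assoc, V.hom_str]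
  have ha : V.precomp ψ hψ V.pr1 = a := V.ptExt (by
    rw [AbVar.hom_precomp, AbVar.pr1, AbVar.hom_mkPt, pullback.lift_fst_assoc, pullback.lift_fst])
  have hb : V.precomp ψ hψ V.pr2 = b := V.ptExt (by
    rw [AbVar.hom_precomp, AbVar.pr2, AbVar.hom_mkPt, pullback.lift_fst_assoc, pullback.lift_snd])
  have hc : V.precomp ψ hψ V.pr3 = c := V.ptExt (by
    rw [AbVar.hom_precomp, AbVar.pr3, AbVar.hom_mkPt, pullback.lift_snd])
  have h' := congrArg (Pic.pull ψ) h
  rwa [map_nsmul, map_zero, V.pull_cube p ψ hψ, ha, hb, hc] at h'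

/-- Pullback along a point of a scheme over `K` of a class which vanishes on the base. -/
theorem pull_zero_nsmul {p : Pic V.A} {r : ℕ} {T : Scheme.{u}}
    {t : T ⟶ Spec (CommRingCat.of K)}
    (h : r • Pic.pull (V.hom (0 : V.Pt (𝟙 (Spec (CommRingCat.of K))))) p = 0) :
    r • Pic.pull (V.hom (0 : V.Pt t)) p = 0 := by
  have h0 : t ≫ V.hom (0 : V.Pt (𝟙 (Spec (CommRingCat.of K)))) = V.hom (0 : V.Pt t) :=
    (V.hom_precomp t (Category.comp_id t) 0).symm.trans (congrArg V.hom (map_zero _))
  rw [← h0, ← Pic.pull_pull, ← map_nsmul, h, map_zero]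

theorem point_mem {T : Scheme.{u}} [Subsingleton T] (c : Coc T) (x : T) : c.U x = ⊤ :=
  TopologicalSpace.Opens.ext (Set.eq_univ_of_forall fun y => Subsingleton.elim x y ▸ c.mem x)

/-- Classes on the spectrum of a field vanish. -/
theorem pic_eq_zero_of_subsingleton {T : Scheme.{u}} [Subsingleton T] (p : Pic T) : p = 0 := by
  obtain ⟨c, rfl⟩ := Pic.mk_surjective p
  refine Pic.mk_eq_zero.mpr ⟨c.U, c.mem, fun _ => le_rfl, fun _ => 1, fun x y W hx hy => ?_⟩
  obtain rfl := Subsingleton.elim x y
  rw [c.at_self x, map_one, div_one]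

/-- The quadratic behaviour from the cube. -/
theorem quadraticHolds_of (hC : CubeTorsion V) : QuadraticHolds V := by
  intro p hp
  obtain ⟨r, hr, h⟩ := hC p
  refine ⟨r, hr, fun n => ?_⟩
  let z := fun m : ℤ => Pic.pull (V.hom (m • V.self)) p
  have hz1 : z 1 = p := by
    show Pic.pull (V.hom ((1 : ℤ) • V.self)) p = p
    rw [one_zsmul]
    exact Pic.pull_id p
  have hzm : z (-1) = p := by
    show Pic.pull (V.hom ((-1 : ℤ) • V.self)) p = p
    rw [neg_one_zsmul]
    exact hp
  have hz0 : r • z 0 = 0 := by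
    show r • Pic.pull (V.hom ((0 : ℤ) • V.self)) p = 0
    rw [zero_zsmul]
    refine pull_zero_nsmul V ?_
    haveI : Subsingleton (Spec (CommRingCat.of K)) :=
      inferInstanceAs (Subsingleton (PrimeSpectrum K))
    rw [pic_eq_zero_of_subsingleton (Pic.pull _ p), nsmul_zero]
  have step : ∀ m : ℤ, r • z (m + 1) + r • z (m - 1) = (2 * r) • z m + (2 * r) • p := by
    intro m
    have h3 := cube_eq_zero_of_proj V h (m • V.self) V.self (-V.self)
    have e1 : m • V.self + V.self + -V.self = m • V.self := add_neg_cancel_right _ _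
    have e2 : m • V.self + V.self = (m + 1) • V.self := by rw [add_zsmul, one_zsmul]
    have e3 : m • V.self + -V.self = (m - 1) • V.self := by
      rw [sub_zsmul, one_zsmul]
    rw [AbVar.cube, e1, e2, e3, add_neg_cancel] at h3
    simp only [show Pic.pull (V.hom V.self) p = p from Pic.pull_id p,
      show Pic.pull (V.hom (-V.self)) p = p from hp,
      show (0 : V.Pt V.str) = (0 : ℤ) • V.self from (zero_zsmul _).symm] at h3
    simp only [smul_add, smul_sub] at h3
    simp only [show ∀ k : ℤ, Pic.pull (V.hom (k • V.self)) p = z k from fun _ => rfl] at h3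
    rw [hz0] at h3
    rw [two_mul, add_nsmul, add_nsmul]
    linear_combination (norm := abel) -h3
  suffices key : ∀ n : ℕ, r • z n = (r * n ^ 2) • p ∧ r • z (n + 1) = (r * (n + 1) ^ 2) • p by
    have := (key n).1
    rwa [show z n = Pic.pull (V.mulHom n) p by
      show Pic.pull (V.hom (((n : ℕ) : ℤ) • V.self)) p = _
      rw [natCast_zsmul]; rfl] at this
  intro n
  induction n with
  | zero =>
    refine ⟨by simpa using hz0, ?_⟩
    simp [hz1]
  | succ n ih =>
    refine ⟨?_, ?_⟩
    · exact_mod_cast ih.2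
    · have h1 := step (n + 1)
      have h0 : (2 * r) • z ((n : ℤ) + 1) = (2 * (r * (n + 1) ^ 2)) • p := by
        rw [mul_nsmul', ih.2, ← mul_nsmul']
      rw [add_sub_cancel_right, ih.1, h0] at h1
      have e : r * (n + 1 + 1) ^ 2 + r * n ^ 2 = 2 * (r * (n + 1) ^ 2) + 2 * r := by ring
      have h2 : r • z ((n : ℤ) + 1 + 1) + (r * n ^ 2) • p =
          (r * (n + 1 + 1) ^ 2) • p + (r * n ^ 2) • p := by
        rw [h1, ← add_nsmul, ← add_nsmul, e]
      exact_mod_cast add_right_cancel h2

end FA.AbTors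

end
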