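import Fermat.Agent.AbTors.Defs
import Fermat.Agent.PicTors.ExtClass
import Fermat.Agent.Curve.DualityGenus
import Mathlib.FieldTheory.SeparablyGenerated
import Mathlib.RingTheory.Trace.Basic

/-!
# Constant extensions in any characteristic: Riemann–Roch spaces and the genus

A function of `F L` regular outside the places that come from `F` lies in the `L`-span of `F`: its
traces down to `L(x)`, for a separating `x`, have their poles at points of `k`.
-/

set_option autoImplicit false
set_option linter.style.haveILetI false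
set_option linter.unusedSectionVars false

noncomputable section

universe u

namespace FA.AbTors

open AlgebraicCurve FA.Curve FA.PicTors FA.ModField IntermediateField Polynomial

section SepVar

variable {k F : Type*} [Field k] [Field F] [Algebra k F]

theorem essFiniteType_of_isFunctionField (hF : IsFunctionField k F) :
    Algebra.EssFiniteType k F := by
  classical
  obtain ⟨x, hx, hfin⟩ := hF
  haveI : Algebra.EssFiniteType k k⟮x⟯ :=
    IntermediateField.essFiniteType_iff.2 ⟨{x}, by simp⟩
  exact Algebra.EssFiniteType.comp k k⟮x⟯ F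

/-- A function field over a perfect field has a separating variable. -/
theorem exists_sepVar [PerfectField k] (hF : IsFunctionField k F) :
    ∃ x : F, Transcendental k x ∧ Algebra.IsSeparable k⟮x⟯ F := by
  classical
  haveI := essFiniteType_of_isFunctionField hF
  obtain ⟨s, hs, hsep⟩ := exists_isTranscendenceBasis_and_isSeparable_of_perfectField k F
  obtain ⟨x, hxs⟩ : s.Nonempty := by
    rw [Finset.nonempty_iff_ne_empty]
    rintro rfl
    haveI := hsep
    obtain ⟨x, hx, -⟩ := hF
    rw [Finset.coe_empty, IntermediateField.adjoin_empty] at hsep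
    haveI : Algebra.IsAlgebraic (⊥ : IntermediateField k F) F := inferInstance
    haveI : Algebra.IsAlgebraic k F :=
      Algebra.IsAlgebraic.trans k (⊥ : IntermediateField k F) F
    exact hx (Algebra.IsAlgebraic.isAlgebraic x)
  have hx : Transcendental k x := hs.1.transcendental ⟨x, hxs⟩
  have huniq : ∀ y ∈ s, y = x := by
    intro y hy
    by_contra hne
    have h1 := hs.1.transcendental_adjoin (s := {⟨x, hxs⟩}) (i := ⟨y, hy⟩) (by simpa using hne)
    rw [Set.image_singleton] at h1
    haveI := hF.finiteDimensional hx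
    open scoped algebraAdjoinAdjoin in
    exact h1 ((IsFractionRing.isAlgebraic_iff (Algebra.adjoin k ({x} : Set F)) k⟮x⟯ F).2
      (Algebra.IsAlgebraic.isAlgebraic y))
  have e : (s : Set F) = {x} := Set.eq_singleton_iff_unique_mem.2 ⟨hxs, huniq⟩
  rw [e] at hsep
  exact ⟨x, hx, hsep⟩

end SepVar

variable {k L F F' : Type*} [Field k] [Field L] [Field F] [Field F'] [Algebra k F] [Algebra L F']
  [IsAlgClosed k] [IsAlgClosed L] {i : k →+* L} {φ : F →+* F'} (h : IsExt i φ)

include h

/-- A basis over `k(x)` maps to a basis over `L(x)`. -/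
theorem exists_basis_map {x : F} (hx : Transcendental k x) {n : ℕ}
    (b : Module.Basis (Fin n) k⟮x⟯ F) :
    ∃ bL : Module.Basis (Fin n) L⟮φ x⟯ F', ∀ j, bL j = φ (b j) := by
  classical
  obtain ⟨hfin, hle⟩ := h.finite_and_finrank_le hx
  have hliA : LinearIndependent (Algebra.adjoin L ({φ x} : Set F')) fun j => φ (b j) := by
    rw [Fintype.linearIndependent_iff]
    intro a ha j
    have hex : ∀ j, ∃ p : L[X], aeval (φ x) p = (a j : F') := fun j =>
      (Algebra.adjoin_singleton_eq_range_aeval L (φ x)).le (a j).2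
    choose p hp using hex
    set N := (∑ j, (p j).natDegree) + 1 with hN
    have hxg : Transcendental k (IntermediateField.AdjoinSimple.gen k x) := fun halg =>
      hx (by simpa using halg.algebraMap (A := F))
    have hpow : LinearIndependent k fun m : Fin N =>
        IntermediateField.AdjoinSimple.gen k x ^ (m : ℕ) := by
      rw [Fintype.linearIndependent_iff]
      intro c hc m
      have h0 : aeval (IntermediateField.AdjoinSimple.gen k x)
          (∑ m : Fin N, C (c m) * X ^ (m : ℕ)) = 0 := by
        simp only [map_sum, map_mul, map_pow, aeval_C, aeval_X, ← Algebra.smul_def]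
        exact hc
      have h1 := congrArg (fun q : k[X] => q.coeff m)
        (transcendental_iff.1 hxg _ h0)
      simpa [Polynomial.coeff_X_pow, Fin.val_inj] using h1
    have hu := h.linearIndependent (linearIndependent_smul hpow b.linearIndependent)
    have hsum : ∑ q : Fin N × Fin n, (p q.2).coeff q.1 •
        φ (IntermediateField.AdjoinSimple.gen k x ^ (q.1 : ℕ) • b q.2) = 0 := by
      rw [Fintype.sum_prod_type, Finset.sum_comm]
      refine Eq.trans (Finset.sum_congr rfl fun j _ => ?_) ha
      rw [Subalgebra.smul_def, smul_eq_mul, ← hp j,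
        aeval_eq_sum_range' (Nat.lt_succ_of_le (Finset.single_le_sum
          (f := fun j => (p j).natDegree) (fun _ _ => Nat.zero_le _) (Finset.mem_univ j))),
        Finset.sum_mul]
      show _ = ∑ m ∈ Finset.range N, (p j).coeff m • φ x ^ m * φ (b j)
      rw [← Fin.sum_univ_eq_sum_range (fun m => (p j).coeff m • φ x ^ m * φ (b j)) N]
      refine Finset.sum_congr rfl fun m _ => ?_
      rw [IntermediateField.smul_def, smul_eq_mul, map_mul, smul_mul_assoc]
      simp
    have h0 := Fintype.linearIndependent_iff.1 hu (fun q => (p q.2).coeff q.1) hsum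
    refine Subtype.ext ?_
    rw [← hp j, show p j = 0 from Polynomial.ext fun m => ?_]
    · simp
    · rcases lt_or_ge m N with hm | hm
      · exact h0 (⟨m, hm⟩, j)
      · refine Polynomial.coeff_eq_zero_of_natDegree_lt (lt_of_lt_of_le ?_ hm)
        exact Nat.lt_succ_of_le (Finset.single_le_sum (f := fun j => (p j).natDegree)
          (fun _ _ => Nat.zero_le _) (Finset.mem_univ j))
  open scoped algebraAdjoinAdjoin in
  have hli : LinearIndependent L⟮φ x⟯ fun j => φ (b j) :=
    (LinearIndependent.iff_fractionRing (Algebra.adjoin L ({φ x} : Set F')) L⟮φ x⟯).1 hliA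
  haveI := hfin
  haveI := h.func.finiteDimensional hx
  have hcard : Fintype.card (Fin n) = Module.finrank L⟮φ x⟯ F' := by
    refine le_antisymm hli.fintype_card_le_finrank (hle.trans_eq ?_)
    rw [Module.finrank_eq_card_basis b]
  haveI : Nonempty (Fin n) := b.index_nonempty
  exact ⟨basisOfLinearIndependentOfCardEqFinrank hli hcard,
    fun j => by simp⟩

omit [IsAlgClosed k] [IsAlgClosed L] in
theorem map_smul_adj {x : F} (a : k⟮x⟯) (z : F) : φ (a • z) = h.adjHom x a • φ z := by
  rw [IntermediateField.smul_def, IntermediateField.smul_def, smul_eq_mul, smul_eq_mul, map_mul]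
  rfl

/-- The trace commutes with the extension of constants. -/
theorem trace_map {x : F} (hx : Transcendental k x) (z : F) :
    Algebra.trace L⟮φ x⟯ F' (φ z) = h.adjHom x (Algebra.trace k⟮x⟯ F z) := by
  classical
  haveI := h.func.finiteDimensional hx
  let b := Module.finBasis k⟮x⟯ F
  obtain ⟨bL, hbL⟩ := exists_basis_map h hx b
  rw [Algebra.trace_eq_matrix_trace bL, Algebra.trace_eq_matrix_trace b, Matrix.trace,
    Matrix.trace, map_sum]
  refine Finset.sum_congr rfl fun j _ => ?_
  simp only [Matrix.diag_apply, Algebra.leftMulMatrix_eq_repr_mul]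
  have e : φ z * bL j = ∑ m, h.adjHom x (b.repr (z * b j) m) • bL m := by
    conv_lhs => rw [hbL, ← map_mul, ← b.sum_repr (z * b j), map_sum]
    exact Finset.sum_congr rfl fun m _ => by rw [map_smul_adj h, hbL]
  rw [e, bL.repr_sum_self]

/-- Regularity away from a finite set of places of `k` can be cleared by a polynomial over `k`. -/
theorem exists_clear_map {x : F} (hx : Transcendental k x) {g : F'}
    (hg : ∀ P', (∀ R, P' ≠ h.up R) → AtLeast P' 0 g) :
    ∃ s : k[X], s ≠ 0 ∧ φ (aeval x s) * g ∈ regSub (K := L) (φ x) := by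
  classical
  have hF' := h.isFunctionField
  have hφx : φ x ≠ 0 := fun e => h.transcendental hx (e ▸ isAlgebraic_zero)
  set T := {P' ∈ (divOf hF' g).support | 0 ≤ P'.ord (φ x) ∧ P'.ord g < 0}
  have hval : ∀ P' : T, ∃ c : k, HasValue (P' : Place L F') (φ x) (i c) := by
    rintro ⟨P', hP'⟩
    obtain ⟨-, hfin, hneg⟩ := Finset.mem_filter.1 hP'
    obtain ⟨R, rfl⟩ : ∃ R, P' = h.up R := by
      by_contra hR
      push Not at hR
      rcases hg P' hR with rfl | h0
      · simp at hneg
      · omega
    rw [h.ord_up] at hfin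
    obtain ⟨c, hc⟩ := exists_hasValue h.func (Or.inr hfin : AtLeast R 0 x)
    exact ⟨c, h.hasValue_up hc⟩
  choose c hc using hval
  set e : T → ℕ := fun P' => ((P' : Place L F').ord g).natAbs
  refine ⟨∏ P' : T, (X - C (c P')) ^ e P', Finset.prod_ne_zero_iff.2
    fun P' _ => pow_ne_zero _ (X_sub_C_ne_zero _), fun P hP => ?_⟩
  rcases eq_or_ne g 0 with rfl | hg0
  · simp [atLeast_zero]
  simp only [map_prod, map_pow, map_sub, aeval_X, aeval_C, h.comm]
  have hfac : ∀ (S : Finset T), AtLeast P 0 (∏ P' ∈ S, (φ x - algebraMap L F' (i (c P'))) ^ e P') :=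
    fun S => atLeast_zero_iff_mem.2 (prod_mem fun P' _ => pow_mem
      (sub_mem (mem_place_of_ord_nonneg P hP) (P.algebraMap_mem' _)) _)
  by_cases hT : P ∈ T
  · rw [← Finset.prod_erase_mul _ _ (Finset.mem_univ (⟨P, hT⟩ : T)), mul_assoc]
    have h1 := (atLeast_pow (hc ⟨P, hT⟩) (e ⟨P, hT⟩)).mul (atLeast_ord (v := P) g)
    have h2 := (hfac (Finset.univ.erase ⟨P, hT⟩)).mul h1
    exact h2.mono (by simp only [e]; omega)
  · refine ((hfac Finset.univ).mul (?_ : AtLeast P 0 g)).mono (by norm_num)
    by_contra hneg
    rw [atLeast_iff hg0] at hneg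
    exact hT (Finset.mem_filter.2 ⟨Finsupp.mem_support_iff.2 (by rw [divOf_apply]; omega), hP,
      by omega⟩)

/-- The trace of a function regular at finite places is a polynomial. -/
theorem exists_trX_poly {x : F} (hx : Transcendental k x) {g : F'}
    (hg : g ∈ regSub (K := L) (φ x)) : ∃ p : L[X], trX L (φ x) g = aeval (φ x) p := by
  have hF' := h.isFunctionField
  have hx' := h.transcendental hx
  refine exists_poly hF' hx' (trX_mem _ _) fun P hP => ?_
  obtain ⟨c, hc⟩ := exists_hasValue hF' (Or.inr hP : AtLeast P 0 (φ x))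
  have hne : φ x - algebraMap L F' c ≠ 0 := fun h0 =>
    hx' (by rw [sub_eq_zero.1 h0]; exact isAlgebraic_algebraMap c)
  have hP' : 0 < P.ord (φ x - algebraMap L F' c) := by
    have := (atLeast_iff hne).1 hc
    omega
  have := atLeast_trX hF' hx' (adjoin_sub_eq (φ x) c) hP' 0 (g := g) fun w hw => by
    have h1 : AtLeast w 0 (φ x - algebraMap L F' c) := Or.inr hw.le
    have h2 := h1.add (atLeast_algebraMap c)
    rw [sub_add_cancel, atLeast_iff (fun e => hx' (by rw [e]; exact isAlgebraic_zero))] at h2
    exact (hg w h2).mono (by omega)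
  simpa using this

omit [IsAlgClosed k] [IsAlgClosed L] in
theorem span_mul_mem {z : F} {w : F'} (hw : w ∈ Submodule.span L (Set.range φ)) :
    φ z * w ∈ Submodule.span L (Set.range φ) := by
  induction hw using Submodule.span_induction with
  | mem w hw => obtain ⟨y, rfl⟩ := hw; exact Submodule.subset_span ⟨z * y, map_mul φ z y⟩
  | zero => simp
  | add a b _ _ ha hb => rw [mul_add]; exact add_mem ha hb
  | smul a w _ hw => rw [mul_smul_comm]; exact Submodule.smul_mem _ a hw

/-- A function is recovered from the traces of its products with a basis. -/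
theorem eq_sum_trX {x : F} (hx : Transcendental k x) [Algebra.IsSeparable k⟮x⟯ F] :
    ∃ (n : ℕ) (b d : Fin n → F), ∀ f : F', f = ∑ j, trX L (φ x) (f * φ (b j)) * φ (d j) := by
  classical
  haveI := h.func.finiteDimensional hx
  let b := Module.finBasis k⟮x⟯ F
  obtain ⟨bL, hbL⟩ := exists_basis_map h hx b
  let d := LinearMap.BilinForm.dualBasis (Algebra.traceForm k⟮x⟯ F)
    (traceForm_nondegenerate k⟮x⟯ F) b
  let T : F' →ₗ[L⟮φ x⟯] F' := ∑ j,
    ((Algebra.trace L⟮φ x⟯ F').comp (LinearMap.mulRight L⟮φ x⟯ (φ (b j)))).smulRight (φ (d j))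
  have hT : T = LinearMap.id := by
    refine bL.ext fun m => ?_
    simp only [T, LinearMap.sum_apply, LinearMap.smulRight_apply, LinearMap.comp_apply,
      LinearMap.mulRight_apply, LinearMap.id_apply, hbL, ← map_mul, trace_map h hx,
      ← map_smul_adj h, ← map_sum]
    congr 1
    conv_rhs => rw [← d.sum_repr (b m)]
    refine Finset.sum_congr rfl fun j _ => ?_
    rw [LinearMap.BilinForm.dualBasis_repr_apply, Algebra.traceForm_apply]
  refine ⟨_, b, d, fun f => ?_⟩
  conv_lhs => rw [← LinearMap.id_apply (R := L⟮φ x⟯) f, ← hT]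
  simp only [T, LinearMap.sum_apply, LinearMap.smulRight_apply, LinearMap.comp_apply,
    LinearMap.mulRight_apply]
  exact Finset.sum_congr rfl fun j _ => rfl

/-- Functions regular outside the places of `F` lie in the span of `F`. -/
theorem mem_span_map {f : F'} (hf : ∀ P', (∀ R, P' ≠ h.up R) → AtLeast P' 0 f) :
    f ∈ Submodule.span L (Set.range φ) := by
  classical
  obtain ⟨x, hx, hsep⟩ := exists_sepVar h.func
  haveI := hsep
  obtain ⟨n, b, d, hsum⟩ := eq_sum_trX h hx
  rw [hsum f]
  refine Submodule.sum_mem _ fun j _ => ?_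
  rw [mul_comm]
  refine span_mul_mem h ?_
  have hreg : ∀ P', (∀ R, P' ≠ h.up R) → AtLeast P' 0 (f * φ (b j)) := fun P' hP' => by
    simpa using (hf P' hP').mul (Or.inr (h.ord_eq_zero hP' _).ge : AtLeast P' 0 (φ (b j)))
  obtain ⟨s, hs, hgs⟩ := exists_clear_map h hx hreg
  obtain ⟨p, hp⟩ := exists_trX_poly h hx hgs
  have hmem : φ (aeval x s) ∈ L⟮φ x⟯ := h.map_mem x (aeval_mem x s)
  rw [trX_mul_of_mem hmem] at hp
  have hne : φ (aeval x s) ≠ 0 := (map_ne_zero φ).2 fun e => hs (transcendental_iff.1 hx s e)
  have e : trX L (φ x) (f * φ (b j)) = φ (aeval x s)⁻¹ * aeval (φ x) p := by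
    rw [← hp, map_inv₀, inv_mul_cancel_left₀ hne]
  rw [e, aeval_eq_sum_range (φ x) (p := p), Finset.mul_sum]
  refine Submodule.sum_mem _ fun m _ => span_mul_mem h ?_
  exact Submodule.smul_mem _ _ (Submodule.subset_span ⟨x ^ m, map_pow φ x m⟩)

/-- `L(pull D)` is spanned by `L(D)`, in any characteristic. -/
theorem riemannRochSpace_pull_le (D : Divisor k F) :
    riemannRochSpace (h.pull D) ≤ Submodule.span L (φ '' (riemannRochSpace D : Set F)) := by
  classical
  intro f hf
  rw [mem_riemannRochSpace] at hf
  have hspan : f ∈ Submodule.span L (Set.range φ) := mem_span_map h fun P' hP' => by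
    have := hf P'
    rwa [h.pull_of_notMem _ hP', neg_zero] at this
  obtain ⟨n, c, e, hsum⟩ : ∃ (n : ℕ) (c : Fin n → L) (e : Fin n → F),
      ∑ j, c j • φ (e j) = f := by
    obtain ⟨n, c, y, hy⟩ := Submodule.mem_span_set'.1 hspan
    choose e he using fun j => (y j).2
    exact ⟨n, c, e, by simpa only [he] using hy⟩
  letI : Algebra k L := i.toAlgebra
  set W := Submodule.span k (Set.range c) with hW
  haveI : Module.Finite k W := Module.Finite.span_of_finite k (Set.finite_range c)
  let a := Module.finBasis k W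
  set r : Fin n → Fin (Module.finrank k W) → k :=
    fun j m => a.repr ⟨c j, Submodule.subset_span ⟨j, rfl⟩⟩ m
  set u : Fin (Module.finrank k W) → F := fun m => ∑ j, algebraMap k F (r j m) * e j
  have hfu : ∑ m, (a m : L) • φ (u m) = f := by
    rw [← hsum]
    simp only [u, map_sum, Finset.smul_sum]
    rw [Finset.sum_comm]
    refine Finset.sum_congr rfl fun j _ => ?_
    have hc : c j = ∑ m, i (r j m) * (a m : L) := by
      have := congrArg (fun w : W => (w : L))
        (a.sum_repr ⟨c j, Submodule.subset_span ⟨j, rfl⟩⟩)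
      simp only [AddSubmonoidClass.coe_finsetSum, SetLike.val_smul, Algebra.smul_def] at this
      exact this.symm
    rw [hc, Finset.sum_smul]
    refine Finset.sum_congr rfl fun m _ => ?_
    rw [map_mul, h.comm, ← Algebra.smul_def, smul_smul, mul_comm]
  rw [← hfu]
  refine Submodule.sum_mem _ fun m _ => Submodule.smul_mem _ _ (Submodule.subset_span
    ⟨u m, mem_riemannRochSpace.2 fun R => ?_, rfl⟩)
  by_contra hbad
  obtain ⟨m₀, hm₀, hmin⟩ := ({m | u m ≠ 0} : Finset _).exists_min_image (fun m => R.ord (u m))
    ⟨m, Finset.mem_filter.2 ⟨Finset.mem_univ _, fun e0 => hbad (Or.inl e0)⟩⟩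
  have hu0 : u m₀ ≠ 0 := (Finset.mem_filter.1 hm₀).2
  have hlt : R.ord (u m₀) < -D R := by
    have h1 := hmin m (Finset.mem_filter.2 ⟨Finset.mem_univ _, fun e0 => hbad (Or.inl e0)⟩)
    simp only [AtLeast, not_or, not_le] at hbad
    exact lt_of_le_of_lt h1 hbad.2
  have hq : ∀ l, AtLeast R 0 (u l / u m₀) := fun l => by
    rcases eq_or_ne (u l) 0 with h0 | h0
    · simp [h0, atLeast_zero]
    · refine Or.inr ?_
      have := hmin l (Finset.mem_filter.2 ⟨Finset.mem_univ _, h0⟩)
      rw [div_eq_mul_inv, R.ord_mul h0 (inv_ne_zero hu0), R.ord_inv]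
      omega
  choose v hv using fun l => exists_hasValue h.func (hq l)
  have h1 : HasValue (h.up R) (∑ l, algebraMap L F' (a l : L) * φ (u l / u m₀))
      (∑ l, (a l : L) * i (v l)) := HasValue.finsetSum fun l _ => (h.hasValue_up (hv l)).smul _
  have h2 : HasValue (h.up R) (∑ l, algebraMap L F' (a l : L) * φ (u l / u m₀)) 0 := by
    rw [hasValue_zero_iff]
    have e2 : ∑ l, algebraMap L F' (a l : L) * φ (u l / u m₀) = f * φ (u m₀)⁻¹ := by
      rw [← hfu, Finset.sum_mul]
      refine Finset.sum_congr rfl fun l _ => ?_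
      rw [Algebra.smul_def, mul_assoc, ← map_mul, div_eq_mul_inv]
    rw [e2]
    have h3 := hf (h.up R)
    rw [h.pull_up] at h3
    exact (h3.mul (atLeast_ord (v := h.up R) (φ (u m₀)⁻¹))).mono (by
      rw [h.ord_up, R.ord_inv]; omega)
  have h4 : ∑ l, v l • (a l : L) = 0 := by
    rw [← h2.unique h1 |>.symm]
    exact Finset.sum_congr rfl fun l _ => by
      rw [Algebra.smul_def, mul_comm]
      rfl
  have h5 := Fintype.linearIndependent_iff.1
    (a.linearIndependent.map' W.subtype (Submodule.ker_subtype _)) v h4 m₀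
  have h6 : HasValue R (u m₀ / u m₀) 1 := by
    rw [div_self hu0]
    simpa using hasValue_algebraMap R (1 : k)
  exact one_ne_zero ((h6.unique (hv m₀)).trans h5)

/-- The dimension is unchanged, in any characteristic. -/
theorem ell_pull_eq (D : Divisor k F) : ell (h.pull D) = ell D := by
  refine le_antisymm ?_ (h.ell_le D)
  haveI := finite_riemannRochSpace h.func D
  let b := Module.finBasis k (riemannRochSpace D)
  have hsub : riemannRochSpace (h.pull D) ≤
      Submodule.span L (Set.range fun j => φ ((b j : riemannRochSpace D) : F)) := by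
    refine (riemannRochSpace_pull_le h D).trans (Submodule.span_le.2 ?_)
    rintro _ ⟨z, hz, rfl⟩
    have e := congrArg (fun w : riemannRochSpace D => (w : F)) (b.sum_repr ⟨z, hz⟩)
    simp only [AddSubmonoidClass.coe_finsetSum, SetLike.val_smul] at e
    rw [← e, SetLike.mem_coe, map_sum]
    refine Submodule.sum_mem _ fun j _ => ?_
    rw [Algebra.smul_def, map_mul, h.comm, ← Algebra.smul_def]
    exact Submodule.smul_mem _ _ (Submodule.subset_span ⟨j, rfl⟩)
  haveI : Module.Finite L (Submodule.span L
      (Set.range fun j => φ ((b j : riemannRochSpace D) : F))) :=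
    Module.Finite.span_of_finite L (Set.finite_range _)
  refine Int.ofNat_le.2 ((Submodule.finrank_mono hsub).trans ?_)
  exact (finrank_range_le_card (R := L) fun j => φ ((b j : riemannRochSpace D) : F)).trans
    (by simp)

/-- The genus is unchanged, in any characteristic. -/
theorem genus_map : FA.Curve.genus L F' = FA.Curve.genus k F := by
  haveI := infinite_places h.func
  obtain ⟨c, hc⟩ := exists_threshold h.func
  obtain ⟨c', hc'⟩ := exists_threshold h.isFunctionField
  obtain ⟨P⟩ := (inferInstance : Nonempty (Place k F))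
  set D : Divisor k F := Finsupp.single P (max c c')
  have hd : Divisor.degree D = max c c' := by
    rw [Divisor.degree_single, h.func.deg_eq_one]; simp
  have h1 := ell_pull_eq h D
  rw [hc _ (hd ▸ le_max_left _ _), hc' _ (by rw [h.degree_pull, hd]; exact le_max_right _ _),
    h.degree_pull] at h1
  omega

omit h in
/-- Constant extensions in any characteristic. -/
theorem extPullHolds : ExtPullHolds.{u} := by
  intro k L F F' _ _ _ _ _ _ _ _ i φ h
  exact ⟨genus_map h, riemannRochSpace_pull_le h⟩

end FA.AbTors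

end
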