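import Fermat.Agent.AbTors.RedFrame
import Fermat.Agent.AbTors.Ext

/-!
# Rigidity: the cube vanishes on the curve
-/

set_option autoImplicit false
set_option linter.style.haveILetI false

noncomputable section

universe u

open CategoryTheory CategoryTheory.Limits AlgebraicGeometry TopologicalSpace IsLocalRing
open NeronModelInfra GoodReductionJacobian AlgebraicCurve FA.Curve FA.PicTors FA.ModField

namespace FA.AbTors

variable {K : Type u} [Field K] [IsAlgClosed K] {V : AbVar K} [IsIntegral V.A] [IsIntegral V.A3]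

omit [IsAlgClosed K] in
theorem Divisor.eq_of_ell_one {L FL : Type u} [Field L] [Field FL] [Algebra L FL] [IsAlgClosed L]
    (_hF : IsFunctionField L FL) {D D' : Divisor L FL} (hell : ell D = 1) (hD : 0 ≤ D) (hD' : 0 ≤ D')
    (hcl : (QuotientAddGroup.mk D' : AlgebraicCurve.Pic L FL) = QuotientAddGroup.mk D) : D' = D := by
  obtain ⟨f, hf, hDf⟩ := QuotientAddGroup.eq_iff_sub_mem.1 hcl
  have hmem : f ∈ riemannRochSpace D := mem_riemannRochSpace.2 fun v => Or.inr (by
    have h1 := hDf v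
    have h2 := hD' v
    simp only [Finsupp.sub_apply, Finsupp.coe_zero, Pi.zero_apply] at h1 h2
    omega)
  have h1 : (1 : FL) ∈ riemannRochSpace D := mem_riemannRochSpace.2 fun v => Or.inr (by
    have := hD v
    simp only [Finsupp.coe_zero, Pi.zero_apply] at this
    rw [v.ord_one]; omega)
  have hfin : Module.finrank L (riemannRochSpace D) = 1 := by
    rw [ell] at hell; exact_mod_cast hell
  obtain ⟨a, ha⟩ := (finrank_eq_one_iff_of_nonzero' (⟨1, h1⟩ : riemannRochSpace D)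
    (fun h => one_ne_zero (congrArg Subtype.val h))).1 hfin ⟨f, hmem⟩
  have hfa : f = algebraMap L FL a := by
    have := congrArg Subtype.val ha
    simp only [Submodule.coe_smul, Algebra.smul_def, mul_one] at this
    exact this.symm
  refine sub_eq_zero.1 (Finsupp.ext fun v => ?_)
  rw [hDf v, hfa, place_ord_algebraMap]
  rfl

/-- The points on the two axes over the generic point. -/
def onAxes (V : AbVar K) [IsIntegral V.A] (z : V.A3) : Prop :=
  V.hom V.pr1 z = genericPoint V.A ∧ (V.hom V.pr2 z = V.origin ∨ V.hom V.pr3 z = V.origin)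

omit [IsAlgClosed K] in
theorem exists_onAxes : ∃ z : V.A3, onAxes V z := by
  refine ⟨V.mk3 V.pr1 0 V.pr3 (genericPoint V.A3), ?_, Or.inl ?_⟩
  · exact (congrArg (fun f : V.A3 ⟶ V.A => f (genericPoint V.A3)) (V.mk3_pr1 V.pr1 0 V.pr3)).trans
      V.pr1_generic
  · exact (congrArg (fun f : V.A3 ⟶ V.A => f (genericPoint V.A3)) (V.mk3_pr2 V.pr1 0 V.pr3)).trans
      (V.hom_zero_apply _ _)

namespace Frame

variable (R : Frame V)

/-- The reduction of the cube at a point of the axes vanishes. -/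
theorem pullCl_xκ_eq_zero (p : Pic V.A) {w : ValuationSubring V.L3} {z : V.A3}
    (hd : Dominates w z) (hz : onAxes V z) {Fκ : Type u} [Field Fκ]
    [Algebra (ResidueField w) Fκ] (φ₂ : R.F →+* Fκ) (h₂ : IsExt (R.iκ hd hz.1) φ₂) :
    pullCl (R.iKκ hd hz.1) h₂.isFunctionField (R.xκ hd hz.1 φ₂ h₂) (R.xκ_str hd hz.1 φ₂ h₂)
      (V.cube p V.pr1 V.pr2 V.pr3) = 0 := by
  obtain ⟨hz1, h | h⟩ := hz
  · have hb : R.bκ hd hz1 = 0 := V.eq_zero_of_origin _ ((R.hom_bκ_apply hd hz1).trans h)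
    have he : R.xκ hd hz1 φ₂ h₂ = R.xκ hd hz1 φ₂ h₂ ≫ V.mk3 V.pr1 0 V.pr3 := by
      refine V.hom3_ext ?_ ?_ ?_
      · rw [Category.assoc, AbVar.mk3_pr1]
      · rw [Category.assoc, AbVar.mk3_pr2]
        conv_lhs => rw [Frame.xκ, AbVar.mk3_pr2, hb, map_zero]
        exact (congrArg V.hom (map_zero (V.precomp _ (R.xκ_str hd hz1 φ₂ h₂)))).symm
      · rw [Category.assoc, AbVar.mk3_pr3]
    rw [pullCl_congr _ h₂.isFunctionField _ _ (comp_over (t := V.str3) _ (V.mk3 V.pr1 0 V.pr3)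
        (V.mk3_str _ _ _) _ (R.xκ_str hd hz1 φ₂ h₂)) he,
      ← pullCl_pull _ h₂.isFunctionField _ (R.xκ_str hd hz1 φ₂ h₂) _ (V.mk3_str _ _ _),
      V.pull_mk3, V.cube_zero_mid,
      map_zero]
  · have hc : R.cκ hd hz1 = 0 := V.eq_zero_of_origin _ ((R.hom_cκ_apply hd hz1).trans h)
    have he : R.xκ hd hz1 φ₂ h₂ = R.xκ hd hz1 φ₂ h₂ ≫ V.mk3 V.pr1 V.pr2 0 := by
      refine V.hom3_ext ?_ ?_ ?_
      · rw [Category.assoc, AbVar.mk3_pr1]
      · rw [Category.assoc, AbVar.mk3_pr2]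
      · rw [Category.assoc, AbVar.mk3_pr3]
        conv_lhs => rw [Frame.xκ, AbVar.mk3_pr3, hc, map_zero]
        exact (congrArg V.hom (map_zero (V.precomp _ (R.xκ_str hd hz1 φ₂ h₂)))).symm
    rw [pullCl_congr _ h₂.isFunctionField _ _ (comp_over (t := V.str3) _ (V.mk3 V.pr1 V.pr2 0)
        (V.mk3_str _ _ _) _ (R.xκ_str hd hz1 φ₂ h₂)) he,
      ← pullCl_pull _ h₂.isFunctionField _ (R.xκ_str hd hz1 φ₂ h₂) _ (V.mk3_str _ _ _),
      V.pull_mk3, V.cube_zero_right,
      map_zero]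

/-- **Rigidity**: the cube vanishes on the curve over the geometric generic point. -/
theorem pullCl_xL_eq_zero (hX : ExtExists.{u}) (hS : SpecialisationHolds.{u})
    (hA : AxesVanish V) (hSl : SlopesHold.{u}) (hU : FactorialStalks K) (p : Pic V.A) :
    pullCl R.iK R.h₁.isFunctionField R.xL R.xL_str (V.cube p V.pr1 V.pr2 V.pr3) = 0 := by
  classical
  set cl := pullCl R.iK R.h₁.isFunctionField R.xL R.xL_str (V.cube p V.pr1 V.pr2 V.pr3)
  obtain ⟨D, hD⟩ := QuotientAddGroup.mk_surjective cl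
  obtain ⟨S₀, hcard, -, hell⟩ := exists_nonspecial R.hF ∅
  set E : Divisor R.M R.F := ∑ v ∈ S₀, Finsupp.single v (1 : ℤ)
  have hE0 : 0 ≤ E := Finset.sum_nonneg fun v _ => Finsupp.single_nonneg.2 zero_le_one
  have hEd : Divisor.degree E = genus R.M R.F := by
    simp [E, map_sum, R.hF.deg_eq_one, hcard]
  let 𝒲 : Set (ValuationSubring V.L3) := {w | ∃ z, Dominates w z ∧ onAxes V z}
  -- reduction at a valuation of the set
  have hred : ∀ w ∈ 𝒲, Divisor.degree D = 0 ∧
      ∀ G : Divisor V.L3 R.FL, 0 ≤ G →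
        (QuotientAddGroup.mk G : AlgebraicCurve.Pic V.L3 R.FL) =
          QuotientAddGroup.mk (R.h₁.pull E) + cl →
        SpecialisesTo R.h₁ w G E := by
    rintro w ⟨z, hd, hz⟩
    obtain ⟨Fκ, _, _, φ₂, h₂, W, red, sp, S⟩ := R.exists_spec hd hz.1 hX hS
    have hc0 : S.classMap cl = 0 :=
      (R.classMap_xL hd hz.1 φ₂ h₂ S _).trans (R.pullCl_xκ_eq_zero p hd hz φ₂ h₂)
    refine ⟨?_, fun G hG hGE => ?_⟩
    · rw [← hD, SpecData.classMap_mk, QuotientAddGroup.eq_zero_iff] at hc0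
      obtain ⟨f, -, hf⟩ := hc0
      rw [← S.degree_mapDomain D, show Finsupp.mapDomain sp D = divOf h₂.isFunctionField f from
        Finsupp.ext fun v => (hf v).trans (divOf_apply _ _ _).symm, degree_divOf]
    · refine ⟨_, Fκ, inferInstance, inferInstance, _, _, _, φ₂, h₂, _, W, red, sp, S, ?_⟩
      refine Divisor.eq_of_ell_one h₂.isFunctionField ?_ ?_ ?_ ?_
      · rw [ell_pull_eq h₂ E]; exact hell
      · exact mapDomain_nonneg _ hE0
      · exact mapDomain_nonneg _ hG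
      · rw [← SpecData.classMap_mk S, hGE, map_add, hc0, add_zero, SpecData.classMap_mk,
          S.mapDomain_pull]
  obtain ⟨z₀, hz₀⟩ := exists_onAxes (V := V)
  obtain ⟨w₀, hw₀⟩ := exists_dominates (L := V.L3) z₀
  have hD0 : Divisor.degree D = 0 := (hred w₀ ⟨z₀, hw₀, hz₀⟩).1
  -- the effective divisor in the class
  have hpos : 0 < ell (R.h₁.pull E + D) := by
    have := riemann_inequality R.h₁.isFunctionField (R.h₁.pull E + D)
    rw [map_add, R.h₁.degree_pull, hEd, hD0, genus_map R.h₁] at this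
    omega
  obtain ⟨f, hf, hG⟩ := exists_effective_of_ell_pos R.h₁.isFunctionField hpos
  set G := R.h₁.pull E + D + divOf R.h₁.isFunctionField f
  have hdiv : (QuotientAddGroup.mk (divOf R.h₁.isFunctionField f) :
      AlgebraicCurve.Pic V.L3 R.FL) = 0 :=
    (QuotientAddGroup.eq_zero_iff _).2 ⟨f, hf, fun v => divOf_apply _ _ _⟩
  have hGE : (QuotientAddGroup.mk G : AlgebraicCurve.Pic V.L3 R.FL) =
      QuotientAddGroup.mk (R.h₁.pull E) + cl := by
    rw [QuotientAddGroup.mk_add, QuotientAddGroup.mk_add, hdiv, add_zero, hD]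
  have hdeg : Divisor.degree G = Divisor.degree E := by
    rw [map_add, map_add, degree_divOf, R.h₁.degree_pull, hD0, add_zero, add_zero]
  have hzero : ∀ s : V.L3, (∀ w ∈ 𝒲, w.valuation s < 1) → s = 0 := by
    intro s hs
    by_contra hs0
    obtain ⟨N, r, -, hN, hNz⟩ := exists_norm (X := V.A3) s hs0
    refine hN (hA N fun z hz1 hz2 => ?_)
    have hlt := (hNz 1 z).2 fun w hw => hs w ⟨z, hw, hz1, hz2⟩
    haveI := hU V.A3 V.str3 z
    refine ⟨regAt_of_forall fun w hw => (w.valuation_le_one_iff _).1 (hlt w hw).le, ?_⟩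
    obtain ⟨w, hw⟩ := exists_dominates (L := V.L3) z
    exact hw.not_unitAt (hlt w hw)
  have hGeq := hSl R.M V.L3 R.F R.FL R.iL R.φ₁ R.h₁ E G hE0 hG hdeg 𝒲 hzero
    fun w hw => (hred w hw).2 G hG hGE
  rw [hGeq] at hGE
  exact left_eq_add.1 hGE

end Frame

end FA.AbTors

end
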