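import Fermat.Agent.AbTors.RedFrame

/-!
# Seesaw: a multiple of the cube is trivial over an open of the first factor
-/

set_option autoImplicit false
set_option linter.style.haveILetI false

noncomputable section

universe u

open CategoryTheory CategoryTheory.Limits AlgebraicGeometry TopologicalSpace IsLocalRing
open NeronModelInfra GoodReductionJacobian AlgebraicCurve FA.Curve FA.PicTors FA.ModField

namespace FA.AbTors

/-! ### Powers and changes of index -/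

/-- A power of a cocycle. -/
def Coc.npow {X : Scheme.{u}} (c : Coc X) : ℕ → Coc X
  | 0 => 1
  | k + 1 => c.npow k * c

theorem Coc.mk_npow {X : Scheme.{u}} (c : Coc X) (k : ℕ) : Pic.mk (c.npow k) = k • Pic.mk c := by
  induction k with
  | zero => rw [zero_smul]; rfl
  | succ k ih => rw [succ_nsmul, ← ih]; rfl

theorem Coc.rat_npow {X : Scheme.{u}} [IsIntegral X] (c : Coc X) (k : ℕ) (a b : X) :
    (c.npow k).rat a b = c.rat a b ^ k := by
  induction k with
  | zero => rw [pow_zero]; exact Coc.rat_one a b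
  | succ k ih => rw [pow_succ, ← ih]; exact Coc.rat_mul_mul _ _ _ _

theorem gAt_congr {X : Scheme.{u}} (c : Coc X) {E : Type u} [Field E]
    (e : Spec (CommRingCat.of E) ⟶ X) {a a' b b' : X} (ha : a = a') (hb : b = b')
    (hae : ctr e ∈ c.U a) (hbe : ctr e ∈ c.U b) :
    gAt c e a b hae hbe = gAt c e a' b' (ha ▸ hae) (hb ▸ hbe) := by
  subst ha hb; rfl

theorem gAt_congr_pt {X : Scheme.{u}} (c : Coc X) {E : Type u} [Field E]
    {e e' : Spec (CommRingCat.of E) ⟶ X} (he : e = e') {a b : X}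
    (hae : ctr e ∈ c.U a) (hbe : ctr e ∈ c.U b) :
    gAt c e a b hae hbe = gAt c e' a b (he ▸ hae) (he ▸ hbe) := by
  subst he; rfl

theorem hasValue_mul {M F : Type u} [Field M] [Field F] [Algebra M F] {v : Place M F} {f g : F}
    {a b : M} (ha : HasValue v f a) (hb : HasValue v g b) : HasValue v (f * g) (a * b) := by
  rw [HasValue, map_mul, show f * g - algebraMap M F a * algebraMap M F b =
    (f - algebraMap M F a) * g + algebraMap M F a * (g - algebraMap M F b) from by ring]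
  exact ((AtLeast.mul ha hb.atLeast).mono (by simp)).add (AtLeast.smul hb a)

variable {K : Type u} [Field K] [IsAlgClosed K] {V : AbVar K} [IsIntegral V.A] [IsIntegral V.A3]

namespace Frame

variable (R : Frame V) (c : Coc V.A3) (f : R.FL)

omit [IsAlgClosed K] in
theorem ctr_xL_mem (v : Place V.L3 R.FL) {a : V.A3} (ha : R.ctrL v ∈ c.U a) :
    ctr R.xL ∈ c.U a :=
  mem_of_placeCtr_mem R.iK R.xL R.xL_str v ha

/-- The transition function to the generic index, divided by `f`. -/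
def quot (a : V.A3) (ha : ctr R.xL ∈ c.U a) : R.FL :=
  gAt c R.xL a (ctr R.xL) ha (c.mem _) / f

variable {c f}
variable (hf : f ≠ 0) (hdiv : ∀ v, pullDiv R.iK R.h₁.isFunctionField R.xL R.xL_str c v = v.ord f)

include hf hdiv in
omit [IsAlgClosed K] in
theorem ord_quot (v : Place V.L3 R.FL) {a : V.A3} (ha : R.ctrL v ∈ c.U a) :
    v.ord (R.quot c f a (R.ctr_xL_mem c v ha)) = 0 := by
  have h1 := pullOrd_eq R.iK R.xL R.xL_str c v a (ctr R.xL) ha (c.mem _)
  rw [gAt_self, v.ord_one, add_zero, ← pullDiv_apply R.iK R.h₁.isFunctionField, hdiv] at h1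
  rw [Frame.quot, div_eq_mul_inv, v.ord_mul (gAt_ne_zero _ _ _ _ _ _) (inv_ne_zero hf), v.ord_inv,
    ← h1, add_neg_cancel]

include hf hdiv in
omit [IsAlgClosed K] in
theorem exists_value_quot (v : Place V.L3 R.FL) {a : V.A3} (ha : R.ctrL v ∈ c.U a) :
    ∃ x : V.L3, x ≠ 0 ∧ HasValue v (R.quot c f a (R.ctr_xL_mem c v ha)) x := by
  have h0 := R.ord_quot hf hdiv v ha
  have hne : R.quot c f a (R.ctr_xL_mem c v ha) ≠ 0 := div_ne_zero (gAt_ne_zero _ _ _ _ _ _) hf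
  obtain ⟨x, hx⟩ := exists_hasValue R.h₁.isFunctionField (Or.inr h0.ge)
  refine ⟨x, fun hx0 => ?_, hx⟩
  rw [hx0, hasValue_zero_iff, atLeast_iff hne, h0] at hx
  omega

omit [IsAlgClosed K] in
/-- Changing the index multiplies the value by the transition function at the value. -/
theorem hasValue_quot (v : Place V.L3 R.FL) {a b : V.A3} (ha : R.ctrL v ∈ c.U a)
    (hb : R.ctrL v ∈ c.U b) {x : V.L3}
    (hx : HasValue v (R.quot c f b (R.ctr_xL_mem c v hb)) x) :
    HasValue v (R.quot c f a (R.ctr_xL_mem c v ha))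
      (gAt c (R.valL v) a b
        (placeCtr_eq_ctr_valPt R.iK R.h₁.isFunctionField R.xL R.xL_str v ▸ ha)
        (placeCtr_eq_ctr_valPt R.iK R.h₁.isFunctionField R.xL R.xL_str v ▸ hb) * x) := by
  have h1 : HasValue v (gAt c R.xL a b (R.ctr_xL_mem c v ha) (R.ctr_xL_mem c v hb))
      (gAt c (R.valL v) a b
        (placeCtr_eq_ctr_valPt R.iK R.h₁.isFunctionField R.xL R.xL_str v ▸ ha)
        (placeCtr_eq_ctr_valPt R.iK R.h₁.isFunctionField R.xL R.xL_str v ▸ hb)) :=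
    hasValue_evF R.iK R.h₁.isFunctionField R.xL R.xL_str v (U := c.U a ⊓ c.U b) ⟨ha, hb⟩
      (c.g a b : Γ(V.A3, c.U a ⊓ c.U b))
  have h2 := hasValue_mul h1 hx
  rw [Frame.quot, mul_div_assoc', ← gAt_mul] at h2
  exact h2

variable {w : ValuationSubring V.L3} {z : V.A3} (hd : Dominates w z)
  (hz : V.hom V.pr1 z = genericPoint V.A)
variable {Fκ : Type u} [Field Fκ] [Algebra (ResidueField w) Fκ] (φ₂ : R.F →+* Fκ)
  (h₂ : IsExt (R.iκ hd hz) φ₂)
variable {W : ValuationSubring R.FL} {red : W →+* Fκ}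
  {sp : Place V.L3 R.FL → Place (ResidueField w) Fκ}
  (S : SpecData R.h₁ h₂ w (IsLocalRing.residue w) W red sp)

include hf hdiv S in
omit [IsAlgClosed K] in
/-- The values with the index at the reduced centre are units up to one constant. -/
theorem exists_unit_values : ∃ c₃ : V.L3, c₃ ≠ 0 ∧
    ∀ (v : Place V.L3 R.FL) (a : V.A3) (ha : R.ctrL v ∈ c.U a)
      (_ : a = R.ctrκ hd hz φ₂ h₂ (sp v)) (x : V.L3),
      HasValue v (R.quot c f a (R.ctr_xL_mem c v ha)) x → w.valuation (c₃ * x) = 1 := by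
  set ξκ := R.xκ hd hz φ₂ h₂
  have hsp := S.ctr_specializes_red R.xL ξκ (R.xW hd hz φ₂ h₂ S) (R.xW_gen hd hz φ₂ h₂ S)
    (R.xW_red hd hz φ₂ h₂ S)
  have ha0 : ctr R.xL ∈ c.U (ctr ξκ) := hsp.mem_open (c.U _).2 (c.mem _)
  set e := R.quot c f (ctr ξκ) ha0
  have he : e ≠ 0 := div_ne_zero (gAt_ne_zero _ _ _ _ _ _) hf
  obtain ⟨c₃, hc₃, hm, hne⟩ := S.scale e he
  refine ⟨c₃, hc₃, fun v a ha hav x hx => ?_⟩
  subst hav
  set v' := sp v
  set z' := R.ctrκ hd hz φ₂ h₂ v'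
  have hz' : ctr ξκ ∈ c.U z' :=
    mem_of_placeCtr_mem (R.iKκ hd hz) ξκ (R.xκ_str hd hz φ₂ h₂) v' (c.mem z')
  obtain ⟨g, hgr, hgv⟩ := S.exists_red_gAt R.xL ξκ (R.xW hd hz φ₂ h₂ S)
    (R.xW_gen hd hz φ₂ h₂ S) (R.xW_red hd hz φ₂ h₂ S) c hz' (c.mem (ctr ξκ))
  let Fv : W := ⟨_, hm⟩ * g
  have hFv : red Fv ≠ 0 := by
    rw [map_mul, hgr]; exact mul_ne_zero hne (gAt_ne_zero _ _ _ _ _ _)
  have hval : ∀ u : Place V.L3 R.FL, sp u = v' → ∃ hu : R.ctrL u ∈ c.U z',
      (Fv : R.FL) = algebraMap V.L3 R.FL c₃ * R.quot c f z' (R.ctr_xL_mem c u hu) := by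
    intro u hu
    refine ⟨S.mem_of_red_mem R.iK (R.iKκ hd hz) R.xL R.xL_str ξκ (R.xκ_str hd hz φ₂ h₂)
      (R.hctr hd hz φ₂ h₂ S) (by rw [hu]; exact c.mem z'), ?_⟩
    show algebraMap V.L3 R.FL c₃ * e * (g : R.FL) = _
    rw [hgv, Frame.quot, gAt_mul c R.xL z' (ctr ξκ) (ctr R.xL) _ ha0 (c.mem _)]
    simp only [e, Frame.quot]
    ring
  refine S.unit_value Fv hFv (v' := v') (fun u hu => ?_) (v := v) rfl ?_
  · obtain ⟨hu', he'⟩ := hval u hu
    rw [he', u.ord_mul (f := algebraMap V.L3 R.FL c₃) (g := R.quot c f z' _)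
        ((_root_.map_ne_zero _).2 hc₃) (div_ne_zero (gAt_ne_zero _ _ _ _ _ _) hf),
      place_ord_algebraMap, R.ord_quot hf hdiv u hu', add_zero]
  · obtain ⟨hv, he'⟩ := hval v rfl
    rw [he']
    exact HasValue.smul hx c₃

omit [IsAlgClosed K] in
theorem gAt_xi {a b : V.A3} (ha : ctr V.xi ∈ c.U a) (hb : ctr V.xi ∈ c.U b) :
    gAt c V.xi a b ha hb = algebraMap V.A3.functionField V.L3 (c.rat a b) :=
  evU_geomPt (W := c.U a ⊓ c.U b) (q := genericPoint V.A3)
    ⟨genericPoint_mem (c.mem a), genericPoint_mem (c.mem b)⟩ (c.g a b)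

omit [IsAlgClosed K] in
theorem gAt_xi_comp (σ : V.A3 ⟶ V.A3) {a b : V.A3} (ha : ctr (V.xi ≫ σ) ∈ c.U (σ a))
    (hb : ctr (V.xi ≫ σ) ∈ c.U (σ b)) :
    gAt c (V.xi ≫ σ) (σ a) (σ b) ha hb =
      algebraMap V.A3.functionField V.L3 ((c.pull σ).rat a b) := by
  rw [← gAt_xi (c := c.pull σ) (a := a) (b := b) ha hb]
  exact congrArg Units.val (evU_uApp V.xi σ (U := c.U (σ a) ⊓ c.U (σ b))
    (V := σ ⁻¹ᵁ (c.U (σ a) ⊓ c.U (σ b))) le_rfl (le_preimage_of_mem ⟨ha, hb⟩)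
    (c.g (σ a) (σ b))).symm

end Frame

/-- **Seesaw**: if the cube vanishes on the curve, a multiple of it is trivial over a nonempty
open of the first factor. -/
theorem exists_triv_of_frame (R : Frame V) (hX : ExtExists.{u}) (hS : SpecialisationHolds.{u})
    (hU : FactorialStalks K) (p : Pic V.A)
    (h0 : pullCl R.iK R.h₁.isFunctionField R.xL R.xL_str (V.cube p V.pr1 V.pr2 V.pr3) = 0) :
    ∃ (r : ℕ) (U : V.A.Opens), 0 < r ∧ (U : Set V.A).Nonempty ∧
      ∃ (c : Coc V.A3) (N : V.A3.functionField),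
        Pic.mk c = r • V.cube p V.pr1 V.pr2 V.pr3 ∧ IsTriv c N (V.hom V.pr1 ⁻¹ᵁ U) := by
  obtain ⟨c, hc⟩ := Pic.mk_surjective (V.cube p V.pr1 V.pr2 V.pr3)
  rw [← hc, pullCl_mk, QuotientAddGroup.eq_zero_iff] at h0
  obtain ⟨f, hf, hdiv⟩ := h0
  set η := genericPoint V.A3
  set σ := Frame.σ₀ V
  set ι := algebraMap V.A3.functionField V.L3
  have hσ : Pic.mk (c.pull σ) = 0 := by
    rw [← Pic.pull_mk, hc, V.pull_mk3, V.cube_zero_left]
  obtain ⟨N₀, hN₀, hN₀u⟩ := exists_isTriv_of_eq_zero hσ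
  -- the two base values
  have hQc : R.ctrL (R.h₁.up R.Q) = η :=
    (placeCtr_eq_ctr_valPt R.iK R.h₁.isFunctionField R.xL R.xL_str _).trans
      ((congrArg ctr R.valPt_xL_Q).trans ctr_geomPt)
  have hPc : R.ctrL (R.h₁.up R.P) = σ η :=
    (placeCtr_eq_ctr_valPt R.iK R.h₁.isFunctionField R.xL R.xL_str _).trans
      ((congrArg ctr R.valPt_xL_P).trans (congrArg σ ctr_geomPt))
  have hQm : R.ctrL (R.h₁.up R.Q) ∈ c.U η := by rw [hQc]; exact c.mem _
  have hPm : R.ctrL (R.h₁.up R.P) ∈ c.U (σ η) := by rw [hPc]; exact c.mem _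
  obtain ⟨aQ, haQ0, haQ⟩ := R.exists_value_quot hf hdiv _ hQm
  obtain ⟨aP, haP0, haP⟩ := R.exists_value_quot hf hdiv _ hPm
  have hH : aQ * ι N₀ / aP ≠ 0 :=
    div_ne_zero (mul_ne_zero haQ0 ((_root_.map_ne_zero _).2 hN₀)) haP0
  -- the value is a unit at every valuation over the generic point of the first factor
  have key : ∀ z : V.A3, V.hom V.pr1 z = genericPoint V.A → ∀ w : ValuationSubring V.L3,
      Dominates w z → w.valuation (ι (c.rat z η) * (aQ * ι N₀ / aP)) = 1 := by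
    intro z hz w hd
    obtain ⟨Fκ, _, _, φ₂, h₂, W, red, sp, S⟩ := R.exists_spec hd hz hX hS
    obtain ⟨c₃, hc₃, hunit⟩ := R.exists_unit_values hf hdiv hd hz φ₂ h₂ S
    have hQz : R.ctrL (R.h₁.up R.Q) ∈ c.U z := by rw [hQc]; exact genericPoint_mem (c.mem z)
    have hPz : R.ctrL (R.h₁.up R.P) ∈ c.U (σ z) := by
      rw [hPc]
      exact (((genericPoint_spec V.A3).specializes trivial).map σ.continuous).mem_open (c.U _).2
        (c.mem (σ z))
    have hQ := hunit _ z hQz (R.ctrκ_Q hd hz φ₂ h₂ S).symm _ (R.hasValue_quot _ hQz hQm haQ)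
    have hP := hunit _ (σ z) hPz (R.ctrκ_P hd hz φ₂ h₂ S).symm _ (R.hasValue_quot _ hPz hPm haP)
    rw [gAt_congr_pt c R.valPt_xL_Q, Frame.gAt_xi] at hQ
    rw [gAt_congr_pt c R.valPt_xL_P, Frame.gAt_xi_comp σ (a := z) (b := η)] at hP
    have hn := hd.valuation_eq_one (hN₀u z trivial)
    rw [map_mul] at hn
    have hne : c₃ * (ι ((c.pull σ).rat z η) * aP) ≠ 0 :=
      mul_ne_zero hc₃ (mul_ne_zero ((_root_.map_ne_zero _).2 (Coc.rat_ne_zero _ _ _)) haP0)
    calc w.valuation (ι (c.rat z η) * (aQ * ι N₀ / aP))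
        = w.valuation (c₃ * (ι (c.rat z η) * aQ) / (c₃ * (ι ((c.pull σ).rat z η) * aP)) *
            (ι ((c.pull σ).rat z η) * ι N₀)) := by
          congr 1
          have h1 : ι ((c.pull σ).rat z η) ≠ 0 :=
            (_root_.map_ne_zero _).2 (Coc.rat_ne_zero _ _ _)
          field_simp
      _ = 1 := by
          rw [map_mul, map_div₀, hQ, hP, div_one, one_mul]
          exact hn
  obtain ⟨N, r, hr, hN, hNz⟩ := exists_norm (X := V.A3) _ hH
  have hunitAt : ∀ z : V.A3, V.hom V.pr1 z = genericPoint V.A →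
      UnitAt z (c.rat z η ^ r * N) := fun z hz => by
    haveI := hU V.A3 V.str3 z
    exact unitAt_of_forall (L := V.L3) (mul_ne_zero (pow_ne_zero _ (c.rat_ne_zero _ _)) hN)
      ((hNz (c.rat z η) z).1 (key z hz))
  -- the good set is open
  let Rset : Set V.A3 := {z | UnitAt z (c.rat z η ^ r * N)}
  have hopen : IsOpen Rset := isOpen_iff_forall_mem_open.2 fun z hzR => by
    refine ⟨(c.U z : Set V.A3) ∩ {q | UnitAt q (c.rat z η ^ r * N)}, fun q hq => ?_,
      (c.U z).2.inter (isOpen_unitAt _), c.mem z, hzR⟩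
    show UnitAt q _
    rw [c.rat_mul q z η, mul_pow, mul_assoc]
    exact ((c.unitAt_rat (c.mem q) hq.1).pow r).mul hq.2
  haveI : IsProper (V.hom V.pr1) :=
    inferInstanceAs (IsProper (pullback.fst V.str2 V.str ≫ pullback.fst V.str V.str))
  let U : V.A.Opens := ⟨(V.hom V.pr1 '' Rsetᶜ)ᶜ,
    ((V.hom V.pr1).isClosedMap _ hopen.isClosed_compl).isOpen_compl⟩
  refine ⟨r, U, hr, ⟨genericPoint V.A, ?_⟩, c.npow r, N, by rw [Coc.mk_npow, hc], hN,
    fun q hq => ?_⟩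
  · rintro ⟨z, hz, hzη⟩
    exact hz (hunitAt z hzη)
  · rw [Coc.rat_npow]
    by_contra hcon
    exact hq ⟨q, hcon, rfl⟩

end FA.AbTors

end
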