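import Fermat.Agent.AbTors.Ext
import Mathlib.RingTheory.Valuation.ValuationSubring
import Mathlib.Algebra.MonoidAlgebra.Basic

/-!
# Specialisation: the valuation of Gauss

A valuation ring `w` of the constants `L` with residue map to `κ`, trivial on `M`, extends to the
constant extension `F L`: the reduction of a combination of functions of `F` with coefficients in
`w` is computed on the coefficients.
-/

set_option autoImplicit false
set_option linter.style.haveILetI false
set_option linter.unusedSectionVars false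

noncomputable section

namespace FA.AbTors

open AlgebraicCurve FA.Curve FA.PicTors IntermediateField

section Eval

variable {R F E : Type*} [CommRing R] [Field F] [CommRing E]

/-- Evaluation of formal combinations of functions. -/
def evT (f : R →+* E) (ψ : F →+* E) : MonoidAlgebra R F →+* E :=
  MonoidAlgebra.liftNCRingHom f (ψ : F →* E) fun _ _ => Commute.all _ _

@[simp]
theorem evT_single (f : R →+* E) (ψ : F →+* E) (e : F) (a : R) :
    evT f ψ (MonoidAlgebra.single e a) = f a * ψ e :=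
  MonoidAlgebra.liftNCRingHom_single _ _ _ _ _

theorem evT_eq (f : R →+* E) (ψ : F →+* E) (t : MonoidAlgebra R F) :
    evT f ψ t = ∑ e ∈ t.coeff.support, f (t.coeff e) * ψ e := by
  conv_lhs => rw [← MonoidAlgebra.sum_coeff_single t, Finsupp.sum, map_sum]
  simp only [evT_single]

end Eval

section Coords

variable {M F : Type*} [Field M] [Field F] [Algebra M F]

/-- Independent functions spanning finitely many given ones. -/
theorem exists_coords {ι : Type*} [Fintype ι] (e : ι → F) :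
    ∃ (m : ℕ) (u : Fin m → F) (r : ι → Fin m → M),
      LinearIndependent M u ∧ ∀ j, e j = ∑ l, algebraMap M F (r j l) * u l := by
  classical
  set V := Submodule.span M (Set.range e)
  haveI : Module.Finite M V := Module.Finite.span_of_finite M (Set.finite_range e)
  let b := Module.finBasis M V
  refine ⟨_, fun l => (b l : F), fun j l => b.repr ⟨e j, Submodule.subset_span ⟨j, rfl⟩⟩ l,
    b.linearIndependent.map' V.subtype (Submodule.ker_subtype _), fun j => ?_⟩
  have := congrArg (fun v : V => (v : F))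
    (b.sum_repr ⟨e j, Submodule.subset_span ⟨j, rfl⟩⟩)
  simp only [AddSubmonoidClass.coe_finsetSum, SetLike.val_smul, Algebra.smul_def] at this
  exact this.symm

theorem sum_change {E : Type*} [CommRing E] {ι : Type*} [Fintype ι] {m : ℕ} {e : ι → F}
    {u : Fin m → F} {r : ι → Fin m → M} (he : ∀ j, e j = ∑ l, algebraMap M F (r j l) * u l)
    (ψ : F →+* E) (c : ι → E) :
    ∑ j, c j * ψ (e j) = ∑ l, (∑ j, c j * ψ (algebraMap M F (r j l))) * ψ (u l) := by
  simp only [Finset.sum_mul, he, map_sum, map_mul, Finset.mul_sum, mul_assoc]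
  exact Finset.sum_comm

end Coords

/-- Scaling a family to be integral with a unit entry. -/
theorem exists_scale {L : Type*} [Field L] (w : ValuationSubring L) {ι : Type*} [Fintype ι] (d : ι → L)
    (hd : ∃ j, d j ≠ 0) : ∃ m, d m ≠ 0 ∧ ∀ l, d l / d m ∈ w := by
  classical
  obtain ⟨j, hj⟩ := hd
  obtain ⟨m, -, hmax⟩ := Finset.exists_max_image Finset.univ (fun l => w.valuation (d l))
    ⟨j, Finset.mem_univ j⟩
  have hm : d m ≠ 0 := fun e => by
    have := hmax j (Finset.mem_univ j)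
    rw [e, map_zero, le_zero_iff, map_eq_zero] at this
    exact hj this
  refine ⟨m, hm, fun l => (w.valuation_le_one_iff _).1 ?_⟩
  rw [map_div₀]
  exact div_le_one_of_le₀ (hmax l (Finset.mem_univ l)) zero_le'

variable {M L F FL : Type*} [Field M] [Field L] [Field F] [Field FL] [Algebra M F] [Algebra L FL]
  [IsAlgClosed M] [IsAlgClosed L] {iL : M →+* L} {φ₁ : F →+* FL}

/-- A relation among functions of `F` with coefficients in a ring of constants holds after
any specialisation of the coefficients. -/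
theorem descend (h : IsExt iL φ₁) {R E : Type*} [CommRing R] [CommRing E] {f : R →+* L}
    (hf : Function.Injective f) (g : R →+* E) (ρ : M →+* R) (hρ : ∀ a, f (ρ a) = iL a)
    (ψ : F →+* E) (hψ : ∀ a, g (ρ a) = ψ (algebraMap M F a)) {t : MonoidAlgebra R F}
    (ht : evT ((algebraMap L FL).comp f) φ₁ t = 0) : evT g ψ t = 0 := by
  classical
  rw [evT_eq] at ht ⊢
  rw [← Finset.sum_coe_sort] at ht ⊢
  obtain ⟨m, u, r, hu, he⟩ := exists_coords (M := M) fun e : t.coeff.support => (e : F)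
  set D : Fin m → R := fun l => ∑ e : t.coeff.support, t.coeff e * ρ (r e l)
  rw [sum_change he] at ht ⊢
  have hli := Fintype.linearIndependent_iff.1 (h.linearIndependent hu) (fun l => f (D l)) (by
    refine Eq.trans (Finset.sum_congr rfl fun l _ => ?_) ht
    simp [D, Algebra.smul_def, map_sum, map_mul, hρ, h.comm])
  refine Finset.sum_eq_zero fun l _ => ?_
  have hD : D l = 0 := hf (by rw [hli l, map_zero])
  have := congrArg g hD
  simp only [D, map_sum, map_mul, map_zero, hψ] at this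
  rw [this, zero_mul]

/-- Every function is a quotient of combinations of functions of `F`. -/
theorem exists_quotient (h : IsExt iL φ₁) (f : FL) :
    ∃ (n m : ℕ) (a : Fin n → L) (e : Fin n → F) (b : Fin m → L) (d : Fin m → F),
      f = (∑ j, algebraMap L FL (a j) * φ₁ (e j)) / ∑ j, algebraMap L FL (b j) * φ₁ (d j) := by
  have hmem : ∀ z ∈ Algebra.adjoin L (Set.range φ₁), ∃ (n : ℕ) (a : Fin n → L) (e : Fin n → F),
      z = ∑ j, algebraMap L FL (a j) * φ₁ (e j) := by
    intro z hz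
    have hz' : z ∈ Subalgebra.toSubmodule (Algebra.adjoin L (Set.range φ₁)) := hz
    rw [Algebra.adjoin_eq_span, show (Set.range φ₁) = ((MonoidHom.mrange (φ₁ : F →* FL)) : Set FL)
      from rfl, Submonoid.closure_eq] at hz'
    obtain ⟨n, a, y, hy⟩ := Submodule.mem_span_set'.1 hz'
    choose e he using fun j => (y j).2
    refine ⟨n, a, e, hy.symm.trans (Finset.sum_congr rfl fun j _ => ?_)⟩
    rw [Algebra.smul_def, ← he j]
    rfl
  obtain ⟨r, hr, s, hs, rfl⟩ := IntermediateField.mem_adjoin_iff_div.1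
    (h.adjoin_top ▸ IntermediateField.mem_top : f ∈ IntermediateField.adjoin L (Set.range φ₁))
  obtain ⟨n, a, e, rfl⟩ := hmem r hr
  obtain ⟨m, b, d, rfl⟩ := hmem s hs
  exact ⟨n, m, a, e, b, d, rfl⟩

section Gauss

variable {κ Fκ : Type*} [Field κ] [Field Fκ] [Algebra κ Fκ] [IsAlgClosed κ] {iκ : M →+* κ}
  {φ₂ : F →+* Fκ}

/-- A specialisation of the constants. -/
structure SpecCtx (iL : M →+* L) (iκ : M →+* κ) (φ₁ : F →+* FL) (φ₂ : F →+* Fκ)
    (w : ValuationSubring L) (res : w →+* κ) : Prop where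
  ext₁ : IsExt iL φ₁
  ext₂ : IsExt iκ φ₂
  isLocal : IsLocalHom res
  compat : ∀ a : M, ∃ h : iL a ∈ w, res ⟨iL a, h⟩ = iκ a

/-- An extension of the specialisation to the functions. -/
structure IsGauss (φ₁ : F →+* FL) (φ₂ : F →+* Fκ) (w : ValuationSubring L) (res : w →+* κ)
    (W : ValuationSubring FL) (red : W →+* Fκ) : Prop where
  isLocal : IsLocalHom red
  map_fun : ∀ e : F, ∃ h : φ₁ e ∈ W, red ⟨φ₁ e, h⟩ = φ₂ e
  map_const : ∀ a : w, ∃ h : algebraMap L FL a ∈ W,
    red ⟨algebraMap L FL a, h⟩ = algebraMap κ Fκ (res a)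
  scale : ∀ f : FL, f ≠ 0 → ∃ c : L, c ≠ 0 ∧ ∃ h : algebraMap L FL c * f ∈ W,
    red ⟨algebraMap L FL c * f, h⟩ ≠ 0

variable {w : ValuationSubring L} {res : w →+* κ} (hc : SpecCtx iL iκ φ₁ φ₂ w res)

namespace SpecCtx

variable (φ₁ w) in
/-- Integral combinations in `F L`. -/
abbrev up₁ : MonoidAlgebra w F →+* FL := evT ((algebraMap L FL).comp w.subtype) φ₁

variable (φ₂ res) in
/-- Their reductions. -/
abbrev up₂ : MonoidAlgebra w F →+* Fκ := evT ((algebraMap κ Fκ).comp res) φ₂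

include hc

/-- The constants of `M` in `w`. -/
def const : M →+* w := iL.codRestrict w.toSubring fun a => (hc.compat a).1

theorem res_const (a : M) : res (hc.const a) = iκ a := (hc.compat a).2

theorem up₂_eq_zero {t : MonoidAlgebra w F} (ht : up₁ φ₁ w t = 0) : up₂ φ₂ res t = 0 :=
  descend hc.ext₁ (f := w.subtype) Subtype.val_injective _ hc.const (fun _ => rfl) φ₂
    (fun a => by simp [hc.res_const, hc.ext₂.comm]) ht

/-- Normalised form of a combination. -/
theorem normalise {n : ℕ} (c : Fin n → L) (e : Fin n → F)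
    (hne : ∑ j, algebraMap L FL (c j) * φ₁ (e j) ≠ 0) :
    ∃ (l : L) (t : MonoidAlgebra w F), l ≠ 0 ∧ up₂ φ₂ res t ≠ 0 ∧
      ∑ j, algebraMap L FL (c j) * φ₁ (e j) = algebraMap L FL l * up₁ φ₁ w t := by
  classical
  obtain ⟨m, u, r, hu, he⟩ := exists_coords (M := M) e
  set d : Fin m → L := fun l => ∑ j, c j * iL (r j l)
  have hsum : ∑ j, algebraMap L FL (c j) * φ₁ (e j) = ∑ l, algebraMap L FL (d l) * φ₁ (u l) := by
    rw [sum_change he]
    exact Finset.sum_congr rfl fun l _ => by simp [d, map_sum, map_mul, hc.ext₁.comm]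
  obtain ⟨m₀, hm₀, hint⟩ := exists_scale w d (by
    by_contra hall
    push Not at hall
    exact hne (hsum.trans (Finset.sum_eq_zero fun l _ => by simp [hall l])))
  refine ⟨d m₀, ∑ l, MonoidAlgebra.single (u l) ⟨d l / d m₀, hint l⟩, hm₀, fun h0 => ?_, ?_⟩
  · simp only [up₂, map_sum, evT_single, RingHom.comp_apply, ← Algebra.smul_def] at h0
    have h1 := Fintype.linearIndependent_iff.1 (hc.ext₂.linearIndependent hu) _ h0 m₀
    rw [show (⟨d m₀ / d m₀, hint m₀⟩ : w) = 1 from Subtype.ext (div_self hm₀), map_one] at h1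
    exact one_ne_zero h1
  · rw [hsum, map_sum (up₁ φ₁ w), Finset.mul_sum]
    refine Finset.sum_congr rfl fun l _ => ?_
    rw [evT_single, RingHom.comp_apply, ← mul_assoc, ← map_mul]
    congr 2
    exact (mul_div_cancel₀ _ hm₀).symm

theorem up₁_ne_zero {t : MonoidAlgebra w F} (ht : up₂ φ₂ res t ≠ 0) : up₁ φ₁ w t ≠ 0 :=
  fun e => ht (hc.up₂_eq_zero e)

theorem factor (f : FL) (hf : f ≠ 0) :
    ∃ (l : L) (t s : MonoidAlgebra w F), l ≠ 0 ∧ up₂ φ₂ res t ≠ 0 ∧ up₂ φ₂ res s ≠ 0 ∧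
      f * up₁ φ₁ w s = algebraMap L FL l * up₁ φ₁ w t := by
  obtain ⟨n, m, a, e, b, d, rfl⟩ := exists_quotient hc.ext₁ f
  obtain ⟨la, t, hla, ht, hat⟩ := hc.normalise a e (left_ne_zero_of_mul (by
    rwa [div_eq_mul_inv] at hf))
  obtain ⟨lb, s, hlb, hs, hbs⟩ := hc.normalise b d (by
    intro e0
    rw [e0, div_zero] at hf
    exact hf rfl)
  refine ⟨la / lb, t, s, div_ne_zero hla hlb, ht, hs, ?_⟩
  rw [hat, hbs, map_div₀]
  have h1 : algebraMap L FL lb ≠ 0 := by simpa using hlb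
  have h2 := hc.up₁_ne_zero hs
  field_simp

variable (φ₁ φ₂ res) in
omit hc in
/-- The valuation ring of Gauss as a subring. -/
def gaussSub : Subring FL where
  carrier := {f | ∃ t s, up₂ φ₂ res s ≠ 0 ∧ f * up₁ φ₁ w s = up₁ φ₁ w t}
  one_mem' := ⟨1, 1, by simp, by simp⟩
  zero_mem' := ⟨0, 1, by simp, by simp⟩
  mul_mem' := by
    rintro f g ⟨t, s, hs, h1⟩ ⟨t', s', hs', h2⟩
    exact ⟨t * t', s * s', by rw [map_mul]; exact mul_ne_zero hs hs',
      by rw [map_mul, map_mul, ← h1, ← h2]; ring⟩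
  add_mem' := by
    rintro f g ⟨t, s, hs, h1⟩ ⟨t', s', hs', h2⟩
    exact ⟨t * s' + t' * s, s * s', by rw [map_mul]; exact mul_ne_zero hs hs',
      by rw [map_mul, map_add, map_mul, map_mul, ← h1, ← h2]; ring⟩
  neg_mem' := by
    rintro f ⟨t, s, hs, h1⟩
    exact ⟨-t, s, hs, by rw [map_neg, ← h1, neg_mul]⟩

/-- The valuation ring of Gauss. -/
def gaussRing : ValuationSubring FL :=
  ValuationSubring.ofSubring (gaussSub φ₁ φ₂ res) fun f => by
    rcases eq_or_ne f 0 with rfl | hf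
    · exact Or.inl (Subring.zero_mem _)
    obtain ⟨l, t, s, hl, ht, hs, he⟩ := hc.factor f hf
    rcases w.mem_or_inv_mem l with hw | hw
    · refine Or.inl ⟨MonoidAlgebra.single 1 ⟨l, hw⟩ * t, s, hs, ?_⟩
      rw [he, map_mul, evT_single, map_one, mul_one]
      rfl
    · refine Or.inr ⟨MonoidAlgebra.single 1 ⟨l⁻¹, hw⟩ * s, t, ht, ?_⟩
      rw [map_mul, evT_single, map_one, mul_one]
      show f⁻¹ * up₁ φ₁ w t = algebraMap L FL l⁻¹ * up₁ φ₁ w s
      have h1 : algebraMap L FL l ≠ 0 := by simpa using hl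
      rw [map_inv₀]
      field_simp
      rw [he]
      ring

theorem mem_gaussRing {f : FL} :
    f ∈ hc.gaussRing ↔ ∃ t s, up₂ φ₂ res s ≠ 0 ∧ f * up₁ φ₁ w s = up₁ φ₁ w t := Iff.rfl

/-- The reduction, as a function. -/
def gaussVal (f : hc.gaussRing) : Fκ :=
  up₂ φ₂ res (hc.mem_gaussRing.1 f.2).choose /
    up₂ φ₂ res (hc.mem_gaussRing.1 f.2).choose_spec.choose

theorem gaussVal_eq (f : hc.gaussRing) {t s : MonoidAlgebra w F} (hs : up₂ φ₂ res s ≠ 0)
    (he : (f : FL) * up₁ φ₁ w s = up₁ φ₁ w t) :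
    hc.gaussVal f = up₂ φ₂ res t / up₂ φ₂ res s := by
  obtain ⟨hs₀, he₀⟩ := (hc.mem_gaussRing.1 f.2).choose_spec.choose_spec
  unfold gaussVal
  set t₀ := (hc.mem_gaussRing.1 f.2).choose
  set s₀ := (hc.mem_gaussRing.1 f.2).choose_spec.choose
  rw [div_eq_div_iff hs₀ hs, ← sub_eq_zero, ← map_mul, ← map_mul, ← map_sub]
  exact hc.up₂_eq_zero (by rw [map_sub, map_mul, map_mul, ← he₀, ← he]; ring)

/-- The reduction. -/
def gaussRed : hc.gaussRing →+* Fκ where
  toFun := hc.gaussVal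
  map_one' := by
    rw [hc.gaussVal_eq 1 (t := 1) (s := 1) (by simp) (by simp)]
    simp
  map_zero' := by
    rw [hc.gaussVal_eq 0 (t := 0) (s := 1) (by simp) (by simp)]
    simp
  map_mul' f g := by
    obtain ⟨t, s, hs, h1⟩ := hc.mem_gaussRing.1 f.2
    obtain ⟨t', s', hs', h2⟩ := hc.mem_gaussRing.1 g.2
    rw [hc.gaussVal_eq f hs h1, hc.gaussVal_eq g hs' h2,
      hc.gaussVal_eq (f * g) (t := t * t') (s := s * s')
        (by rw [map_mul]; exact mul_ne_zero hs hs')
        (by rw [map_mul, map_mul, ← h1, ← h2]; push_cast; ring),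
      map_mul, map_mul, div_mul_div_comm]
  map_add' f g := by
    obtain ⟨t, s, hs, h1⟩ := hc.mem_gaussRing.1 f.2
    obtain ⟨t', s', hs', h2⟩ := hc.mem_gaussRing.1 g.2
    rw [hc.gaussVal_eq f hs h1, hc.gaussVal_eq g hs' h2,
      hc.gaussVal_eq (f + g) (t := t * s' + t' * s) (s := s * s')
        (by rw [map_mul]; exact mul_ne_zero hs hs')
        (by rw [map_mul, map_add, map_mul, map_mul, ← h1, ← h2]; push_cast; ring),
      map_mul, map_add, map_mul, map_mul]
    field_simp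

theorem gaussRed_eq (f : hc.gaussRing) {t s : MonoidAlgebra w F} (hs : up₂ φ₂ res s ≠ 0)
    (he : (f : FL) * up₁ φ₁ w s = up₁ φ₁ w t) :
    hc.gaussRed f = up₂ φ₂ res t / up₂ φ₂ res s :=
  hc.gaussVal_eq f hs he

/-- The specialisation extends to the functions. -/
theorem exists_gauss : ∃ (W : ValuationSubring FL) (red : W →+* Fκ),
    IsGauss φ₁ φ₂ w res W red := by
  refine ⟨hc.gaussRing, hc.gaussRed, ⟨⟨fun f hf => ?_⟩, fun e => ?_, fun a => ?_, fun f hf => ?_⟩⟩
  · obtain ⟨t, s, hs, he⟩ := hc.mem_gaussRing.1 f.2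
    rw [hc.gaussRed_eq f hs he, isUnit_iff_ne_zero] at hf
    have ht : up₂ φ₂ res t ≠ 0 := fun e => hf (by rw [e, zero_div])
    have hf0 : (f : FL) ≠ 0 := fun e => hc.up₁_ne_zero ht (by rw [← he, e, zero_mul])
    have hinv : (f : FL)⁻¹ ∈ hc.gaussRing := hc.mem_gaussRing.2 ⟨s, t, ht, by
      rw [← he, inv_mul_cancel_left₀ hf0]⟩
    exact isUnit_iff_exists_inv.2 ⟨⟨(f : FL)⁻¹, hinv⟩, Subtype.ext (mul_inv_cancel₀ hf0)⟩
  · have he : φ₁ e * up₁ φ₁ w 1 = up₁ φ₁ w (MonoidAlgebra.single e 1) := by simp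
    refine ⟨hc.mem_gaussRing.2 ⟨_, 1, by simp, he⟩, ?_⟩
    rw [hc.gaussRed_eq _ (s := 1) (by simp) he]
    simp
  · have he : algebraMap L FL a * up₁ φ₁ w 1 = up₁ φ₁ w (MonoidAlgebra.single 1 a) := by
      simp
    refine ⟨hc.mem_gaussRing.2 ⟨_, 1, by simp, he⟩, ?_⟩
    rw [hc.gaussRed_eq _ (s := 1) (by simp) he]
    simp
  · obtain ⟨l, t, s, hl, ht, hs, he⟩ := hc.factor f hf
    have he' : algebraMap L FL l⁻¹ * f * up₁ φ₁ w s = up₁ φ₁ w t := by
      rw [mul_assoc, he, ← mul_assoc, ← map_mul, inv_mul_cancel₀ hl, map_one, one_mul]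
    refine ⟨l⁻¹, inv_ne_zero hl, hc.mem_gaussRing.2 ⟨t, s, hs, he'⟩, ?_⟩
    rw [hc.gaussRed_eq _ hs he']
    exact div_ne_zero ht hs

end SpecCtx

end Gauss

end FA.AbTors

end
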