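import Fermat.Agent.AbTors.CubeDefs
import Fermat.Agent.AbTors.Ext
import Fermat.Agent.AbTors.SpecGauss

/-!
# Rigidity of effective divisors

An effective divisor on `F L` that specialises to the pullback of `E` at enough valuations of `L`
is the pullback of `E`: the functions with bounded poles that vanish on it form a graph over
`L(D - E)` whose slopes vanish at every one of these valuations.
-/

set_option autoImplicit false
set_option linter.style.haveILetI false
set_option linter.unusedSectionVars false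

noncomputable section

universe u

open AlgebraicCurve FA.Curve FA.PicTors

namespace FA.AbTors

variable {M L F FL : Type u} [Field M] [Field L] [Field F] [Field FL] [IsAlgClosed M]
  [IsAlgClosed L] [Algebra M F] [Algebra L FL] {iL : M →+* L} {φ₁ : F →+* FL}
  {h₁ : IsExt iL φ₁}

/-- The coordinates of a function that vanishes on `G`: the dominant one lies over `L(D - E)` and
the others are smaller. -/
theorem SpecialisesTo.slope {w : ValuationSubring L} {G : Divisor L FL} {E : Divisor M F}
    (hS : SpecialisesTo h₁ w G E) (D : Divisor M F) {n m : ℕ} {e : Fin n → F} {f : Fin m → F}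
    (hli : LinearIndependent M (Sum.elim e f))
    (hspan : (riemannRochSpace (D - E) : Set F) ⊆ Submodule.span M (Set.range e))
    (c : Fin n ⊕ Fin m → L) (hc : ∃ j, c j ≠ 0)
    (hmem : ∑ j, c j • φ₁ (Sum.elim e f j) ∈ riemannRochSpace (h₁.pull D - G)) :
    ∃ j, c (Sum.inl j) ≠ 0 ∧
      (∀ j', w.valuation (c (Sum.inl j') / c (Sum.inl j)) ≤ 1) ∧
      ∀ l, w.valuation (c (Sum.inr l) / c (Sum.inl j)) < 1 := by
  classical
  obtain ⟨κ, Fκ, _, _, _, _, iκ, φ₂, h₂, res, W, red, sp, S, hG⟩ := hS
  obtain ⟨j₀, hj₀, hint⟩ := exists_scale w c hc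
  set u : Fin n ⊕ Fin m → F := Sum.elim e f
  choose huW hured using fun j => S.red_F (u j)
  choose hcW hcred using fun j => S.red_const ⟨c j / c j₀, hint j⟩
  set g : W := ∑ j, (⟨_, hcW j⟩ : W) * ⟨_, huW j⟩
  have hg : (g : FL) = (c j₀)⁻¹ • ∑ j, c j • φ₁ (u j) := by
    simp only [g, AddSubmonoidClass.coe_finsetSum, MulMemClass.coe_mul, Finset.smul_sum]
    refine Finset.sum_congr rfl fun j _ => ?_
    rw [smul_smul, Algebra.smul_def, div_eq_inv_mul]
  have hred : red g = ∑ j, res ⟨c j / c j₀, hint j⟩ • φ₂ (u j) := by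
    simp only [g, map_sum, map_mul, hcred, hured, Algebra.smul_def]
  have hli₂ := h₂.linearIndependent hli
  have hone : res ⟨c j₀ / c j₀, hint j₀⟩ = 1 := by
    rw [show (⟨c j₀ / c j₀, hint j₀⟩ : w) = 1 from Subtype.ext (div_self hj₀), map_one]
  have hne : red g ≠ 0 := fun h0 => by
    rw [hred] at h0
    exact one_ne_zero (hone.symm.trans (Fintype.linearIndependent_iff.1 hli₂ _ h0 j₀))
  have hg0 : (g : FL) ≠ 0 := fun h0 => hne (by rw [show g = 0 from Subtype.ext h0, map_zero])
  have hgV : (g : FL) ∈ riemannRochSpace (h₁.pull D - G) := hg ▸ Submodule.smul_mem _ _ hmem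
  have hnn : 0 ≤ divOf h₁.isFunctionField (g : FL) + (h₁.pull D - G) := by
    refine Finsupp.le_def.2 fun v => ?_
    have h1 := (atLeast_iff hg0).1 (mem_riemannRochSpace.1 hgV v)
    rw [Finsupp.add_apply, divOf_apply, Finsupp.zero_apply]
    omega
  have h2 := mapDomain_nonneg sp hnn
  rw [Finsupp.mapDomain_add, Finsupp.mapDomain_sub, S.red_div g hne, S.mapDomain_pull, hG,
    ← map_sub] at h2
  have hrV : red g ∈ riemannRochSpace (h₂.pull (D - E)) := mem_riemannRochSpace.2 fun v => Or.inr
    (by
      have := Finsupp.le_def.1 h2 v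
      rw [Finsupp.add_apply, divOf_apply, Finsupp.zero_apply] at this
      omega)
  have hspan₂ : red g ∈ Submodule.span κ (Set.range fun j => φ₂ (e j)) := by
    refine Submodule.span_le.2 ?_ (riemannRochSpace_pull_le h₂ (D - E) hrV)
    rintro _ ⟨z, hz, rfl⟩
    obtain ⟨a, rfl⟩ := (Submodule.mem_span_range_iff_exists_fun M).1 (hspan hz)
    rw [SetLike.mem_coe, map_sum]
    refine Submodule.sum_mem _ fun j _ => ?_
    rw [Algebra.smul_def, map_mul, h₂.comm, ← Algebra.smul_def]
    exact Submodule.smul_mem _ _ (Submodule.subset_span ⟨j, rfl⟩)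
  obtain ⟨a, ha⟩ := (Submodule.mem_span_range_iff_exists_fun κ).1 hspan₂
  set d : Fin n ⊕ Fin m → κ := Sum.elim a 0
  have hd : ∑ j, (res ⟨c j / c j₀, hint j⟩ - d j) • φ₂ (u j) = 0 := by
    simp only [sub_smul, Finset.sum_sub_distrib, sub_eq_zero, ← hred, ← ha]
    simp [d, u, Fintype.sum_sum_type]
  have hz := Fintype.linearIndependent_iff.1 hli₂ _ hd
  rcases j₀ with j₁ | l₁
  · refine ⟨j₁, hj₀, fun j' => (w.valuation_le_one_iff _).2 (hint _), fun l => ?_⟩
    refine (S.res_eq_zero_iff ⟨_, hint (Sum.inr l)⟩).1 ?_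
    simpa [d] using sub_eq_zero.1 (hz (Sum.inr l))
  · have := sub_eq_zero.1 (hz (Sum.inr l₁))
    rw [hone] at this
    simp [d] at this

/-- Rigidity of effective divisors. -/
theorem slopesHold : SlopesHold.{u} := by
  intro M L F FL _ _ _ _ _ _ _ _ iL φ₁ h₁ E G hE hG hdeg 𝒲 hsep hspec
  classical
  have hF := h₁.func
  have hFL := h₁.isFunctionField
  obtain ⟨w₀, hw₀⟩ : 𝒲.Nonempty := by
    by_contra h0
    exact one_ne_zero (hsep 1 fun w hw => absurd ⟨w, hw⟩ h0)
  haveI := infinite_places hF
  obtain ⟨P⟩ := (inferInstance : Nonempty (Place M F))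
  obtain ⟨c₁, hc₁⟩ := exists_threshold hF
  obtain ⟨c₂, hc₂⟩ := exists_threshold hFL
  have hdE := degree_nonneg hF hE
  set D : Divisor M F := Finsupp.single P (max c₁ c₂ + 2 * Divisor.degree E + max 0 (-max c₁ c₂))
  have hD : Divisor.degree D = max c₁ c₂ + 2 * Divisor.degree E + max 0 (-max c₁ c₂) := by
    rw [Divisor.degree_single, hF.deg_eq_one]; simp
  have hgen : FA.Curve.genus L FL = FA.Curve.genus M F := genus_map h₁
  -- bases
  obtain ⟨C₀, hC₀⟩ := Submodule.exists_isCompl (riemannRochSpace (K := M) (F := F) (D - E))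
  set C := C₀ ⊓ riemannRochSpace D
  have hEle : riemannRochSpace (D - E) ≤ riemannRochSpace D :=
    riemannRochSpace_mono (sub_le_self _ hE)
  have hsup : riemannRochSpace (D - E) ⊔ C = riemannRochSpace D := by
    simp only [C]
    rw [← sup_inf_assoc_of_le _ hEle, hC₀.sup_eq_top, top_inf_eq]
  haveI := finite_riemannRochSpace hF (D - E)
  haveI := finite_riemannRochSpace hF D
  haveI : Module.Finite M C := Submodule.finiteDimensional_of_le (inf_le_right : C ≤ riemannRochSpace D)
  let be := Module.finBasis M (riemannRochSpace (D - E))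
  let bf := Module.finBasis M C
  set n := Module.finrank M (riemannRochSpace (D - E))
  set m := Module.finrank M C
  set e : Fin n → F := fun j => be j
  set f : Fin m → F := fun l => bf l
  have hespan : Submodule.span M (Set.range e) = riemannRochSpace (D - E) := by
    rw [show Set.range e = (riemannRochSpace (D - E)).subtype '' Set.range be from
      Set.range_comp (riemannRochSpace (D - E)).subtype be, ← Submodule.map_span, be.span_eq,
      Submodule.map_top, Submodule.range_subtype]
  have hfspan : Submodule.span M (Set.range f) = C := by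
    rw [show Set.range f = C.subtype '' Set.range bf from Set.range_comp C.subtype bf,
      ← Submodule.map_span, bf.span_eq, Submodule.map_top, Submodule.range_subtype]
  have hli : LinearIndependent M (Sum.elim e f) := by
    refine linearIndependent_sum.2 ⟨be.linearIndependent.map' _ (Submodule.ker_subtype _),
      bf.linearIndependent.map' _ (Submodule.ker_subtype _), ?_⟩
    rw [Sum.elim_comp_inl, Sum.elim_comp_inr, hespan, hfspan]
    exact hC₀.disjoint.mono_right inf_le_left
  let Ψ : (Fin n ⊕ Fin m → L) →ₗ[L] FL := Fintype.linearCombination L fun j => φ₁ (Sum.elim e f j)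
  have hΨ : ∀ c, Ψ c = ∑ j, c j • φ₁ (Sum.elim e f j) := fun c =>
    Fintype.linearCombination_apply L _ c
  have hinj : Function.Injective Ψ := by
    refine (injective_iff_map_eq_zero Ψ).2 fun c hc => funext fun j => ?_
    rw [hΨ] at hc
    exact Fintype.linearIndependent_iff.1 (h₁.linearIndependent hli) c hc j
  set V := riemannRochSpace (h₁.pull D - G)
  have hVle : V ≤ LinearMap.range Ψ := by
    refine (riemannRochSpace_mono (sub_le_self _ hG)).trans ((riemannRochSpace_pull_le h₁ D).trans
      (Submodule.span_le.2 ?_))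
    rintro _ ⟨z, hz, rfl⟩
    rw [← hsup, ← hespan, ← hfspan, ← Submodule.span_union, ← Set.Sum.elim_range] at hz
    obtain ⟨a, rfl⟩ := (Submodule.mem_span_range_iff_exists_fun M).1 hz
    refine ⟨fun j => iL (a j), ?_⟩
    rw [hΨ, map_sum]
    exact Finset.sum_congr rfl fun j _ => by
      rw [Algebra.smul_def, Algebra.smul_def, map_mul, h₁.comm]
  haveI : Module.Finite L V := finite_riemannRochSpace hFL _
  set V' := V.comap Ψ
  have hV' : Module.finrank L V' = n := by
    have h1 : Module.finrank L V' = Module.finrank L V := by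
      rw [(Submodule.equivMapOfInjective Ψ hinj V').finrank_eq, Submodule.map_comap_eq,
        inf_eq_right.2 hVle]
    have h2 : ell (h₁.pull D - G) = ell (D - E) := by
      rw [hc₁ _ (by rw [map_sub, hD]; omega), hc₂ _ (by rw [map_sub, h₁.degree_pull, hD]; omega),
        hgen, map_sub, map_sub, h₁.degree_pull, hdeg]
    rw [h1]
    exact Int.ofNat.inj h2
  let π : V' →ₗ[L] (Fin n → L) := (LinearMap.funLeft L L Sum.inl).comp V'.subtype
  have hπ : Function.Injective π := by
    refine (injective_iff_map_eq_zero π).2 fun c hc => ?_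
    by_contra h0
    obtain ⟨j, hj, -, -⟩ := (hspec w₀ hw₀).slope D hli hespan.ge (c : Fin n ⊕ Fin m → L)
      (by
        by_contra hall
        push Not at hall
        exact h0 (Subtype.ext (funext hall)))
      (hΨ _ ▸ c.2)
    exact hj (congrFun hc j)
  have hsurj : Function.Surjective π :=
    (LinearMap.injective_iff_surjective_of_finrank_eq_finrank
      (hV'.trans (Module.finrank_fin_fun L).symm)).1 hπ
  have hmemV : ∀ j, φ₁ (e j) ∈ V := by
    intro j
    obtain ⟨c, hc⟩ := hsurj (Pi.single j 1)
    have hci : ∀ j', (c : Fin n ⊕ Fin m → L) (Sum.inl j') = (Pi.single j 1 : Fin n → L) j' :=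
      congrFun hc
    have hcr : ∀ l, (c : Fin n ⊕ Fin m → L) (Sum.inr l) = 0 := fun l => hsep _ fun w hw => by
      obtain ⟨j₁, hj₁, -, hlt⟩ := (hspec w hw).slope D hli hespan.ge (c : Fin n ⊕ Fin m → L)
        ⟨Sum.inl j, by rw [hci, Pi.single_eq_same]; exact one_ne_zero⟩ (hΨ _ ▸ c.2)
      rw [hci] at hj₁
      have hjj : j₁ = j := by
        by_contra hne
        exact hj₁ (Pi.single_eq_of_ne hne 1)
      simpa [hjj, hci, Pi.single_eq_same] using hlt l
    have h1 : Ψ (c : Fin n ⊕ Fin m → L) ∈ V := c.2
    rw [hΨ, Fintype.sum_sum_type] at h1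
    simpa [hci, hcr, Pi.single_apply, ite_smul] using h1
  -- conclusion
  set H : Divisor L FL := Finsupp.zipWith max (max_self 0) G (h₁.pull E)
  have hH1 : G ≤ H := Finsupp.le_def.2 fun v => by simp [H]
  have hH2 : h₁.pull E ≤ H := Finsupp.le_def.2 fun v => by simp [H]
  have hEnn : 0 ≤ h₁.pull E := Finsupp.le_def.2 fun v => by
    by_cases hv : ∃ R, v = h₁.up R
    · obtain ⟨R, rfl⟩ := hv
      rw [h₁.pull_up]; exact Finsupp.le_def.1 hE R
    · push Not at hv
      rw [h₁.pull_of_notMem _ hv]; exact le_rfl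
  have hH3 : H ≤ G + h₁.pull E := Finsupp.le_def.2 fun v => by
    have := Finsupp.le_def.1 hG v
    have := Finsupp.le_def.1 hEnn v
    simp only [H, Finsupp.zipWith_apply, Finsupp.add_apply, Finsupp.zero_apply] at *
    omega
  have hdH := degree_mono hFL hH3
  rw [map_add, h₁.degree_pull, hdeg] at hdH
  have hHG := degree_mono hFL hH1
  haveI := finite_riemannRochSpace hFL (h₁.pull D - H)
  have hle : ell (D - E) ≤ ell (h₁.pull D - H) := by
    refine Int.ofNat_le.2 ?_
    have hu : LinearIndependent L fun j => φ₁ (e j) :=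
      h₁.linearIndependent (be.linearIndependent.map' _ (Submodule.ker_subtype _))
    have h1 := card_le_finrank (D := h₁.pull D - H) hu fun j => by
      rw [mem_riemannRochSpace]
      intro v
      have hv1 := mem_riemannRochSpace.1 (hmemV j) v
      have hv2 := mem_riemannRochSpace.1 (h₁.map_mem_L_iff.2 (be j).2 :
        φ₁ (e j) ∈ riemannRochSpace (h₁.pull (D - E))) v
      rw [map_sub, Finsupp.sub_apply] at hv2
      rw [Finsupp.sub_apply] at hv1
      rw [Finsupp.sub_apply]
      simp only [H, Finsupp.zipWith_apply]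
      rcases max_cases (G v) (h₁.pull E v) with ⟨hh, -⟩ | ⟨hh, -⟩ <;> rw [hh]
      · exact hv1
      · exact hv2
    simpa using h1
  rw [hc₁ _ (by rw [map_sub, hD]; omega), hc₂ _ (by rw [map_sub, h₁.degree_pull, hD]; omega),
    hgen, map_sub, map_sub, h₁.degree_pull] at hle
  have heq : ∀ {A : Divisor L FL}, A ≤ H → Divisor.degree A = Divisor.degree E → A = H := by
    intro A hA hdA
    refine Finsupp.ext fun v => le_antisymm (Finsupp.le_def.1 hA v) ?_
    have hz : Divisor.degree (H - A) = 0 := by rw [map_sub, hdA]; omega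
    rw [degree_eq_finset_sum hFL _ (Finset.subset_insert v _)] at hz
    have := (Finset.sum_eq_zero_iff_of_nonneg fun u _ => ?_).1 hz v (Finset.mem_insert_self _ _)
    · rw [Finsupp.sub_apply] at this; omega
    · rw [Finsupp.sub_apply]; have := Finsupp.le_def.1 hA u; omega
  exact (heq hH1 hdeg).trans (heq hH2 (h₁.degree_pull E)).symm

end FA.AbTors

end
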