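import Fermat.Agent.Curve.Along
import Fermat.Agent.Curve.Duality
import Mathlib.RingTheory.Valuation.ValuationSubring
import Mathlib.Algebra.Polynomial.Roots
import Mathlib.Algebra.Polynomial.Splits

/-!
# Specialisation: roots of polynomials and divisors through norms

The roots of a polynomial with integral coefficients and nonzero reduction reduce to the roots of
the reduction.  The orders of a function over a value of `x` add up to the multiplicity of that
value in its norm.
-/

set_option autoImplicit false
set_option linter.style.haveILetI false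
set_option linter.unusedSectionVars false

noncomputable section

namespace FA.AbTors

open AlgebraicCurve FA.Curve FA.ModField IntermediateField Polynomial
open scoped Classical

section Roots

variable {L κ : Type*} [Field L] [Field κ] {w : ValuationSubring L} (res : w →+* κ)

/-- `c` is integral and reduces to `a`. -/
def RedEq (a : κ) (c : L) : Prop := ∃ h : c ∈ w, res ⟨c, h⟩ = a

theorem redEq_coe_iff {a : κ} {c : w} : RedEq res a (c : L) ↔ res c = a :=
  ⟨fun ⟨_, h⟩ => h, fun h => ⟨c.2, h⟩⟩

/-- The roots of a polynomial with nonzero reduction reduce to the roots of the reduction. -/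
theorem rootMultiplicity_red [IsAlgClosed L] (hres : IsLocalHom res) (a : κ) (p : w[X])
    (hp : p.map res ≠ 0) :
    rootMultiplicity a (p.map res) =
      Multiset.countP (RedEq res a) (p.map w.subtype).roots := by
  classical
  generalize hn : (p.map w.subtype).natDegree = n
  induction n generalizing p with
  | zero =>
    have hp0 : p.natDegree = 0 := by
      rw [← hn, Polynomial.natDegree_map_eq_of_injective Subtype.val_injective]
    obtain ⟨c, rfl⟩ := natDegree_eq_zero.1 hp0
    simp only [Polynomial.map_C, roots_C, Multiset.countP_zero]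
    exact rootMultiplicity_C _ _
  | succ n ih =>
    set P := p.map w.subtype with hP
    have hP0 : P ≠ 0 := fun e => by simp [e] at hn
    obtain ⟨c, hc⟩ := IsAlgClosed.exists_root P (by
      rw [degree_eq_natDegree hP0, hn]; exact_mod_cast Nat.succ_ne_zero n)
    by_cases hcw : c ∈ w
    · set cw : w := ⟨c, hcw⟩
      have hroot : p.IsRoot cw := by
        refine Subtype.val_injective ?_
        have : P.eval (w.subtype cw) = 0 := hc
        rw [hP, eval_map, eval₂_at_apply] at this
        exact this
      obtain ⟨q, rfl⟩ := dvd_iff_isRoot.2 hroot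
      rw [Polynomial.map_mul, Polynomial.map_sub, map_X, map_C] at hp
      have hPq : P = (X - C c) * q.map w.subtype := by simp [hP, cw]
      have hq0 : q.map w.subtype ≠ 0 := right_ne_zero_of_mul (hPq ▸ hP0)
      have hdeg : (q.map w.subtype).natDegree = n := by
        rw [hPq, natDegree_mul (X_sub_C_ne_zero c) hq0, natDegree_X_sub_C] at hn
        omega
      rw [hPq, roots_mul (mul_ne_zero (X_sub_C_ne_zero c) hq0), roots_X_sub_C,
        Multiset.countP_add, Polynomial.map_mul, Polynomial.map_sub, map_X, map_C,
        rootMultiplicity_mul hp, rootMultiplicity_X_sub_C,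
        ih q (right_ne_zero_of_mul hp) hdeg, ← Multiset.cons_zero, Multiset.countP_cons,
        Multiset.countP_zero, zero_add]
      congr 1
      refine if_congr ?_ rfl rfl
      exact eq_comm.trans (redEq_coe_iff res).symm
    · have hc0 : c ≠ 0 := fun e => hcw (e ▸ w.zero_mem)
      set d : w := ⟨c⁻¹, (w.mem_or_inv_mem c).resolve_left hcw⟩
      have hd : res d = 0 := by
        by_contra hne
        haveI := hres
        obtain ⟨u, hu⟩ := isUnit_iff_exists_inv.1
          (IsUnit.of_map res d (isUnit_iff_ne_zero.2 hne))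
        have h1 : c⁻¹ * (u : L) = 1 := congrArg Subtype.val hu
        have h2 : (u : L) = c := by
          rw [inv_mul_eq_one₀ hc0] at h1
          exact h1.symm
        exact hcw (h2 ▸ u.2)
      obtain ⟨Q₀, hQ₀⟩ := dvd_iff_isRoot.2 hc
      set Q := C (-c) * Q₀ with hQ
      have hPQ : P = (1 - C (d : L) * X) * Q := by
        rw [hQ₀, hQ, ← mul_assoc]
        congr 1
        show X - C c = (1 - C c⁻¹ * X) * C (-c)
        rw [sub_mul, one_mul, mul_right_comm, ← C_mul, mul_neg, inv_mul_cancel₀ hc0, map_neg,
          map_neg, C_1]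
        ring
      have hlift : Q ∈ Polynomial.lifts w.subtype := by
        refine (lifts_iff_coeff_lifts _).2 fun m => ?_
        induction m with
        | zero =>
          refine ⟨p.coeff 0, ?_⟩
          have := congrArg (fun r : L[X] => r.coeff 0) hPQ
          simpa [hP, sub_mul, mul_assoc] using this
        | succ m ihm =>
          obtain ⟨r, hr⟩ := ihm
          refine ⟨p.coeff (m + 1) + d * r, ?_⟩
          have := congrArg (fun r : L[X] => r.coeff (m + 1)) hPQ
          simp [hP, sub_mul, mul_assoc] at this
          rw [map_add, map_mul, hr]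
          exact (congrArg (· + (d : L) * Q.coeff m) this).trans (sub_add_cancel _ _)
      obtain ⟨q, hq⟩ := (Polynomial.mem_lifts _).1 hlift
      have hpq : p = (1 - C d * X) * q :=
        Polynomial.map_injective w.subtype Subtype.val_injective (by
          rw [← hP, hPQ, Polynomial.map_mul, Polynomial.map_sub, Polynomial.map_one,
            Polynomial.map_mul, map_C, map_X, hq]
          rfl)
      have hred : p.map res = q.map res := by
        rw [hpq, Polynomial.map_mul, Polynomial.map_sub, Polynomial.map_one, Polynomial.map_mul,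
          map_C, hd, map_zero, zero_mul, sub_zero, one_mul]
      have hQ₀0 : Q₀ ≠ 0 := right_ne_zero_of_mul (hQ₀ ▸ hP0)
      have hdeg : (q.map w.subtype).natDegree = n := by
        rw [hq, hQ, natDegree_C_mul (neg_ne_zero.2 hc0)]
        rw [hQ₀, natDegree_mul (X_sub_C_ne_zero c) hQ₀0, natDegree_X_sub_C] at hn
        omega
      rw [hred, ih q (hred ▸ hp) hdeg, hq, hQ, roots_C_mul _ (neg_ne_zero.2 hc0), hQ₀,
        roots_mul (mul_ne_zero (X_sub_C_ne_zero c) hQ₀0), roots_X_sub_C, Multiset.countP_add,
        ← Multiset.cons_zero, Multiset.countP_cons, Multiset.countP_zero, zero_add,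
        if_neg fun h : RedEq res a c => hcw h.1, zero_add]

end Roots

section Norm

variable {K F : Type*} [Field K] [Field F] [Algebra K F] [IsAlgClosed K]
  (hF : IsFunctionField K F) {x : F} (hx : Transcendental K x)

include hF hx

/-- The order of a polynomial in `x` at a place where `x` has a value. -/
theorem ord_aeval {v : Place K F} {c : K} (hv : HasValue v x c) {p : K[X]} (hp : p ≠ 0) :
    v.ord (aeval x p) = rootMultiplicity c p * v.ord (x - algebraMap K F c) := by
  obtain ⟨q, hq, hndvd⟩ := exists_eq_pow_rootMultiplicity_mul_and_not_dvd p hp c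
  have hqc : q.eval c ≠ 0 := fun e => hndvd (dvd_iff_isRoot.2 e)
  obtain ⟨hne, hord⟩ := (hv.aeval q).ord_eq_zero hqc
  have hsub : x - algebraMap K F c ≠ 0 := fun e =>
    hx (by rw [sub_eq_zero.1 e]; exact isAlgebraic_algebraMap c)
  conv_lhs => rw [hq]
  rw [map_mul, map_pow, map_sub, aeval_X, aeval_C, v.ord_mul (pow_ne_zero _ hsub) hne, hord,
    add_zero, place_ord_pow]

/-- The orders over a value of `x` are read on the norm. -/
theorem sum_ord_value {f : F} (hf : f ≠ 0) {p q : K[X]} (hp : p ≠ 0) (hq : q ≠ 0)
    (hN : (Algebra.norm K⟮x⟯ f : F) * aeval x q = aeval x p) (c : K) (S : Finset (Place K F))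
    (hS : ∀ v, v ∈ S → HasValue v x c) (hS' : ∀ v, HasValue v x c → v.ord f ≠ 0 → v ∈ S) :
    ∑ v ∈ S, v.ord f = rootMultiplicity c p - rootMultiplicity c q := by
  classical
  haveI := hF.finiteDimensional hx
  haveI := hasPrincipalDivisors hF
  have hne : x - algebraMap K F c ≠ 0 := fun e =>
    hx (by rw [sub_eq_zero.1 e]; exact isAlgebraic_algebraMap c)
  have ht : x - algebraMap K F c ∈ K⟮x⟯ :=
    sub_mem (mem_adjoin_simple_self K x) (K⟮x⟯.algebraMap_mem c)
  have hiff : ∀ v : Place K F, HasValue v x c ↔ 0 < v.ord (x - algebraMap K F c) := fun v => by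
    rw [HasValue, atLeast_iff hne]; omega
  obtain ⟨P, hP⟩ := exists_ord_eq_one_zero hF c hx
  obtain ⟨hone, -⟩ := restrict_of_pos hF hx ht (adjoin_sub_eq x c) (w := P) hP
  set ν := P.restrict K⟮x⟯
  have hfib : ∀ v, v ∈ ν.fiber F ↔ HasValue v x c := fun v =>
    ((restrict_of_pos hF hx ht (adjoin_sub_eq x c) (w := v) hP).2).trans (hiff v).symm
  have hsum : ∑ v ∈ S, v.ord f = ∑ v ∈ ν.fiber F, v.ord f := by
    refine Finset.sum_subset (fun v hv => (hfib v).2 (hS v hv)) fun v hv hvS => ?_
    by_contra h0
    exact hvS (hS' v ((hfib v).1 hv) h0)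
  set g : K⟮x⟯ := AdjoinSimple.gen K x
  have hg : Transcendental K g := fun h => hx (by simpa [g] using h.algebraMap (A := F))
  have hval : HasValue ν g c := by
    refine Or.inr ?_
    rw [show g - algebraMap K K⟮x⟯ c = (⟨x - algebraMap K F c, ht⟩ : K⟮x⟯) from rfl, hone]
  have hone' : ν.ord (g - algebraMap K K⟮x⟯ c) = 1 := hone
  have hcoe : ∀ r : K[X], ((aeval g r : K⟮x⟯) : F) = aeval x r := fun r => by
    rw [show ((aeval g r : K⟮x⟯) : F) = algebraMap K⟮x⟯ F (aeval g r) from rfl,
      ← Polynomial.aeval_algebraMap_apply]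
    rfl
  have hN' : Algebra.norm K⟮x⟯ f * aeval g q = aeval g p := by
    refine Subtype.ext ?_
    push_cast
    rw [hcoe, hcoe]
    exact hN
  have hq' : aeval g q ≠ 0 := fun e => hq (transcendental_iff.1 hg q e)
  have h1 := congrArg ν.ord hN'
  rw [ν.ord_mul (Algebra.norm_ne_zero_iff.2 hf) hq',
    ord_aeval (isFunctionField_simple hx) hg hval hp,
    ord_aeval (isFunctionField_simple hx) hg hval hq, hone', mul_one, mul_one] at h1
  rw [hsum, sum_fiber_ord (isFunctionField_simple hx) hF ν hf]
  omega

/-- The orders over a class of values of `x` are read on the reduction of the norm. -/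
theorem sum_ord_class {κ : Type*} [Field κ] {w : ValuationSubring K} (res : w →+* κ)
    (hres : IsLocalHom res) (a : κ) {f : F} (hf : f ≠ 0) {p q : w[X]}
    (hp : p.map res ≠ 0) (hq : q.map res ≠ 0)
    (hN : (Algebra.norm K⟮x⟯ f : F) * aeval x (q.map w.subtype) = aeval x (p.map w.subtype))
    (S : Finset (Place K F)) (hS : ∀ v, v ∈ S → ∃ c, HasValue v x c ∧ RedEq res a c)
    (hS' : ∀ v c, HasValue v x c → RedEq res a c → v.ord f ≠ 0 → v ∈ S) :
    ∑ v ∈ S, v.ord f =
      (rootMultiplicity a (p.map res) : ℤ) - rootMultiplicity a (q.map res) := by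
  classical
  have hne : ∀ r : w[X], r.map res ≠ 0 → r.map w.subtype ≠ 0 := fun r hr e => hr (by
    rw [show r = 0 from Polynomial.map_injective w.subtype Subtype.val_injective
      (by rw [e, Polynomial.map_zero]), Polynomial.map_zero])
  choose c hc hca using fun v : S => hS v v.2
  let val : Place K F → K := fun v => if h : v ∈ S then c ⟨v, h⟩ else 0
  set C₀ : Finset K := S.image val ∪
    (((p.map w.subtype).roots + (q.map w.subtype).roots).toFinset.filter (RedEq res a))
  have hC : ∀ z ∈ C₀, RedEq res a z := fun z hz => by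
    rcases Finset.mem_union.1 hz with hz | hz
    · obtain ⟨v, hv, rfl⟩ := Finset.mem_image.1 hz
      simp only [val, dif_pos hv]
      exact hca _
    · exact (Finset.mem_filter.1 hz).2
  rw [← Finset.sum_fiberwise_of_maps_to (g := val) (t := C₀) (fun v hv =>
    Finset.mem_union_left _ (Finset.mem_image_of_mem _ hv))]
  have hz : ∀ z ∈ C₀, ∑ v ∈ S.filter (fun v => val v = z), v.ord f =
      (rootMultiplicity z (p.map w.subtype) : ℤ) - rootMultiplicity z (q.map w.subtype) := by
    intro z hz
    refine sum_ord_value hF hx hf (hne p hp) (hne q hq) hN z _ (fun v hv => ?_)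
      fun v hv h0 => ?_
    · obtain ⟨hvS, rfl⟩ := Finset.mem_filter.1 hv
      simp only [val, dif_pos hvS]
      exact hc _
    · have hvS := hS' v z hv (hC z hz) h0
      refine Finset.mem_filter.2 ⟨hvS, ?_⟩
      simp only [val, dif_pos hvS]
      exact (hc _).unique hv
  rw [Finset.sum_congr rfl hz, Finset.sum_sub_distrib]
  have key : ∀ r : w[X], r.map res ≠ 0 →
      (∀ z ∈ (r.map w.subtype).roots, RedEq res a z → z ∈ C₀) →
      ∑ z ∈ C₀, (rootMultiplicity z (r.map w.subtype) : ℤ) = rootMultiplicity a (r.map res) := by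
    intro r hr hmem
    rw [rootMultiplicity_red res hres a r hr, Multiset.countP_eq_card_filter,
      ← Multiset.toFinset_sum_count_eq, Nat.cast_sum]
    refine (Finset.sum_subset (fun z hz => ?_) fun z _ hz => ?_).symm.trans
      (Finset.sum_congr rfl fun z hz => ?_)
    · rw [Multiset.mem_toFinset, Multiset.mem_filter] at hz
      exact hmem z hz.1 hz.2
    · rw [Multiset.mem_toFinset, Multiset.mem_filter, not_and'] at hz
      rw [← count_roots, Nat.cast_eq_zero]
      exact Multiset.count_eq_zero.2 (hz (hC z (by assumption)))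
    · rw [Multiset.mem_toFinset, Multiset.mem_filter] at hz
      rw [← count_roots, Multiset.count_filter, if_pos hz.2]
  rw [key p hp fun z hz hza => Finset.mem_union_right _ (Finset.mem_filter.2
      ⟨Multiset.mem_toFinset.2 (Multiset.mem_add.2 (Or.inl hz)), hza⟩),
    key q hq fun z hz hza => Finset.mem_union_right _ (Finset.mem_filter.2
      ⟨Multiset.mem_toFinset.2 (Multiset.mem_add.2 (Or.inr hz)), hza⟩)]

end Norm

end FA.AbTors

end
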