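import Fermat.Agent.AbTors.SpecGauss
import Fermat.Agent.AbTors.SpecPoly
import Mathlib.RingTheory.Norm.Defs

/-!
# Specialisation: the norm commutes with the reduction

In the basis of `F L` over `L(x)` coming from a basis of `F` over `M(x)` an integral function has
integral coordinates, and they reduce to those of its reduction.
-/

set_option autoImplicit false
set_option linter.style.haveILetI false
set_option linter.unusedSectionVars false

noncomputable section

namespace FA.AbTors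

open AlgebraicCurve FA.Curve FA.PicTors IntermediateField Polynomial

/-- A nonzero polynomial is a scalar times an integral one with nonzero reduction. -/
theorem exists_primitive {L κ : Type*} [Field L] [Field κ] {w : ValuationSubring L}
    (res : w →+* κ) {P : L[X]} (hP : P ≠ 0) :
    ∃ (l : L) (p : w[X]), l ≠ 0 ∧ P = C l * p.map w.subtype ∧ p.map res ≠ 0 := by
  classical
  obtain ⟨m, hm, hint⟩ := exists_scale w (fun j : Fin (P.natDegree + 1) => P.coeff j)
    ⟨⟨P.natDegree, Nat.lt_succ_self _⟩, by simpa using hP⟩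
  set p : w[X] := ∑ j : Fin (P.natDegree + 1), monomial (j : ℕ) ⟨P.coeff j / P.coeff m, hint j⟩
  refine ⟨P.coeff m, p, hm, ?_, fun e => ?_⟩
  · conv_lhs => rw [P.as_sum_range_C_mul_X_pow]
    rw [← Fin.sum_univ_eq_sum_range (fun j => C (P.coeff j) * X ^ j)]
    simp only [p, Polynomial.map_sum, map_monomial, Finset.mul_sum, C_mul_monomial,
      ← C_mul_X_pow_eq_monomial]
    refine Finset.sum_congr rfl fun j _ => ?_
    rw [Polynomial.map_mul, Polynomial.map_pow, map_C, map_X, ← mul_assoc, ← C_mul]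
    congr 2
    exact (mul_div_cancel₀ _ hm).symm
  · have h1 := congrArg (fun r : κ[X] => r.coeff m) e
    simp only [p, Polynomial.map_sum, map_monomial, finsetSum_coeff, coeff_monomial, Fin.val_inj,
      Finset.sum_ite_eq', Finset.mem_univ, if_true, coeff_zero] at h1
    rw [show (⟨P.coeff m / P.coeff m, hint m⟩ : w) = 1 from Subtype.ext (div_self hm),
      map_one] at h1
    exact one_ne_zero h1

variable {M L κ F FL Fκ : Type*} [Field M] [Field L] [Field κ] [Field F] [Field FL] [Field Fκ]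
  [Algebra M F] [Algebra L FL] [Algebra κ Fκ] [IsAlgClosed M] [IsAlgClosed L] [IsAlgClosed κ]
  {iL : M →+* L} {iκ : M →+* κ} {φ₁ : F →+* FL} {φ₂ : F →+* Fκ} {w : ValuationSubring L}
  {res : w →+* κ} {W : ValuationSubring FL} {red : W →+* Fκ}

theorem exists_poly_lift (hW : IsGauss φ₁ φ₂ w res W red) (x : F) (p : w[X]) :
    ∃ h : aeval (φ₁ x) (p.map w.subtype) ∈ W,
      red ⟨_, h⟩ = aeval (φ₂ x) (p.map res) := by
  obtain ⟨hx, hxred⟩ := hW.map_fun x
  let cst : w →+* W := ((algebraMap L FL).comp w.subtype).codRestrict W.toSubring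
    fun a => (hW.map_const a).1
  let E : w[X] →+* W := eval₂RingHom cst ⟨φ₁ x, hx⟩
  have h1 : W.subtype.comp E = (aeval (φ₁ x)).toRingHom.comp (mapRingHom w.subtype) :=
    Polynomial.ringHom_ext (fun a => by simp [E, cst]) (by simp [E])
  have h2 : red.comp E = (aeval (φ₂ x)).toRingHom.comp (mapRingHom res) :=
    Polynomial.ringHom_ext (fun a => by
      simp only [E, RingHom.comp_apply, coe_eval₂RingHom, eval₂_C, coe_mapRingHom, map_C,
        AlgHom.toRingHom_eq_coe, RingHom.coe_coe, aeval_C]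
      exact (hW.map_const a).2) (by simpa [E] using hxred)
  have e : (E p : FL) = aeval (φ₁ x) (p.map w.subtype) := DFunLike.congr_fun h1 p
  refine ⟨e ▸ (E p).2, ?_⟩
  rw [show (⟨aeval (φ₁ x) (p.map w.subtype), e ▸ (E p).2⟩ : W) = E p from Subtype.ext e.symm]
  exact DFunLike.congr_fun h2 p

variable (hc : SpecCtx iL iκ φ₁ φ₂ w res) (hW : IsGauss φ₁ φ₂ w res W red)

include hc hW

/-- A function of `x` alone is a scalar times a unit whose reduction is a function of `x`. -/
theorem exists_adjoin_form {x : F} (hx : Transcendental M x) {u : FL} (hu : u ∈ L⟮φ₁ x⟯)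
    (hu0 : u ≠ 0) :
    ∃ (l : L) (v : W) (p q : w[X]), l ≠ 0 ∧ p.map res ≠ 0 ∧ q.map res ≠ 0 ∧
      u = algebraMap L FL l * v ∧ red v ≠ 0 ∧ red v ∈ κ⟮φ₂ x⟯ ∧
      (v : FL) * aeval (φ₁ x) (q.map w.subtype) = aeval (φ₁ x) (p.map w.subtype) := by
  obtain ⟨r, s, rfl⟩ := (IntermediateField.mem_adjoin_simple_iff L u).1 hu
  obtain ⟨lr, p, hlr, rfl, hp⟩ := exists_primitive res (P := r) (fun e => hu0 (by simp [e]))
  obtain ⟨ls, q, hls, rfl, hq⟩ := exists_primitive res (P := s) (fun e => hu0 (by simp [e]))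
  obtain ⟨hpW, hpred⟩ := exists_poly_lift hW x p
  obtain ⟨hqW, hqred⟩ := exists_poly_lift hW x q
  have hx' := hc.ext₂.transcendental hx
  have hp' : aeval (φ₂ x) (p.map res) ≠ 0 := fun e => hp (transcendental_iff.1 hx' _ e)
  have hq' : aeval (φ₂ x) (q.map res) ≠ 0 := fun e => hq (transcendental_iff.1 hx' _ e)
  haveI := hW.isLocal
  obtain ⟨b, hb⟩ := isUnit_iff_exists_inv.1 (IsUnit.of_map red ⟨_, hqW⟩
    (isUnit_iff_ne_zero.2 (hqred ▸ hq')))
  have hbred : red b = (aeval (φ₂ x) (q.map res))⁻¹ := by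
    refine eq_inv_of_mul_eq_one_right ?_
    rw [← hqred, ← map_mul, hb, map_one]
  have hbv : (b : FL) = (aeval (φ₁ x) (q.map w.subtype))⁻¹ :=
    eq_inv_of_mul_eq_one_right (congrArg Subtype.val hb)
  have hq0 : aeval (φ₁ x) (q.map w.subtype) ≠ 0 := fun e => by
    have h1 : aeval (φ₁ x) (q.map w.subtype) * (b : FL) = 1 := congrArg Subtype.val hb
    rw [e, zero_mul] at h1
    exact zero_ne_one h1
  refine ⟨lr / ls, ⟨_, hpW⟩ * b, p, q, div_ne_zero hlr hls, hp, hq, ?_, ?_, ?_, ?_⟩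
  · simp only [MulMemClass.coe_mul]
    rw [hbv, map_mul, map_mul, aeval_C, aeval_C, map_div₀, mul_div_mul_comm, div_eq_mul_inv
      (aeval (φ₁ x) (p.map w.subtype))]
  · rw [map_mul, hpred, hbred]
    exact mul_ne_zero hp' (inv_ne_zero hq')
  · rw [map_mul, hpred, hbred]
    exact mul_mem (aeval_mem _ _) (inv_mem (aeval_mem _ _))
  · simp only [MulMemClass.coe_mul]
    rw [hbv, inv_mul_cancel_right₀ hq0]

/-- Integral functions have integral coordinates, compatible with the reduction. -/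
theorem exists_coord {x : F} (hx : Transcendental M x) {n : ℕ}
    {bL : Module.Basis (Fin n) L⟮φ₁ x⟯ FL} {bk : Module.Basis (Fin n) κ⟮φ₂ x⟯ Fκ} {b : Fin n → F}
    (hbL : ∀ j, bL j = φ₁ (b j)) (hbk : ∀ j, bk j = φ₂ (b j)) (f : W) (j : Fin n) :
    ∃ r : W, (r : FL) = (bL.repr (f : FL) j : FL) ∧ red r = (bk.repr (red f) j : Fκ) := by
  classical
  by_cases hf : (f : FL) = 0
  · obtain rfl : f = 0 := Subtype.ext hf
    exact ⟨0, by simp, by simp⟩
  have hform : ∀ i, ∃ (l : L) (v : W), (bL.repr (f : FL) i : FL) = algebraMap L FL l * v ∧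
      red v ≠ 0 ∧ red v ∈ κ⟮φ₂ x⟯ := fun i => by
    by_cases h0 : (bL.repr (f : FL) i : FL) = 0
    · exact ⟨0, 1, by rw [h0, map_zero, zero_mul], by simp, by rw [map_one]; exact one_mem _⟩
    · obtain ⟨l, v, -, -, -, -, -, hu, hv, hv', -⟩ := exists_adjoin_form hc hW hx
        (bL.repr (f : FL) i).2 h0
      exact ⟨l, v, hu, hv, hv'⟩
  choose l v hl hv hv' using hform
  have hsum : (f : FL) = ∑ i, algebraMap L FL (l i) * v i * φ₁ (b i) := by
    conv_lhs => rw [← bL.sum_repr (f : FL)]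
    exact Finset.sum_congr rfl fun i _ => by
      rw [IntermediateField.smul_def, smul_eq_mul, hbL, hl]
  obtain ⟨m, hm, hint⟩ := exists_scale w l (by
    by_contra hall
    push Not at hall
    exact hf (hsum.trans (Finset.sum_eq_zero fun i _ => by simp [hall i])))
  choose hbW hbred using fun i => hW.map_fun (b i)
  choose hcW hcred using fun i => hW.map_const ⟨l i / l m, hint i⟩
  set g : W := ∑ i, ⟨_, hcW i⟩ * v i * ⟨_, hbW i⟩
  have hgf : algebraMap L FL (l m) * g = f := by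
    simp only [g, AddSubmonoidClass.coe_finsetSum, MulMemClass.coe_mul, Finset.mul_sum]
    rw [hsum]
    refine Finset.sum_congr rfl fun i _ => ?_
    rw [← mul_assoc, ← mul_assoc, ← map_mul, mul_div_cancel₀ _ hm]
  let c : Fin n → κ⟮φ₂ x⟯ := fun i => ⟨algebraMap κ Fκ (res ⟨l i / l m, hint i⟩) * red (v i),
    mul_mem (κ⟮φ₂ x⟯.algebraMap_mem _) (hv' i)⟩
  have hred : red g = ∑ i, c i • bk i := by
    simp only [g, map_sum, map_mul, hcred, hbred]
    exact Finset.sum_congr rfl fun i _ => by rw [IntermediateField.smul_def, smul_eq_mul, hbk]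
  have hg0 : red g ≠ 0 := fun e => by
    have h1 := Fintype.linearIndependent_iff.1 bk.linearIndependent c (hred.symm.trans e) m
    have h2 := congrArg Subtype.val h1
    simp only [c] at h2
    rw [show (⟨l m / l m, hint m⟩ : w) = 1 from Subtype.ext (div_self hm), map_one, map_one,
      one_mul] at h2
    exact hv m h2
  have hmw : l m ∈ w := by
    by_contra hmw
    have hinv := (w.mem_or_inv_mem (l m)).resolve_left hmw
    obtain ⟨hiW, hired⟩ := hW.map_const ⟨(l m)⁻¹, hinv⟩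
    have h1 : (⟨_, hiW⟩ : W) * f = g := Subtype.ext (by
      simp only [MulMemClass.coe_mul]
      rw [← hgf, ← mul_assoc, ← map_mul, inv_mul_cancel₀ hm, map_one, one_mul])
    have h0 : res ⟨(l m)⁻¹, hinv⟩ = 0 := by
      by_contra hne
      haveI := hc.isLocal
      obtain ⟨u, hu⟩ := isUnit_iff_exists_inv.1
        (IsUnit.of_map res ⟨(l m)⁻¹, hinv⟩ (isUnit_iff_ne_zero.2 hne))
      have h1 : (l m)⁻¹ * (u : L) = 1 := congrArg Subtype.val hu
      rw [inv_mul_eq_one₀ hm] at h1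
      exact hmw (h1 ▸ u.2)
    apply hg0
    rw [← h1, map_mul, hired, h0, map_zero, zero_mul]
  obtain ⟨hmW, hmred⟩ := hW.map_const ⟨l m, hmw⟩
  have hf' : f = ⟨_, hmW⟩ * g := Subtype.ext (by simp only [MulMemClass.coe_mul]; exact hgf.symm)
  refine ⟨⟨_, hmW⟩ * (⟨_, hcW j⟩ * v j), ?_, ?_⟩
  · simp only [MulMemClass.coe_mul]
    rw [hl, ← mul_assoc, ← map_mul, mul_div_cancel₀ _ hm]
  · set cm : κ⟮φ₂ x⟯ := algebraMap κ κ⟮φ₂ x⟯ (res ⟨l m, hmw⟩)
    have hrf : red f = ∑ i, (cm * c i) • bk i := by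
      rw [hf', map_mul, hmred, hred, Finset.mul_sum]
      refine Finset.sum_congr rfl fun i _ => ?_
      rw [mul_smul]
      rfl
    rw [hrf, bk.repr_sum_self, map_mul, map_mul, hmred, hcred]
    rfl

/-- The norm of an integral function reduces to the norm of its reduction. -/
theorem exists_norm_form {x : F} (hx : Transcendental M x) (f : W) (hf : red f ≠ 0) :
    ∃ p q : w[X], p.map res ≠ 0 ∧ q.map res ≠ 0 ∧
      (Algebra.norm L⟮φ₁ x⟯ (f : FL) : FL) * aeval (φ₁ x) (q.map w.subtype) =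
        aeval (φ₁ x) (p.map w.subtype) ∧
      (Algebra.norm κ⟮φ₂ x⟯ (red f) : Fκ) * aeval (φ₂ x) (q.map res) =
        aeval (φ₂ x) (p.map res) := by
  classical
  haveI := hc.ext₁.func.finiteDimensional hx
  let b := Module.finBasis M⟮x⟯ F
  obtain ⟨bL, hbL⟩ := exists_basis_map hc.ext₁ hx b
  obtain ⟨bk, hbk⟩ := exists_basis_map hc.ext₂ hx b
  choose hbW hbred using fun j => hW.map_fun (b j)
  choose R hR1 hR2 using fun i j : Fin (Module.finrank M⟮x⟯ F) =>
    exists_coord hc hW hx hbL hbk (f * ⟨_, hbW j⟩) i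
  set N : W := Matrix.det (Matrix.of R)
  have hN1 : (N : FL) = (Algebra.norm L⟮φ₁ x⟯ (f : FL) : FL) := by
    rw [Algebra.norm_eq_matrix_det bL, show (N : FL) = W.subtype N from rfl, RingHom.map_det,
      show ((Algebra.leftMulMatrix bL (f : FL)).det : FL) =
        algebraMap L⟮φ₁ x⟯ FL (Algebra.leftMulMatrix bL (f : FL)).det from rfl, RingHom.map_det]
    congr 1
    ext i j
    simp [Algebra.leftMulMatrix_eq_repr_mul, hbL, hR1]
  have hN2 : red N = (Algebra.norm κ⟮φ₂ x⟯ (red f) : Fκ) := by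
    rw [Algebra.norm_eq_matrix_det bk, RingHom.map_det,
      show ((Algebra.leftMulMatrix bk (red f)).det : Fκ) =
        algebraMap κ⟮φ₂ x⟯ Fκ (Algebra.leftMulMatrix bk (red f)).det from rfl, RingHom.map_det]
    congr 1
    ext i j
    simp [Algebra.leftMulMatrix_eq_repr_mul, hbk, hR2, hbred]
  haveI := hc.ext₂.isFunctionField.finiteDimensional (hc.ext₂.transcendental hx)
  have hN0 : red N ≠ 0 := by
    rw [hN2]
    exact fun e => hf (Algebra.norm_eq_zero_iff.1 ((ZeroMemClass.coe_eq_zero).1 e))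
  obtain ⟨l, v, p, q, hl, hp, hq, hNv, -, -, hvq⟩ := exists_adjoin_form hc hW hx
    (u := (N : FL)) (hN1 ▸ (Algebra.norm L⟮φ₁ x⟯ (f : FL)).2)
    fun e => hN0 (by rw [show N = 0 from Subtype.ext e, map_zero])
  obtain ⟨hqW, hqred⟩ := exists_poly_lift hW x q
  obtain ⟨hpW, hpred⟩ := exists_poly_lift hW x p
  have hlw : l ∈ w := by
    by_contra hlw
    have hinv := (w.mem_or_inv_mem l).resolve_left hlw
    obtain ⟨hiW, hired⟩ := hW.map_const ⟨l⁻¹, hinv⟩
    have h1 : (⟨_, hiW⟩ : W) * N * ⟨_, hqW⟩ = ⟨_, hpW⟩ := Subtype.ext (by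
      simp only [MulMemClass.coe_mul]
      rw [hNv, ← mul_assoc (algebraMap L FL l⁻¹), ← map_mul, inv_mul_cancel₀ hl, map_one, one_mul,
        hvq])
    have h0 : res ⟨l⁻¹, hinv⟩ = 0 := by
      by_contra hne
      haveI := hc.isLocal
      obtain ⟨u, hu⟩ := isUnit_iff_exists_inv.1
        (IsUnit.of_map res ⟨l⁻¹, hinv⟩ (isUnit_iff_ne_zero.2 hne))
      have h1 : l⁻¹ * (u : L) = 1 := congrArg Subtype.val hu
      rw [inv_mul_eq_one₀ hl] at h1
      exact hlw (h1 ▸ u.2)
    have h2 := congrArg red h1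
    rw [map_mul, map_mul, hired, h0, map_zero, zero_mul, zero_mul, hpred] at h2
    exact hp (transcendental_iff.1 (hc.ext₂.transcendental hx) _ h2.symm)
  obtain ⟨hlW, hlred⟩ := hW.map_const ⟨l, hlw⟩
  have h1 : N * ⟨_, hqW⟩ = ⟨_, hlW⟩ * ⟨_, hpW⟩ := Subtype.ext (by
    simp only [MulMemClass.coe_mul]
    rw [hNv, mul_assoc, hvq])
  have h2 := congrArg red h1
  rw [map_mul, map_mul, hlred, hpred, hqred, hN2] at h2
  refine ⟨C ⟨l, hlw⟩ * p, q, fun e => ?_, hq, ?_, ?_⟩
  · rw [Polynomial.map_mul, map_C] at e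
    have h3 : algebraMap κ Fκ (res ⟨l, hlw⟩) * aeval (φ₂ x) (p.map res) = 0 := by
      simpa [map_mul] using congrArg (aeval (φ₂ x)) e
    rw [h3] at h2
    exact mul_ne_zero (hN2 ▸ hN0)
      (fun e => hq (transcendental_iff.1 (hc.ext₂.transcendental hx) _ e)) h2
  · rw [← hN1, hNv, mul_assoc, hvq, Polynomial.map_mul, map_C, map_mul, aeval_C]
    rfl
  · rw [h2, Polynomial.map_mul, map_C, map_mul, aeval_C]

end FA.AbTors

end
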