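import Fermat.Agent.AbTors.SpecPlace
import Fermat.Agent.AbTors.SpecNorm

/-!
# Specialisation of divisors on a curve
-/

set_option autoImplicit false
set_option linter.style.haveILetI false
set_option linter.unusedSectionVars false

noncomputable section

universe u

namespace FA.AbTors

open AlgebraicCurve FA.Curve FA.PicTors IntermediateField Polynomial

variable {M L κ F FL Fκ : Type*} [Field M] [Field L] [Field κ] [Field F] [Field FL] [Field Fκ]
  [Algebra M F] [Algebra L FL] [Algebra κ Fκ] [IsAlgClosed M] [IsAlgClosed L] [IsAlgClosed κ]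
  {iL : M →+* L} {iκ : M →+* κ} {φ₁ : F →+* FL} {φ₂ : F →+* Fκ} {w : ValuationSubring L}
  {res : w →+* κ} {W : ValuationSubring FL} {red : W →+* Fκ}

theorem sum_mapDomain {α β : Type*} [DecidableEq β] (s : α → β) (d : α →₀ ℤ) (Z : Finset β) :
    ∑ z ∈ Z, Finsupp.mapDomain s d z = ∑ v ∈ d.support with s v ∈ Z, d v := by
  classical
  simp only [Finsupp.mapDomain, Finsupp.sum, Finset.sum_apply', Finsupp.single_apply]
  rw [Finset.sum_comm, Finset.sum_filter]
  exact Finset.sum_congr rfl fun v _ => by simp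

/-- The specialisation of a principal divisor is the divisor of the reduction. -/
theorem mapDomain_divOf (hc : SpecCtx iL iκ φ₁ φ₂ w res) (hW : IsGauss φ₁ φ₂ w res W red)
    {sp : Place L FL → Place κ Fκ} (hsp : ∀ v, SpecPt φ₁ φ₂ res v (sp v)) (f : W)
    (hf : red f ≠ 0) :
    Finsupp.mapDomain sp (divOf hc.ext₁.isFunctionField (f : FL)) =
      divOf hc.ext₂.isFunctionField (red f) := by
  classical
  refine Finsupp.ext fun P => ?_
  have hF₁ := hc.ext₁.isFunctionField
  have hF₂ := hc.ext₂.isFunctionField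
  set d₁ := divOf hF₁ (f : FL)
  set d₂ := divOf hF₂ (red f)
  set E := d₁.support.image sp ∪ d₂.support
  obtain ⟨x, a, hx, hPa, hsep⟩ :=
    exists_separator hc.ext₂ (E.erase P) (Finset.notMem_erase P E)
  obtain ⟨p, q, hp, hq, hN₁, hN₂⟩ := exists_norm_form hc hW hx f hf
  have hf0 : (f : FL) ≠ 0 := fun e => hf (by rw [show f = 0 from Subtype.ext e, map_zero])
  set Z := insert P (E.filter fun Q => HasValue Q (φ₂ x) a)
  have hval : ∀ Q ∈ Z, HasValue Q (φ₂ x) a := fun Q hQ => by
    rcases Finset.mem_insert.1 hQ with rfl | hQ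
    · exact hPa
    · exact (Finset.mem_filter.1 hQ).2
  have hmemE : ∀ Q, HasValue Q (φ₂ x) a → Q ∈ E → Q ∈ Z := fun Q h1 h2 =>
    Finset.mem_insert_of_mem (Finset.mem_filter.2 ⟨h2, h1⟩)
  have h2 : ∑ Q ∈ Z, d₂ Q =
      (rootMultiplicity a (p.map res) : ℤ) - rootMultiplicity a (q.map res) :=
    sum_ord_value hF₂ (hc.ext₂.transcendental hx) hf hp hq hN₂ a Z hval fun Q h1 h0 =>
      hmemE Q h1 (Finset.mem_union_right _ (Finsupp.mem_support_iff.2 h0))
  have h1 : ∑ Q ∈ Z, Finsupp.mapDomain sp d₁ Q =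
      (rootMultiplicity a (p.map res) : ℤ) - rootMultiplicity a (q.map res) := by
    rw [sum_mapDomain]
    refine sum_ord_class hF₁ (hc.ext₁.transcendental hx) res hc.isLocal a hf0 hp hq hN₁ _
      (fun v hv => (hc.hasValue_specPt (hsp v) x a).1 (hval _ (Finset.mem_filter.1 hv).2))
      fun v c hv hca h0 => ?_
    have h0' : v ∈ d₁.support := Finsupp.mem_support_iff.2 h0
    exact Finset.mem_filter.2 ⟨h0', hmemE _ ((hc.hasValue_specPt (hsp v) x a).2 ⟨c, hv, hca⟩)
      (Finset.mem_union_left _ (Finset.mem_image_of_mem _ h0'))⟩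
  have hzero : ∀ Q ∈ Z, Q ≠ P → Finsupp.mapDomain sp d₁ Q - d₂ Q = 0 := fun Q hQ hne => by
    have hQE := (Finset.mem_filter.1 ((Finset.mem_insert.1 hQ).resolve_left hne)).1
    exact absurd (hval Q hQ) (hsep Q (Finset.mem_erase.2 ⟨hne, hQE⟩))
  have h3 := Finset.sum_eq_single_of_mem (f := fun Q => Finsupp.mapDomain sp d₁ Q - d₂ Q) P
    (Finset.mem_insert_self _ _) hzero
  rw [Finset.sum_sub_distrib, h1, h2, sub_self] at h3
  exact sub_eq_zero.1 h3.symm

/-- Specialisation of divisors along a valuation of the constants. -/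
theorem specialisationHolds : SpecialisationHolds.{u} := by
  intro M L κ F FL Fκ _ _ _ _ _ _ _ _ _ _ _ _ iL iκ φ₁ φ₂ h₁ h₂ w res _ hloc hcomp
  have hc : SpecCtx iL iκ φ₁ φ₂ w res := ⟨h₁, h₂, hloc, hcomp⟩
  obtain ⟨W, red, hW⟩ := hc.exists_gauss
  choose sp hsp using hc.exists_specPt
  exact ⟨W, red, sp, hW.isLocal, hW.map_fun, hW.map_const, hW.scale,
    fun f hf => mapDomain_divOf hc hW hsp f hf,
    fun R => hc.specPt_unique (hsp _) (hc.specPt_up R), fun v e a => (hsp v).value e a⟩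

end FA.AbTors

end
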