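import Fermat.Agent.AbTors.Axes
import Fermat.Agent.AbTors.Quadratic
import Fermat.Agent.AbTors.ExtModel
import Fermat.Agent.AbTors.Glue
import Fermat.Agent.AbTors.Join
import Fermat.Agent.AbTors.Local
import Fermat.Agent.AbTors.LocalFactorial
import Fermat.Agent.AbTors.Rigid
import Fermat.Agent.AbTors.Seesaw
import Fermat.Agent.AbTors.Slopes
import Fermat.Agent.AbTors.Spec

/-!
# The theorem of the cube, up to torsion
-/

set_option autoImplicit false
set_option linter.style.haveILetI false

noncomputable section

universe u

open CategoryTheory AlgebraicGeometry

namespace FA.AbTors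

variable {K : Type u} [Field K] [IsAlgClosed K] (V : AbVar K)

/-- The theorem of the cube, up to torsion, for abelian varieties over algebraically closed
fields. -/
theorem cubeTorsion : CubeTorsion V := by
  obtain ⟨hA, hA3⟩ := integralHolds V
  haveI := hA
  haveI := hA3
  intro p
  obtain ⟨R⟩ := nonempty_frame V (joinHolds V) extExists
  have h0 := R.pullCl_xL_eq_zero extExists specialisationHolds (axesVanish V) slopesHold
    factorialStalks p
  obtain ⟨r, U, hr, hU, h⟩ :=
    exists_triv_of_frame R extExists specialisationHolds factorialStalks p h0
  exact ⟨r, hr, glueHolds V p r U hU h⟩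

/-- Quadratic behaviour of symmetric classes. -/
theorem quadraticHolds : QuadraticHolds V :=
  quadraticHolds_of V (cubeTorsion V)

end FA.AbTors

end
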