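import Fermat.Agent.AbTors.Frame

/-!
# The pieces of the theorem of the cube

* `GlueHolds`: a trivialisation of a multiple of the cube over a nonempty open of the first factor
  gives one everywhere;
* `AxesVanish`: a rational function vanishing along both axes over the generic point is zero;
* `SlopesHold`: an effective divisor specialising to a pulled back one at enough valuations is
  pulled back.
-/

set_option autoImplicit false

noncomputable section

universe u

open CategoryTheory CategoryTheory.Limits AlgebraicGeometry TopologicalSpace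
open NeronModelInfra GoodReductionJacobian AlgebraicCurve FA.Curve FA.PicTors

namespace FA.AbTors

variable {K : Type u} [Field K] (V : AbVar K)

/-- From a nonempty open of the first factor to everything. -/
def GlueHolds [IsIntegral V.A] [IsIntegral V.A3] : Prop :=
  ∀ (p : Pic V.A) (r : ℕ) (U : V.A.Opens), (U : Set V.A).Nonempty →
    (∃ (c : Coc V.A3) (N : V.A3.functionField),
      Pic.mk c = r • V.cube p V.pr1 V.pr2 V.pr3 ∧ IsTriv c N (V.hom V.pr1 ⁻¹ᵁ U)) →
    r • V.cube p V.pr1 V.pr2 V.pr3 = 0

/-- Vanishing along the axes over the generic point. -/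
def AxesVanish [IsIntegral V.A] [IsIntegral V.A3] : Prop :=
  ∀ n : V.A3.functionField,
    (∀ z : V.A3, V.hom V.pr1 z = genericPoint V.A →
      V.hom V.pr2 z = V.origin ∨ V.hom V.pr3 z = V.origin → RegAt z n ∧ ¬UnitAt z n) →
    n = 0

/-- `G` specialises at `w` to the pullback of `E`. -/
def SpecialisesTo {M L F FL : Type u} [Field M] [Field L] [Field F] [Field FL] [IsAlgClosed M]
    [IsAlgClosed L] [Algebra M F] [Algebra L FL] {iL : M →+* L} {φ₁ : F →+* FL}
    (h₁ : IsExt iL φ₁) (w : ValuationSubring L) (G : Divisor L FL) (E : Divisor M F) : Prop :=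
  ∃ (κ Fκ : Type u) (_ : Field κ) (_ : IsAlgClosed κ) (_ : Field Fκ) (_ : Algebra κ Fκ)
    (iκ : M →+* κ) (φ₂ : F →+* Fκ) (h₂ : IsExt iκ φ₂) (res : w →+* κ) (W : ValuationSubring FL)
    (red : W →+* Fκ) (sp : Place L FL → Place κ Fκ),
    SpecData h₁ h₂ w res W red sp ∧ Finsupp.mapDomain sp G = h₂.pull E

/-- Rigidity of effective divisors. -/
def SlopesHold : Prop :=
  ∀ (M L F FL : Type u) [Field M] [Field L] [Field F] [Field FL] [IsAlgClosed M] [IsAlgClosed L]
    [Algebra M F] [Algebra L FL] (iL : M →+* L) (φ₁ : F →+* FL) (h₁ : IsExt iL φ₁)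
    (E : Divisor M F) (G : Divisor L FL), 0 ≤ E → 0 ≤ G →
    Divisor.degree G = Divisor.degree E →
    ∀ 𝒲 : Set (ValuationSubring L),
      (∀ s : L, (∀ w ∈ 𝒲, w.valuation s < 1) → s = 0) →
      (∀ w ∈ 𝒲, SpecialisesTo h₁ w G E) → G = h₁.pull E

end FA.AbTors

end
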