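import Fermat.Agent.AbTors.Eval
import Fermat.Agent.AbTors.Defs

/-!
# The divisor class of the pullback of a class along a point with values in a function field
-/

set_option autoImplicit false
set_option linter.style.haveILetI false

noncomputable section

universe u

open CategoryTheory AlgebraicGeometry TopologicalSpace AlgebraicCurve FA.Curve

namespace FA.AbTors

variable {X Y : Scheme.{u}} {K M F : Type u} [Field K] [Field M] [Field F] [Algebra M F]
variable {s : X ⟶ Spec (CommRingCat.of K)} [IsProper s]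
variable (i : K →+* M) (hF : IsFunctionField M F)
variable (x : Spec (CommRingCat.of F) ⟶ X)
variable (hx : x ≫ s = Spec.map (CommRingCat.ofHom ((algebraMap M F).comp i)))

include hx in
theorem exists_placeExt (v : Place M F) : ∃ e : Spec (CommRingCat.of v.toValuationSubring) ⟶ X,
    Spec.map (CommRingCat.ofHom v.toValuationSubring.subtype) ≫ e = x ∧
      e ≫ s = Spec.map (CommRingCat.ofHom ((placeHom v).comp i)) := by
  refine exists_extension s v.toValuationSubring x _ ?_
  rw [hx, ← Spec.map_comp, ← CommRingCat.ofHom_comp]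
  rfl

/-- The extension of the point to the ring of a place. -/
def placeExt (v : Place M F) : Spec (CommRingCat.of v.toValuationSubring) ⟶ X :=
  (exists_placeExt i x hx v).choose

theorem placeExt_gen (v : Place M F) :
    Spec.map (CommRingCat.ofHom v.toValuationSubring.subtype) ≫ placeExt i x hx v = x :=
  (exists_placeExt i x hx v).choose_spec.1

theorem placeExt_str (v : Place M F) :
    placeExt i x hx v ≫ s = Spec.map (CommRingCat.ofHom ((placeHom v).comp i)) :=
  (exists_placeExt i x hx v).choose_spec.2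

theorem placeExt_unique (v : Place M F) (e : Spec (CommRingCat.of v.toValuationSubring) ⟶ X)
    (h : Spec.map (CommRingCat.ofHom v.toValuationSubring.subtype) ≫ e = x)
    (hs : e ≫ s = Spec.map (CommRingCat.ofHom ((placeHom v).comp i))) :
    e = placeExt i x hx v :=
  extension_unique s _ (h.trans (placeExt_gen i x hx v).symm)
    (hs.trans (placeExt_str i x hx v).symm)

/-- The centre of a place. -/
def placeCtr (v : Place M F) : X := ctr (placeExt i x hx v)

theorem ctr_specializes (v : Place M F) : ctr x ⤳ placeCtr i x hx v := by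
  have h := specializes_ctr v.toValuationSubring.subtype (placeExt i x hx v)
  rwa [placeExt_gen] at h

variable (c : Coc X)

/-- A transition function at a point with values in a field. -/
def gAt {E : Type u} [Field E] (e : Spec (CommRingCat.of E) ⟶ X) (a b : X) (ha : ctr e ∈ c.U a)
    (hb : ctr e ∈ c.U b) : E :=
  (evU e (c.U a ⊓ c.U b) (le_preimage_of_mem ⟨ha, hb⟩) (c.g a b) : E)

theorem gAt_ne_zero {E : Type u} [Field E] (e : Spec (CommRingCat.of E) ⟶ X) (a b : X)
    (ha : ctr e ∈ c.U a) (hb : ctr e ∈ c.U b) : gAt c e a b ha hb ≠ 0 :=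
  Units.ne_zero _

theorem gAt_eq_at {E : Type u} [Field E] (e : Spec (CommRingCat.of E) ⟶ X) (a b : X) (W : X.Opens)
    (hWa : W ≤ c.U a) (hWb : W ≤ c.U b) (hW : ctr e ∈ W) :
    gAt c e a b (hWa hW) (hWb hW) =
      (evU e W (le_preimage_of_mem hW) (c.at a b W hWa hWb) : E) := by
  rw [Coc.at, evU_uRes]; rfl

theorem gAt_mul {E : Type u} [Field E] (e : Spec (CommRingCat.of E) ⟶ X) (a b d : X)
    (ha : ctr e ∈ c.U a) (hb : ctr e ∈ c.U b) (hd : ctr e ∈ c.U d) :
    gAt c e a d ha hd = gAt c e a b ha hb * gAt c e b d hb hd := by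
  let W := c.U a ⊓ c.U b ⊓ c.U d
  have hW : ctr e ∈ W := ⟨⟨ha, hb⟩, hd⟩
  have hWa : W ≤ c.U a := inf_le_left.trans inf_le_left
  have hWb : W ≤ c.U b := inf_le_left.trans inf_le_right
  have hWd : W ≤ c.U d := inf_le_right
  rw [gAt_eq_at c e a d W hWa hWd hW, gAt_eq_at c e a b W hWa hWb hW,
    gAt_eq_at c e b d W hWb hWd hW, c.at_mul a b d hWa hWb hWd, map_mul, Units.val_mul]

theorem gAt_self {E : Type u} [Field E] (e : Spec (CommRingCat.of E) ⟶ X) (a : X)
    (ha : ctr e ∈ c.U a) : gAt c e a a ha ha = 1 := by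
  rw [gAt_eq_at c e a a (c.U a) le_rfl le_rfl ha, c.at_self, map_one, Units.val_one]

theorem mem_of_placeCtr_mem (v : Place M F) {U : X.Opens} (h : placeCtr i x hx v ∈ U) :
    ctr x ∈ U :=
  (ctr_specializes i x hx v).mem_open U.2 h

/-- Values of units defined at the centre are units at the place. -/
theorem ord_evU (v : Place M F) {U : X.Opens} (h : placeCtr i x hx v ∈ U) (u : Γ(X, U)ˣ) :
    v.ord (evU x U (le_preimage_of_mem (mem_of_placeCtr_mem i x hx v h)) u : F) = 0 := by
  have h1 := evU_comp v.toValuationSubring.subtype (placeExt i x hx v)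
    (le_preimage_of_mem h) u
  rw [evU_congr (placeExt_gen i x hx v)] at h1
  rw [h1]
  exact v.ord_coe_unit _

theorem ord_gAt (v : Place M F) (a b : X) (ha : placeCtr i x hx v ∈ c.U a)
    (hb : placeCtr i x hx v ∈ c.U b) :
    v.ord (gAt c x a b (mem_of_placeCtr_mem i x hx v ha) (mem_of_placeCtr_mem i x hx v hb)) = 0 :=
  ord_evU i x hx v (U := c.U a ⊓ c.U b) ⟨ha, hb⟩ _

/-- The order at a place of the pullback of a cocycle. -/
def pullOrd (v : Place M F) : ℤ :=
  v.ord (gAt c x (placeCtr i x hx v) (ctr x) (mem_of_placeCtr_mem i x hx v (c.mem _)) (c.mem _))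

/-- Any index at the centre computes the order. -/
theorem pullOrd_eq (v : Place M F) (a b : X) (ha : placeCtr i x hx v ∈ c.U a)
    (hb : ctr x ∈ c.U b) :
    pullOrd i x hx c v + v.ord (gAt c x (ctr x) b (c.mem _) hb) =
      v.ord (gAt c x a b (mem_of_placeCtr_mem i x hx v ha) hb) := by
  rw [gAt_mul c x a (placeCtr i x hx v) b _ (mem_of_placeCtr_mem i x hx v (c.mem _)) hb,
    gAt_mul c x (placeCtr i x hx v) (ctr x) b _ (c.mem _) hb,
    v.ord_mul (gAt_ne_zero _ _ _ _ _ _) (mul_ne_zero (gAt_ne_zero _ _ _ _ _ _) (gAt_ne_zero _ _ _ _ _ _)),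
    v.ord_mul (gAt_ne_zero _ _ _ _ _ _) (gAt_ne_zero _ _ _ _ _ _), ord_gAt i x hx c v a _ ha (c.mem _), zero_add]
  rfl

include hF in
/-- Almost every place is centred in a given neighbourhood of the generic image. -/
theorem finite_not_mem [IsAlgClosed M] {U : X.Opens} (hU : ctr x ∈ U) :
    {v : Place M F | placeCtr i x hx v ∉ U}.Finite := by
  obtain ⟨_, ⟨U', hU', rfl⟩, hxU', hU'U⟩ :=
    X.isBasis_affineOpens.exists_subset_of_mem_open hU U.2
  have hft : (s.appLE ⊤ U' le_top).hom.FiniteType :=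
    Scheme.Hom.finiteType_appLE s (isAffineOpen_top _) hU' le_top
  letI : Algebra Γ(Spec (CommRingCat.of K), ⊤) Γ(X, U') := (s.appLE ⊤ U' le_top).hom.toAlgebra
  obtain ⟨gens, hgens⟩ := (show Algebra.FiniteType Γ(Spec (CommRingCat.of K), ⊤) Γ(X, U') from hft).1
  have hxtop : ⊤ ≤ x ⁻¹ᵁ U' := le_preimage_of_mem hxU'
  refine Set.Finite.subset (gens.finite_toSet.biUnion fun a _ =>
    finite_support hF (evF x U' hxtop a)) fun v hv => ?_
  simp only [Set.mem_iUnion, Set.mem_ofPred_eq]
  by_contra hcon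
  push Not at hcon
  refine hv (hU'U ?_)
  -- the functions on `U'` are regular at `v`
  let B : Subring Γ(X, U') := v.toValuationSubring.toSubring.comap (evF x U' hxtop)
  have hB : ∀ a, a ∈ B := by
    intro a
    have ha : a ∈ Algebra.adjoin Γ(Spec (CommRingCat.of K), ⊤) (gens : Set Γ(X, U')) := by
      rw [hgens]; exact Algebra.mem_top
    induction ha using Algebra.adjoin_induction with
    | mem a ha =>
      show evF x U' hxtop a ∈ v.toValuationSubring
      rw [← atLeast_zero_iff_mem]
      exact Or.inr (hcon a ha).ge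
    | algebraMap r =>
      show evF x U' hxtop ((s.appLE ⊤ U' le_top).hom r) ∈ v.toValuationSubring
      obtain ⟨r, rfl⟩ : ∃ r' : K, (Scheme.ΓSpecIso (CommRingCat.of K)).inv.hom r' = r :=
        ⟨(Scheme.ΓSpecIso (CommRingCat.of K)).hom.hom r, by
          rw [← CategoryTheory.comp_apply, Iso.hom_inv_id]; rfl⟩
      have e1 : evF x U' hxtop ((s.appLE ⊤ U' le_top).hom ((Scheme.ΓSpecIso _).inv.hom r)) =
          algebraMap M F (i r) := by
        have h1 := Scheme.Hom.appLE_comp_appLE x s ⊤ U' ⊤ le_top hxtop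
        show (Scheme.ΓSpecIso _).hom.hom ((x.appLE U' ⊤ hxtop).hom _) = _
        rw [show (x.appLE U' ⊤ hxtop).hom ((s.appLE ⊤ U' le_top).hom
            ((Scheme.ΓSpecIso (CommRingCat.of K)).inv.hom r)) =
          ((x ≫ s).appLE ⊤ ⊤ le_top).hom ((Scheme.ΓSpecIso (CommRingCat.of K)).inv.hom r) from
          congrArg (fun ψ : Γ(Spec (CommRingCat.of K), ⊤) ⟶ Γ(Spec (CommRingCat.of F), ⊤) =>
            ψ.hom ((Scheme.ΓSpecIso (CommRingCat.of K)).inv.hom r)) h1]
        rw [show (x ≫ s).appLE ⊤ ⊤ le_top =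
          (Spec.map (CommRingCat.ofHom ((algebraMap M F).comp i))).appTop by
            simp only [hx]; exact Scheme.Hom.appLE_eq_app _]
        rw [← CategoryTheory.comp_apply, ← CategoryTheory.comp_apply,
          Scheme.ΓSpecIso_naturality, Iso.inv_hom_id_assoc]
        rfl
      rw [e1]
      exact v.algebraMap_mem' _
    | add a b _ _ ha hb => exact B.add_mem ha hb
    | mul a b _ _ ha hb => exact B.mul_mem ha hb
  let ψ : Γ(X, U') →+* v.toValuationSubring :=
    (evF x U' hxtop).codRestrict v.toValuationSubring.toSubring hB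
  let e := Spec.map (CommRingCat.ofHom ψ) ≫ hU'.fromSpec
  have he : Spec.map (CommRingCat.ofHom v.toValuationSubring.subtype) ≫ e = x := by
    rw [show e = Spec.map (CommRingCat.ofHom ψ) ≫ hU'.fromSpec from rfl, ← Category.assoc,
      ← Spec.map_comp, ← CommRingCat.ofHom_comp]
    show Spec.map (CommRingCat.ofHom (evF x U' hxtop)) ≫ hU'.fromSpec = x
    have h1 := IsAffineOpen.SpecMap_appLE_fromSpec x hU' (isAffineOpen_top _) hxtop
    rw [show CommRingCat.ofHom (evF x U' hxtop) =
      x.appLE U' ⊤ hxtop ≫ (Scheme.ΓSpecIso (CommRingCat.of F)).hom from rfl, Spec.map_comp,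
      Category.assoc, h1, IsAffineOpen.fromSpec_top, ← Category.assoc]
    simp
  have hes : e ≫ s = Spec.map (CommRingCat.ofHom ((placeHom v).comp i)) := by
    have hmono : Spec.map (CommRingCat.ofHom v.toValuationSubring.subtype) ≫ e ≫ s =
        Spec.map (CommRingCat.ofHom v.toValuationSubring.subtype) ≫
          Spec.map (CommRingCat.ofHom ((placeHom v).comp i)) := by
      rw [← Category.assoc, he, hx, ← Spec.map_comp, ← CommRingCat.ofHom_comp]; rfl
    obtain ⟨α, hα⟩ := Spec.map_surjective (e ≫ s)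
    rw [← hα, ← Spec.map_comp, ← Spec.map_comp] at hmono
    have h2 := Spec.map_injective hmono
    rw [← hα]
    congr 1
    ext r
    exact congrArg (fun ψ : CommRingCat.of K ⟶ CommRingCat.of F => ψ.hom r) h2
  have hce : placeCtr i x hx v = ctr e := by
    rw [placeCtr, ← placeExt_unique i x hx v e he hes]
  rw [hce]
  show hU'.fromSpec _ ∈ (U' : Set X)
  rw [← hU'.range_fromSpec]
  exact Set.mem_range_self _

include hF in
theorem finite_pullOrd [IsAlgClosed M] : {v : Place M F | pullOrd i x hx c v ≠ 0}.Finite := by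
  refine (finite_not_mem i hF x hx (c.mem (ctr x))).subset fun v hv hmem => hv ?_
  have h := pullOrd_eq i x hx c v (ctr x) (ctr x) hmem (c.mem _)
  rwa [gAt_self, v.ord_one, add_zero] at h

variable [IsAlgClosed M]

/-- The divisor of the pullback. -/
def pullDiv : Divisor M F :=
  Finsupp.onFinset (finite_pullOrd i hF x hx c).toFinset (pullOrd i x hx c)
    fun v hv => (finite_pullOrd i hF x hx c).mem_toFinset.mpr hv

theorem pullDiv_apply (v : Place M F) : pullDiv i hF x hx c v = pullOrd i x hx c v := rfl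

omit [IsAlgClosed M] in
theorem pullDiv_mul (d : Coc X) (v : Place M F) :
    pullOrd i x hx (c * d) v = pullOrd i x hx c v + pullOrd i x hx d v := by
  unfold pullOrd gAt
  rw [show (c * d).g (placeCtr i x hx v) (ctr x) =
    c.at _ _ _ (inf_le_left.trans inf_le_left) (inf_le_right.trans inf_le_left) *
      d.at _ _ _ (inf_le_left.trans inf_le_right) (inf_le_right.trans inf_le_right) from rfl,
    map_mul, Units.val_mul, v.ord_mul (Units.ne_zero _) (Units.ne_zero _), Coc.at, Coc.at]
  erw [evU_uRes, evU_uRes]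

theorem isPrincipal_of_rel {d : Coc X} (h : c.Rel d) :
    pullDiv i hF x hx d - pullDiv i hF x hx c ∈ Divisor.principal (K := M) (F := F) := by
  obtain ⟨V, hV, hc, hd, w, hw⟩ := h
  let w₀ : F := (evU x (V (ctr x)) (le_preimage_of_mem (hV _)) (w (ctr x)) : F)
  refine ⟨w₀⁻¹, inv_ne_zero (Units.ne_zero _), fun v => ?_⟩
  rw [Finsupp.sub_apply, pullDiv_apply, pullDiv_apply, v.ord_inv]
  set z := placeCtr i x hx v
  have hz : ctr x ∈ V z := mem_of_placeCtr_mem i x hx v (hV z)
  have hW : ctr x ∈ V z ⊓ V (ctr x) := ⟨hz, hV _⟩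
  have h1 := congrArg (fun u => ((evU x (V z ⊓ V (ctr x)) (le_preimage_of_mem hW) u : Fˣ) : F))
    (hw z (ctr x) _ inf_le_left inf_le_right)
  simp only [map_mul, map_div, Units.val_mul, Units.val_div_eq_div_val, evU_uRes] at h1
  rw [← gAt_eq_at c x z (ctr x) (V z ⊓ V (ctr x)) (inf_le_left.trans (hc _))
      (inf_le_right.trans (hc _)) hW,
    ← gAt_eq_at d x z (ctr x) (V z ⊓ V (ctr x)) (inf_le_left.trans (hd _))
      (inf_le_right.trans (hd _)) hW] at h1
  show v.ord (gAt d x z (ctr x) _ _) - v.ord (gAt c x z (ctr x) _ _) = _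
  rw [h1, v.ord_mul (gAt_ne_zero _ _ _ _ _ _) (div_ne_zero (Units.ne_zero _) (Units.ne_zero _)),
    div_eq_mul_inv, v.ord_mul (Units.ne_zero _) (inv_ne_zero (Units.ne_zero _)), v.ord_inv,
    ord_evU i x hx v (hV z) (w z)]
  simp only [w₀]
  ring

/-- Pullback of classes to the divisor class group of a function field. -/
def pullCl : Pic X →+ AlgebraicCurve.Pic M F :=
  AddMonoidHom.mk' (Quotient.lift (fun c => QuotientAddGroup.mk (pullDiv i hF x hx c))
      fun c d h => QuotientAddGroup.eq.mpr (by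
        rw [neg_add_eq_sub]; exact isPrincipal_of_rel i hF x hx c h))
    (by
      rintro ⟨a⟩ ⟨b⟩
      show QuotientAddGroup.mk (pullDiv i hF x hx (a * b)) = _
      rw [show pullDiv i hF x hx (a * b) = pullDiv i hF x hx a + pullDiv i hF x hx b from
        Finsupp.ext fun v => pullDiv_mul i x hx a b v]
      rfl)

theorem pullCl_mk : pullCl i hF x hx (Pic.mk c) = QuotientAddGroup.mk (pullDiv i hF x hx c) := rfl

end FA.AbTors

end
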