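import Fermat.Agent.AbTors.Rat
import Mathlib.RingTheory.Valuation.LocalSubring
import Mathlib.RingTheory.UniqueFactorizationDomain.Defs
import Mathlib.RingTheory.Polynomial.RationalRoot
import Mathlib.FieldTheory.Normal.Basic
import Mathlib.FieldTheory.IsAlgClosed.Basic

/-!
# Valuations of an algebraic closure of the function field dominating a local ring
-/

set_option autoImplicit false
set_option linter.style.haveILetI false

noncomputable section

universe u

open CategoryTheory AlgebraicGeometry TopologicalSpace IsLocalRing Polynomial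

namespace FA.AbTors

theorem isAlgClosed_residueField {L : Type u} [Field L] [IsAlgClosed L] (w : ValuationSubring L) :
    IsAlgClosed (ResidueField w) := by
  refine IsAlgClosed.of_exists_root _ fun p hp hirr => ?_
  obtain ⟨q, hq, hdeg, hmon⟩ := Polynomial.lifts_and_degree_eq_and_monic
    ((Polynomial.mem_lifts p).2 (Polynomial.map_surjective _ IsLocalRing.residue_surjective p)) hp
  have hd : (q.map w.subtype).degree ≠ 0 := by
    rw [hmon.degree_map, hdeg]; exact (degree_pos_of_irreducible hirr).ne'
  obtain ⟨x, hx⟩ := IsAlgClosed.exists_root (q.map w.subtype) hd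
  have hxw : x ∈ w := w.valuation_le_one_iff x |>.1 (by
    haveI : IsIntegrallyClosedIn w L := inferInstance
    have hint : IsIntegral w x := ⟨q, hmon, by
      rw [IsRoot.def, eval_map] at hx; exact hx⟩
    obtain ⟨y, rfl⟩ := IsIntegrallyClosedIn.algebraMap_eq_of_integral hint
    exact w.valuation_le_one y)
  refine ⟨IsLocalRing.residue w ⟨x, hxw⟩, ?_⟩
  rw [← hq, eval_map, eval₂_hom]
  refine (map_eq_zero_iff _ (RingHom.id (ResidueField w)).injective).1 ?_
  rw [RingHom.id_apply, show q.eval (⟨x, hxw⟩ : w) = 0 from Subtype.ext (by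
    rw [IsRoot.def, eval_map] at hx
    exact ((eval₂_hom w.subtype (⟨x, hxw⟩ : w)).symm.trans hx)), map_zero]

variable {X : Scheme.{u}} [IsIntegral X] {L : Type u} [Field L] [Algebra X.functionField L]

/-- The valuation ring dominates the local ring of the point. -/
def Dominates (w : ValuationSubring L) (z : X) : Prop :=
  ∃ ψ : X.presheaf.stalk z →+* w, IsLocalHom ψ ∧
    w.subtype.comp ψ =
      (algebraMap X.functionField L).comp (algebraMap (X.presheaf.stalk z) X.functionField)

variable {w : ValuationSubring L} {z : X}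

theorem exists_dominates (z : X) : ∃ w : ValuationSubring L, Dominates w z := by
  obtain ⟨w, hw, hloc⟩ := IsLocalRing.exists_factor_valuationRing
    ((algebraMap X.functionField L).comp (algebraMap (X.presheaf.stalk z) X.functionField))
  exact ⟨w, _, hloc, RingHom.ext fun _ => rfl⟩

/-- The point with values in a dominating valuation ring. -/
def domPt (h : Dominates w z) : Spec (CommRingCat.of w) ⟶ X :=
  Spec.map (CommRingCat.ofHom h.choose) ≫ X.fromSpecStalk z

variable (X L) in
/-- The generic point with values in `L`. -/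
def geomPt : Spec (CommRingCat.of L) ⟶ X :=
  Spec.map (CommRingCat.ofHom (algebraMap X.functionField L)) ≫ genPt X

theorem domPt_gen (h : Dominates w z) :
    Spec.map (CommRingCat.ofHom w.subtype) ≫ domPt h = geomPt X L := by
  rw [domPt, ← Category.assoc, ← Spec.map_comp, ← CommRingCat.ofHom_comp, h.choose_spec.2,
    CommRingCat.ofHom_comp, Spec.map_comp, Category.assoc, geomPt]
  refine congrArg (Spec.map (CommRingCat.ofHom (algebraMap X.functionField L)) ≫ ·) ?_
  exact Scheme.SpecMap_stalkSpecializes_fromSpecStalk ((genericPoint_spec X).specializes trivial)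

theorem ctr_domPt (h : Dominates w z) : ctr (domPt h) = z := by
  haveI := h.choose_spec.1
  exact (ctr_comp h.choose (X.fromSpecStalk z : Spec (CommRingCat.of _) ⟶ X)).trans
    Scheme.fromSpecStalk_closedPoint

theorem ctr_geomPt : ctr (geomPt X L) = genericPoint X :=
  (ctr_comp (algebraMap X.functionField L) (genPt X)).trans ctr_genPt

theorem geom_le {W : X.Opens} {q : X} (h : q ∈ W) : ⊤ ≤ geomPt X L ⁻¹ᵁ W :=
  le_preimage_comp _ _ (gen_le h)

theorem evU_geomPt {W : X.Opens} {q : X} (h : q ∈ W) (u : Γ(X, W)ˣ) :
    (evU (geomPt X L) W (geom_le h) u : L) =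
      algebraMap X.functionField L (evU (genPt X) W (gen_le h) u) :=
  congrArg Units.val (evU_comp (algebraMap X.functionField L) (genPt X) (gen_le h) u)

variable {n : X.functionField}

theorem Dominates.mem (h : Dominates w z) (hn : RegAt z n) :
    algebraMap X.functionField L n ∈ w := by
  obtain ⟨a, rfl⟩ := regAt_iff_mem_range.1 hn
  obtain ⟨ψ, -, hψ⟩ := h
  have := RingHom.congr_fun hψ a
  exact this ▸ (ψ a).2

theorem Dominates.valuation_eq_one (h : Dominates w z) (hn : UnitAt z n) :
    w.valuation (algebraMap X.functionField L n) = 1 := by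
  have hne : algebraMap X.functionField L n ≠ 0 := (_root_.map_ne_zero _).2 hn.ne_zero
  refine le_antisymm ((w.valuation_le_one_iff _).2 (h.mem hn.regAt)) ?_
  have h2 := (w.valuation_le_one_iff _).2 (h.mem hn.inv.regAt)
  rw [map_inv₀, map_inv₀, inv_le_one₀ (zero_lt_iff.2 ((_root_.map_ne_zero _).2 hne))] at h2
  exact h2

theorem Dominates.not_unitAt (h : Dominates w z)
    (hn : w.valuation (algebraMap X.functionField L n) < 1) : ¬UnitAt z n := fun hu =>
  hn.ne (h.valuation_eq_one hu)

theorem Dominates.comp (h : Dominates w z) (σ : L ≃ₐ[X.functionField] L) :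
    Dominates (w.comap (σ : L →+* L)) z := by
  obtain ⟨ψ, hψ, he⟩ := h
  have key : ∀ a, σ (ψ a : L) = (ψ a : L) := fun a => by
    rw [show (ψ a : L) = _ from RingHom.congr_fun he a]
    exact σ.commutes _
  refine ⟨((w.subtype.comp ψ)).codRestrict (w.comap (σ : L →+* L)).toSubring fun a => ?_, ?_, ?_⟩
  · show σ (ψ a : L) ∈ w
    rw [key]; exact (ψ a).2
  · constructor
    intro a ha
    obtain ⟨b, hb⟩ := ha.exists_right_inv
    refine hψ.1 a (IsUnit.of_mul_eq_one ⟨σ (b : L), b.2⟩ (Subtype.ext ?_))
    have h1 := congrArg (fun c : w.comap (σ : L →+* L) => σ (c : L)) hb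
    simp only [MulMemClass.coe_mul, OneMemClass.coe_one, map_mul, map_one] at h1
    rw [MulMemClass.coe_mul, OneMemClass.coe_one]
    exact (congrArg (fun c => c * σ (b : L)) (key a)).symm.trans h1
  · exact RingHom.ext fun a => RingHom.congr_fun he a

/-- Regularity at a normal point is detected by the dominating valuations. -/
theorem regAt_of_forall [UniqueFactorizationMonoid (X.presheaf.stalk z)]
    (h : ∀ w : ValuationSubring L, Dominates w z → algebraMap X.functionField L n ∈ w) :
    RegAt z n := by
  rw [regAt_iff_mem_range]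
  by_contra hn
  let R : LocalSubring X.functionField :=
    LocalSubring.range (algebraMap (X.presheaf.stalk z) X.functionField)
  haveI : IsIntegrallyClosedIn R.toSubring X.functionField := by
    refine Subring.isIntegrallyClosedIn_iff.2 fun {x} hx => ?_
    obtain ⟨p, hp, hpx⟩ := hx
    obtain ⟨q, hq, -, hqm⟩ := Polynomial.lifts_and_degree_eq_and_monic
      ((Polynomial.mem_lifts p).2 (Polynomial.map_surjective _
        (algebraMap (X.presheaf.stalk z) X.functionField).rangeRestrict_surjective p)) hp
    have hint : IsIntegral (X.presheaf.stalk z) x := ⟨q, hqm, by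
      rw [← hq] at hpx; exact (Polynomial.eval₂_map _ _ _).symm.trans hpx⟩
    exact IsIntegrallyClosedIn.algebraMap_eq_of_integral hint
  obtain ⟨v, hv, hnv⟩ := LocalSubring.exists_le_valuationSubring_of_isIntegrallyClosedIn
    (R := R) (x := n) (fun hm => hn hm)
  obtain ⟨w, hw, hloc⟩ := IsLocalRing.exists_factor_valuationRing
    ((algebraMap X.functionField L).comp v.subtype)
  let ψ₀ : X.presheaf.stalk z →+* v :=
    (algebraMap (X.presheaf.stalk z) X.functionField).codRestrict v.toSubring fun a =>
      hv.1 ⟨a, rfl⟩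
  haveI hψ₀ : IsLocalHom ψ₀ := by
    haveI := hv.2
    haveI : IsLocalHom (algebraMap (X.presheaf.stalk z) X.functionField).rangeRestrict :=
      IsLocalHom.of_surjective _ (RingHom.rangeRestrict_surjective _)
    exact @RingHom.isLocalHom_comp _ _ _ _ _ _ (Subring.inclusion hv.1)
      (algebraMap (X.presheaf.stalk z) X.functionField).rangeRestrict hv.2
      (IsLocalHom.of_surjective _ (RingHom.rangeRestrict_surjective _))
  haveI := hloc
  have hdom : Dominates w z :=
    ⟨(((algebraMap X.functionField L).comp v.subtype).codRestrict w.toSubring hw).comp ψ₀,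
      RingHom.isLocalHom_comp _ ψ₀, RingHom.ext fun _ => rfl⟩
  have hn0 : n ≠ 0 := fun h0 => hnv (h0 ▸ v.zero_mem)
  have hinv : n⁻¹ ∈ v := (v.mem_or_inv_mem n).resolve_left hnv
  have hu : ¬IsUnit (⟨n⁻¹, hinv⟩ : v) := fun hu => hnv (by
    obtain ⟨b, hb⟩ := hu.exists_right_inv
    have hb' : n⁻¹ * (b : X.functionField) = 1 := congrArg Subtype.val hb
    rw [show n = (b : X.functionField) by rw [← mul_right_inj' (inv_ne_zero hn0), hb',
      inv_mul_cancel₀ hn0]]
    exact b.2)
  have hu' := mt (IsUnit.of_map
    (((algebraMap X.functionField L).comp v.subtype).codRestrict w.toSubring hw) _) hu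
  refine hu' (IsUnit.of_mul_eq_one ⟨_, h w hdom⟩ (Subtype.ext ?_))
  show algebraMap X.functionField L n⁻¹ * algebraMap X.functionField L n = 1
  rw [← map_mul, inv_mul_cancel₀ hn0, map_one]

theorem unitAt_of_forall [UniqueFactorizationMonoid (X.presheaf.stalk z)] (hn : n ≠ 0)
    (h : ∀ w : ValuationSubring L, Dominates w z →
      w.valuation (algebraMap X.functionField L n) = 1) : UnitAt z n := by
  refine unitAt_of_regAt (regAt_of_forall fun w hw => (w.valuation_le_one_iff _).1 (h w hw).le)
    (regAt_of_forall (L := L) fun w hw => (w.valuation_le_one_iff _).1 ?_) hn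
  rw [map_inv₀, map_inv₀, h w hw, inv_one]

variable [IsAlgClosed L] [Algebra.IsAlgebraic X.functionField L]

/-- The norm of an element of `L`, seen at all dominating valuations. -/
theorem exists_norm (s : L) (hs : s ≠ 0) : ∃ (N : X.functionField) (r : ℕ), 0 < r ∧ N ≠ 0 ∧
    ∀ g : X.functionField, ∀ z : X,
      ((∀ w : ValuationSubring L, Dominates w z →
          w.valuation (algebraMap X.functionField L g * s) = 1) →
        ∀ w : ValuationSubring L, Dominates w z →
          w.valuation (algebraMap X.functionField L (g ^ r * N)) = 1) ∧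
      ((∀ w : ValuationSubring L, Dominates w z → w.valuation s < 1) →
        ∀ w : ValuationSubring L, Dominates w z →
          w.valuation (algebraMap X.functionField L N) < 1) := by
  have hint : IsIntegral X.functionField s := Algebra.IsIntegral.isIntegral s
  set P := minpoly X.functionField s
  set Q := P.map (algebraMap X.functionField L)
  have hsplit : Q.Splits := IsAlgClosed.splits Q
  have hmon : Q.Monic := (minpoly.monic hint).map _
  have hcard : Q.roots.card = P.natDegree := by
    rw [← hsplit.natDegree_eq_card_roots, natDegree_map]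
  haveI : Normal X.functionField L :=
    ⟨fun x => IsAlgClosed.splits (((minpoly X.functionField x)).map _)⟩
  have hroot : ∀ x ∈ Q.roots, ∃ σ : L ≃ₐ[X.functionField] L, σ s = x := fun x hx => by
    have he : aeval x P = 0 := by
      rw [Polynomial.mem_roots hmon.ne_zero, IsRoot.def, eval_map] at hx
      exact hx
    exact minpoly.exists_algEquiv_of_root' (Algebra.IsAlgebraic.isAlgebraic s) he
  have hN : P.coeff 0 ≠ 0 := minpoly.coeff_zero_ne_zero hint hs
  refine ⟨P.coeff 0, P.natDegree, minpoly.natDegree_pos hint, hN, fun g z => ?_⟩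
  have hprod : ∀ w : ValuationSubring L,
      w.valuation (algebraMap X.functionField L (P.coeff 0)) =
        (Q.roots.map w.valuation).prod := fun w => by
    rw [← coeff_map, hsplit.coeff_zero_eq_prod_roots_of_monic hmon, map_mul, map_pow,
      Valuation.map_neg, map_one, one_pow, one_mul]
    exact map_multiset_prod _ _
  refine ⟨fun h w hw => ?_, fun h w hw => ?_⟩
  · rw [map_mul, map_mul, map_pow, map_pow, hprod, ← hcard, ← Multiset.prod_replicate,
      ← Multiset.map_const', ← Multiset.prod_map_mul]
    refine Multiset.prod_eq_one fun a ha => ?_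
    obtain ⟨x, hx, rfl⟩ := Multiset.mem_map.1 ha
    obtain ⟨σ, rfl⟩ := hroot x hx
    rw [← map_mul, ← σ.commutes g, ← map_mul]
    exact valuation_comap_eq_one (σ : L →+* L) (h _ (hw.comp σ))
  · rw [hprod]
    have hne : Q.roots ≠ 0 := fun h0 => (minpoly.natDegree_pos hint).ne' (by
      rw [← hcard, h0, Multiset.card_zero])
    refine multiset_prod_lt_one (by simpa using hne) fun a ha => ?_
    obtain ⟨x, hx, rfl⟩ := Multiset.mem_map.1 ha
    obtain ⟨σ, rfl⟩ := hroot x hx
    exact valuation_comap_lt_one (σ : L →+* L) (h _ (hw.comp σ))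
where
  valuation_comap_eq_one {w : ValuationSubring L} (σ : L →+* L) {x : L}
      (h : (w.comap σ).valuation x = 1) : w.valuation (σ x) = 1 := by
    have hx : x ≠ 0 := fun h0 => by simp [h0] at h
    have hσ : σ x ≠ 0 := (_root_.map_ne_zero σ).2 hx
    refine le_antisymm ((w.valuation_le_one_iff _).2
      (show x ∈ w.comap σ from ((w.comap σ).valuation_le_one_iff _).1 h.le)) ?_
    have h2 : x⁻¹ ∈ w.comap σ := ((w.comap σ).valuation_le_one_iff _).1 (by
      rw [map_inv₀, h, inv_one])
    have h3 := (w.valuation_le_one_iff _).2 (show σ x⁻¹ ∈ w from h2)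
    rw [map_inv₀, map_inv₀, inv_le_one₀ (zero_lt_iff.2 ((_root_.map_ne_zero _).2 hσ))] at h3
    exact h3
  valuation_comap_lt_one {w : ValuationSubring L} (σ : L →+* L) {x : L}
      (h : (w.comap σ).valuation x < 1) : w.valuation (σ x) < 1 := by
    rcases eq_or_ne x 0 with rfl | hx
    · simp
    by_contra hle
    push Not at hle
    have h3 : σ x⁻¹ ∈ w := (w.valuation_le_one_iff _).1 (by
      rw [map_inv₀, map_inv₀]; exact inv_le_one_of_one_le₀ hle)
    have h4 := ((w.comap σ).valuation_le_one_iff _).2 (show x⁻¹ ∈ w.comap σ from h3)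
    rw [map_inv₀, inv_le_one₀ (zero_lt_iff.2 ((_root_.map_ne_zero _).2 hx))] at h4
    exact h.not_ge h4
  multiset_prod_lt_one {Γ₀ : Type u} [LinearOrderedCommGroupWithZero Γ₀] {m : Multiset Γ₀}
      (hm : m ≠ 0) (h : ∀ a ∈ m, a < 1) : m.prod < 1 := by
    induction m using Multiset.induction with
    | empty => exact absurd rfl hm
    | cons a m ih =>
      rw [Multiset.prod_cons]
      rcases eq_or_ne m 0 with rfl | hm'
      · simpa using h a (Multiset.mem_cons_self a _)
      · exact mul_lt_one_of_nonneg_of_lt_one_left zero_le (h a (Multiset.mem_cons_self a _))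
          (ih hm' fun b hb => h b (Multiset.mem_cons_of_mem hb)).le

end FA.AbTors

end
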