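import Fermat.Agent.AbTors.Pic
import Mathlib.AlgebraicGeometry.ValuativeCriterion

/-!
# Evaluation of units at points with values in rings
-/

set_option autoImplicit false

noncomputable section

universe u

open CategoryTheory AlgebraicGeometry TopologicalSpace

namespace FA.AbTors

variable {X Y : Scheme.{u}} {R S : Type u} [CommRing R] [CommRing S]

/-- The value of a unit at a point. -/
def evU (x : Spec (CommRingCat.of R) ⟶ X) (U : X.Opens) (h : ⊤ ≤ x ⁻¹ᵁ U) : Γ(X, U)ˣ →* Rˣ :=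
  (Units.map (Scheme.ΓSpecIso (CommRingCat.of R)).hom.hom.toMonoidHom).comp (uApp x U ⊤ h)

/-- The value of a function at a point. -/
def evF (x : Spec (CommRingCat.of R) ⟶ X) (U : X.Opens) (h : ⊤ ≤ x ⁻¹ᵁ U) : Γ(X, U) →+* R :=
  (Scheme.ΓSpecIso (CommRingCat.of R)).hom.hom.comp (x.appLE U ⊤ h).hom

theorem coe_evU (x : Spec (CommRingCat.of R) ⟶ X) (U : X.Opens) (h : ⊤ ≤ x ⁻¹ᵁ U) (u : Γ(X, U)ˣ) :
    (evU x U h u : R) = evF x U h (u : Γ(X, U)) := rfl

theorem evU_uRes (x : Spec (CommRingCat.of R) ⟶ X) {U U' : X.Opens} (hle : U' ≤ U)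
    (h : ⊤ ≤ x ⁻¹ᵁ U') (u : Γ(X, U)ˣ) :
    evU x U' h (uRes U U' hle u) = evU x U (fun _ hp => hle (h hp)) u :=
  congrArg (Units.map (Scheme.ΓSpecIso (CommRingCat.of R)).hom.hom.toMonoidHom)
    (uApp_uRes x hle h u)

theorem evU_uApp (x : Spec (CommRingCat.of R) ⟶ X) (f : X ⟶ Y) {U : Y.Opens} {V : X.Opens}
    (e : V ≤ f ⁻¹ᵁ U) (h : ⊤ ≤ x ⁻¹ᵁ V) (u : Γ(Y, U)ˣ) :
    evU x V h (uApp f U V e u) = evU (x ≫ f) U (fun _ hp => e (h hp)) u :=
  congrArg (Units.map (Scheme.ΓSpecIso (CommRingCat.of R)).hom.hom.toMonoidHom)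
    (uApp_uApp x f e h u)

theorem evU_congr {x x' : Spec (CommRingCat.of R) ⟶ X} (hx : x = x') (U : X.Opens)
    (h : ⊤ ≤ x ⁻¹ᵁ U) (u : Γ(X, U)ˣ) : evU x U h u = evU x' U (hx ▸ h) u := by
  subst hx; rfl

theorem le_preimage_comp (φ : R →+* S) (x : Spec (CommRingCat.of R) ⟶ X) {U : X.Opens}
    (h : ⊤ ≤ x ⁻¹ᵁ U) : ⊤ ≤ (Spec.map (CommRingCat.ofHom φ) ≫ x) ⁻¹ᵁ U :=
  fun _ _ => h trivial

theorem evF_comp (φ : R →+* S) (x : Spec (CommRingCat.of R) ⟶ X) {U : X.Opens}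
    (h : ⊤ ≤ x ⁻¹ᵁ U) (a : Γ(X, U)) :
    evF (Spec.map (CommRingCat.ofHom φ) ≫ x) U (le_preimage_comp φ x h) a = φ (evF x U h a) := by
  have h1 := Scheme.Hom.appLE_comp_appLE (Spec.map (CommRingCat.ofHom φ)) x U ⊤ ⊤ h le_top
  have h2 := Scheme.ΓSpecIso_naturality (CommRingCat.ofHom φ)
  show (Scheme.ΓSpecIso _).hom.hom (((Spec.map (CommRingCat.ofHom φ) ≫ x).appLE U ⊤ _).hom a) = _
  rw [show ((Spec.map (CommRingCat.ofHom φ) ≫ x).appLE U ⊤
      (le_preimage_comp φ x h)).hom a =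
    ((Spec.map (CommRingCat.ofHom φ)).appLE ⊤ ⊤ le_top).hom ((x.appLE U ⊤ h).hom a) from
    (congrArg (fun ψ : Γ(X, U) ⟶ Γ(Spec (CommRingCat.of S), ⊤) => ψ.hom a) h1).symm]
  have h3 : ((Spec.map (CommRingCat.ofHom φ)).appLE ⊤ ⊤ le_top) =
      (Spec.map (CommRingCat.ofHom φ)).appTop :=
    Scheme.Hom.appLE_eq_app _
  rw [h3]
  exact congrArg
    (fun ψ : Γ(Spec (CommRingCat.of R), ⊤) ⟶ CommRingCat.of S => ψ.hom ((x.appLE U ⊤ h).hom a)) h2

theorem evU_comp (φ : R →+* S) (x : Spec (CommRingCat.of R) ⟶ X) {U : X.Opens}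
    (h : ⊤ ≤ x ⁻¹ᵁ U) (u : Γ(X, U)ˣ) :
    evU (Spec.map (CommRingCat.ofHom φ) ≫ x) U (le_preimage_comp φ x h) u =
      Units.map φ.toMonoidHom (evU x U h u) :=
  Units.ext (evF_comp φ x h (u : Γ(X, U)))

/-- The image of the closed point. -/
def ctr [IsLocalRing R] (x : Spec (CommRingCat.of R) ⟶ X) : X := x (IsLocalRing.closedPoint R)

theorem le_preimage_of_mem [IsLocalRing R] {x : Spec (CommRingCat.of R) ⟶ X} {U : X.Opens}
    (h : ctr x ∈ U) : ⊤ ≤ x ⁻¹ᵁ U :=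
  (Scheme.preimage_eq_top_of_closedPoint_mem x h).ge

theorem ctr_mem [IsLocalRing R] {x : Spec (CommRingCat.of R) ⟶ X} {U : X.Opens}
    (h : ⊤ ≤ x ⁻¹ᵁ U) : ctr x ∈ U := h trivial

theorem ctr_comp [IsLocalRing R] [IsLocalRing S] (φ : R →+* S) [IsLocalHom φ]
    (x : Spec (CommRingCat.of R) ⟶ X) :
    ctr (Spec.map (CommRingCat.ofHom φ) ≫ x) = ctr x :=
  congrArg x (IsLocalRing.comap_closedPoint φ)

/-- The image of any point of a morphism from a local scheme generalises the image of the closed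
point. -/
theorem specializes_ctr [IsLocalRing R] [IsLocalRing S] (φ : R →+* S)
    (x : Spec (CommRingCat.of R) ⟶ X) :
    ctr (Spec.map (CommRingCat.ofHom φ) ≫ x) ⤳ ctr x :=
  (IsLocalRing.specializes_closedPoint _).map x.continuous

/-- A point with values in a valuation ring, for a proper scheme. -/
theorem exists_extension {B : Scheme.{u}} (s : X ⟶ B) [IsProper s] {F : Type u} [Field F]
    (O : ValuationSubring F) (x : Spec (CommRingCat.of F) ⟶ X)
    (b : Spec (CommRingCat.of O) ⟶ B)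
    (hb : x ≫ s = Spec.map (CommRingCat.ofHom O.subtype) ≫ b) :
    ∃ e : Spec (CommRingCat.of O) ⟶ X,
      Spec.map (CommRingCat.ofHom O.subtype) ≫ e = x ∧ e ≫ s = b := by
  have hv : ValuativeCriterion s := by
    have hs : IsProper s := inferInstance
    rw [IsProper.eq_valuativeCriterion] at hs
    exact hs.1.1.1
  let sq : ValuativeCommSq s :=
    { R := O, K := F, i₁ := x, i₂ := b, commSq := ⟨hb⟩ }
  obtain ⟨l⟩ := (hv.existence sq).exists_lift
  exact ⟨l.l, l.fac_left, l.fac_right⟩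

/-- Uniqueness of points with values in a valuation ring. -/
theorem extension_unique {B : Scheme.{u}} (s : X ⟶ B) [IsSeparated s] {F : Type u} [Field F]
    (O : ValuationSubring F) {e e' : Spec (CommRingCat.of O) ⟶ X}
    (h : Spec.map (CommRingCat.ofHom O.subtype) ≫ e = Spec.map (CommRingCat.ofHom O.subtype) ≫ e')
    (hs : e ≫ s = e' ≫ s) : e = e' := by
  let sq : ValuativeCommSq s :=
    { R := O, K := F, i₁ := Spec.map (CommRingCat.ofHom O.subtype) ≫ e, i₂ := e ≫ s,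
      commSq := ⟨Category.assoc _ _ _⟩ }
  have := IsSeparated.valuativeCriterion s sq
  exact congrArg CommSq.LiftStruct.l
    (Subsingleton.elim (α := sq.commSq.LiftStruct) ⟨e, rfl, rfl⟩ ⟨e', h.symm, hs.symm⟩)

end FA.AbTors

end
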