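import Fermat.Agent.AbTors.Transfer
import Fermat.Agent.AbTors.Slices
import Fermat.Agent.AbTors.Dom
import Mathlib.FieldTheory.IsAlgClosed.AlgebraicClosure

/-!
# The curve through the origin and the generic point, over the geometric generic point of the
triple product
-/

set_option autoImplicit false
set_option linter.style.haveILetI false

noncomputable section

universe u

open CategoryTheory CategoryTheory.Limits AlgebraicGeometry TopologicalSpace IsLocalRing
open NeronModelInfra GoodReductionJacobian AlgebraicCurve FA.Curve FA.PicTors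

namespace FA.AbTors

section General

variable {X : Scheme.{u}} [IsIntegral X]

omit [IsIntegral X] in
theorem specMap_stalkTo {R : Type u} [CommRing R] [IsLocalRing R]
    (x : Spec (CommRingCat.of R) ⟶ X) {p : X} (h : x (closedPoint R) = p) :
    Spec.map ((X.presheaf.stalkCongr (Inseparable.of_eq h.symm)).hom ≫
      Scheme.stalkClosedPointTo x) ≫ X.fromSpecStalk p = x := by
  subst h
  rw [show (X.presheaf.stalkCongr _).hom = 𝟙 (X.presheaf.stalk _) from
    X.presheaf.stalkSpecializes_refl _]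
  erw [Category.id_comp]
  exact Scheme.Spec_stalkClosedPointTo_fromSpecStalk x

theorem specMap_ptFF {M : Type u} [Field M] (y : Spec (CommRingCat.of M) ⟶ X)
    (h : y (closedPoint M) = genericPoint X) :
    Spec.map (CommRingCat.ofHom (ptFF y h)) ≫ genPt X = y :=
  specMap_stalkTo y h

theorem hom_eq_of_specMap_genPt {R : Type u} [CommRing R] {a b : X.functionField →+* R}
    (h : Spec.map (CommRingCat.ofHom a) ≫ genPt X = Spec.map (CommRingCat.ofHom b) ≫ genPt X) :
    a = b := by
  haveI : Mono (genPt X) := inferInstanceAs (Mono (X.fromSpecStalk (genericPoint X)))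
  exact congrArg CommRingCat.Hom.hom (Spec.map_injective ((cancel_mono (genPt X)).1 h))

end General

variable {K : Type u} [Field K] (V : AbVar K) [IsIntegral V.A] [IsIntegral V.A3]

/-- An algebraic closure of the function field of the triple product. -/
abbrev AbVar.L3 : Type u := AlgebraicClosure V.A3.functionField

/-- The geometric generic point of the triple product. -/
abbrev AbVar.xi : Spec (CommRingCat.of V.L3) ⟶ V.A3 := geomPt V.A3 V.L3

omit [IsIntegral V.A] [IsIntegral V.A3] in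
theorem AbVar.pr1_surjective (x : V.A) : ∃ z : V.A3, V.hom V.pr1 z = x :=
  ⟨V.mk3 V.self 0 0 x, congrArg (fun f : V.A ⟶ V.A => f x) (V.mk3_pr1 V.self 0 0)⟩

theorem AbVar.pr1_generic : V.hom V.pr1 (genericPoint V.A3) = genericPoint V.A := by
  obtain ⟨z, hz⟩ := V.pr1_surjective (genericPoint V.A)
  have h : V.hom V.pr1 (genericPoint V.A3) ⤳ genericPoint V.A :=
    hz ▸ ((genericPoint_spec V.A3).specializes trivial).map (V.hom V.pr1).continuous
  exact (((genericPoint_spec V.A).specializes trivial).antisymm h).eq.symm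

/-- The data of the curve. -/
structure Frame : Type (u + 1) where
  M : Type u
  [fldM : Field M]
  [acM : IsAlgClosed M]
  [algKM : Algebra K M]
  y : V.Pt (V.fld M)
  iL : M →+* V.L3
  y_gen : Spec.map (CommRingCat.ofHom iL) ≫ V.hom y = V.xi ≫ V.hom V.pr1
  iL_mem : ∀ (w : ValuationSubring V.L3) (z : V.A3), Dominates w z →
    V.hom V.pr1 z = genericPoint V.A → ∀ m, iL m ∈ w
  F : Type u
  [fldF : Field F]
  [algMF : Algebra M F]
  hF : IsFunctionField M F
  φ : V.Pt (V.rng ((algebraMap M F).comp (algebraMap K M)))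
  P : Place M F
  Q : Place M F
  hP : PtValue V P φ 0
  hQ : PtValue V Q φ y
  FL : Type u
  [fldFL : Field FL]
  [algFL : Algebra V.L3 FL]
  φ₁ : F →+* FL
  h₁ : IsExt iL φ₁

attribute [instance] Frame.fldM Frame.acM Frame.algKM Frame.fldF Frame.algMF Frame.fldFL Frame.algFL

theorem nonempty_frame (hJ : JoinHolds V) (hX : ExtExists.{u}) : Nonempty (Frame V) := by
  obtain ⟨M, _, _, _, y, hy, halg, F, _, _, φ, P, Q, hF, hP, hQ⟩ := hJ
  letI : Algebra V.A.functionField M := (ptFF (V.hom y) hy).toAlgebra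
  haveI : Algebra.IsAlgebraic V.A.functionField M := halg
  have hη : (V.xi ≫ V.hom V.pr1) (closedPoint V.L3) = genericPoint V.A :=
    (congrArg (V.hom V.pr1) ctr_geomPt).trans V.pr1_generic
  letI : Algebra V.A.functionField V.L3 := (ptFF (V.xi ≫ V.hom V.pr1) hη).toAlgebra
  let iL : M →ₐ[V.A.functionField] V.L3 := IsAlgClosed.lift
  have hgen : Spec.map (CommRingCat.ofHom iL.toRingHom) ≫ V.hom y = V.xi ≫ V.hom V.pr1 := by
    rw [← specMap_ptFF (V.hom y) hy, ← specMap_ptFF (V.xi ≫ V.hom V.pr1) hη, ← Category.assoc,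
      ← Spec.map_comp, ← CommRingCat.ofHom_comp]
    congr 3
    exact RingHom.ext fun a => iL.commutes a
  have hmem : ∀ (w : ValuationSubring V.L3) (z : V.A3), Dominates w z →
      V.hom V.pr1 z = genericPoint V.A → ∀ m, iL m ∈ w := by
    intro w z hd hz
    have hc : (domPt hd ≫ V.hom V.pr1) (closedPoint w) = genericPoint V.A :=
      (congrArg (V.hom V.pr1) (ctr_domPt hd)).trans hz
    let ψ : V.A.functionField →+* w :=
      ((V.A.presheaf.stalkCongr (Inseparable.of_eq hc.symm)).hom ≫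
        Scheme.stalkClosedPointTo (domPt hd ≫ V.hom V.pr1)).hom
    have hψ : w.subtype.comp ψ = algebraMap V.A.functionField V.L3 := by
      refine hom_eq_of_specMap_genPt ?_
      refine Eq.trans ?_ (specMap_ptFF (V.xi ≫ V.hom V.pr1) hη).symm
      rw [CommRingCat.ofHom_comp, Spec.map_comp, Category.assoc]
      rw [show Spec.map (CommRingCat.ofHom ψ) ≫ genPt V.A = domPt hd ≫ V.hom V.pr1 from
        specMap_stalkTo (domPt hd ≫ V.hom V.pr1) hc]
      rw [← Category.assoc, domPt_gen]
    intro m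
    have hint : IsIntegral V.A.functionField (iL m) :=
      (Algebra.IsIntegral.isIntegral (R := V.A.functionField) m).map iL
    obtain ⟨p, hp, hpm⟩ := hint
    have hint' : IsIntegral w (iL m) := ⟨p.map ψ, hp.map _, by
      rw [Polynomial.eval₂_map]
      exact (hψ ▸ hpm :)⟩
    obtain ⟨a, ha⟩ := IsIntegrallyClosedIn.algebraMap_eq_of_integral hint'
    rw [← ha]; exact a.2
  obtain ⟨FL, _, _, φ₁, h₁⟩ := hX M V.L3 F iL.toRingHom hF
  exact ⟨{ M := M, y := y, iL := iL.toRingHom, y_gen := hgen, iL_mem := hmem, F := F, hF := hF,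
           φ := φ, P := P, Q := Q, hP := hP, hQ := hQ, FL := FL, φ₁ := φ₁, h₁ := h₁ }⟩

namespace Frame

variable {V} (R : Frame V)

/-- The structure map of `K` into the algebraic closure. -/
def iK : K →+* V.L3 := R.iL.comp (algebraMap K R.M)

theorem xi_str : V.xi ≫ V.str3 = V.rng R.iK := by
  rw [← V.hom_str V.pr1, ← Category.assoc, ← R.y_gen, Category.assoc, V.hom_str, ← Spec.map_comp,
    ← CommRingCat.ofHom_comp]
  rfl

/-- The second generic point. -/
def b : V.Pt (V.rng R.iK) := V.precomp V.xi R.xi_str V.pr2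

/-- The third generic point. -/
def c : V.Pt (V.rng R.iK) := V.precomp V.xi R.xi_str V.pr3

theorem φ₁_comp : R.φ₁.comp ((algebraMap R.M R.F).comp (algebraMap K R.M)) =
    (algebraMap V.L3 R.FL).comp R.iK :=
  RingHom.ext fun a => R.h₁.comm (algebraMap K R.M a)

/-- The curve. -/
def φL : V.Pt (V.rng ((algebraMap V.L3 R.FL).comp R.iK)) := V.ringMap R.φ₁ R.φ₁_comp R.φ

/-- The curve and the two generic points. -/
def xL : Spec (CommRingCat.of R.FL) ⟶ V.A3 :=
  V.mk3 R.φL (V.ringMap (algebraMap V.L3 R.FL) rfl R.b) (V.ringMap (algebraMap V.L3 R.FL) rfl R.c)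

theorem xL_str : R.xL ≫ V.str3 =
    Spec.map (CommRingCat.ofHom ((algebraMap V.L3 R.FL).comp R.iK)) :=
  V.mk3_str _ _ _

theorem hom_φL : V.hom R.φL = Spec.map (CommRingCat.ofHom R.φ₁) ≫ V.hom R.φ := rfl

/-- The value of the curve at a place. -/
abbrev valφ (v : Place V.L3 R.FL) : Spec (CommRingCat.of V.L3) ⟶ V.A :=
  valPt R.iK R.h₁.isFunctionField (Spec.map (CommRingCat.ofHom R.φ₁) ≫ V.hom R.φ)
    (map_over (algebraMap K R.M) (V.hom R.φ) (V.hom_str R.φ) R.h₁ R.iK rfl) v

theorem valPt_xL_pr1 (v : Place V.L3 R.FL) :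
    valPt R.iK R.h₁.isFunctionField R.xL R.xL_str v ≫ V.hom V.pr1 = R.valφ v :=
  (valPt_comp R.iK R.h₁.isFunctionField R.xL R.xL_str (V.hom V.pr1) (V.hom_str V.pr1) v).symm.trans
    (valPt_congr R.iK R.h₁.isFunctionField _ _ _ (V.mk3_pr1 _ _ _) v)

theorem valPt_xL_pr2 (v : Place V.L3 R.FL) :
    valPt R.iK R.h₁.isFunctionField R.xL R.xL_str v ≫ V.hom V.pr2 = V.hom R.b :=
  (valPt_comp R.iK R.h₁.isFunctionField R.xL R.xL_str (V.hom V.pr2) (V.hom_str V.pr2) v).symm.trans
    (valPt_const R.iK R.h₁.isFunctionField _ _ _ (V.hom_str R.b) (V.mk3_pr2 _ _ _) v)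

theorem valPt_xL_pr3 (v : Place V.L3 R.FL) :
    valPt R.iK R.h₁.isFunctionField R.xL R.xL_str v ≫ V.hom V.pr3 = V.hom R.c :=
  (valPt_comp R.iK R.h₁.isFunctionField R.xL R.xL_str (V.hom V.pr3) (V.hom_str V.pr3) v).symm.trans
    (valPt_const R.iK R.h₁.isFunctionField _ _ _ (V.hom_str R.c) (V.mk3_pr3 _ _ _) v)

theorem valPt_of_ptValue {T : Place R.M R.F} {a : V.Pt (V.fld R.M)} (h : PtValue V T R.φ a) :
    valPt (algebraMap K R.M) R.hF (V.hom R.φ) (V.hom_str R.φ) T = V.hom a := by
  obtain ⟨e, he, hres⟩ := h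
  let σ : IsLocalRing.ResidueField T.toValuationSubring →+* R.M :=
    IsLocalRing.ResidueField.lift (valueHom R.hF T)
  have hσ : σ.comp (IsLocalRing.residue T.toValuationSubring) = valueHom R.hF T :=
    RingHom.ext fun _ => rfl
  refine (valPt_eq_of_ext (algebraMap K R.M) R.hF _ _ T (V.hom e) (congrArg V.hom he)
    (V.hom_str e)).trans ?_
  rw [← hσ, CommRingCat.ofHom_comp, Spec.map_comp, Category.assoc]
  refine (congrArg (Spec.map (CommRingCat.ofHom σ) ≫ ·) (congrArg V.hom hres)).trans ?_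
  show Spec.map (CommRingCat.ofHom σ) ≫ Spec.map (CommRingCat.ofHom
    ((IsLocalRing.residue T.toValuationSubring).comp (placeHom T))) ≫ V.hom a = _
  rw [← Category.assoc, ← Spec.map_comp, ← CommRingCat.ofHom_comp, ← RingHom.comp_assoc, hσ,
    valueHom_comp_placeHom, CommRingCat.ofHom_id, Spec.map_id, Category.id_comp]

theorem valφ_up {T : Place R.M R.F} {a : V.Pt (V.fld R.M)} (h : PtValue V T R.φ a) :
    R.valφ (R.h₁.up T) = Spec.map (CommRingCat.ofHom R.iL) ≫ V.hom a := by
  refine (valPt_up (algebraMap K R.M) R.hF (V.hom R.φ) (V.hom_str R.φ) R.h₁ R.iK rfl T).trans ?_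
  rw [R.valPt_of_ptValue h]

/-- At `Q` the value is the generic point. -/
theorem valPt_xL_Q :
    valPt R.iK R.h₁.isFunctionField R.xL R.xL_str (R.h₁.up R.Q) = V.xi := by
  refine V.hom3_ext ?_ ?_ ?_
  · rw [valPt_xL_pr1, R.valφ_up R.hQ, R.y_gen]
  · exact R.valPt_xL_pr2 _
  · exact R.valPt_xL_pr3 _

/-- The map forgetting the first component. -/
abbrev σ₀ (V : AbVar K) : V.A3 ⟶ V.A3 := V.mk3 0 V.pr2 V.pr3

/-- At `P` the value has first component zero. -/
theorem valPt_xL_P :
    valPt R.iK R.h₁.isFunctionField R.xL R.xL_str (R.h₁.up R.P) = V.xi ≫ σ₀ V := by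
  refine V.hom3_ext ?_ ?_ ?_
  · rw [valPt_xL_pr1, R.valφ_up R.hP, Category.assoc, AbVar.mk3_pr1]
    exact (congrArg V.hom (map_zero (V.precomp (Spec.map (CommRingCat.ofHom R.iL))
      (t := V.fld R.M) (t' := V.rng R.iK) (by rw [← Spec.map_comp]; rfl)))).trans
      (congrArg V.hom (map_zero (V.precomp V.xi R.xi_str))).symm
  · rw [Category.assoc, AbVar.mk3_pr2]; exact R.valPt_xL_pr2 _
  · rw [Category.assoc, AbVar.mk3_pr3]; exact R.valPt_xL_pr3 _

end Frame

end FA.AbTors

end
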