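import Fermat.Agent.AbTors.CubeDefs
import Fermat.Agent.AbTors.Join
import Fermat.Agent.AbTors.Slices

/-!
# Rational points, slices and pullbacks of units for the gluing
-/

set_option autoImplicit false
set_option linter.unusedSectionVars false

noncomputable section

universe u

open CategoryTheory CategoryTheory.Limits AlgebraicGeometry TopologicalSpace IsLocalRing
open NeronModelInfra GoodReductionJacobian

namespace FA.AbTors

section rational

variable {X X' : Scheme.{u}} [IsIntegral X] [IsIntegral X'] {n : X.functionField}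

theorem isOpen_regAt (n : X.functionField) : IsOpen {z : X | RegAt z n} :=
  isOpen_iff_forall_mem_open.2 fun _ ⟨W, hz, a, ha⟩ =>
    ⟨W, fun _ hz' => ⟨W, hz', a, ha⟩, W.2, hz⟩

/-- Where a section does not vanish it gives a unit. -/
theorem unitAt_of_mem_basicOpen {R : X.Opens} {z : X} (hz : z ∈ R) {a : Γ(X, R)}
    (ha : evF (genPt X) R (gen_le hz) a = n) (h : z ∈ X.basicOpen a) : UnitAt z n := by
  have hu := RingedSpace.isUnit_res_basicOpen X.toLocallyRingedSpace.toRingedSpace a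
  refine ⟨X.basicOpen a, h, hu.unit, ?_⟩
  rw [coe_evU, IsUnit.unit_spec]
  exact (evF_res (genPt X) (X.basicOpen_le a) _ a).trans ha

/-- The value of a regular function at a point, by any of its representatives. -/
theorem PullsTo.evF_eq {f : X' ⟶ X} {n' : X'.functionField} (h : PullsTo f n n') {R : X.Opens}
    (hR : f (genericPoint X') ∈ R) {a : Γ(X, R)} (ha : evF (genPt X) R (gen_le hR) a = n) :
    evF (genPt X' ≫ f) R
      (le_preimage_of_mem (show f (ctr (genPt X')) ∈ R by rw [ctr_genPt]; exact hR)) a = n' := by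
  obtain ⟨W, hW, w, hw, rfl⟩ := h
  have e := sec_eq (W := R ⊓ W) inf_le_left inf_le_right hR hW (a := a) (b := (w : Γ(X, W)))
    (ha.trans hw.symm)
  have hle : ⊤ ≤ (genPt X' ≫ f) ⁻¹ᵁ (R ⊓ W) :=
    le_preimage_of_mem (show f (ctr (genPt X')) ∈ R ⊓ W by rw [ctr_genPt]; exact ⟨hR, hW⟩)
  have h1 := congrArg (evF (genPt X' ≫ f) (R ⊓ W) hle) e
  rw [evF_res, evF_res] at h1
  exact h1

/-- A section vanishing at the image of the generic point vanishes on the whole image. -/
theorem notMem_basicOpen_of_evF_eq_zero (f : X' ⟶ X) {R : X.Opens} {a : Γ(X, R)}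
    (hR : f (genericPoint X') ∈ R)
    (h : evF (genPt X' ≫ f) R
      (le_preimage_of_mem (show f (ctr (genPt X')) ∈ R by rw [ctr_genPt]; exact hR)) a = 0)
    (z : X') : f z ∉ X.basicOpen a := by
  intro hz
  have hu := RingedSpace.isUnit_res_basicOpen X.toLocallyRingedSpace.toRingedSpace a
  have hη : f (genericPoint X') ∈ X.basicOpen a :=
    (((genericPoint_spec X').specializes trivial).map f.continuous).mem_open (X.basicOpen a).2 hz
  have hle : ⊤ ≤ (genPt X' ≫ f) ⁻¹ᵁ X.basicOpen a :=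
    le_preimage_of_mem (show f (ctr (genPt X')) ∈ X.basicOpen a by rw [ctr_genPt]; exact hη)
  have h1 := hu.map (evF (genPt X' ≫ f) (X.basicOpen a) hle)
  erw [evF_res (genPt X' ≫ f) (X.basicOpen_le a) hle a] at h1
  rw [h] at h1
  exact not_isUnit_zero h1

/-- The pullback of a pullback along a section is the function. -/
theorem PullsTo.of_section {f : X' ⟶ X} {s : X ⟶ X'} (hs : s ≫ f = 𝟙 X)
    {n' : X'.functionField} (h : PullsTo f n n') : PullsTo s n' n := by
  obtain ⟨W, hW, w, hw, rfl⟩ := h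
  have hfs : f (s (genericPoint X)) = genericPoint X := by
    rw [← Scheme.Hom.comp_apply, hs]; rfl
  have hη : f (s (genericPoint X)) ∈ W := by rw [hfs]; exact genericPoint_mem hW
  refine ⟨f ⁻¹ᵁ W, hη, uApp f W _ le_rfl w, ?_, ?_⟩
  · exact congrArg Units.val
      (evU_uApp (genPt X') f (U := W) (V := f ⁻¹ᵁ W) le_rfl (gen_le (z := genericPoint X') hW) w)
  · refine Eq.trans (congrArg Units.val (evU_uApp (genPt X ≫ s) f (U := W) (V := f ⁻¹ᵁ W) le_rfl
      (le_preimage_of_mem (show s (ctr (genPt X)) ∈ f ⁻¹ᵁ W by rw [ctr_genPt]; exact hη)) w)) ?_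
    rw [← hw]
    exact congrArg Units.val (evU_congr (by rw [Category.assoc, hs, Category.comp_id]) W _ w)

theorem PullsTo.div {f : X' ⟶ X} {m : X.functionField} {m' n' : X'.functionField}
    (h : PullsTo f m m') (h' : PullsTo f n n') : PullsTo f (m / n) (m' / n') := by
  rw [div_eq_mul_inv, div_eq_mul_inv]
  exact h.mul h'.inv

end rational

variable {K : Type u} [Field K] (V : AbVar K)

/-- Rational points. -/
abbrev AbVar.RPt : Type u := V.Pt (𝟙 (Spec (CommRingCat.of K)))

/-- The point of a rational point. -/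
def AbVar.pt (q : V.RPt) : V.A := V.hom q (closedPoint K)

theorem AbVar.pt_zero : V.pt 0 = V.origin := rfl

theorem AbVar.cst_id (q : V.RPt) : V.cst (𝟙 _) q = q := V.ptExt (Category.id_comp _)

theorem AbVar.precomp_cst {T T' : Scheme.{u}} {t : T ⟶ Spec (CommRingCat.of K)}
    {t' : T' ⟶ Spec (CommRingCat.of K)} (ψ : T' ⟶ T) (h : ψ ≫ t = t') (q : V.RPt) :
    V.precomp ψ h (V.cst t q) = V.cst t' q :=
  V.precomp_constPt q ψ h

theorem AbVar.hom_cst_apply {T : Scheme.{u}} (t : T ⟶ Spec (CommRingCat.of K)) (q : V.RPt)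
    (z : T) : V.hom (V.cst t q) z = V.pt q := by
  rw [AbVar.hom_cst, Scheme.Hom.comp_apply, spec_pt_eq (t z)]
  rfl

theorem AbVar.mk3_fst_apply {T : Scheme.{u}} {t : T ⟶ Spec (CommRingCat.of K)} (a b c : V.Pt t)
    (z : T) : V.hom V.pr1 (V.mk3 a b c z) = V.hom a z := by
  rw [← Scheme.Hom.comp_apply, V.mk3_pr1]

theorem AbVar.mk3_snd_apply {T : Scheme.{u}} {t : T ⟶ Spec (CommRingCat.of K)} (a b c : V.Pt t)
    (z : T) : V.hom V.pr2 (V.mk3 a b c z) = V.hom b z := by
  rw [← Scheme.Hom.comp_apply, V.mk3_pr2]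

theorem AbVar.mk3_thd_apply {T : Scheme.{u}} {t : T ⟶ Spec (CommRingCat.of K)} (a b c : V.Pt t)
    (z : T) : V.hom V.pr3 (V.mk3 a b c z) = V.hom c z := by
  rw [← Scheme.Hom.comp_apply, V.mk3_pr3]

/-- The triple of rational points. -/
def AbVar.pt3 (a b c : V.RPt) : V.A3 := V.mk3 a b c (closedPoint K)

theorem AbVar.map_pt3 {t : V.A3 ⟶ Spec (CommRingCat.of K)} (ht : t = V.str3) (a b c : V.RPt)
    (x y z : V.Pt t) :
    V.mk3 x y z (V.pt3 a b c) = V.pt3
      (V.precomp (V.mk3 a b c) (by rw [ht, V.mk3_str]) x)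
      (V.precomp (V.mk3 a b c) (by rw [ht, V.mk3_str]) y)
      (V.precomp (V.mk3 a b c) (by rw [ht, V.mk3_str]) z) := by
  rw [AbVar.pt3, ← Scheme.Hom.comp_apply, V.precomp_mk3]
  rfl

/-- The map killing the third variable on a rational triple. -/
theorem AbVar.sigma_pt3 (a b c : V.RPt) :
    V.mk3 V.pr1 V.pr2 0 (V.pt3 a b c) = V.pt3 a b 0 := by
  rw [V.map_pt3 rfl, V.precomp_pr1, V.precomp_pr2, map_zero]

/-- The slice in the third variable. -/
def AbVar.slice3 (a b : V.RPt) : V.A ⟶ V.A3 := V.mk3 (V.cst V.str a) (V.cst V.str b) V.self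

/-- The slice in the second variable. -/
def AbVar.slice2 (a c : V.RPt) : V.A ⟶ V.A3 := V.mk3 (V.cst V.str a) V.self (V.cst V.str c)

theorem AbVar.slice3_pt (a b c : V.RPt) : V.slice3 a b (V.pt c) = V.pt3 a b c := by
  rw [AbVar.pt, AbVar.slice3, ← Scheme.Hom.comp_apply, V.precomp_mk3 (V.hom c) (V.hom_str c),
    V.precomp_cst, V.precomp_cst, V.precomp_self, V.cst_id, V.cst_id]
  rfl

theorem AbVar.slice2_pt (a b c : V.RPt) : V.slice2 a c (V.pt b) = V.pt3 a b c := by
  rw [AbVar.pt, AbVar.slice2, ← Scheme.Hom.comp_apply, V.precomp_mk3 (V.hom b) (V.hom_str b),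
    V.precomp_cst, V.precomp_cst, V.precomp_self, V.cst_id, V.cst_id]
  rfl

theorem AbVar.pt3_fst (a b c : V.RPt) : V.hom V.pr1 (V.pt3 a b c) = V.pt a :=
  V.mk3_fst_apply a b c _

theorem AbVar.exists_pt (V : AbVar K) [IsAlgClosed K] {x : V.A} (hx : IsClosed {x}) :
    ∃ q : V.RPt, V.pt q = x :=
  ⟨V.mkPt (pointOfClosedPoint V.str x hx) (pointOfClosedPoint_comp _ _ _),
    pointOfClosedPoint_apply _ _ _ _⟩

/-- Closed points of the triple product are rational. -/
theorem AbVar.exists_pt3 [IsAlgClosed K] {z : V.A3} (hz : IsClosed {z}) :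
    ∃ a b c : V.RPt, V.pt3 a b c = z :=
  V.exists_of_isClosed hz

end FA.AbTors

end
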