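import Fermat.Agent.AbTors.GlueBasic

/-!
# Invariance of a multiple of the cube under translations of the first variable
-/

set_option autoImplicit false
set_option linter.unusedSectionVars false
set_option linter.style.haveILetI false

noncomputable section

universe u

open CategoryTheory CategoryTheory.Limits AlgebraicGeometry TopologicalSpace IsLocalRing
open NeronModelInfra GoodReductionJacobian

namespace FA.AbTors

variable {K : Type u} [Field K] (V : AbVar K)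

theorem AbVar.cube_shift (p : Pic V.A) {T : Scheme.{u}} {t : T ⟶ Spec (CommRingCat.of K)}
    (q x b c : V.Pt t) :
    V.cube p q x c + V.cube p (q + x) b c = V.cube p q (x + b) c + V.cube p x b c := by
  simp only [AbVar.cube, add_assoc]
  abel

/-- Translation of the first variable. -/
def AbVar.shift1 (q : V.RPt) : V.A3 ⟶ V.A3 :=
  V.mk3 (V.cst V.str3 q + V.pr1) V.pr2 V.pr3

/-- Translation on `A`. -/
def AbVar.shift (q : V.RPt) : V.A ⟶ V.A := V.hom (V.cst V.str q + V.self)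

theorem AbVar.shift1_fst (q : V.RPt) :
    V.shift1 q ≫ V.hom V.pr1 = V.hom V.pr1 ≫ V.shift q := by
  rw [AbVar.shift1, V.mk3_pr1, AbVar.shift, ← V.hom_precomp (V.hom V.pr1) (V.hom_str _), map_add,
    V.precomp_cst, V.precomp_self]

theorem AbVar.shift_pt (q x : V.RPt) : V.shift q (V.pt x) = V.pt (q + x) := by
  rw [AbVar.pt, AbVar.pt, ← Scheme.Hom.comp_apply, AbVar.shift,
    ← V.hom_precomp (V.hom x) (V.hom_str x), map_add, V.precomp_cst, V.precomp_self, V.cst_id]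

variable [IsIntegral V.A] [IsIntegral V.A3] {p : Pic V.A} {r : ℕ} {U : V.A.Opens}
  {c : Coc V.A3} {N : V.A3.functionField}
  (hc : Pic.mk c = r • V.cube p V.pr1 V.pr2 V.pr3) (hN : IsTriv c N (V.hom V.pr1 ⁻¹ᵁ U))
include hc hN

theorem AbVar.slice_eq_zero {q : V.RPt} (hq : V.pt q ∈ U) (b d : V.Pt V.str3) :
    r • V.cube p (V.cst V.str3 q) b d = 0 := by
  set f : V.A3 ⟶ V.A3 := V.mk3 (V.cst V.str3 q) b d with hf
  have hall : ∀ z, f z ∈ V.hom V.pr1 ⁻¹ᵁ U := fun z => by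
    show V.hom V.pr1 (f z) ∈ U
    rw [hf, V.mk3_fst_apply, V.hom_cst_apply]
    exact hq
  obtain ⟨N', hN', -⟩ := hN.pull (f := f) (hall _)
  have h : Pic.mk (c.pull f) = 0 := (hN'.mono (fun z _ => hall z)).mk_eq_zero
  rw [← Pic.pull_mk, hc, map_nsmul, hf, V.pull_mk3] at h
  exact h

/-- Translation by a point of `U` fixes the class. -/
theorem AbVar.shift1_rel {q : V.RPt} (hq : V.pt q ∈ U) : (c.pull (V.shift1 q)).Rel c := by
  refine Pic.mk_eq_mk.1 ?_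
  rw [← Pic.pull_mk, hc, map_nsmul, AbVar.shift1, V.pull_mk3]
  have h := congrArg (fun x => r • x) (V.cube_shift p (V.cst V.str3 q) V.pr1 V.pr2 V.pr3)
  simp only [nsmul_add, V.slice_eq_zero hc hN hq, zero_add] at h
  exact h

/-- A trivialisation over the translated open. -/
theorem AbVar.exists_triv_shift {q x : V.RPt} (hq : V.pt q ∈ U) (hx : V.pt (q + x) ∈ U) :
    ∃ N', IsTriv c N' (V.hom V.pr1 ⁻¹ᵁ (V.shift q ⁻¹ᵁ U)) := by
  have hmem : ∀ z, V.hom V.pr1 z ∈ V.shift q ⁻¹ᵁ U → V.shift1 q z ∈ V.hom V.pr1 ⁻¹ᵁ U :=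
    fun z hz => by
      show V.hom V.pr1 (V.shift1 q z) ∈ U
      rw [← Scheme.Hom.comp_apply, V.shift1_fst]
      exact hz
  have hη : V.shift1 q (genericPoint V.A3) ∈ V.hom V.pr1 ⁻¹ᵁ U :=
    hmem _ (genericPoint_mem (W := V.hom V.pr1 ⁻¹ᵁ (V.shift q ⁻¹ᵁ U)) (z := V.pt3 x 0 0) (by
      show V.shift q (V.hom V.pr1 (V.pt3 x 0 0)) ∈ U
      rw [V.pt3_fst, V.shift_pt]
      exact hx))
  obtain ⟨N', hN', -⟩ := hN.pull hη
  obtain ⟨N'', hN''⟩ := hN'.exists_of_rel (V.shift1_rel hc hN hq)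
  exact ⟨N'', hN''.mono hmem⟩

/-- The translates cover. -/
theorem AbVar.exists_triv_at [IsAlgClosed K] (hU : (U : Set V.A).Nonempty) (z : V.A) :
    ∃ U' : V.A.Opens, z ∈ U' ∧ ∃ N', IsTriv c N' (V.hom V.pr1 ⁻¹ᵁ U') := by
  set S : Set V.A := {z | ∃ U' : V.A.Opens, z ∈ U' ∧ ∃ N', IsTriv c N' (V.hom V.pr1 ⁻¹ᵁ U')}
  have hS : IsOpen S := isOpen_iff_forall_mem_open.2 fun z ⟨U', hz, h⟩ =>
    ⟨U', fun z' hz' => ⟨U', hz', h⟩, U'.2, hz⟩
  by_contra hne
  obtain ⟨z, hz, hzc⟩ := exists_closed_mem V.str (Z := Sᶜ) ⟨_, hne⟩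
    hS.isClosed_compl.isLocallyClosed
  obtain ⟨x, rfl⟩ := V.exists_pt hzc
  haveI := V.isIso_translate (-x)
  set τ := V.hom (V.self - V.constPt (-x) V.str) with hτ
  have hτx : ∀ w : V.RPt, τ (V.pt w) = V.pt (w + x) := fun w => by
    rw [AbVar.pt, AbVar.pt, ← Scheme.Hom.comp_apply, hτ,
      ← V.hom_precomp (V.hom w) (V.hom_str w), map_sub, V.precomp_self, V.precomp_constPt]
    refine congrArg (fun y : V.RPt => V.hom y (closedPoint K)) ?_
    rw [show V.constPt (-x) (𝟙 _) = -x from V.cst_id (-x), sub_neg_eq_add]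
  obtain ⟨u, hu⟩ := hU
  have hne' : ((U ⊓ τ ⁻¹ᵁ U : V.A.Opens) : Set V.A).Nonempty := by
    obtain ⟨w, hw⟩ := τ.homeomorph.surjective u
    refine ⟨genericPoint V.A, genericPoint_mem hu, genericPoint_mem (W := τ ⁻¹ᵁ U) (z := w) ?_⟩
    show τ w ∈ U
    rw [show τ w = u from hw]
    exact hu
  obtain ⟨z', hz', hzc'⟩ := exists_closed_mem V.str hne' (U ⊓ τ ⁻¹ᵁ U).2.isLocallyClosed
  obtain ⟨q, rfl⟩ := V.exists_pt hzc'
  have hqx : V.pt (q + x) ∈ U := by rw [← hτx]; exact hz'.2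
  exact hz ⟨V.shift q ⁻¹ᵁ U, by show V.shift q (V.pt x) ∈ U; rw [V.shift_pt]; exact hqx,
    V.exists_triv_shift hc hN hz'.1 hqx⟩

end FA.AbTors

end
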