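import Mathlib.RingTheory.Valuation.LocalSubring
import Mathlib.RingTheory.Valuation.ExtendToLocalization
import Mathlib.RingTheory.Algebraic.Integral
import Mathlib.RingTheory.MvPolynomial.Basic
import Mathlib.RingTheory.Polynomial.UniqueFactorization
import Mathlib.RingTheory.Trace.Basic
import Mathlib.RingTheory.Polynomial.RationalRoot
import Mathlib.RingTheory.AlgebraTower
import Mathlib.Algebra.MvPolynomial.NoZeroDivisors
import Mathlib.FieldTheory.Tower

/-!
# Growth of spaces with bounded poles

If `F` is finite separable over `K(s₁, …, s_g)` then the elements whose poles are bounded by the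
`m`-th powers of finitely many functions form a space of dimension at most `C (m + 1) ^ g`: their
traces against a basis are polynomials of degree linear in `m`.
-/

set_option autoImplicit false
set_option linter.style.haveILetI false
set_option linter.unusedSectionVars false

noncomputable section

namespace FA.AbTors.Growth

open Module

section Integral

variable {R L F : Type*} [CommRing R] [Field L] [Field F]

/-- An element of every valuation subring containing a subring is integral over it. -/
theorem isIntegral_of_forall_mem [Algebra R F] {x : F}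
    (h : ∀ W : ValuationSubring F, (∀ r : R, algebraMap R F r ∈ W) → x ∈ W) :
    IsIntegral R x := by
  by_contra hx
  haveI : IsIntegrallyClosedIn (integralClosure R F).toSubring F :=
    Subring.isIntegrallyClosedIn_iff.2 fun {y} hy =>
      isIntegral_trans (R := R) (A := integralClosure R F) y hy
  obtain ⟨W, hW, hxW⟩ := Subring.exists_le_valuationSubring_of_isIntegrallyClosedIn
    (R := (integralClosure R F).toSubring) (x := x) hx
  exact hxW (h W fun r => hW (Subalgebra.algebraMap_mem (integralClosure R F) r))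

variable [Algebra R L] [IsFractionRing R L] [IsIntegrallyClosed R] [Algebra L F] [Algebra R F]
  [IsScalarTower R L F]

theorem trace_mem_range [FiniteDimensional L F] {x : F}
    (h : ∀ W : ValuationSubring F, (∀ r : R, algebraMap R F r ∈ W) → x ∈ W) :
    Algebra.trace L F x ∈ Set.range (algebraMap R L) := by
  have hint : IsIntegral R (Algebra.trace L F x) :=
    Algebra.isIntegral_trace (L := L) (F := F) (isIntegral_of_forall_mem h)
  exact IsIntegrallyClosed.isIntegral_iff.1 hint

end Integral

/-- A common denominator bounds the traces. -/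
theorem exists_trace_mem {K R L F : Type*} [Field K] [CommRing R] [IsDomain R] [Field L] [Field F]
    [Algebra R L] [IsFractionRing R L] [IsIntegrallyClosed R] [Algebra L F] [Algebra R F]
    [IsScalarTower R L F] [FiniteDimensional L F] [Algebra K R] [Algebra K F]
    [IsScalarTower K R F] (T : Finset F) {ι : Type*} [Fintype ι] (e : ι → F) :
    ∃ d : R, d ≠ 0 ∧ ∀ (m : ℕ) (f : F),
      (∀ W : ValuationSubring F, (∀ c : K, algebraMap K F c ∈ W) →
        ∃ t ∈ T, t ≠ 0 ∧ t ^ m * f ∈ W) →
      ∀ j, algebraMap R L d ^ (m + 1) * Algebra.trace L F (f * e j) ∈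
        Set.range (algebraMap R L) := by
  classical
  haveI : Algebra.IsAlgebraic R F :=
    (IsFractionRing.comap_isAlgebraic_iff (A := R) (K := L) (C := F)).2 inferInstance
  obtain ⟨d, hd, hint⟩ := Algebra.IsAlgebraic.exists_integral_multiples R
    (T.image (fun t => t⁻¹) ∪ Finset.univ.image e)
  refine ⟨d, hd, fun m f hf j => ?_⟩
  rw [← map_pow, ← Algebra.smul_def, ← LinearMap.map_smul_of_tower]
  refine trace_mem_range fun W hW => ?_
  have hWint : ∀ x : F, IsIntegral R x → x ∈ W := fun x hx => by
    obtain ⟨p, hp, hpx⟩ := hx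
    let ψ : R →+* W := (algebraMap R F).codRestrict W.toSubring hW
    have hint' : IsIntegral W x := ⟨p.map ψ, hp.map ψ, by
      rw [Polynomial.eval₂_map]
      exact hpx⟩
    obtain ⟨y, rfl⟩ := IsIntegrallyClosedIn.algebraMap_eq_of_integral hint'
    exact y.2
  obtain ⟨t, ht, ht0, htf⟩ := hf W fun c => by
    rw [IsScalarTower.algebraMap_apply K R F]
    exact hW _
  have h1 : d • t⁻¹ ∈ W := hWint _ (hint _ (Finset.mem_union_left _ (Finset.mem_image_of_mem _ ht)))
  have h2 : d • e j ∈ W :=
    hWint _ (hint _ (Finset.mem_union_right _ (Finset.mem_image_of_mem e (Finset.mem_univ j))))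
  have h3 : (d ^ (m + 1)) • (f * e j) = (d • t⁻¹) ^ m * (t ^ m * f) * (d • e j) := by
    rw [Algebra.smul_def, Algebra.smul_def, Algebra.smul_def, map_pow, mul_pow, inv_pow, pow_succ]
    field_simp
  rw [h3]
  exact mul_mem (mul_mem (pow_mem h1 m) htf) h2

/-! ### The degree at infinity -/

variable (K : Type*) [Field K] (g : ℕ)

open MvPolynomial

open scoped Classical in
/-- The total degree, as a valuation. -/
def degVal : Valuation (MvPolynomial (Fin g) K) (WithZero (Multiplicative ℤ)) where
  toFun p := if p = 0 then 0 else WithZero.exp (p.totalDegree : ℤ)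
  map_zero' := if_pos rfl
  map_one' := by simp
  map_mul' p q := by
    rcases eq_or_ne p 0 with rfl | hp
    · simp
    rcases eq_or_ne q 0 with rfl | hq
    · simp
    rw [if_neg hp, if_neg hq, if_neg (mul_ne_zero hp hq), totalDegree_mul_of_isDomain hp hq,
      Nat.cast_add, WithZero.exp_add]
  map_add_le_max' p q := by
    rcases eq_or_ne (p + q) 0 with h | h
    · simp [h]
    rw [if_neg h]
    rcases eq_or_ne p 0 with rfl | hp
    · rw [zero_add] at h ⊢
      simp [h]
    rcases eq_or_ne q 0 with rfl | hq
    · simp [hp]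
    rw [if_neg hp, if_neg hq, le_max_iff, WithZero.exp_le_exp, WithZero.exp_le_exp]
    exact_mod_cast le_max_iff.1 (totalDegree_add p q)

theorem degVal_of_ne_zero {p : MvPolynomial (Fin g) K} (hp : p ≠ 0) :
    degVal K g p = WithZero.exp (p.totalDegree : ℤ) := by
  classical
  exact if_neg hp

theorem degVal_supp : nonZeroDivisors (MvPolynomial (Fin g) K) ≤ (degVal K g).supp.primeCompl := by
  intro p hp h
  have hp0 : p ≠ 0 := nonZeroDivisors.ne_zero hp
  rw [SetLike.mem_coe, Valuation.mem_supp_iff, degVal_of_ne_zero K g hp0] at h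
  exact WithZero.exp_ne_zero h

theorem totalDegree_le_finrank (D : ℕ) :
    finrank K (restrictTotalDegree (Fin g) K D) ≤ (D + 1) ^ g := by
  let φ : restrictTotalDegree (Fin g) K D →ₗ[K] ((Fin g → Fin (D + 1)) → K) :=
    { toFun := fun p e => (p : MvPolynomial (Fin g) K).coeff
        (Finsupp.equivFunOnFinite.symm fun i => (e i : ℕ))
      map_add' := fun p q => funext fun e => coeff_add _ _ _
      map_smul' := fun c p => funext fun e => coeff_smul _ c _ }
  refine (LinearMap.finrank_le_finrank_of_injective (f := φ) ?_).trans (by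
    rw [finrank_pi]; simp)
  rw [← LinearMap.ker_eq_bot, LinearMap.ker_eq_bot']
  intro p hp
  refine Subtype.ext (MvPolynomial.ext _ _ fun n => ?_)
  rw [ZeroMemClass.coe_zero, coeff_zero]
  by_contra hn
  have hle : ∀ i, n i < D + 1 := fun i => by
    have h1 := le_degreeOf_of_mem_support i (mem_support_iff.2 hn)
    have h2 := degreeOf_le_totalDegree (p : MvPolynomial (Fin g) K) i
    have h3 := (mem_restrictTotalDegree _ _ _).1 p.2
    omega
  refine hn ?_
  have := congrFun hp fun i => ⟨n i, hle i⟩
  have hn' : (Finsupp.equivFunOnFinite.symm fun i => n i) = n := Finsupp.equivFunOnFinite.symm_apply_apply n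
  simpa [φ, hn'] using this

/-- **Bounded poles give polynomial growth.** -/
theorem exists_bound {F : Type*} [Field F] [Algebra K F]
    [Algebra (MvPolynomial (Fin g) K) F] [IsScalarTower K (MvPolynomial (Fin g) K) F]
    [Algebra (FractionRing (MvPolynomial (Fin g) K)) F]
    [IsScalarTower (MvPolynomial (Fin g) K) (FractionRing (MvPolynomial (Fin g) K)) F]
    [FiniteDimensional (FractionRing (MvPolynomial (Fin g) K)) F]
    [Algebra.IsSeparable (FractionRing (MvPolynomial (Fin g) K)) F] (T : Finset F) :
    ∃ C : ℕ, ∀ (m : ℕ) (H : Submodule K F),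
      (∀ f ∈ H, ∀ W : ValuationSubring F, (∀ c : K, algebraMap K F c ∈ W) →
        ∃ t ∈ T, t ≠ 0 ∧ t ^ m * f ∈ W) →
      Module.Finite K H ∧ finrank K H ≤ C * (m + 1) ^ g := by
  classical
  set P := MvPolynomial (Fin g) K
  set L := FractionRing P
  haveI : IsScalarTower K L F := IsScalarTower.of_algebraMap_eq fun c => by
    rw [IsScalarTower.algebraMap_apply K P F, IsScalarTower.algebraMap_apply P L F,
      IsScalarTower.algebraMap_apply K P L]
  let e := Module.finBasis L F
  obtain ⟨d, hd, hdT⟩ := exists_trace_mem (K := K) (R := P) (L := L) T e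
  let v : Valuation L (WithZero (Multiplicative ℤ)) :=
    (degVal K g).extendToLocalization (degVal_supp K g) L
  have hvP : ∀ p : P, v (algebraMap P L p) = degVal K g p := fun p =>
    Valuation.extendToLocalization_apply_map_apply _ _ _ p
  let O := v.valuationSubring
  letI : Algebra O F := ((algebraMap L F).comp O.subtype).toAlgebra
  haveI : IsScalarTower O L F := IsScalarTower.of_algebraMap_eq fun _ => rfl
  have hKO : ∀ c : K, algebraMap K L c ∈ O := fun c => by
    rw [Valuation.mem_valuationSubring_iff, IsScalarTower.algebraMap_apply K P L, hvP]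
    rcases eq_or_ne c 0 with rfl | hc
    · simp
    rw [MvPolynomial.algebraMap_eq, degVal_of_ne_zero K g (C_eq_zero.not.2 hc), totalDegree_C]
    simp
  letI : Algebra K O := ((algebraMap K L).codRestrict O.toSubring hKO).toAlgebra
  haveI : IsScalarTower K O F := IsScalarTower.of_algebraMap_eq fun c => by
    rw [IsScalarTower.algebraMap_apply K L F]; rfl
  obtain ⟨d', hd', hdT'⟩ := exists_trace_mem (K := K) (R := O) (L := L) T e
  have hd'0 : (d' : L) ≠ 0 := fun h => hd' (Subtype.ext h)
  have hv0 : v (d' : L) ≠ 0 := v.ne_zero_iff.2 hd'0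
  -- the degree of the denominators
  obtain ⟨D₀, hD₀⟩ : ∃ D₀ : ℕ, degVal K g d ≤ WithZero.exp (D₀ : ℤ) * v (d' : L) := by
    refine ⟨((d.totalDegree : ℤ) - WithZero.log (v (d' : L))).toNat, ?_⟩
    rw [degVal_of_ne_zero K g hd]
    obtain ⟨z, hz⟩ : ∃ z : ℤ, v (d' : L) = WithZero.exp z := ⟨_, (WithZero.exp_log hv0).symm⟩
    rw [hz, WithZero.log_exp, ← WithZero.exp_add, WithZero.exp_le_exp]
    omega
  refine ⟨finrank L F * (D₀ + 1) ^ g, fun m H hH => ?_⟩
  set D := (m + 1) * D₀
  let S : Submodule K L :=
    (restrictTotalDegree (Fin g) K D).map ((IsScalarTower.toAlgHom K P L).toLinearMap)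
  let a : L := algebraMap P L d ^ (m + 1)
  have ha : a ≠ 0 := pow_ne_zero _ ((map_ne_zero_iff _ (IsFractionRing.injective P L)).2 hd)
  have hmem : ∀ (f : H) (j), a * Algebra.trace L F ((f : F) * e j) ∈ S := by
    intro f j
    obtain ⟨p, hp⟩ := hdT m f (hH f f.2) j
    obtain ⟨y, hy⟩ := hdT' m f (hH f f.2) j
    refine ⟨p, (mem_restrictTotalDegree _ _ _).2 ?_, hp⟩
    rcases eq_or_ne p 0 with rfl | hp0
    · simp
    have h1 : degVal K g p * v (d' : L) ^ (m + 1) = degVal K g d ^ (m + 1) * v (y : L) := by
      have he : algebraMap P L p * (d' : L) ^ (m + 1) = a * (y : L) := by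
        rw [hp, show (y : L) = _ from hy]
        show a * _ * _ = a * ((d' : L) ^ (m + 1) * _)
        ring
      have := congrArg v he
      rwa [map_mul, map_mul, map_pow, hvP, map_pow, hvP] at this
    have h2 : degVal K g p * v (d' : L) ^ (m + 1) ≤
        WithZero.exp (D : ℤ) * v (d' : L) ^ (m + 1) := by
      rw [h1]
      refine le_trans (mul_le_of_le_one_right' ((Valuation.mem_valuationSubring_iff v _).1 y.2)) ?_
      refine le_trans (pow_le_pow_left₀ zero_le hD₀ (m + 1)) (le_of_eq ?_)
      rw [mul_pow, ← WithZero.exp_nsmul, nsmul_eq_mul]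
      norm_cast
    have h3 := le_of_mul_le_mul_right h2 (pow_pos (zero_lt_iff.2 hv0) _)
    rw [degVal_of_ne_zero K g hp0, WithZero.exp_le_exp] at h3
    exact_mod_cast h3
  let Φ : H →ₗ[K] (Fin (finrank L F) → S) :=
    { toFun := fun f j => ⟨a * Algebra.trace L F ((f : F) * e j), hmem f j⟩
      map_add' := fun f f' => funext fun j => Subtype.ext (by
        simp only [Submodule.coe_add, add_mul, map_add, mul_add, Pi.add_apply])
      map_smul' := fun c f => funext fun j => Subtype.ext (by
        simp only [Submodule.coe_smul, RingHom.id_apply, Pi.smul_apply, smul_mul_assoc,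
          LinearMap.map_smul_of_tower, mul_smul_comm]) }
  have hΦ : Function.Injective Φ := by
    rw [← LinearMap.ker_eq_bot, LinearMap.ker_eq_bot']
    intro f hf
    refine Subtype.ext ((traceForm_nondegenerate L F).1 (f : F) fun x => ?_)
    rw [← e.sum_repr x]
    simp only [map_sum, map_smul]
    refine Finset.sum_eq_zero fun j _ => ?_
    have h0 : a * Algebra.trace L F ((f : F) * e j) = 0 := congrArg Subtype.val (congrFun hf j)
    rw [Algebra.traceForm_apply, (mul_eq_zero.1 h0).resolve_left ha, smul_zero]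
  haveI : Module.Finite K S := Module.Finite.map _ _
  refine ⟨Module.Finite.of_injective Φ hΦ, ?_⟩
  refine (LinearMap.finrank_le_finrank_of_injective hΦ).trans ?_
  rw [finrank_pi_fintype, Finset.sum_const, Finset.card_univ, Fintype.card_fin, smul_eq_mul,
    mul_assoc]
  refine Nat.mul_le_mul_left _ ((Submodule.finrank_map_le _ _).trans
    ((totalDegree_le_finrank K g D).trans ?_))
  rw [← mul_pow]
  refine Nat.pow_le_pow_left ?_ g
  show (m + 1) * D₀ + 1 ≤ (D₀ + 1) * (m + 1)
  nlinarith

/-! ### Counting in a finite extension -/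

section Count

variable {K} {F₁ F₂ : Type*} [Field F₁] [Field F₂] [Algebra K F₁] [Algebra K F₂] [Algebra F₁ F₂]
  [IsScalarTower K F₁ F₂] {H₁ : Submodule K F₁} {H₂ : Submodule K F₂}

theorem finrank_mul_le [Module.Finite K H₁] [Module.Finite K H₂] {ι : Type*} [Fintype ι]
    (e : Basis ι F₁ F₂) {c : F₂} (hc : c ≠ 0)
    (h : ∀ f ∈ H₁, ∀ j, c * (f • e j) ∈ H₂) :
    Fintype.card ι * finrank K H₁ ≤ finrank K H₂ := by
  let b := Module.finBasis K H₁
  have h1 : LinearIndependent K fun p : Fin (finrank K H₁) × ι => (b p.1 : F₁) • e p.2 :=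
    linearIndependent_smul (b.linearIndependent.map' H₁.subtype (Submodule.ker_subtype _))
      e.linearIndependent
  have h2 : LinearIndependent K fun p : Fin (finrank K H₁) × ι =>
      c * ((b p.1 : F₁) • e p.2) :=
    h1.map' (LinearMap.mulLeft K c)
      (LinearMap.ker_eq_bot.2 fun x y hxy => mul_left_cancel₀ hc hxy)
  have h3 : LinearIndependent K fun p : Fin (finrank K H₁) × ι =>
      (⟨c * ((b p.1 : F₁) • e p.2), h _ (b p.1).2 _⟩ : H₂) :=
    LinearIndependent.of_comp H₂.subtype h2
  have := h3.fintype_card_le_finrank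
  rwa [Fintype.card_prod, Fintype.card_fin, mul_comm] at this

theorem finrank_le_mul [FiniteDimensional F₁ F₂] [Algebra.IsSeparable F₁ F₂] [Module.Finite K H₁]
    {ι : Type*} [Fintype ι] (e : Basis ι F₁ F₂) {c : F₂} (hc : c ≠ 0)
    (h : ∀ f ∈ H₂, ∀ j, Algebra.trace F₁ F₂ (c * f * e j) ∈ H₁) :
    Module.Finite K H₂ ∧ finrank K H₂ ≤ Fintype.card ι * finrank K H₁ := by
  let Φ : H₂ →ₗ[K] (ι → H₁) :=
    { toFun := fun f j => ⟨Algebra.trace F₁ F₂ (c * (f : F₂) * e j), h f f.2 j⟩
      map_add' := fun f f' => funext fun j => Subtype.ext (by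
        simp only [Submodule.coe_add, mul_add, add_mul, map_add, Pi.add_apply])
      map_smul' := fun a f => funext fun j => Subtype.ext (by
        simp only [Submodule.coe_smul, RingHom.id_apply, Pi.smul_apply, mul_smul_comm,
          smul_mul_assoc, LinearMap.map_smul_of_tower]) }
  have hΦ : Function.Injective Φ := by
    rw [← LinearMap.ker_eq_bot, LinearMap.ker_eq_bot']
    intro f hf
    refine Subtype.ext ((mul_eq_zero.1 ?_).resolve_left hc)
    refine (traceForm_nondegenerate F₁ F₂).1 (c * (f : F₂)) fun x => ?_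
    rw [← e.sum_repr x]
    simp only [map_sum, map_smul]
    refine Finset.sum_eq_zero fun j _ => ?_
    rw [Algebra.traceForm_apply,
      show Algebra.trace F₁ F₂ (c * (f : F₂) * e j) = 0 from congrArg Subtype.val (congrFun hf j),
      smul_zero]
  refine ⟨Module.Finite.of_injective Φ hΦ, (LinearMap.finrank_le_finrank_of_injective hΦ).trans ?_⟩
  rw [finrank_pi_fintype, Finset.sum_const, Finset.card_univ, smul_eq_mul]

end Count

/-! ### Degrees -/

/-- The degree of a map of fields. -/
def homDeg {F₁ F₂ : Type*} [Field F₁] [Field F₂] (f : F₁ →+* F₂) : ℕ :=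
  letI := f.toAlgebra
  finrank F₁ F₂

theorem homDeg_comp {F₁ F₂ F₃ : Type*} [Field F₁] [Field F₂] [Field F₃] (f : F₁ →+* F₂)
    (f' : F₂ →+* F₃) : homDeg (f'.comp f) = homDeg f * homDeg f' := by
  letI := f.toAlgebra
  letI := f'.toAlgebra
  letI := (f'.comp f).toAlgebra
  haveI : IsScalarTower F₁ F₂ F₃ := IsScalarTower.of_algebraMap_eq fun _ => rfl
  exact (Module.finrank_mul_finrank F₁ F₂ F₃).symm

theorem homDeg_id {F₁ : Type*} [Field F₁] : homDeg (RingHom.id F₁) = 1 :=
  Module.finrank_self F₁

/-- Powers bounded by a factor are bounded. -/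
theorem le_of_forall_pow_le {a b c : ℕ} (h : ∀ k, a ^ k ≤ c * b ^ k) : a ≤ b := by
  by_contra hab
  push Not at hab
  rcases Nat.eq_zero_or_pos b with rfl | hb
  · have := h 1
    simp only [pow_one, mul_zero, nonpos_iff_eq_zero] at this
    omega
  -- `(b + 1) ^ k ≥ b ^ k + k b ^ (k - 1)`
  have key : ∀ k, (b + k) * b ^ k ≤ b * (b + 1) ^ k := by
    intro k
    induction k with
    | zero => simp
    | succ k ih =>
      calc (b + (k + 1)) * b ^ (k + 1) ≤ (b + k) * b ^ k * (b + 1) := by
            have : (b + (k + 1)) * b ≤ (b + k) * (b + 1) := by nlinarith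
            calc (b + (k + 1)) * b ^ (k + 1) = (b + (k + 1)) * b * b ^ k := by ring
              _ ≤ (b + k) * (b + 1) * b ^ k := Nat.mul_le_mul_right _ this
              _ = (b + k) * b ^ k * (b + 1) := by ring
        _ ≤ b * (b + 1) ^ k * (b + 1) := Nat.mul_le_mul_right _ ih
        _ = b * (b + 1) ^ (k + 1) := by ring
  let k := b * c
  have h1 : b * (b + 1) ^ k ≤ b * (c * b ^ k) :=
    Nat.mul_le_mul_left _ ((Nat.pow_le_pow_left hab k).trans (h k))
  have h2 : (b + k) * b ^ k ≤ (b * c) * b ^ k := (key k).trans (h1.trans_eq (by ring))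
  have h3 := Nat.le_of_mul_le_mul_right h2 (pow_pos hb k)
  omega

end FA.AbTors.Growth

end
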