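import Fermat.Agent.AbTors.GrowthPull
import Mathlib.RingTheory.RingHom.StandardSmooth
import Mathlib.RingTheory.Unramified.Field
import Mathlib.RingTheory.Flat.TorsionFree
import Mathlib.RingTheory.AlgebraicIndependent.Defs
import Mathlib.AlgebraicGeometry.Morphisms.Smooth
import Mathlib.AlgebraicGeometry.FunctionField

/-!
# Separating variables on a smooth variety

A smooth chart is étale over affine space, so the function field is finite separable over the
rational functions in `g` variables.
-/

set_option autoImplicit false
set_option linter.style.haveILetI false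
set_option linter.unusedSectionVars false

noncomputable section

universe u

open CategoryTheory AlgebraicGeometry TopologicalSpace

namespace FA.AbTors.Growth

variable {K : Type u} [Field K] {X : Scheme.{u}} [IsIntegral X]
  (s : X ⟶ Spec (CommRingCat.of K))

/-- A chart of the given dimension. -/
theorem exists_chart_dim (g : ℕ) [SmoothOfRelativeDimension g s] (x : X) :
    ∃ U : X.Opens, IsAffineOpen U ∧ x ∈ U ∧
      letI := (Loc.sectionsHom s U).toAlgebra
      Algebra.IsStandardSmoothOfRelativeDimension g K Γ(X, U) := by
  obtain ⟨W, hW, U, hU, hx, e, hf⟩ :=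
    SmoothOfRelativeDimension.exists_isStandardSmoothOfRelativeDimension (n := g) (f := s) x
  have hW' : W = ⊤ := by
    ext y
    simp only [TopologicalSpace.Opens.coe_top, Set.mem_univ, iff_true, SetLike.mem_coe]
    rw [Subsingleton.elim (α := PrimeSpectrum K) y (s x)]
    exact e hx
  subst hW'
  refine ⟨U, hU, hx, ?_⟩
  exact RingHom.isStandardSmoothOfRelativeDimension_respectsIso.right (s.appLE ⊤ U e).hom
    (Scheme.ΓSpecIso (CommRingCat.of K)).symm.commRingCatIsoToRingEquiv hf

/-- **Separating generators and bounded growth.** -/
theorem exists_generators (g : ℕ) [SmoothOfRelativeDimension g s] :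
    letI : Algebra K X.functionField := (kHom s).toAlgebra
    ∃ (t : Fin g → X.functionField) (T : Finset X.functionField),
      (∀ i, t i ∈ T) ∧ AlgebraicIndependent K t ∧
      (∀ f, ∃ a ∈ Algebra.adjoin K (T : Set X.functionField),
        ∃ b ∈ Algebra.adjoin K (T : Set X.functionField), b ≠ 0 ∧ f * b = a) ∧
      ∀ S : Finset X.functionField, ∃ C : ℕ, ∀ (m : ℕ) (H : Submodule K X.functionField),
        (∀ f ∈ H, ∀ W : ValuationSubring X.functionField, (∀ c, kHom s c ∈ W) →
          ∃ r ∈ S, r ≠ 0 ∧ r ^ m * f ∈ W) →
        Module.Finite K H ∧ Module.finrank K H ≤ C * (m + 1) ^ g := by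
  classical
  letI algF : Algebra K X.functionField := (kHom s).toAlgebra
  obtain ⟨U, hU, hx, hs⟩ := exists_chart_dim s g (genericPoint X)
  letI algU := (Loc.sectionsHom s U).toAlgebra
  haveI : Nonempty U := ⟨⟨_, hx⟩⟩
  haveI : IsFractionRing Γ(X, U) X.functionField := functionField_isFractionRing_of_isAffineOpen X U hU
  have hι : ∀ a, algebraMap Γ(X, U) X.functionField a = evF (genPt X) U (gen_le hx) a :=
    fun a => (evF_genPt hx a).symm
  haveI : IsScalarTower K Γ(X, U) X.functionField :=
    IsScalarTower.of_algebraMap_eq fun c => ((hι _).trans (evF_sectionsHom s hx c)).symm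
  obtain ⟨ψ, hψ⟩ :=
    Algebra.IsStandardSmoothOfRelativeDimension.exists_etale_mvPolynomial (n := g) K Γ(X, U)
  let P := MvPolynomial (Fin g) K
  letI algPU : Algebra P Γ(X, U) := ψ.toRingHom.toAlgebra
  haveI : IsScalarTower K P Γ(X, U) :=
    IsScalarTower.of_algebraMap_eq fun c => (ψ.commutes c).symm
  haveI hEt : Algebra.Etale P Γ(X, U) := hψ
  haveI : Module.Flat P Γ(X, U) := inferInstance
  have hinjU : Function.Injective (algebraMap P Γ(X, U)) := FaithfulSMul.algebraMap_injective _ _
  letI algPF : Algebra P X.functionField :=
    ((algebraMap Γ(X, U) X.functionField).comp (algebraMap P Γ(X, U))).toAlgebra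
  haveI : IsScalarTower P Γ(X, U) X.functionField := IsScalarTower.of_algebraMap_eq fun _ => rfl
  haveI : IsScalarTower K P X.functionField := IsScalarTower.of_algebraMap_eq fun c => by
    rw [IsScalarTower.algebraMap_apply K Γ(X, U) X.functionField,
      IsScalarTower.algebraMap_apply K P Γ(X, U), ← IsScalarTower.algebraMap_apply P Γ(X, U)]
  have hinj : Function.Injective (algebraMap P X.functionField) := by
    intro a b hab
    rw [IsScalarTower.algebraMap_apply P Γ(X, U), IsScalarTower.algebraMap_apply P Γ(X, U)] at hab
    exact hinjU (IsFractionRing.injective Γ(X, U) X.functionField hab)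
  haveI : FaithfulSMul P X.functionField := (faithfulSMul_iff_algebraMap_injective _ _).2 hinj
  letI : Algebra (FractionRing P) X.functionField := FractionRing.liftAlgebra P X.functionField
  haveI : IsScalarTower P (FractionRing P) X.functionField := inferInstance
  haveI : Algebra.FormallyUnramified P X.functionField :=
    haveI := Algebra.FormallyUnramified.of_isLocalization (R := Γ(X, U)) (Rₘ := X.functionField)
      (nonZeroDivisors Γ(X, U))
    .comp P Γ(X, U) X.functionField
  haveI : Algebra.EssFiniteType P X.functionField :=
    haveI := Algebra.EssFiniteType.of_isLocalization X.functionField (nonZeroDivisors Γ(X, U))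
    .comp P Γ(X, U) X.functionField
  haveI : Algebra.FormallyUnramified (FractionRing P) X.functionField :=
    .of_restrictScalars P _ _
  haveI : Algebra.EssFiniteType (FractionRing P) X.functionField :=
    .of_comp P _ _
  haveI : FiniteDimensional (FractionRing P) X.functionField :=
    Algebra.FormallyUnramified.finite_of_free _ _
  haveI : Algebra.IsSeparable (FractionRing P) X.functionField :=
    Algebra.FormallyUnramified.isSeparable _ _
  haveI : Algebra.IsStandardSmooth K Γ(X, U) :=
    Algebra.IsStandardSmoothOfRelativeDimension.isStandardSmooth g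
  obtain ⟨T₀, hT₀⟩ := (inferInstance : Algebra.FiniteType K Γ(X, U)).out
  let t : Fin g → X.functionField := fun i => algebraMap P X.functionField (MvPolynomial.X i)
  refine ⟨t, T₀.image (algebraMap Γ(X, U) X.functionField) ∪ Finset.univ.image t, fun i =>
    Finset.mem_union_right _ (Finset.mem_image_of_mem t (Finset.mem_univ i)), ?_, fun f => ?_,
    fun S => ?_⟩
  · rw [algebraicIndependent_iff_injective_aeval]
    have h1 : MvPolynomial.aeval t = (IsScalarTower.toAlgHom K P X.functionField) :=
      MvPolynomial.algHom_ext fun i => by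
        rw [MvPolynomial.aeval_X]; rfl
    rw [h1]
    exact hinj
  · set A := Algebra.adjoin K
      ((T₀.image (algebraMap Γ(X, U) X.functionField) ∪ Finset.univ.image t : Finset X.functionField) :
        Set X.functionField)
    have hle : ∀ a, algebraMap Γ(X, U) X.functionField a ∈ A := by
      intro a
      have ha : a ∈ Algebra.adjoin K (T₀ : Set Γ(X, U)) := hT₀ ▸ Algebra.mem_top
      have h2 : IsScalarTower.toAlgHom K Γ(X, U) X.functionField a ∈
          (Algebra.adjoin K (T₀ : Set Γ(X, U))).map (IsScalarTower.toAlgHom K Γ(X, U) X.functionField) :=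
        ⟨a, ha, rfl⟩
      rw [AlgHom.map_adjoin] at h2
      refine Algebra.adjoin_mono ?_ h2
      rintro _ ⟨r, hr, rfl⟩
      exact Finset.mem_coe.2 (Finset.mem_union_left _ (Finset.mem_image_of_mem _ hr))
    obtain ⟨a, b, hb, rfl⟩ := IsFractionRing.div_surjective Γ(X, U) f
    have hb0 : algebraMap Γ(X, U) X.functionField b ≠ 0 :=
      (map_ne_zero_iff _ (IsFractionRing.injective _ _)).2 (nonZeroDivisors.ne_zero hb)
    exact ⟨_, hle a, _, hle b, hb0, div_mul_cancel₀ _ hb0⟩
  · exact exists_bound K g S

end FA.AbTors.Growth

end
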