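import Fermat.Agent.AbTors.GrowthPull
import Mathlib.RingTheory.Localization.NumDen

/-!
# Denominators of a rational function as a cocycle

On a smooth variety the denominators of a rational function are principal near each point.
-/

set_option autoImplicit false
set_option linter.style.haveILetI false
set_option linter.unusedSectionVars false

noncomputable section

universe u

open CategoryTheory AlgebraicGeometry TopologicalSpace Opposite

namespace FA.AbTors.Growth

variable {X : Scheme.{u}} [IsIntegral X]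

/-- Locally given by one function, up to units. -/
def IsLoc (h : X → X.functionField) : Prop :=
  ∀ z, ∃ U : X.Opens, z ∈ U ∧ ∀ q ∈ U, UnitAt q (h q / h z)

theorem isOpen_regAt (n : X.functionField) : IsOpen {z : X | RegAt z n} := by
  refine isOpen_iff_forall_mem_open.2 fun z ⟨W, hz, w, hw⟩ => ?_
  exact ⟨W, fun z' hz' => ⟨W, hz', w, hw⟩, W.2, hz⟩

/-- A generator of the denominators of `x`. -/
def GenAt (x : X.functionField) (q : X) (b : X.functionField) : Prop :=
  b ≠ 0 ∧ RegAt q b ∧ RegAt q (b * x) ∧ ∀ k, RegAt q k → RegAt q (k * x) → RegAt q (k / b)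

theorem GenAt.unitAt {x b b' : X.functionField} {q : X} (h : GenAt x q b) (h' : GenAt x q b') :
    UnitAt q (b / b') :=
  unitAt_of_regAt (h'.2.2.2 b h.2.1 h.2.2.1)
    (by rw [inv_div]; exact h.2.2.2 b' h'.2.1 h'.2.2.1) (div_ne_zero h.1 h'.1)

theorem exists_genAt {z : X} [UniqueFactorizationMonoid (X.presheaf.stalk z)]
    (x : X.functionField) : ∃ b, GenAt x z b := by
  obtain ⟨a, b, hab, rfl⟩ := IsFractionRing.exists_reduced_fraction (X.presheaf.stalk z) x
  set ι := algebraMap (X.presheaf.stalk z) X.functionField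
  have hb : ι b ≠ 0 := (map_ne_zero_iff _ (IsFractionRing.injective _ _)).2
    (nonZeroDivisors.ne_zero b.2)
  have hx : ι b * IsLocalization.mk' X.functionField a b = ι a := IsLocalization.mk'_spec' _ a b
  refine ⟨ι b, hb, regAt_iff_mem_range.2 ⟨_, rfl⟩, regAt_iff_mem_range.2 ⟨a, hx.symm⟩,
    fun k hk hkx => ?_⟩
  obtain ⟨k', rfl⟩ := regAt_iff_mem_range.1 hk
  obtain ⟨c, hc⟩ := regAt_iff_mem_range.1 hkx
  have h1 : k' * a = c * b := IsFractionRing.injective (X.presheaf.stalk z) X.functionField (by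
    rw [map_mul, map_mul, ← hx, hc]; ring)
  obtain ⟨w, hw⟩ : (b : X.presheaf.stalk z) ∣ k' :=
    IsRelPrime.dvd_of_dvd_mul_right hab.symm (Dvd.intro_left c h1.symm)
  exact regAt_iff_mem_range.2 ⟨w, by rw [hw, map_mul, mul_div_cancel_left₀ _ hb]⟩

theorem evF_genPt_germ {U : X.Opens} {q : X} (hq : q ∈ U) (a : Γ(X, U)) :
    evF (genPt X) U (gen_le hq) a =
      algebraMap (X.presheaf.stalk q) X.functionField ((X.presheaf.germ U q hq).hom a) := by
  rw [evF_genPt (genericPoint_mem hq)]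
  exact (congrArg (fun ψ : Γ(X, U) ⟶ X.functionField => ψ.hom a)
    (X.presheaf.germ_stalkSpecializes hq _)).symm

theorem exists_fraction {U : X.Opens} (hU : IsAffineOpen U) {q : X} (hq : q ∈ U)
    {k : X.functionField} (hk : RegAt q k) :
    ∃ r t : Γ(X, U), UnitAt q (evF (genPt X) U (gen_le hq) t) ∧
      evF (genPt X) U (gen_le hq) r = k * evF (genPt X) U (gen_le hq) t := by
  obtain ⟨w, rfl⟩ := regAt_iff_mem_range.1 hk
  letI : Algebra Γ(X, U) (X.presheaf.stalk q) :=
    TopCat.Presheaf.algebra_section_stalk X.presheaf ⟨q, hq⟩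
  haveI := hU.isLocalization_stalk ⟨q, hq⟩
  obtain ⟨⟨r, t⟩, hrt⟩ := IsLocalization.surj (hU.primeIdealOf ⟨q, hq⟩).asIdeal.primeCompl w
  have hrt' : w * (X.presheaf.germ U q hq).hom (t : Γ(X, U)) = (X.presheaf.germ U q hq).hom r := hrt
  obtain ⟨v, hv⟩ := IsLocalization.map_units (X.presheaf.stalk q) t
  have hv' : (v : X.presheaf.stalk q) = (X.presheaf.germ U q hq).hom (t : Γ(X, U)) := hv
  refine ⟨r, t, ?_, ?_⟩
  · rw [evF_genPt_germ hq, ← hv']
    refine unitAt_of_regAt (regAt_iff_mem_range.2 ⟨_, rfl⟩)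
      (regAt_iff_mem_range.2 ⟨(↑(v⁻¹) : X.presheaf.stalk q), ?_⟩)
      ((map_ne_zero_iff _ (IsFractionRing.injective _ _)).2 v.ne_zero)
    exact eq_inv_of_mul_eq_one_left (by rw [← map_mul, Units.inv_mul, map_one])
  · rw [evF_genPt_germ hq, evF_genPt_germ hq, ← hrt', map_mul]

/-- A generator of the denominators at a point generates them nearby. -/
theorem exists_genAt_nhd {U : X.Opens} (hU : IsAffineOpen U) [IsNoetherianRing Γ(X, U)] {z : X}
    (hz : z ∈ U) {x b : X.functionField} (hb : GenAt x z b) :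
    ∃ W : X.Opens, z ∈ W ∧ ∀ q ∈ W, GenAt x q b := by
  let ι := evF (genPt X) U (gen_le hz)
  let D : Ideal Γ(X, U) :=
    { carrier := {r | ∃ r', ι r * x = ι r'}
      add_mem' := by
        rintro r s ⟨r', hr⟩ ⟨s', hs⟩
        exact ⟨r' + s', by rw [map_add, map_add, add_mul, hr, hs]⟩
      zero_mem' := ⟨0, by rw [map_zero, zero_mul]⟩
      smul_mem' := by
        rintro c r ⟨r', hr⟩
        exact ⟨c * r', by rw [smul_eq_mul, map_mul, map_mul, mul_assoc, hr]⟩ }
  obtain ⟨T, hT⟩ := IsNoetherian.noetherian D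
  have hreg : ∀ (q : X), q ∈ U → ∀ r : Γ(X, U), RegAt q (ι r) := fun q hq r => ⟨U, hq, r, rfl⟩
  let O : Set X := (U : Set X) ∩ {q | RegAt q b} ∩ {q | RegAt q (b * x)} ∩
    ⋂ r ∈ T, {q | RegAt q (ι r / b)}
  have hO : IsOpen O := ((U.2.inter (isOpen_regAt _)).inter (isOpen_regAt _)).inter
    (isOpen_biInter_finset fun r _ => isOpen_regAt _)
  have hzO : z ∈ O := by
    refine ⟨⟨⟨hz, hb.2.1⟩, hb.2.2.1⟩, Set.mem_iInter₂.2 fun r hr => ?_⟩
    obtain ⟨r', hr'⟩ : r ∈ D := hT ▸ Submodule.subset_span hr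
    exact hb.2.2.2 _ (hreg z hz r) (hr' ▸ hreg z hz r')
  refine ⟨⟨O, hO⟩, hzO, fun q hq => ?_⟩
  obtain ⟨⟨⟨hqU, hqb⟩, hqbx⟩, hqT⟩ := hq
  refine ⟨hb.1, hqb, hqbx, fun k hk hkx => ?_⟩
  have hD : ∀ r ∈ D, RegAt q (ι r / b) := by
    intro r hr
    rw [← hT] at hr
    induction hr using Submodule.span_induction with
    | mem r hr => exact Set.mem_iInter₂.1 hqT r hr
    | zero => rw [map_zero, zero_div]; exact regAt_zero
    | add r s _ _ hr hs => rw [map_add, add_div]; exact regAt_add hr hs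
    | smul c r _ hr => rw [smul_eq_mul, map_mul, mul_div_assoc]; exact regAt_mul (hreg q hqU c) hr
  obtain ⟨r, t, ht, hrt⟩ := exists_fraction hU hqU hk
  obtain ⟨r', t', ht', hrt'⟩ := exists_fraction hU hqU hkx
  have hmem : r * t' ∈ D := ⟨r' * t, by
    rw [map_mul, map_mul]
    show evF (genPt X) U _ r * _ * x = evF (genPt X) U _ r' * _
    rw [hrt, hrt']; ring⟩
  have hne : ι t * ι t' ≠ 0 := mul_ne_zero ht.ne_zero ht'.ne_zero
  have h2 := regAt_mul (hD _ hmem) (ht.mul ht').inv.regAt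
  convert h2 using 1
  show k / b = ι (r * t') / b * (ι t * ι t')⁻¹
  have hr : ι r = k * ι t := hrt
  rw [map_mul, hr, show k * ι t * ι t' / b * (ι t * ι t')⁻¹ = k / b * (ι t * ι t' * (ι t * ι t')⁻¹) by ring,
    mul_inv_cancel₀ hne, mul_one]

/-- **The denominators of a rational function.** -/
theorem exists_denom {K : Type u} [Field K] [IsAlgClosed K] (s : X ⟶ Spec (CommRingCat.of K))
    [Smooth s] (hF : ∀ z : X, UniqueFactorizationMonoid (X.presheaf.stalk z))
    (x : X.functionField) :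
    ∃ b : X → X.functionField,
      (∀ z, b z ≠ 0 ∧ RegAt z (b z) ∧ RegAt z (b z * x)) ∧ IsLoc b := by
  haveI := hF
  choose b hb using fun z : X => exists_genAt (z := z) x
  refine ⟨b, fun z => ⟨(hb z).1, (hb z).2.1, (hb z).2.2.1⟩, fun z => ?_⟩
  obtain ⟨U, hU, hz, hs⟩ := Loc.exists_chart s z
  letI := (Loc.sectionsHom s U).toAlgebra
  haveI := Loc.isNoetherianRing_of_smooth K (A := Γ(X, U))
  obtain ⟨W, hW, hgen⟩ := exists_genAt_nhd hU hz (hb z)
  exact ⟨W, hW, fun q hq => (hb q).unitAt (hgen q hq)⟩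

/-! ### The cocycle -/

theorem exists_unit_sec {R : X.Opens} {q : X} (hq : q ∈ R) {k : X.functionField}
    (h : ∀ z ∈ R, UnitAt z k) :
    ∃ v : Γ(X, R)ˣ, (evU (genPt X) R (gen_le hq) v : X.functionField) = k := by
  obtain ⟨a, ha⟩ := exists_sec hq fun z hz => (h z hz).regAt
  obtain ⟨a', ha'⟩ := exists_sec hq fun z hz => (h z hz).inv.regAt
  have haa : a * a' = 1 := evF_genPt_injective hq (by
    rw [map_mul, map_one, ha, ha', mul_inv_cancel₀ (h q hq).ne_zero])
  exact ⟨⟨a, a', haa, mul_comm a a' ▸ haa⟩, by rw [coe_evU]; exact ha⟩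

variable {h : X → X.functionField} (hh : IsLoc h)

/-- The open of a point. -/
def locU (z : X) : X.Opens := (hh z).choose

theorem mem_locU (z : X) : z ∈ locU hh z := (hh z).choose_spec.1

theorem unitAt_ratio {a b q : X} (hq : q ∈ locU hh a ⊓ locU hh b) : UnitAt q (h a / h b) := by
  have h1 := (hh a).choose_spec.2 q hq.1
  have h2 := (hh b).choose_spec.2 q hq.2
  have hq0 : h q ≠ 0 := fun e => h1.ne_zero (by rw [e, zero_div])
  rw [show h a / h b = h q / h b / (h q / h a) from (div_div_div_cancel_left' _ _ hq0).symm]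
  exact h2.div h1

/-- The transition function. -/
def locG (a b : X) : Γ(X, locU hh a ⊓ locU hh b)ˣ :=
  (exists_unit_sec (R := locU hh a ⊓ locU hh b) (k := h a / h b)
    (q := genericPoint X) ⟨genericPoint_mem (mem_locU hh a), genericPoint_mem (mem_locU hh b)⟩
    fun _ hq => unitAt_ratio hh hq).choose

theorem locG_spec (a b : X) {q : X} (hq : q ∈ locU hh a ⊓ locU hh b) :
    (evU (genPt X) _ (gen_le hq) (locG hh a b) : X.functionField) = h a / h b :=
  (exists_unit_sec (R := locU hh a ⊓ locU hh b) (k := h a / h b)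
    (q := genericPoint X) ⟨genericPoint_mem (mem_locU hh a), genericPoint_mem (mem_locU hh b)⟩
    fun _ hq => unitAt_ratio hh hq).choose_spec

/-- The cocycle of a function given locally up to units. -/
def ofLoc : Coc X where
  U := locU hh
  mem := mem_locU hh
  g := locG hh
  cocycle a b d W ha hb hd := by
    by_cases hW : ∃ q, q ∈ W
    · obtain ⟨q, hq⟩ := hW
      refine Units.ext (evF_genPt_injective hq ?_)
      rw [← coe_evU, ← coe_evU, map_mul, Units.val_mul, evU_uRes, evU_uRes, evU_uRes,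
        locG_spec hh a d (q := q) ⟨ha hq, hd hq⟩, locG_spec hh a b (q := q) ⟨ha hq, hb hq⟩,
        locG_spec hh b d (q := q) ⟨hb hq, hd hq⟩]
      have hb0 : h b ≠ 0 := fun e =>
        (unitAt_ratio hh (a := b) (b := d) (q := q) ⟨hb hq, hd hq⟩).ne_zero (by rw [e, zero_div])
      rw [div_mul_div_cancel₀ hb0]
    · exact Units.ext (@Subsingleton.elim _ (sec_subsingleton fun q hq => hW ⟨q, hq⟩) _ _)

theorem rat_ofLoc (a b : X) : (ofLoc hh).rat a b = h a / h b :=
  locG_spec hh a b (q := genericPoint X)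
    ⟨genericPoint_mem (mem_locU hh a), genericPoint_mem (mem_locU hh b)⟩

/-- Powers of a cocycle. -/
def cpow (c : Coc X) : ℕ → Coc X
  | 0 => 1
  | k + 1 => cpow c k * c

theorem mk_cpow (c : Coc X) : ∀ k, Pic.mk (cpow c k) = k • Pic.mk c
  | 0 => (zero_nsmul _).symm
  | k + 1 => by rw [cpow, Pic.mk_mul, mk_cpow c k, succ_nsmul]

theorem rat_cpow (c : Coc X) (a b : X) : ∀ k, (cpow c k).rat a b = c.rat a b ^ k
  | 0 => by rw [cpow, Coc.rat_one, pow_zero]
  | k + 1 => by rw [cpow, Coc.rat_mul_mul, rat_cpow c a b k, pow_succ]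

theorem rat_inv (c : Coc X) (a b : X) : (c⁻¹).rat a b = (c.rat a b)⁻¹ := by
  show (evU (genPt X) (c.U a ⊓ c.U b) _ (c.g a b)⁻¹ : X.functionField) = _
  rw [map_inv, Units.val_inv_eq_inv_val]
  rfl

theorem exists_unit_of_mk_eq {c d : Coc X} (e : Pic.mk c = Pic.mk d) :
    ∃ u : X.functionField, u ≠ 0 ∧
      ∀ q, UnitAt q (d.rat q (genericPoint X) / c.rat q (genericPoint X) * u) := by
  obtain ⟨u, hu⟩ := exists_isTriv_of_eq_zero (c := d * c⁻¹)
    (by rw [Pic.mk_mul, Pic.mk_inv, e, add_neg_cancel])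
  refine ⟨u, hu.1, fun q => ?_⟩
  have := hu.2 q trivial
  rwa [Coc.rat_mul_mul, rat_inv, ← div_eq_mul_inv] at this

end FA.AbTors.Growth

end
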