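import Fermat.Agent.AbTors.Frame
import Fermat.Agent.AbTors.GrowthAlg
import Fermat.Agent.AbTors.LocalStalk

/-!
# Rational functions: constants, pullback along dominant maps, centres of valuations
-/

set_option autoImplicit false
set_option linter.style.haveILetI false
set_option linter.unusedSectionVars false

noncomputable section

universe u

open CategoryTheory AlgebraicGeometry TopologicalSpace IsLocalRing

namespace FA.AbTors.Growth

variable {K : Type u} [Field K] {X Y : Scheme.{u}} [IsIntegral X] [IsIntegral Y]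
  (s : X ⟶ Spec (CommRingCat.of K))

/-- The constants among the rational functions. -/
def kHom : K →+* X.functionField := (Spec.preimage (genPt X ≫ s)).hom

theorem genPt_comp : genPt X ≫ s = Spec.map (CommRingCat.ofHom (kHom s)) :=
  (Spec.map_preimage _).symm

theorem evF_sectionsHom {U : X.Opens} {q : X} (hq : q ∈ U) (c : K) :
    evF (genPt X) U (gen_le hq) (Loc.sectionsHom s U c) = kHom s c := by
  set a : Γ(Spec (CommRingCat.of K), ⊤) := (Scheme.ΓSpecIso (CommRingCat.of K)).inv.hom c
  have h1 : evF (genPt X) U (gen_le hq) ((s.appLE ⊤ U (by simp)).hom a) =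
      evF (genPt X ≫ s) ⊤ le_top a :=
    congrArg (fun ψ : Γ(Spec (CommRingCat.of K), ⊤) ⟶ Γ(Spec (CommRingCat.of X.functionField), ⊤) =>
      (Scheme.ΓSpecIso (CommRingCat.of X.functionField)).hom.hom (ψ.hom a))
      (Scheme.Hom.appLE_comp_appLE (genPt X) s ⊤ U ⊤ (by simp) (gen_le hq))
  refine h1.trans ?_
  have h2 := evF_comp (kHom s) (𝟙 (Spec (CommRingCat.of K))) (U := ⊤) le_top a
  have h3 : evF (𝟙 (Spec (CommRingCat.of K))) ⊤ le_top a = c := by
    show (Scheme.ΓSpecIso (CommRingCat.of K)).hom.hom (((𝟙 _ : Spec (CommRingCat.of K) ⟶ _).appLE ⊤ ⊤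
      le_top).hom a) = c
    rw [show (𝟙 (Spec (CommRingCat.of K)) : _ ⟶ _).appLE ⊤ ⊤ le_top = 𝟙 _ from
      (Scheme.Hom.appLE_eq_app _).trans (Scheme.Hom.id_app _)]
    exact congrArg (fun ψ : CommRingCat.of K ⟶ CommRingCat.of K => ψ.hom c)
      (Scheme.ΓSpecIso (CommRingCat.of K)).inv_hom_id
  rw [h3] at h2
  refine Eq.trans (evF_congr ?_ _ _ a) h2
  rw [Category.comp_id]
  exact genPt_comp s

/-- The functions regular at a point. -/
def regSubring (z : X) : Subring X.functionField :=
  (algebraMap (X.presheaf.stalk z) X.functionField).range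

variable {s} {z : X} {m n : X.functionField}

theorem mem_regSubring : n ∈ regSubring z ↔ RegAt z n := regAt_iff_mem_range.symm

theorem regAt_mul (h : RegAt z m) (h' : RegAt z n) : RegAt z (m * n) :=
  mem_regSubring.1 (mul_mem (mem_regSubring.2 h) (mem_regSubring.2 h'))

theorem regAt_one : RegAt z (1 : X.functionField) := mem_regSubring.1 (one_mem _)

theorem regAt_zero : RegAt z (0 : X.functionField) := mem_regSubring.1 (zero_mem _)

theorem regAt_add (h : RegAt z m) (h' : RegAt z n) : RegAt z (m + n) :=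
  mem_regSubring.1 (add_mem (mem_regSubring.2 h) (mem_regSubring.2 h'))

theorem regAt_pow (h : RegAt z m) (k : ℕ) : RegAt z (m ^ k) :=
  mem_regSubring.1 (pow_mem (mem_regSubring.2 h) k)

variable (s) in
theorem regAt_kHom (c : K) : RegAt z (kHom s c) :=
  ⟨⊤, trivial, Loc.sectionsHom s ⊤ c, evF_sectionsHom s (U := ⊤) (q := z) trivial c⟩

/-- Regularity does not see units. -/
theorem regAt_of_div (hu : UnitAt z (m / n)) (hn : RegAt z n) : RegAt z m := by
  have hn0 : n ≠ 0 := fun h => hu.ne_zero (by rw [h, div_zero])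
  rw [show m = m / n * n from (div_mul_cancel₀ m hn0).symm]
  exact regAt_mul hu.regAt hn

/-- Functions regular at a point are regular at its generalisations. -/
theorem regAt_of_specializes {z' : X} (h : z' ⤳ z) (hn : RegAt z n) : RegAt z' n := by
  obtain ⟨W, hW, a, rfl⟩ := hn
  exact ⟨W, h.mem_open W.2 hW, a, rfl⟩

theorem unitAt_of_specializes {z' : X} (h : z' ⤳ z) (hn : UnitAt z n) : UnitAt z' n := by
  obtain ⟨W, hW, a, rfl⟩ := hn
  exact ⟨W, h.mem_open W.2 hW, a, rfl⟩

/-! ### Pullback along a dominant map -/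

theorem genPt_comp_aux (f : X ⟶ Y) {y : Y} (h : f (genericPoint X) = y) :
    genPt X ≫ f = Spec.map ((Y.presheaf.stalkCongr (Inseparable.of_eq h.symm)).hom ≫
      f.stalkMap (genericPoint X)) ≫ Y.fromSpecStalk y := by
  subst h
  rw [show (Y.presheaf.stalkCongr _).hom = 𝟙 (Y.presheaf.stalk _) from
    Y.presheaf.stalkSpecializes_refl _]
  erw [Category.id_comp]
  exact (Scheme.SpecMap_stalkMap_fromSpecStalk f).symm

variable {f : X ⟶ Y} (hf : f (genericPoint X) = genericPoint Y)

theorem genPt_ffMap : genPt X ≫ f = Spec.map (CommRingCat.ofHom (ffMap f hf)) ≫ genPt Y :=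
  genPt_comp_aux f hf

include hf in
theorem gen_le_comp {W : Y.Opens} {y : Y} (hy : y ∈ W) : ⊤ ≤ (genPt X ≫ f) ⁻¹ᵁ W := by
  refine le_preimage_of_mem ?_
  show f (ctr (genPt X)) ∈ W
  rw [ctr_genPt, hf]
  exact genericPoint_mem hy

theorem evF_ffMap {W : Y.Opens} {y : Y} (hy : y ∈ W) (a : Γ(Y, W)) :
    evF (genPt X ≫ f) W (gen_le_comp hf hy) a = ffMap f hf (evF (genPt Y) W (gen_le hy) a) :=
  (evF_congr (genPt_ffMap hf) _ _ a).trans (evF_comp (ffMap f hf) (genPt Y) (gen_le hy) a)

theorem regAt_ffMap {q : X} {k : Y.functionField} (h : RegAt (f q) k) :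
    RegAt q (ffMap f hf k) := by
  obtain ⟨W, hW, a, rfl⟩ := h
  refine ⟨f ⁻¹ᵁ W, hW, (f.app W).hom a, ?_⟩
  rw [← evF_ffMap hf hW a, ← Scheme.Hom.appLE_eq_app]
  exact congrArg (fun ψ : Γ(Y, W) ⟶ Γ(Spec (CommRingCat.of X.functionField), ⊤) =>
      (Scheme.ΓSpecIso (CommRingCat.of X.functionField)).hom.hom (ψ.hom a))
    (Scheme.Hom.appLE_comp_appLE (genPt X) f W (f ⁻¹ᵁ W) ⊤ le_rfl (gen_le (z := q) hW))

theorem unitAt_ffMap {q : X} {k : Y.functionField} (h : UnitAt (f q) k) :
    UnitAt q (ffMap f hf k) :=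
  unitAt_of_regAt (regAt_ffMap hf h.regAt)
    (by rw [← map_inv₀]; exact regAt_ffMap hf h.inv.regAt)
    ((_root_.map_ne_zero _).2 h.ne_zero)

theorem pullsTo_eq {k : Y.functionField} {k' : X.functionField} (h : PullsTo f k k') :
    k' = ffMap f hf k := by
  obtain ⟨W, hW, w, rfl, rfl⟩ := h
  rw [coe_evU, coe_evU]
  exact evF_ffMap hf hW (w : Γ(Y, W))

theorem rat_pull_eq (c : Coc Y) (q : X) :
    (c.pull f).rat q (genericPoint X) = ffMap f hf (c.rat (f q) (genericPoint Y)) := by
  have h := pullsTo_eq hf (c.rat_pull (f := f) q (genericPoint X))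
  rwa [hf] at h

theorem ffMap_kHom {t : Y ⟶ Spec (CommRingCat.of K)} (hft : f ≫ t = s) (c : K) :
    ffMap f hf (kHom t c) = kHom s c := by
  have h : Spec.map (CommRingCat.ofHom ((ffMap f hf).comp (kHom t))) =
      Spec.map (CommRingCat.ofHom (kHom s)) := by
    rw [CommRingCat.ofHom_comp, Spec.map_comp, ← genPt_comp, ← Category.assoc, ← genPt_ffMap hf,
      Category.assoc, hft, genPt_comp]
  exact RingHom.congr_fun (congrArg CommRingCat.Hom.hom (Spec.map_injective h)) c

theorem ffMap_unique {ψ : Y.functionField →+* X.functionField}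
    (h : genPt X ≫ f = Spec.map (CommRingCat.ofHom ψ) ≫ genPt Y) : ffMap f hf = ψ :=
  hom_eq_of_specMap_genPt ((genPt_ffMap hf).symm.trans h)

theorem ffMap_id (h : (𝟙 X : X ⟶ X) (genericPoint X) = genericPoint X) :
    ffMap (𝟙 X) h = RingHom.id _ :=
  ffMap_unique h (by rw [Category.comp_id, CommRingCat.ofHom_id, Spec.map_id, Category.id_comp])

theorem ffMap_comp {Z : Scheme.{u}} [IsIntegral Z] {f' : Y ⟶ Z}
    (hf' : f' (genericPoint Y) = genericPoint Z) {φ : X ⟶ Z} (hφ : φ = f ≫ f')
    (h : φ (genericPoint X) = genericPoint Z) :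
    ffMap φ h = (ffMap f hf).comp (ffMap f' hf') := by
  refine ffMap_unique h ?_
  rw [hφ, ← Category.assoc, genPt_ffMap hf, Category.assoc, genPt_ffMap hf', ← Category.assoc,
    ← Spec.map_comp, ← CommRingCat.ofHom_comp]

/-! ### Centres -/

variable (s) in
theorem exists_centre [IsProper s] (W : ValuationSubring X.functionField)
    (hW : ∀ c, kHom s c ∈ W) :
    ∃ e : Spec (CommRingCat.of W) ⟶ X, Spec.map (CommRingCat.ofHom W.subtype) ≫ e = genPt X ∧
      e ≫ s = Spec.map (CommRingCat.ofHom ((kHom s).codRestrict W.toSubring hW)) :=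
  exists_extension s W (genPt X) (Spec.map (CommRingCat.ofHom ((kHom s).codRestrict W.toSubring hW)))
    (by rw [genPt_comp, ← Spec.map_comp, ← CommRingCat.ofHom_comp]; rfl)

theorem mem_of_regAt {W : ValuationSubring X.functionField}
    {e : Spec (CommRingCat.of W) ⟶ X}
    (he : Spec.map (CommRingCat.ofHom W.subtype) ≫ e = genPt X) {k : X.functionField}
    (h : RegAt (ctr e) k) : k ∈ W := by
  obtain ⟨U, hU, a, rfl⟩ := h
  rw [← evF_congr he U (le_preimage_comp W.subtype e (le_preimage_of_mem hU)) a,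
    evF_comp W.subtype e (le_preimage_of_mem hU) a]
  exact Subtype.prop _

/-- If a valuation contains the pullback of the local ring at `z`, then the image of its centre
specialises to `z`. -/
theorem specializes_of_subring [IsProper s] {f : X ⟶ X}
    (hf : f (genericPoint X) = genericPoint X) {z : X}
    {W : ValuationSubring X.functionField} (hW : ∀ k, RegAt z k → ffMap f hf k ∈ W)
    {e : Spec (CommRingCat.of W) ⟶ X}
    (he : Spec.map (CommRingCat.ofHom W.subtype) ≫ e = genPt X) : f (ctr e) ⤳ z := by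
  let ψ : X.presheaf.stalk z →+* W :=
    ((ffMap f hf).comp (algebraMap (X.presheaf.stalk z) X.functionField)).codRestrict W.toSubring
      fun a => hW _ (regAt_iff_mem_range.2 ⟨a, rfl⟩)
  let e₂ : Spec (CommRingCat.of W) ⟶ X := Spec.map (CommRingCat.ofHom ψ) ≫ X.fromSpecStalk z
  have h1 : Spec.map (CommRingCat.ofHom W.subtype) ≫ (e ≫ f) =
      Spec.map (CommRingCat.ofHom W.subtype) ≫ e₂ := by
    rw [← Category.assoc, he, genPt_ffMap hf, ← Category.assoc, ← Spec.map_comp,
      ← CommRingCat.ofHom_comp]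
    rw [show W.subtype.comp ψ =
      (ffMap f hf).comp (algebraMap (X.presheaf.stalk z) X.functionField) from RingHom.ext fun _ => rfl,
      CommRingCat.ofHom_comp, Spec.map_comp, Category.assoc]
    refine congrArg (Spec.map (CommRingCat.ofHom (ffMap f hf)) ≫ ·) ?_
    exact (Scheme.SpecMap_stalkSpecializes_fromSpecStalk
      ((genericPoint_spec X).specializes trivial)).symm
  have h2 : (e ≫ f) ≫ s = e₂ ≫ s := by
    obtain ⟨α, hα⟩ := Spec.map_surjective (R := CommRingCat.of K) (S := CommRingCat.of W)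
      ((e ≫ f) ≫ s)
    obtain ⟨β, hβ⟩ := Spec.map_surjective (R := CommRingCat.of K) (S := CommRingCat.of W) (e₂ ≫ s)
    rw [← hα, ← hβ]
    have h3 := congrArg (fun φ => φ ≫ s) h1
    simp only [Category.assoc] at h3 hα hβ
    rw [← hα, ← hβ, ← Spec.map_comp, ← Spec.map_comp] at h3
    have h4 := congrArg CommRingCat.Hom.hom (Spec.map_injective h3)
    congr 1
    ext c
    exact RingHom.congr_fun h4 c
  have heq := extension_unique s W h1 h2
  rw [show f (ctr e) = ctr (e ≫ f) from rfl, heq]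
  show X.fromSpecStalk z (Spec.map (CommRingCat.ofHom ψ) (closedPoint W)) ⤳ z
  have hmem : X.fromSpecStalk z (Spec.map (CommRingCat.ofHom ψ) (closedPoint W)) ∈
      Set.range (X.fromSpecStalk z) := ⟨_, rfl⟩
  rwa [Scheme.range_fromSpecStalk] at hmem

end FA.AbTors.Growth

end
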