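import Mathlib.RingTheory.Kaehler.Basic
import Mathlib.RingTheory.Smooth.StandardSmoothCotangent
import Mathlib.RingTheory.MvPolynomial.Ideal
import Mathlib.RingTheory.MvPowerSeries.NoZeroDivisors
import Mathlib.RingTheory.Ideal.KrullsHeightTheorem
import Mathlib.RingTheory.Filtration
import Mathlib.RingTheory.Nakayama

/-!
# Smooth algebras at a rational point

Coordinates at a rational point of a smooth algebra over a field identify all the quotients by
powers of its ideal with those of a polynomial algebra.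
-/

set_option autoImplicit false
set_option linter.style.haveILetI false

noncomputable section

namespace FA.AbTors.Loc

open MvPolynomial

variable {K A : Type*} [Field K] [CommRing A] [Algebra K A] {g : ℕ}

/-- `f` is a system of coordinates at the rational point `ev`. -/
structure IsCoord (ev : A →ₐ[K] K) (f : Fin g → A) : Prop where
  vanish : ∀ i, ev (f i) = 0
  span : ∀ a, ev a = 0 → ∃ c : Fin g → K, a - ∑ i, c i • f i ∈ RingHom.ker ev ^ 2
  indep : ∀ c : Fin g → K, ∑ i, c i • f i ∈ RingHom.ker ev ^ 2 → c = 0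

variable (ev : A →ₐ[K] K)

local notation "𝔪" => RingHom.ker ev

theorem sub_ev_mem (a : A) : a - algebraMap K A (ev a) ∈ RingHom.ker ev := by
  rw [RingHom.mem_ker, map_sub, AlgHom.commutes]
  exact sub_self _

/-- The derivation to the cotangent space. -/
def cotDer : Derivation K A (RingHom.ker ev).Cotangent :=
  Derivation.mk'
    { toFun := fun a => (RingHom.ker ev).toCotangent ⟨a - algebraMap K A (ev a), sub_ev_mem ev a⟩
      map_add' := fun a b => by
        rw [← map_add]
        congr 1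
        ext
        simp only [map_add, Submodule.coe_add]
        ring
      map_smul' := fun c a => by
        rw [RingHom.id_apply, ← LinearMap.map_smul_of_tower]
        congr 1
        ext
        show c • a - algebraMap K A (ev (c • a)) = c • (a - algebraMap K A (ev a))
        rw [map_smul, Algebra.smul_def c a, Algebra.smul_def c (a - _), smul_eq_mul, map_mul, mul_sub] }
    fun a b => by
      show (RingHom.ker ev).toCotangent _ =
        a • (RingHom.ker ev).toCotangent _ + b • (RingHom.ker ev).toCotangent _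
      rw [← LinearMap.map_smul, ← LinearMap.map_smul, ← map_add, Ideal.toCotangent_eq]
      have h : a * b - algebraMap K A (ev (a * b)) - (a * (b - algebraMap K A (ev b)) +
          b * (a - algebraMap K A (ev a))) =
          -((a - algebraMap K A (ev a)) * (b - algebraMap K A (ev b))) := by
        rw [map_mul, map_mul]; ring
      show _ - (a * _ + b * _) ∈ _
      rw [h, pow_two]
      exact neg_mem (Ideal.mul_mem_mul (sub_ev_mem ev a) (sub_ev_mem ev b))

theorem cotDer_apply (a : A) : cotDer ev a =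
    (RingHom.ker ev).toCotangent ⟨a - algebraMap K A (ev a), sub_ev_mem ev a⟩ := rfl

theorem mem_sq_of_D_mem {a : A} (ha : ev a = 0)
    (hD : KaehlerDifferential.D K A a ∈ RingHom.ker ev • (⊤ : Submodule A Ω[A⁄K])) :
    a ∈ RingHom.ker ev ^ 2 := by
  have h := Submodule.mem_map_of_mem (f := (cotDer ev).liftKaehlerDifferential) hD
  rw [Submodule.map_smul'', Derivation.liftKaehlerDifferential_comp_D] at h
  have h0 : (RingHom.ker ev • Submodule.map (cotDer ev).liftKaehlerDifferential ⊤ :
      Submodule A (RingHom.ker ev).Cotangent) = ⊥ := by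
    rw [eq_bot_iff, Submodule.smul_le]
    intro r hr x _
    obtain ⟨y, rfl⟩ := (RingHom.ker ev).toCotangent_surjective x
    rw [Submodule.mem_bot, ← LinearMap.map_smul, Ideal.toCotangent_eq_zero, pow_two]
    exact Ideal.mul_mem_mul hr y.2
  rw [h0, Submodule.mem_bot, cotDer_apply, Ideal.toCotangent_eq_zero] at h
  simpa [ha] using h

theorem D_mem_of_mem_sq {a : A} (ha : a ∈ RingHom.ker ev ^ 2) :
    KaehlerDifferential.D K A a ∈ RingHom.ker ev • (⊤ : Submodule A Ω[A⁄K]) := by
  rw [pow_two] at ha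
  refine Submodule.mul_induction_on ha (fun x hx y hy => ?_) (fun x y hx hy => ?_)
  ·
    rw [Derivation.leibniz]
    exact add_mem (Submodule.smul_mem_smul hx trivial) (Submodule.smul_mem_smul hy trivial)
  · rw [map_add]; exact add_mem hx hy

theorem exists_D_eq (ω : Ω[A⁄K]) :
    ∃ a, ev a = 0 ∧ ω - KaehlerDifferential.D K A a ∈ RingHom.ker ev • (⊤ : Submodule A Ω[A⁄K]) := by
  have hω : ω ∈ Submodule.span A (Set.range (KaehlerDifferential.D K A)) := by
    rw [KaehlerDifferential.span_range_derivation]; trivial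
  induction hω using Submodule.span_induction with
  | mem x hx =>
    obtain ⟨a, rfl⟩ := hx
    refine ⟨a - algebraMap K A (ev a), sub_ev_mem ev a, ?_⟩
    simp
  | zero => exact ⟨0, map_zero _, by simp⟩
  | add x y _ _ hx hy =>
    obtain ⟨a, ha, ha'⟩ := hx
    obtain ⟨b, hb, hb'⟩ := hy
    refine ⟨a + b, by rw [map_add, ha, hb, add_zero], ?_⟩
    rw [map_add, add_sub_add_comm]
    exact add_mem ha' hb'
  | smul r x _ hx =>
    obtain ⟨a, ha, ha'⟩ := hx
    refine ⟨ev r • a, by rw [map_smul, ha, smul_zero], ?_⟩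
    rw [Derivation.map_smul, ← algebraMap_smul A (ev r)]
    have h := add_mem (Submodule.smul_mem _ r ha') (Submodule.smul_mem_smul (sub_ev_mem ev r)
      (Submodule.mem_top : KaehlerDifferential.D K A a ∈ (⊤ : Submodule A Ω[A⁄K])))
    rw [smul_sub, sub_smul, sub_add_sub_cancel] at h
    exact h

variable (g) in
/-- Coordinates exist. -/
theorem exists_isCoord [Algebra.IsStandardSmoothOfRelativeDimension g K A] :
    ∃ f : Fin g → A, IsCoord ev f := by
  classical
  haveI : Nontrivial A := RingHom.domain_nontrivial ev.toRingHom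
  haveI : Algebra.IsStandardSmooth K A :=
    Algebra.IsStandardSmoothOfRelativeDimension.isStandardSmooth g
  have hr := Algebra.IsStandardSmoothOfRelativeDimension.rank_kaehlerDifferential (R := K) (S := A) g
  haveI : Module.Finite A Ω[A⁄K] := Module.finite_of_rank_eq_nat hr
  let b : Module.Basis (Fin g) A Ω[A⁄K] :=
    Module.finBasisOfFinrankEq A Ω[A⁄K] (Module.finrank_eq_of_rank_eq hr)
  choose f hf hf' using fun i => exists_D_eq ev (b i)
  have key : ∀ c : Fin g → K, KaehlerDifferential.D K A (∑ i, c i • f i) -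
      ∑ i, algebraMap K A (c i) • b i ∈ RingHom.ker ev • (⊤ : Submodule A Ω[A⁄K]) := by
    intro c
    rw [map_sum, ← Finset.sum_sub_distrib]
    refine sum_mem fun i _ => ?_
    rw [Derivation.map_smul, ← algebraMap_smul A (c i), ← smul_sub]
    refine Submodule.smul_mem _ _ ?_
    rw [← neg_sub]
    exact neg_mem (hf' i)
  refine ⟨f, hf, fun a ha => ?_, fun c hc => ?_⟩
  · refine ⟨fun i => ev (b.repr (KaehlerDifferential.D K A a) i), mem_sq_of_D_mem ev ?_ ?_⟩
    · simp [map_sum, ha, hf]
    · rw [map_sub]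
      have h1 := key fun i => ev (b.repr (KaehlerDifferential.D K A a) i)
      have h2 : KaehlerDifferential.D K A a - ∑ i, algebraMap K A
          (ev (b.repr (KaehlerDifferential.D K A a) i)) • b i ∈
            RingHom.ker ev • (⊤ : Submodule A Ω[A⁄K]) := by
        nth_rewrite 1 [← b.sum_repr (KaehlerDifferential.D K A a)]
        rw [← Finset.sum_sub_distrib]
        refine sum_mem fun i _ => ?_
        rw [← sub_smul]
        exact Submodule.smul_mem_smul (sub_ev_mem ev _) trivial
      have h3 := sub_mem h2 h1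
      rwa [sub_sub_sub_cancel_right] at h3
  · have h1 := sub_mem (D_mem_of_mem_sq ev hc) (key c)
    rw [sub_sub_cancel] at h1
    have hle : (RingHom.ker ev • (⊤ : Submodule A Ω[A⁄K])) ≤
        (RingHom.ker ev).comap (RingHom.id A) • ⊤ := le_rfl
    funext i
    have hcoord : ∀ ω ∈ RingHom.ker ev • (⊤ : Submodule A Ω[A⁄K]), ev (b.repr ω i) = 0 := by
      intro ω hω
      induction hω using Submodule.smul_induction_on' with
      | smul r hr x hx =>
        rw [map_smul, Finsupp.smul_apply, smul_eq_mul, map_mul, RingHom.mem_ker.1 hr, zero_mul]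
      | add x _ y _ hx hy => rw [map_add, Finsupp.add_apply, map_add, hx, hy, add_zero]
    have h2 := hcoord _ h1
    rw [b.repr_sum_self, AlgHom.commutes] at h2
    exact h2

variable {ev} {f : Fin g → A} (hf : IsCoord ev f)

local notation "J" => MvPolynomial.idealOfVars (Fin g) K

include hf in
theorem ev_aeval (p : MvPolynomial (Fin g) K) : ev (aeval f p) = constantCoeff p := by
  rw [← AlgHom.comp_apply, comp_aeval, show (fun i => ev (f i)) = fun _ => 0 from funext hf.vanish,
    aeval_zero']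
  rfl

include hf in
theorem map_idealOfVars_le : (J).map (aeval f : MvPolynomial (Fin g) K →ₐ[K] A) ≤ 𝔪 := by
  rw [MvPolynomial.idealOfVars, Ideal.map_span, Ideal.span_le]
  rintro _ ⟨_, ⟨i, rfl⟩, rfl⟩
  simpa using hf.vanish i

include hf in
theorem aeval_mem_pow {n : ℕ} {p : MvPolynomial (Fin g) K} (hp : p ∈ J ^ n) :
    aeval f p ∈ 𝔪 ^ n := by
  refine Ideal.pow_right_mono (map_idealOfVars_le hf) n ?_
  rw [← Ideal.map_pow]
  exact Ideal.mem_map_of_mem _ hp

theorem mem_idealOfVars_iff {σ R : Type*} [CommRing R] (p : MvPolynomial σ R) :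
    p ∈ idealOfVars σ R ↔ constantCoeff p = 0 := by
  rw [← pow_one (idealOfVars σ R), mem_pow_idealOfVars_iff']
  refine ⟨fun h => h 0 (by simp), fun h x hx => ?_⟩
  rw [Nat.lt_one_iff, Finsupp.degree_eq_zero_iff] at hx
  subst hx
  exact h

include hf in
theorem exists_aeval_sub_mem (n : ℕ) (a : A) :
    ∃ p : MvPolynomial (Fin g) K, a - aeval f p ∈ 𝔪 ^ n := by
  have base : ∀ x ∈ 𝔪, ∃ q : MvPolynomial (Fin g) K, x - aeval f q ∈ 𝔪 ^ 2 := by
    intro x hx
    obtain ⟨c, hc⟩ := hf.span x hx
    exact ⟨∑ i, c i • X i, by simpa [map_sum] using hc⟩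
  have step : ∀ k : ℕ, ∀ x ∈ 𝔪 ^ k, ∃ q : MvPolynomial (Fin g) K,
      x - aeval f q ∈ 𝔪 ^ (k + 1) := by
    intro k
    induction k with
    | zero =>
      intro x _
      exact ⟨C (ev x), by rw [zero_add, pow_one, aeval_C]; exact sub_ev_mem ev x⟩
    | succ k ih =>
      intro x hx
      rw [pow_succ] at hx
      refine Submodule.mul_induction_on hx (fun y hy z hz => ?_) (fun y z hy hz => ?_)
      · obtain ⟨q₁, h₁⟩ := ih y hy
        obtain ⟨q₂, h₂⟩ := base z hz
        have hq₁ : aeval f q₁ ∈ 𝔪 ^ k := by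
          rw [← sub_sub_cancel y (aeval f q₁)]
          exact sub_mem hy (Ideal.pow_le_pow_right (Nat.le_succ k) h₁)
        refine ⟨q₁ * q₂, ?_⟩
        rw [map_mul, show y * z - aeval f q₁ * aeval f q₂ =
          (y - aeval f q₁) * z + aeval f q₁ * (z - aeval f q₂) by ring]
        refine add_mem ?_ ?_
        · rw [pow_succ]; exact Ideal.mul_mem_mul h₁ hz
        · rw [show k + 1 + 1 = k + 2 by ring, pow_add]; exact Ideal.mul_mem_mul hq₁ h₂
      · obtain ⟨q₁, h₁⟩ := hy
        obtain ⟨q₂, h₂⟩ := hz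
        refine ⟨q₁ + q₂, ?_⟩
        rw [map_add, add_sub_add_comm]
        exact add_mem h₁ h₂
  induction n with
  | zero => exact ⟨0, by simp⟩
  | succ n ih =>
    obtain ⟨p, hp⟩ := ih
    obtain ⟨q, hq⟩ := step n _ hp
    exact ⟨p + q, by rw [map_add, ← sub_sub]; exact hq⟩

theorem aeval_sub_self_mem (u : Fin g → MvPolynomial (Fin g) K)
    (hu : ∀ i, u i - X i ∈ J ^ 2) (k : ℕ) :
    ∀ p ∈ J ^ k, aeval u p - p ∈ J ^ (k + 1) := by
  have huJ : ∀ i, u i ∈ J := fun i => by
    rw [← sub_add_cancel (u i) (X i)]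
    exact add_mem (Ideal.pow_le_self two_ne_zero (hu i))
      (Ideal.subset_span ⟨i, rfl⟩)
  have hJ : ∀ p ∈ J, aeval u p - p ∈ J ^ 2 := by
    intro p hp
    induction hp using Submodule.span_induction with
    | mem x hx => obtain ⟨i, rfl⟩ := hx; rw [aeval_X]; exact hu i
    | zero => simp
    | add x y _ _ hx hy => rw [map_add, add_sub_add_comm]; exact add_mem hx hy
    | smul r x hxJ hx =>
      rw [smul_eq_mul, map_mul, show aeval u r * aeval u x - r * x =
        aeval u r * (aeval u x - x) + (aeval u r - r) * x by ring]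
      refine add_mem (Ideal.mul_mem_left _ _ hx) ?_
      rw [pow_two]
      refine Ideal.mul_mem_mul ((mem_idealOfVars_iff _).2 ?_) hxJ
      rw [map_sub, ← AlgHom.coe_toRingHom, ← RingHom.comp_apply, sub_eq_zero]
      congr 1
      refine ringHom_ext (fun c => by simp) fun i => ?_
      simpa using (mem_idealOfVars_iff _).1 (huJ i)
  induction k with
  | zero =>
    intro p _
    rw [zero_add, pow_one]
    refine (mem_idealOfVars_iff _).2 ?_
    rw [map_sub, ← AlgHom.coe_toRingHom, ← RingHom.comp_apply, sub_eq_zero]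
    congr 1
    refine ringHom_ext (fun c => by simp) fun i => ?_
    simpa using (mem_idealOfVars_iff _).1 (huJ i)
  | succ k ih =>
    intro p hp
    rw [pow_succ] at hp
    refine Submodule.mul_induction_on hp (fun y hy z hz => ?_) (fun y z hy hz => ?_)
    · rw [map_mul, show aeval u y * aeval u z - y * z =
        (aeval u y - y) * aeval u z + y * (aeval u z - z) by ring]
      refine add_mem ?_ ?_
      · rw [pow_succ]
        refine Ideal.mul_mem_mul (ih y hy) ?_
        rw [← sub_add_cancel (aeval u z) z]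
        exact add_mem (Ideal.pow_le_self two_ne_zero (hJ z hz)) hz
      · rw [show k + 1 + 1 = k + 2 by ring, pow_add]
        exact Ideal.mul_mem_mul hy (hJ z hz)
    · rw [map_add, add_sub_add_comm]; exact add_mem hy hz

include hf in
theorem mem_sq_of_aeval_mem {w : MvPolynomial (Fin g) K} (hw : aeval f w ∈ 𝔪 ^ 2) :
    w ∈ J ^ 2 := by
  classical
  have h0 : constantCoeff w = 0 := by
    rw [← ev_aeval hf]; exact Ideal.pow_le_self two_ne_zero hw
  have hwJ : w ∈ J := (mem_idealOfVars_iff w).2 h0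
  obtain ⟨c, hc⟩ := Submodule.mem_span_range_iff_exists_fun (MvPolynomial (Fin g) K) |>.1 hwJ
  have hdec : w - ∑ i, constantCoeff (c i) • X i ∈ J ^ 2 := by
    rw [← hc, ← Finset.sum_sub_distrib]
    refine sum_mem fun i _ => ?_
    rw [smul_eq_mul, smul_eq_C_mul, ← sub_mul, pow_two]
    exact Ideal.mul_mem_mul ((mem_idealOfVars_iff _).2 (by simp)) (Ideal.subset_span ⟨i, rfl⟩)
  have := sub_mem hw (aeval_mem_pow hf hdec)
  rw [map_sub, sub_sub_cancel, map_sum] at this
  simp only [map_smul, aeval_X] at this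
  have hz := hf.indep _ this
  simpa [funext_iff.1 hz] using hdec

include hf in
theorem mem_pow_of_aeval_mem [Algebra.FormallySmooth K A] {n : ℕ}
    {p : MvPolynomial (Fin g) K} (hp : aeval f p ∈ 𝔪 ^ n) : p ∈ J ^ n := by
  rcases Nat.lt_or_ge n 2 with hn | hn
  · interval_cases n
    · simp
    · rw [pow_one] at hp ⊢
      exact (mem_idealOfVars_iff p).2 (by rw [← ev_aeval hf]; exact hp)
  let π : (MvPolynomial (Fin g) K ⧸ J ^ n) →ₐ[K] A ⧸ 𝔪 ^ n :=
    Ideal.Quotient.liftₐ (J ^ n) ((Ideal.Quotient.mkₐ K (𝔪 ^ n)).comp (aeval f)) fun q hq =>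
      Ideal.Quotient.eq_zero_iff_mem.2 (aeval_mem_pow hf hq)
  have hπ : Function.Surjective π := by
    intro y
    obtain ⟨a, rfl⟩ := Ideal.Quotient.mk_surjective y
    obtain ⟨q, hq⟩ := exists_aeval_sub_mem hf n a
    exact ⟨Ideal.Quotient.mk _ q, (Ideal.Quotient.mk_eq_mk_iff_sub_mem _ _).2 hq |>.symm⟩
  have hnil : IsNilpotent (RingHom.ker π.toRingHom) := by
    refine ⟨n, le_bot_iff.1 ((Ideal.pow_right_mono ?_ n).trans_eq
      ((Ideal.map_pow (Ideal.Quotient.mk (J ^ n)) J n).symm.trans (Ideal.map_quotient_self _)))⟩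
    intro y hy
    obtain ⟨q, rfl⟩ := Ideal.Quotient.mk_surjective y
    refine Ideal.mem_map_of_mem _ ((mem_idealOfVars_iff q).2 ?_)
    rw [← ev_aeval hf]
    exact Ideal.pow_le_self (by omega) (Ideal.Quotient.eq_zero_iff_mem.1 hy)
  let s := Algebra.FormallySmooth.liftOfSurjective (Ideal.Quotient.mkₐ K (𝔪 ^ n)) π hπ hnil
  have hs : ∀ a, π (s a) = Ideal.Quotient.mk (𝔪 ^ n) a :=
    Algebra.FormallySmooth.liftOfSurjective_apply _ π hπ hnil
  have hsm : (𝔪).map s.toRingHom ≤ (J).map (Ideal.Quotient.mk (J ^ n)) := by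
    rw [Ideal.map_le_iff_le_comap]
    intro a ha
    obtain ⟨q, hq⟩ := Ideal.Quotient.mk_surjective (s a)
    rw [Ideal.mem_comap, AlgHom.toRingHom_eq_coe, RingHom.coe_coe, ← hq]
    refine Ideal.mem_map_of_mem _ ((mem_idealOfVars_iff q).2 ?_)
    rw [← ev_aeval hf]
    have hq' := hs a
    rw [← hq] at hq'
    have h := Ideal.pow_le_self (by omega : n ≠ 0) ((Ideal.Quotient.mk_eq_mk_iff_sub_mem _ _).1 hq')
    rw [RingHom.mem_ker, map_sub, RingHom.mem_ker.1 ha, sub_zero] at h
    exact h
  choose u hu using fun i => Ideal.Quotient.mk_surjective (s (f i))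
  have hu2 : ∀ i, u i - X i ∈ J ^ 2 := by
    intro i
    refine mem_sq_of_aeval_mem hf ?_
    have h' := hs (f i)
    rw [← hu i] at h'
    rw [map_sub, aeval_X]
    exact Ideal.pow_le_pow_right hn ((Ideal.Quotient.mk_eq_mk_iff_sub_mem _ _).1 h')
  have hzero : aeval u p ∈ J ^ n := by
    rw [← Ideal.Quotient.eq_zero_iff_mem]
    have h1 : Ideal.Quotient.mk (J ^ n) (aeval u p) = s (aeval f p) := by
      have e : (Ideal.Quotient.mkₐ K (J ^ n)).comp (aeval u) = s.comp (aeval f) :=
        algHom_ext fun i => by simpa using hu i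
      exact DFunLike.congr_fun e p
    rw [h1, ← Submodule.mem_bot (R := _ ⧸ J ^ n)]
    have := Ideal.mem_map_of_mem s.toRingHom hp
    rw [Ideal.map_pow] at this
    refine ((Ideal.pow_right_mono hsm n).trans_eq ?_) this
    rw [← Ideal.map_pow, Ideal.map_quotient_self]
  suffices ∀ k ≤ n, p ∈ J ^ k from this n le_rfl
  intro k hk
  induction k with
  | zero => simp
  | succ k ih =>
    have h := aeval_sub_self_mem u hu2 k p (ih (by omega))
    rw [← sub_sub_cancel (aeval u p) p]
    exact sub_mem (Ideal.pow_le_pow_right hk hzero) h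

variable [IsNoetherianRing A]

omit g in
/-- Krull's intersection theorem at a point. -/
theorem exists_mul_mem_of_forall_mem {I : Ideal A} {x : A}
    (h : ∀ n, x ∈ I ⊔ 𝔪 ^ n) : ∃ t, ev t ≠ 0 ∧ t * x ∈ I := by
  have hx : Ideal.Quotient.mk I x ∈ (⨅ n : ℕ, (𝔪) ^ n • ⊤ : Submodule A (A ⧸ I)) := by
    rw [Submodule.mem_iInf]
    intro n
    obtain ⟨a, ha, b, hb, rfl⟩ := Submodule.mem_sup.1 (h n)
    rw [map_add, Ideal.Quotient.eq_zero_iff_mem.2 ha, zero_add,
      show Ideal.Quotient.mk I b = b • (1 : A ⧸ I) by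
        rw [Algebra.smul_def, mul_one]; rfl]
    exact Submodule.smul_mem_smul hb trivial
  obtain ⟨⟨r, hr⟩, hrx⟩ := (Ideal.mem_iInf_smul_pow_eq_bot_iff _ _).1 hx
  refine ⟨1 - r, ?_, ?_⟩
  · rw [map_sub, map_one, RingHom.mem_ker.1 hr, sub_zero]
    exact one_ne_zero
  · rw [← Ideal.Quotient.eq_zero_iff_mem, sub_mul, one_mul, map_sub, map_mul, sub_eq_zero]
    simpa [Algebra.smul_def] using hrx.symm

omit [IsNoetherianRing A] g in
theorem mul_mem_pow_iff {t x : A} (ht : ev t ≠ 0) (n : ℕ) : t * x ∈ 𝔪 ^ n ↔ x ∈ 𝔪 ^ n := by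
  refine ⟨fun h => ?_, fun h => Ideal.mul_mem_left _ _ h⟩
  induction n with
  | zero => simp
  | succ k ih =>
    have hk := ih (Ideal.pow_le_pow_right (Nat.le_succ k) h)
    have h1 : (t - algebraMap K A (ev t)) * x ∈ 𝔪 ^ (k + 1) := by
      rw [pow_succ']; exact Ideal.mul_mem_mul (sub_ev_mem ev t) hk
    have h2 := sub_mem h h1
    rw [← sub_mul, sub_sub_cancel] at h2
    have h3 := Ideal.mul_mem_left _ (algebraMap K A (ev t)⁻¹) h2
    rwa [← mul_assoc, ← map_mul, inv_mul_cancel₀ ht, map_one, one_mul] at h3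

omit [IsNoetherianRing A] in
include hf in
/-- The powers of the ideal of a point are prime to each other. -/
theorem forall_mem_pow_or [Algebra.FormallySmooth K A] {a b : A}
    (h : ∀ n, a * b ∈ 𝔪 ^ n) : (∀ n, a ∈ 𝔪 ^ n) ∨ ∀ n, b ∈ 𝔪 ^ n := by
  classical
  by_contra hc
  push Not at hc
  obtain ⟨⟨i, hi⟩, ⟨j, hj⟩⟩ := hc
  obtain ⟨p, hp⟩ := exists_aeval_sub_mem hf (i + j) a
  obtain ⟨q, hq⟩ := exists_aeval_sub_mem hf (i + j) b
  have hpi : p ∉ J ^ i := fun hm => hi (by
    rw [← sub_add_cancel a (aeval f p)]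
    exact add_mem (Ideal.pow_le_pow_right (by omega) hp) (aeval_mem_pow hf hm))
  have hqj : q ∉ J ^ j := fun hm => hj (by
    rw [← sub_add_cancel b (aeval f q)]
    exact add_mem (Ideal.pow_le_pow_right (by omega) hq) (aeval_mem_pow hf hm))
  have hpq : p * q ∈ J ^ (i + j) := mem_pow_of_aeval_mem hf (by
    rw [map_mul, show aeval f p * aeval f q =
      a * b - ((a - aeval f p) * b + aeval f p * (b - aeval f q)) by ring]
    exact sub_mem (h _) (add_mem (Ideal.mul_mem_right _ _ hp) (Ideal.mul_mem_left _ _ hq)))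
  have hord : ∀ (r : MvPolynomial (Fin g) K) (n : ℕ), r ∈ J ^ n ↔
      (n : ℕ∞) ≤ MvPowerSeries.order (r : MvPowerSeries (Fin g) K) := fun r n => by
    rw [mem_pow_idealOfVars_iff']
    refine ⟨fun h' => MvPowerSeries.nat_le_order fun d hd => by rw [coeff_coe]; exact h' d hd,
      fun h' d hd => ?_⟩
    rw [← coeff_coe]
    exact MvPowerSeries.coeff_of_lt_order (lt_of_lt_of_le (ENat.natCast_lt_natCast.2 hd) h')
  rw [hord, not_le] at hpi hqj
  rw [hord, coe_mul, MvPowerSeries.order_mul, Nat.cast_add] at hpq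
  exact absurd hpq (not_le.2 (WithTop.add_lt_add_of_lt_of_le (by exact ne_top_of_lt hqj)
    hpi hqj.le))

include hf in
/-- The height of a point is at most the number of coordinates. -/
theorem height_ker_le : (RingHom.ker ev).height ≤ g := by
  classical
  haveI : (RingHom.ker ev).IsMaximal :=
    RingHom.ker_isMaximal_of_surjective _ fun x => ⟨algebraMap K A x, ev.commutes x⟩
  let s : Finset A := Finset.univ.image f
  have hmin : RingHom.ker ev ∈ (Ideal.span (s : Set A)).minimalPrimes := by
    refine ⟨⟨inferInstance, ?_⟩, fun Q ⟨hQ, hle⟩ hQm => ?_⟩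
    · rw [Ideal.span_le]
      rintro _ hx
      obtain ⟨i, -, rfl⟩ := Finset.mem_image.1 hx
      exact hf.vanish i
    · intro x hx
      obtain ⟨r, hr1, hr2⟩ := Submodule.exists_sub_one_mem_and_smul_eq_zero_of_fg_of_le_smul
        (RingHom.ker ev) ((RingHom.ker ev).map (Ideal.Quotient.mk (Ideal.span (s : Set A)))
          |>.restrictScalars A) (IsNoetherian.noetherian _) (by
        intro y hy
        obtain ⟨z, hz, rfl⟩ := (Ideal.mem_map_iff_of_surjective _ Ideal.Quotient.mk_surjective).1 hy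
        obtain ⟨c, hc⟩ := hf.span z hz
        have hsum : Ideal.Quotient.mk (Ideal.span (s : Set A)) (∑ i, c i • f i) = 0 := by
          refine Ideal.Quotient.eq_zero_iff_mem.2 (sum_mem fun i _ => ?_)
          rw [Algebra.smul_def]
          exact Ideal.mul_mem_left _ _ (Ideal.subset_span
            (Finset.mem_image_of_mem f (Finset.mem_univ i)))
        rw [← sub_add_cancel z (∑ i, c i • f i), map_add, hsum, add_zero]
        rw [pow_two] at hc
        refine Submodule.mul_induction_on hc (fun a ha b hb => ?_) (fun a b ha hb => ?_)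
        · rw [map_mul, show Ideal.Quotient.mk _ a * Ideal.Quotient.mk _ b =
            a • Ideal.Quotient.mk (Ideal.span (s : Set A)) b from rfl]
          exact Submodule.smul_mem_smul ha (Ideal.mem_map_of_mem _ hb)
        · rw [map_add]; exact add_mem ha hb)
      have hrx := hr2 _ (Ideal.mem_map_of_mem (Ideal.Quotient.mk (Ideal.span (s : Set A))) hx)
      rw [show r • Ideal.Quotient.mk (Ideal.span (s : Set A)) x =
        Ideal.Quotient.mk _ (r * x) from rfl, Ideal.Quotient.eq_zero_iff_mem] at hrx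
      refine (hQ.mem_or_mem (hle hrx)).resolve_left fun hrQ => ?_
      have := sub_mem (hQm hrQ) hr1
      rw [sub_sub_cancel, RingHom.mem_ker, map_one] at this
      exact one_ne_zero this
  refine (Ideal.height_le_card_of_mem_minimalPrimes_span_finset hmin).trans ?_
  exact_mod_cast Finset.card_image_le.trans_eq (Finset.card_fin g)

end FA.AbTors.Loc

end
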