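import Fermat.Agent.AbTors.LocalStalk
import Mathlib.RingTheory.NoetherNormalization
import Mathlib.RingTheory.KrullDimension.NonZeroDivisors
import Mathlib.RingTheory.KrullDimension.Polynomial
import Mathlib.RingTheory.KrullDimension.Field
import Mathlib.RingTheory.Ideal.HasGoingUp
import Mathlib.RingTheory.Valuation.LocalSubring
import Mathlib.RingTheory.Polynomial.UniqueFactorization

/-!
# Primes of height one of smooth algebras

A prime of height one is principal near a rational point: a projection to affine space, finite on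
its zero locus and without other preimage of the point, maps it onto a hypersurface, whose
equation generates it.
-/

set_option autoImplicit false
set_option linter.style.haveILetI false
set_option linter.unusedSectionVars false

noncomputable section

universe u

namespace FA.AbTors.Loc

open MvPolynomial

variable {K A : Type u} [Field K] [CommRing A] [Algebra K A]

/-- An integral extension by an injective map from a polynomial algebra has dimension at least the
number of variables. -/
theorem natCast_le_ringKrullDim {B : Type u} [CommRing B] [Algebra K B] {s : ℕ}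
    (φ : MvPolynomial (Fin s) K →ₐ[K] B) (hinj : Function.Injective φ) (hfin : φ.Finite) :
    ((s : ℕ∞) : WithBot ℕ∞) ≤ ringKrullDim B := by
  letI := φ.toRingHom.toAlgebra
  haveI : Algebra.IsIntegral (MvPolynomial (Fin s) K) B :=
    ⟨fun b => RingHom.Finite.to_isIntegral hfin b⟩
  have hle : ringKrullDim (MvPolynomial (Fin s) K) ≤ ringKrullDim B := by
    rw [ringKrullDim, Order.krullDim]
    refine iSup_le fun l => ?_
    obtain ⟨P, hP, hP'⟩ := Ideal.exists_ideal_over_prime_of_isIntegral l.head.asIdeal (⊥ : Ideal B)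
      (by
        intro x hx
        rw [Ideal.mem_comap, Ideal.mem_bot] at hx
        rw [show x = 0 from hinj (hx.trans (map_zero φ).symm)]
        exact zero_mem _)
    haveI := hP'.1
    haveI : P.LiesOver l.head.asIdeal := ⟨hP'.2.symm⟩
    obtain ⟨L, hL, -, -⟩ := Ideal.exists_ltSeries_of_hasGoingUp l P
    rw [← hL]
    exact Order.LTSeries.length_le_krullDim L
  refine le_trans (le_of_eq ?_) hle
  rw [MvPolynomial.ringKrullDim_of_isNoetherianRing, ringKrullDim_eq_zero_of_field, zero_add,
    Nat.card_eq_fintype_card, Fintype.card_fin]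
  rfl

section Integral

variable {B : Type u} [CommRing B] [IsDomain B] [Algebra K B] {ι : Type} [Fintype ι]

/-- Adding a large power keeps an algebra integral. -/
theorem exists_isIntegral_add_pow (ℓ σ : ι → B)
    (hℓ : Algebra.IsIntegral (Algebra.adjoin K (Set.range ℓ)) B) :
    ∃ M, 2 ≤ M ∧ Algebra.IsIntegral (Algebra.adjoin K (Set.range fun i => σ i + ℓ i ^ M)) B := by
  classical
  let L := FractionRing B
  let e : B →+* L := algebraMap B L
  have key : ∀ b : B, ∃ N : ℕ, ∀ V : ValuationSubring L, (∀ c : K, e (algebraMap K B c) ∈ V) →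
      ∀ m : V.ValueGroup, 1 ≤ m → (∀ i, V.valuation (e (ℓ i)) ≤ m) →
        V.valuation (e b) ≤ m ^ N := by
    have hadj : ∀ b ∈ Algebra.adjoin K (Set.range ℓ), ∃ N : ℕ, ∀ V : ValuationSubring L,
        (∀ c : K, e (algebraMap K B c) ∈ V) → ∀ m : V.ValueGroup, 1 ≤ m →
          (∀ i, V.valuation (e (ℓ i)) ≤ m) → V.valuation (e b) ≤ m ^ N := by
      intro b hb
      induction hb using Algebra.adjoin_induction with
      | mem x hx =>
        obtain ⟨i, rfl⟩ := hx
        exact ⟨1, fun V _ m _ h => by rw [pow_one]; exact h i⟩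
      | algebraMap c =>
        exact ⟨0, fun V hV m _ _ => by rw [pow_zero]; exact (V.valuation_le_one_iff _).2 (hV c)⟩
      | add x y _ _ hx hy =>
        obtain ⟨N₁, h₁⟩ := hx
        obtain ⟨N₂, h₂⟩ := hy
        refine ⟨max N₁ N₂, fun V hV m hm h => ?_⟩
        rw [map_add]
        exact (V.valuation.map_add _ _).trans (max_le
          ((h₁ V hV m hm h).trans (pow_le_pow_right' hm (le_max_left _ _)))
          ((h₂ V hV m hm h).trans (pow_le_pow_right' hm (le_max_right _ _))))
      | mul x y _ _ hx hy =>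
        obtain ⟨N₁, h₁⟩ := hx
        obtain ⟨N₂, h₂⟩ := hy
        refine ⟨N₁ + N₂, fun V hV m hm h => ?_⟩
        rw [map_mul, map_mul, pow_add]
        exact mul_le_mul' (h₁ V hV m hm h) (h₂ V hV m hm h)
    intro b
    obtain ⟨p, hp, hpb⟩ := hℓ.isIntegral b
    choose N hN using fun k : ℕ => hadj _ (p.coeff k).2
    refine ⟨(Finset.range p.natDegree).sup N, fun V hV m hm h => ?_⟩
    set N₀ := (Finset.range p.natDegree).sup N
    by_contra hlt
    rw [not_le] at hlt
    have h1 : 1 < V.valuation (e b) := lt_of_le_of_lt (one_le_pow₀ hm) hlt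
    have hsum : e b ^ p.natDegree = - ∑ k ∈ Finset.range p.natDegree,
        e (p.coeff k : B) * e b ^ k := by
      rw [eq_neg_iff_add_eq_zero]
      have := congrArg e hpb
      rw [Polynomial.eval₂_eq_sum_range, Finset.sum_range_succ, map_add, map_sum, hp.coeff_natDegree,
        map_zero, map_one, one_mul, map_pow] at this
      simpa [add_comm] using this
    have hlt' : V.valuation (∑ k ∈ Finset.range p.natDegree, e (p.coeff k : B) * e b ^ k) <
        V.valuation (e b) ^ p.natDegree := by
      refine V.valuation.map_sum_lt (pow_ne_zero _ (ne_of_gt (lt_trans zero_lt_one h1)))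
        fun k hk => ?_
      rw [map_mul, map_pow]
      have hkd := Finset.mem_range.1 hk
      calc V.valuation (e (p.coeff k : B)) * V.valuation (e b) ^ k
          ≤ m ^ N₀ * V.valuation (e b) ^ k :=
            mul_le_mul_left ((hN k V hV m hm h).trans
              (pow_le_pow_right' hm (Finset.le_sup hk))) _
        _ < V.valuation (e b) * V.valuation (e b) ^ k :=
            mul_lt_mul_of_pos_right hlt (pow_pos (lt_trans zero_lt_one h1) k)
        _ ≤ V.valuation (e b) ^ p.natDegree := by
            rw [← pow_succ']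
            exact pow_le_pow_right' h1.le hkd
    rw [← map_pow, hsum, Valuation.map_neg] at hlt'
    exact lt_irrefl _ hlt'
  choose N hN using fun i => key (σ i)
  refine ⟨Finset.univ.sup N + 2, by omega, ⟨fun b => ?_⟩⟩
  set M := Finset.univ.sup N + 2 with hM
  set S := Algebra.adjoin K (Set.range fun i => σ i + ℓ i ^ M) with hS
  refine (isIntegral_algebraMap_iff (R := S) (IsFractionRing.injective B L)).1 ?_
  let R₀ : Subalgebra S L := integralClosure S L
  haveI : IsIntegrallyClosedIn R₀.toSubring L :=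
    inferInstanceAs (IsIntegrallyClosedIn (integralClosure S L) L)
  show e b ∈ R₀.toSubring
  rw [Subring.eq_iInf_of_isIntegrallyClosedIn (R := R₀.toSubring)]
  simp only [Subring.mem_iInf, Subtype.forall]
  intro V hV
  have hSV : ∀ x : B, x ∈ S → e x ∈ V := fun x hx => hV (R₀.algebraMap_mem ⟨x, hx⟩)
  have hK : ∀ c : K, e (algebraMap K B c) ∈ V := fun c => hSV _ (S.algebraMap_mem c)
  have hℓV : ∀ i, e (ℓ i) ∈ V := by
    by_contra hc
    push Not at hc
    obtain ⟨i₀, hi₀⟩ := hc
    obtain ⟨i, -, hi⟩ := Finset.univ.exists_max_image (fun i => V.valuation (e (ℓ i)))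
      ⟨i₀, Finset.mem_univ _⟩
    have hm : 1 < V.valuation (e (ℓ i)) := lt_of_lt_of_le
      (not_le.1 fun h => hi₀ ((V.valuation_le_one_iff _).1 h)) (hi i₀ (Finset.mem_univ _))
    have h1 : V.valuation (e (σ i)) < V.valuation (e (ℓ i) ^ M) := by
      refine lt_of_le_of_lt (hN i V hK _ hm.le fun j => hi j (Finset.mem_univ _)) ?_
      rw [map_pow]
      exact pow_lt_pow_right₀ hm (by
        have := Finset.le_sup (f := N) (Finset.mem_univ i); omega)
    have h2 : V.valuation (e (σ i + ℓ i ^ M)) = V.valuation (e (ℓ i) ^ M) := by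
      rw [map_add e, map_pow e]
      exact V.valuation.map_add_eq_of_lt_right h1
    have h3 : (1 : V.ValueGroup) < V.valuation (e (σ i + ℓ i ^ M)) := by
      rw [h2, map_pow]
      exact one_lt_pow₀ hm (by omega)
    exact not_le.2 h3 ((V.valuation_le_one_iff _).2
      (hSV _ (Algebra.subset_adjoin ⟨i, rfl⟩)))
  have hadj : ∀ x : B, x ∈ Algebra.adjoin K (Set.range ℓ) → e x ∈ V := by
    intro x hx
    induction hx using Algebra.adjoin_induction with
    | mem x hx => obtain ⟨i, rfl⟩ := hx; exact hℓV i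
    | algebraMap c => exact hK c
    | add x y _ _ hx hy => rw [map_add]; exact add_mem hx hy
    | mul x y _ _ hx hy => rw [map_mul]; exact mul_mem hx hy
  obtain ⟨p, hp, hpb⟩ := hℓ.isIntegral b
  let θ : Algebra.adjoin K (Set.range ℓ) →+* V :=
    (e.comp (Algebra.adjoin K (Set.range ℓ)).val.toRingHom).codRestrict V.toSubring
      fun x => hadj x x.2
  have hint : IsIntegral V (e b) := by
    refine ⟨p.map θ, hp.map θ, ?_⟩
    rw [Polynomial.eval₂_map]
    have := congrArg e hpb
    rw [Polynomial.hom_eval₂, map_zero] at this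
    exact this
  obtain ⟨y, hy⟩ := IsIntegrallyClosed.isIntegral_iff.1 hint
  rw [← hy]
  exact y.2

end Integral

variable [IsAlgClosed K] [IsDomain A]

/-- The data of a good projection at a point of the zero locus of `P`. -/
theorem exists_projection {g : ℕ} [Algebra.IsStandardSmoothOfRelativeDimension g K A]
    (ev : A →ₐ[K] K) (P : Ideal A) [P.IsPrime] (hP0 : P ≠ ⊥) (hP : P ≤ RingHom.ker ev) :
    ∃ f : Fin g → A, IsCoord ev f ∧ ∃ r : MvPolynomial (Fin g) K, constantCoeff r = 1 ∧
      (∀ b : A ⧸ P, ∃ p : MvPolynomial (Fin g) K,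
        Ideal.Quotient.mk P (aeval f r) * b = Ideal.Quotient.mk P (aeval f p)) ∧
      ∀ a ∈ RingHom.ker ev, Ideal.Quotient.mk P a ∈
        (MvPolynomial.idealOfVars (Fin g) K).map
          ((Ideal.Quotient.mkₐ K P).comp (aeval f)) := by
  classical
  haveI : Algebra.IsStandardSmooth K A :=
    Algebra.IsStandardSmoothOfRelativeDimension.isStandardSmooth g
  haveI := isNoetherianRing_of_smooth K (A := A)
  set B := A ⧸ P
  let mk := Ideal.Quotient.mkₐ K P
  have hmk : Function.Surjective mk := Ideal.Quotient.mkₐ_surjective K P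
  haveI : Algebra.FiniteType K B := Algebra.FiniteType.of_surjective mk hmk
  haveI : IsDomain B := Ideal.Quotient.isDomain P
  obtain ⟨s, G, hGinj, hGfin⟩ := exists_finite_inj_algHom_of_fg K B
  -- the number of variables
  have hdim : ringKrullDim A ≤ ((g : ℕ∞) : WithBot ℕ∞) := by
    rw [ringKrullDim_le_iff_isMaximal_height_le]
    intro m hm
    haveI := hm.isPrime
    obtain ⟨ev', hev'⟩ := exists_ev_of_prime (K := K) m
    obtain ⟨c, hc⟩ := exists_isCoord g ev'
    rw [hm.eq_of_le (RingHom.ker_ne_top _) hev']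
    exact WithBot.coe_le_coe.2 (height_ker_le hc)
  obtain ⟨a₀, ha₀, ha₀'⟩ := Submodule.exists_mem_ne_zero_of_ne_bot hP0
  have hsg : s + 1 ≤ g := by
    have h1 := ringKrullDim_succ_le_of_surjective (Ideal.Quotient.mk P) Ideal.Quotient.mk_surjective
      (mem_nonZeroDivisors_of_ne_zero ha₀') (Ideal.Quotient.eq_zero_iff_mem.2 ha₀)
    have h2 : ((s : ℕ∞) : WithBot ℕ∞) + 1 ≤ ((g : ℕ∞) : WithBot ℕ∞) :=
      le_trans (by gcongr; exact natCast_le_ringKrullDim G hGinj hGfin) (h1.trans hdim)
    exact_mod_cast h2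
  obtain ⟨g', rfl⟩ : ∃ g', g = g' + 1 := ⟨g - 1, by omega⟩
  -- the first functions
  let evB : B →ₐ[K] K := Ideal.Quotient.liftₐ P ev fun a ha => hP ha
  have hevB : ∀ a, evB (mk a) = ev a := fun a => rfl
  let ℓ : Fin g' → B := fun i =>
    if h : (i : ℕ) < s then G (X ⟨i, h⟩) - algebraMap K B (evB (G (X ⟨i, h⟩))) else 0
  have hℓev : ∀ i, evB (ℓ i) = 0 := fun i => by
    simp only [ℓ]
    split_ifs
    · rw [map_sub, AlgHom.commutes]; exact sub_self _
    · exact map_zero _
  have hℓint : Algebra.IsIntegral (Algebra.adjoin K (Set.range ℓ)) B := by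
    refine ⟨fun b => ?_⟩
    have hG : ∀ q, G q ∈ Algebra.adjoin K (Set.range ℓ) := by
      intro q
      induction q using MvPolynomial.induction_on with
      | C c => rw [← MvPolynomial.algebraMap_eq, AlgHom.commutes]; exact Subalgebra.algebraMap_mem _ c
      | add p q hp hq => rw [map_add]; exact add_mem hp hq
      | mul_X p j hp =>
        rw [map_mul]
        refine mul_mem hp ?_
        have hj : ℓ ⟨j, by omega⟩ = G (X j) - algebraMap K B (evB (G (X j))) := dif_pos j.2
        rw [← sub_add_cancel (G (X j)) (algebraMap K B (evB (G (X j)))), ← hj]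
        exact add_mem (Algebra.subset_adjoin ⟨_, rfl⟩) (Subalgebra.algebraMap_mem _ _)
    obtain ⟨p, hp, hpb⟩ := RingHom.Finite.to_isIntegral hGfin b
    let θ : MvPolynomial (Fin s) K →+* Algebra.adjoin K (Set.range ℓ) :=
      G.toRingHom.codRestrict _ hG
    refine ⟨p.map θ, hp.map θ, ?_⟩
    rw [Polynomial.eval₂_map]
    exact hpb
  obtain ⟨c, hc⟩ := exists_isCoord (g' + 1) ev
  obtain ⟨M, hM, hint⟩ := exists_isIntegral_add_pow ℓ (fun i => mk (c i.castSucc)) hℓint
  choose Lf hLf using fun i => hmk (ℓ i)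
  have hL0 : ∀ i, ev (Lf i) = 0 := fun i => by rw [← hevB, hLf]; exact hℓev i
  let f₀ : Fin g' → A := fun i => c i.castSucc + Lf i ^ M
  have hf₀mk : ∀ i, mk (f₀ i) = mk (c i.castSucc) + ℓ i ^ M := fun i => by
    simp only [f₀, map_add, map_pow, hLf]
  set S := Algebra.adjoin K (Set.range fun i => mk (c i.castSucc) + ℓ i ^ M) with hSdef
  let I₀ : Ideal B := Ideal.span (Set.range fun i => mk (f₀ i))
  have hmax : ∀ Q : Ideal B, Q.IsPrime → I₀ ≤ Q → Q.IsMaximal := by
    intro Q hQ hle
    rw [Ideal.Quotient.maximal_ideal_iff_isField_quotient Q]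
    have hconst : ∀ x ∈ S, ∃ k : K, Ideal.Quotient.mk Q x = algebraMap K (B ⧸ Q) k := by
      intro x hx
      induction hx using Algebra.adjoin_induction with
      | mem x hx =>
        obtain ⟨i, rfl⟩ := hx
        refine ⟨0, ?_⟩
        rw [map_zero, Ideal.Quotient.eq_zero_iff_mem]
        show mk (c i.castSucc) + ℓ i ^ M ∈ Q
        rw [← hf₀mk i]
        exact hle (Ideal.subset_span ⟨i, rfl⟩)
      | algebraMap k => exact ⟨k, rfl⟩
      | add x y _ _ hx hy =>
        obtain ⟨a, ha⟩ := hx
        obtain ⟨b, hb⟩ := hy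
        exact ⟨a + b, by rw [map_add, map_add, ha, hb]⟩
      | mul x y _ _ hx hy =>
        obtain ⟨a, ha⟩ := hx
        obtain ⟨b, hb⟩ := hy
        exact ⟨a * b, by rw [map_mul, map_mul, ha, hb]⟩
    choose κ hκ using hconst
    haveI : Algebra.IsIntegral K (B ⧸ Q) := by
      refine ⟨fun y => ?_⟩
      obtain ⟨b, rfl⟩ := Ideal.Quotient.mk_surjective y
      obtain ⟨p, hp, hpb⟩ := hint.isIntegral b
      have he := congrArg (Ideal.Quotient.mk Q) hpb
      rw [Polynomial.hom_eval₂, map_zero, Polynomial.eval₂_eq_sum_range] at he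
      let q : Polynomial K :=
        ∑ k ∈ Finset.range p.natDegree, Polynomial.monomial k (κ _ (p.coeff k).2)
      refine ⟨Polynomial.X ^ p.natDegree + q, Polynomial.monic_X_pow_add ?_, ?_⟩
      · refine lt_of_le_of_lt (Polynomial.degree_sum_le _ _) ?_
        rw [Finset.sup_lt_iff (WithBot.bot_lt_coe _)]
        exact fun k hk => lt_of_le_of_lt (Polynomial.degree_monomial_le _ _)
          (WithBot.coe_lt_coe.2 (Finset.mem_range.1 hk))
      · rw [Polynomial.eval₂_add, Polynomial.eval₂_pow, Polynomial.eval₂_X,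
          Polynomial.eval₂_finsetSum]
        rw [Finset.sum_range_succ, hp.coeff_natDegree, map_one, one_mul] at he
        rw [add_comm, ← he]
        congr 1
        refine Finset.sum_congr rfl fun k _ => ?_
        rw [Polynomial.eval₂_monomial, RingHom.comp_apply, ← hκ]
        rfl
    exact isField_of_isIntegral_of_isField' (Field.toIsField K)
  have hfinite : {Q : Ideal B | Q.IsPrime ∧ I₀ ≤ Q}.Finite := by
    refine (I₀.finite_minimalPrimes_of_isNoetherianRing B).subset fun Q hQ => ?_
    haveI := hQ.1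
    obtain ⟨q, hq, hqQ⟩ := Ideal.exists_minimalPrimes_le (J := Q) hQ.2
    rwa [← (hmax q hq.1.1 hq.1.2).eq_of_le hQ.1.ne_top hqQ]
  -- the last function
  let T : Finset (Ideal A) :=
    (hfinite.toFinset.image fun Q => Q.comap mk).filter (fun n => n ≠ RingHom.ker ev)
  have hTmax : ∀ n ∈ T, n.IsMaximal := by
    intro n hn
    obtain ⟨Q, hQ, rfl⟩ := Finset.mem_image.1 (Finset.mem_filter.1 hn).1
    rw [Set.Finite.mem_toFinset] at hQ
    haveI := hmax Q hQ.1 hQ.2
    exact Ideal.comap_isMaximal_of_surjective mk hmk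
  haveI hkmax : (RingHom.ker ev).IsMaximal :=
    RingHom.ker_isMaximal_of_surjective _ fun x => ⟨algebraMap K A x, ev.commutes x⟩
  obtain ⟨e, he2, heT⟩ : ∃ e, e - c (Fin.last g') ∈ RingHom.ker ev ^ 2 ∧ ∀ n ∈ T, e ∉ n := by
    have hco : IsCoprime (RingHom.ker ev ^ 2) (∏ n ∈ T, n) := by
      refine IsCoprime.pow_left (IsCoprime.prod_right fun n hn => ?_)
      rw [Ideal.isCoprime_iff_sup_eq]
      exact hkmax.coprime_of_ne (hTmax n hn) (Ne.symm (Finset.mem_filter.1 hn).2)
    obtain ⟨α, hα, β, hβ, hαβ⟩ := Ideal.isCoprime_iff_exists.1 hco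
    refine ⟨c (Fin.last g') + α * (1 - c (Fin.last g')), by simpa using Ideal.mul_mem_right _ _ hα,
      fun n hn h => (hTmax n hn).ne_top ((Ideal.eq_top_iff_one n).2 ?_)⟩
    have hβn : β ∈ n := Ideal.prod_le_inf.trans (Finset.inf_le hn) hβ
    have hh : (1 : A) = (c (Fin.last g') + α * (1 - c (Fin.last g'))) +
        β * (1 - c (Fin.last g')) := by
      linear_combination (c (Fin.last g') - 1) * hαβ
    rw [hh]
    exact add_mem h (Ideal.mul_mem_right _ _ hβn)
  let f : Fin (g' + 1) → A := Fin.snoc f₀ e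
  have hdiff : ∀ i, f i - c i ∈ RingHom.ker ev ^ 2 := by
    intro i
    induction i using Fin.lastCases with
    | last => simpa [f] using he2
    | cast i =>
      simp only [f, Fin.snoc_castSucc, f₀, add_sub_cancel_left]
      exact Ideal.pow_le_pow_right hM (Ideal.pow_mem_pow (hL0 i) M)
  have hsumdiff : ∀ k : Fin (g' + 1) → K,
      ∑ i, k i • c i - ∑ i, k i • f i ∈ RingHom.ker ev ^ 2 := by
    intro k
    rw [← Finset.sum_sub_distrib]
    refine sum_mem fun i _ => ?_
    rw [← smul_sub, ← neg_sub, Algebra.smul_def]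
    exact Ideal.mul_mem_left _ _ (neg_mem (hdiff i))
  have hf : IsCoord ev f := by
    refine ⟨fun i => ?_, fun a ha => ?_, fun k hk => hc.indep k ?_⟩
    · have h := Ideal.pow_le_self two_ne_zero (hdiff i)
      rwa [RingHom.mem_ker, map_sub, hc.vanish, sub_zero] at h
    · obtain ⟨k, hk⟩ := hc.span a ha
      exact ⟨k, by simpa using add_mem hk (hsumdiff k)⟩
    · simpa using add_mem hk (hsumdiff k)
  let φ := mk.comp (aeval f)
  set J := (MvPolynomial.idealOfVars (Fin (g' + 1)) K).map φ with hJ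
  have hJf : ∀ i, mk (f i) ∈ J := fun i => by
    have := Ideal.mem_map_of_mem φ (Ideal.subset_span ⟨i, rfl⟩ : X i ∈ idealOfVars _ K)
    simpa [φ] using this
  have honly : ∀ Q : Ideal B, Q.IsPrime → J ≤ Q → Q.comap mk = RingHom.ker ev := by
    intro Q hQ hle
    by_contra hne
    refine heT _ (Finset.mem_filter.2 ⟨Finset.mem_image.2 ⟨Q, ?_, rfl⟩, hne⟩) ?_
    · rw [Set.Finite.mem_toFinset]
      refine ⟨hQ, Ideal.span_le.2 ?_⟩
      rintro _ ⟨i, rfl⟩
      simpa [f] using hle (hJf i.castSucc)
    · simpa [f] using hle (hJf (Fin.last g'))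
  set mB := RingHom.ker evB with hmB
  have hrad : mB ≤ J.radical := by
    rw [Ideal.radical_eq_sInf]
    refine le_sInf fun Q ⟨hle, hQ⟩ x hx => ?_
    obtain ⟨a, rfl⟩ := hmk x
    rw [← Ideal.mem_comap (f := mk), honly Q hQ hle]
    exact hx
  have hJm : J ≤ mB := by
    rw [hJ, MvPolynomial.idealOfVars, Ideal.map_span, Ideal.span_le]
    rintro _ ⟨_, ⟨i, rfl⟩, rfl⟩
    simpa [φ, hmB, RingHom.mem_ker, hevB] using hf.vanish i
  have hsucc : mB ≤ J ⊔ mB ^ 2 := by
    intro x hx
    obtain ⟨a, rfl⟩ := hmk x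
    obtain ⟨k, hk⟩ := hf.span a hx
    rw [← add_sub_cancel (∑ i, k i • f i) a, map_add, map_sum]
    refine Submodule.add_mem_sup (sum_mem fun i _ => ?_) ?_
    · rw [map_smul, Algebra.smul_def]
      exact Ideal.mul_mem_left _ _ (hJf i)
    · refine Ideal.pow_right_mono ?_ 2 ((Ideal.map_pow _ _ 2).le (Ideal.mem_map_of_mem mk hk))
      exact Ideal.map_le_iff_le_comap.2 fun y hy => hy
  have hJeq : mB = J := by
    refine le_antisymm ?_ hJm
    have hpow : ∀ n, mB ≤ J ⊔ mB ^ (n + 1) := by
      intro n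
      induction n with
      | zero => simp
      | succ n ih =>
        refine hsucc.trans (sup_le le_sup_left ?_)
        rw [pow_two]
        refine (Ideal.mul_mono le_rfl ih).trans ?_
        rw [Ideal.mul_sup, ← pow_succ']
        exact sup_le_sup_right Ideal.mul_le_right _
    obtain ⟨n, hn⟩ := Ideal.exists_pow_le_of_le_radical_of_fg hrad (IsNoetherian.noetherian _)
    exact (hpow n).trans (sup_le le_rfl ((Ideal.pow_le_pow_right (Nat.le_succ n)).trans hn))
  refine ⟨f, hf, ?_⟩
  letI := φ.toRingHom.toAlgebra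
  haveI : IsScalarTower K (MvPolynomial (Fin (g' + 1)) K) B :=
    IsScalarTower.of_algebraMap_eq fun x => (φ.commutes x).symm
  haveI : Algebra.FiniteType (MvPolynomial (Fin (g' + 1)) K) B :=
    Algebra.FiniteType.of_restrictScalars_finiteType K _ _
  haveI : Algebra.IsIntegral (MvPolynomial (Fin (g' + 1)) K) B := by
    refine ⟨fun b => ?_⟩
    have hS : ∀ x ∈ S, x ∈ φ.range := by
      intro x hx
      refine Algebra.adjoin_le ?_ hx
      rintro _ ⟨i, rfl⟩
      exact ⟨X i.castSucc, by simp [φ, f, hf₀mk]⟩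
    choose q hq using hS
    obtain ⟨p, hp, hpb⟩ := hint.isIntegral b
    let pl : Polynomial (MvPolynomial (Fin (g' + 1)) K) := Polynomial.X ^ p.natDegree +
      ∑ k ∈ Finset.range p.natDegree, Polynomial.monomial k (q _ (p.coeff k).2)
    refine ⟨pl, Polynomial.monic_X_pow_add ?_, ?_⟩
    · refine lt_of_le_of_lt (Polynomial.degree_sum_le _ _) ?_
      rw [Finset.sup_lt_iff (WithBot.bot_lt_coe _)]
      exact fun k hk => lt_of_le_of_lt (Polynomial.degree_monomial_le _ _)
        (WithBot.coe_lt_coe.2 (Finset.mem_range.1 hk))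
    · rw [Polynomial.eval₂_add, Polynomial.eval₂_pow, Polynomial.eval₂_X,
        Polynomial.eval₂_finsetSum]
      rw [Polynomial.eval₂_eq_sum_range, Finset.sum_range_succ, hp.coeff_natDegree, map_one,
        one_mul] at hpb
      rw [add_comm, ← hpb]
      congr 1
      refine Finset.sum_congr rfl fun k _ => ?_
      rw [Polynomial.eval₂_monomial]
      exact congrArg (· * b ^ k) (hq _ (p.coeff k).2)
  haveI : Module.Finite (MvPolynomial (Fin (g' + 1)) K) B := Algebra.IsIntegral.finite
  let W : Submodule (MvPolynomial (Fin (g' + 1)) K) B :=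
    LinearMap.range (Algebra.linearMap (MvPolynomial (Fin (g' + 1)) K) B)
  obtain ⟨r, hr1, hr2⟩ := Submodule.exists_sub_one_mem_and_smul_eq_zero_of_fg_of_le_smul
    (MvPolynomial.idealOfVars (Fin (g' + 1)) K)
    (⊤ : Submodule (MvPolynomial (Fin (g' + 1)) K) (B ⧸ W)) Module.Finite.fg_top (by
      intro y _
      obtain ⟨b, rfl⟩ := W.mkQ_surjective y
      have hb : b - algebraMap K B (evB b) ∈ mB := by
        rw [RingHom.mem_ker, map_sub, AlgHom.commutes]
        exact sub_self _
      rw [hJeq, hJ] at hb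
      have hconst : W.mkQ (algebraMap K B (evB b)) = 0 :=
        (Submodule.Quotient.mk_eq_zero W).2 ⟨C (evB b), φ.commutes (evB b)⟩
      rw [← sub_add_cancel b (algebraMap K B (evB b)), map_add, hconst, add_zero]
      generalize b - algebraMap K B (evB b) = z at hb
      have key : ∀ w ∈ (MvPolynomial.idealOfVars (Fin (g' + 1)) K).map φ, ∀ y : B,
          W.mkQ (y * w) ∈ MvPolynomial.idealOfVars (Fin (g' + 1)) K • (⊤ : Submodule (MvPolynomial (Fin (g' + 1)) K) (B ⧸ W)) := by
        intro w hw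
        induction hw using Submodule.span_induction with
        | mem x hx =>
          obtain ⟨p, hp, rfl⟩ := hx
          intro y
          rw [mul_comm, show φ p * y = p • y from (Algebra.smul_def p y).symm, map_smul]
          exact Submodule.smul_mem_smul hp trivial
        | zero => intro y; simp
        | add u v _ _ hu hv => intro y; rw [mul_add, map_add]; exact add_mem (hu y) (hv y)
        | smul t u _ hu => intro y; rw [smul_eq_mul, ← mul_assoc]; exact hu _
      simpa using key z hb 1)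
  refine ⟨r, ?_, fun b => ?_, fun a ha => ?_⟩
  · have := (mem_idealOfVars_iff _).1 hr1
    rwa [map_sub, map_one, sub_eq_zero] at this
  · have h0 := hr2 (W.mkQ b) trivial
    rw [← map_smul] at h0
    obtain ⟨p, hp⟩ := (Submodule.Quotient.mk_eq_zero W).1 h0
    exact ⟨p, ((Algebra.smul_def r b).symm.trans hp.symm)⟩
  · have hmem : mk a ∈ mB := ha
    rw [hJeq] at hmem
    exact hmem

/-- **A prime minimal over a principal ideal is principal near a point.** -/
theorem exists_generator (g : ℕ) [Algebra.IsStandardSmoothOfRelativeDimension g K A] (ev : A →ₐ[K] K) {P : Ideal A} {a : A} (ha : a ≠ 0)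
    (hmin : P ∈ (Ideal.span {a}).minimalPrimes) (hP : P ≤ RingHom.ker ev) :
    ∃ h ∈ P, h ≠ 0 ∧ ∀ r ∈ P, ∃ t, ev t ≠ 0 ∧ t * r ∈ Ideal.span {h} := by
  classical
  haveI : Algebra.IsStandardSmooth K A :=
    Algebra.IsStandardSmoothOfRelativeDimension.isStandardSmooth g
  haveI := isNoetherianRing_of_smooth K (A := A)
  haveI : P.IsPrime := hmin.1.1
  have haP : a ∈ P := hmin.1.2 (Ideal.mem_span_singleton_self a)
  have hP0 : P ≠ ⊥ := fun h => ha (by rwa [h, Ideal.mem_bot] at haP)
  have hheight : P.height ≤ 1 :=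
    Ideal.height_le_one_of_isPrincipal_of_mem_minimalPrimes _ P hmin
  obtain ⟨f, hf, r, hr0, hr, hJ⟩ := exists_projection (g := g) ev P hP0 hP
  set φ : MvPolynomial (Fin g) K →ₐ[K] A ⧸ P := (Ideal.Quotient.mkₐ K P).comp (aeval f) with hφ
  set I := MvPolynomial.idealOfVars (Fin g) K with hI
  let q : Ideal (MvPolynomial (Fin g) K) := RingHom.ker φ
  haveI : q.IsPrime := RingHom.ker_isPrime _
  -- approximation
  have happ : ∀ (n : ℕ) (b : MvPolynomial (Fin g) K),
      aeval f b ∈ P ⊔ RingHom.ker ev ^ n → b ∈ q ⊔ I ^ n := by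
    intro n b hb
    have hφb : φ b ∈ (I ^ n).map φ := by
      obtain ⟨x, hx, y, hy, hxy⟩ := Submodule.mem_sup.1 hb
      rw [Ideal.map_pow]
      have : φ b = Ideal.Quotient.mk P y := by
        show Ideal.Quotient.mk P (aeval f b) = _
        rw [← hxy, map_add, Ideal.Quotient.eq_zero_iff_mem.2 hx, zero_add]
      rw [this]
      refine Ideal.pow_right_mono (Ideal.map_le_iff_le_comap.2 hJ) n ?_
      rw [← Ideal.map_pow]
      exact Ideal.mem_map_of_mem (Ideal.Quotient.mk P) hy
    have key : ∀ x ∈ (I ^ n).map φ, ∀ y : A ⧸ P, ∃ ν ∈ I ^ n, φ r * (y * x) = φ ν := by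
      intro x hx
      induction hx using Submodule.span_induction with
      | mem x hx =>
        obtain ⟨μ, hμ, rfl⟩ := hx
        intro y
        obtain ⟨p, hp⟩ := hr y
        refine ⟨p * μ, Ideal.mul_mem_left _ _ hμ, ?_⟩
        rw [map_mul, ← mul_assoc]
        exact congrArg (· * φ μ) hp
      | zero => exact fun y => ⟨0, zero_mem _, by simp⟩
      | add u v _ _ hu hv =>
        intro y
        obtain ⟨ν₁, h₁, e₁⟩ := hu y
        obtain ⟨ν₂, h₂, e₂⟩ := hv y
        exact ⟨ν₁ + ν₂, add_mem h₁ h₂, by rw [map_add, ← e₁, ← e₂]; ring⟩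
      | smul t u _ hu =>
        intro y
        obtain ⟨ν, h₁, e₁⟩ := hu (y * t)
        exact ⟨ν, h₁, by rw [← e₁, smul_eq_mul, mul_assoc y t u]⟩
    obtain ⟨ν, hν, hνe⟩ := key _ hφb 1
    have hrb : r * b ∈ q ⊔ I ^ n := by
      rw [← sub_add_cancel (r * b) ν]
      refine Submodule.add_mem_sup ?_ hν
      rw [RingHom.mem_ker, map_sub, map_mul, sub_eq_zero, ← hνe, one_mul]
    have h1r : 1 - r ∈ I := (mem_idealOfVars_iff _).2 (by rw [map_sub, map_one, hr0, sub_self])
    have hb' : b = (1 - r) ^ n * b + (∑ k ∈ Finset.range n, (1 - r) ^ k) * (r * b) := by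
      have := geom_sum_mul_neg (1 - r) n
      rw [sub_sub_cancel] at this
      linear_combination (-b) * this
    rw [hb']
    exact add_mem (Ideal.mem_sup_right (Ideal.mul_mem_right _ _ (Ideal.pow_mem_pow h1r n)))
      (Ideal.mul_mem_left _ _ hrb)
  -- descent to the image of the kernel
  have hdesc : ∀ (Q : Ideal (MvPolynomial (Fin g) K)), q ≤ Q → ∀ x ∈ P, ∀ n : ℕ,
      x ∈ Q.map (aeval f) ⊔ RingHom.ker ev ^ n := by
    intro Q hQ x hx n
    obtain ⟨b, hb⟩ := exists_aeval_sub_mem hf n x
    have hb' := happ n b (by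
      rw [← sub_sub_cancel x (aeval f b)]
      exact sub_mem (Ideal.mem_sup_left hx) (Ideal.mem_sup_right hb))
    obtain ⟨u, hu, v, hv, huv⟩ := Submodule.mem_sup.1 hb'
    rw [← sub_add_cancel x (aeval f b), ← huv, map_add, add_comm]
    exact add_mem (add_mem (Ideal.mem_sup_left (Ideal.mem_map_of_mem _ (hQ hu)))
      (Ideal.mem_sup_right (aeval_mem_pow hf hv)))
      (Ideal.mem_sup_right (by rw [← map_add, huv]; exact hb))
  have hq0 : q ≠ ⊥ := by
    intro h0
    refine hP0 (eq_bot_iff.2 fun x hx => ?_)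
    obtain ⟨t, ht, htx⟩ := exists_mul_mem_of_forall_mem (ev := ev) (I := ⊥) (x := x) fun n => by
      have := hdesc ⊥ h0.le x hx n
      rwa [Ideal.map_bot] at this
    rw [Ideal.mem_bot] at htx ⊢
    exact (mul_eq_zero.1 htx).resolve_left fun h => ht (by rw [h, map_zero])
  obtain ⟨h, hhq, hhprime⟩ := Ideal.IsPrime.exists_mem_prime_of_ne_bot ‹q.IsPrime› hq0
  have hhP : aeval f h ∈ P := Ideal.Quotient.eq_zero_iff_mem.1 hhq
  have hh0 : aeval f h ≠ 0 := by
    intro h0
    apply hhprime.ne_zero
    ext d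
    rw [coeff_zero]
    exact (mem_pow_idealOfVars_iff' (d.degree + 1) h).1
      (mem_pow_of_aeval_mem hf (h0 ▸ zero_mem _)) d (Nat.lt_succ_self _)
  -- the kernel is generated by the prime element
  have hqh : q ≤ Ideal.span {h} := by
    intro t ht
    by_contra hth
    have htP : aeval f t ∈ P := Ideal.Quotient.eq_zero_iff_mem.1 ht
    have hmin' : P ∈ (Ideal.span {aeval f h}).minimalPrimes := by
      refine ⟨⟨inferInstance, (Ideal.span_singleton_le_iff_mem _).2 hhP⟩, fun Q ⟨hQ, hQh⟩ hQP => ?_⟩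
      by_contra hne
      have h1 : 1 ≤ Q.height := by
        rw [← zero_add (1 : ℕ∞), ← Ideal.height_bot (R := A)]
        haveI := hQ
        refine Ideal.height_add_one_le_of_lt_of_isPrime (bot_lt_iff_ne_bot.2 fun hb => hh0 ?_)
        have := hQh (Ideal.mem_span_singleton_self _)
        rwa [hb, Ideal.mem_bot] at this
      haveI := hQ
      have h2 := Ideal.height_add_one_le_of_lt_of_isPrime (lt_of_le_not_ge hQP hne)
      have h3 := le_trans (le_trans (add_le_add_left h1 1) h2) hheight
      exact absurd h3 (by decide)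
    let others := ((Ideal.finite_minimalPrimes_of_isNoetherianRing A
      (Ideal.span {aeval f h})).toFinset.erase P)
    have hsep : ∀ Q ∈ others, ∃ x ∈ Q, x ∉ P := by
      intro Q hQ
      obtain ⟨hne, hQ⟩ := Finset.mem_erase.1 hQ
      rw [Set.Finite.mem_toFinset] at hQ
      by_contra hc
      push Not at hc
      exact hne (le_antisymm hc (hmin'.2 hQ.1 hc))
    choose! x hx hxP using hsep
    let s := ∏ Q ∈ others, x Q
    have hsP : s ∉ P := fun hs => by
      obtain ⟨Q, hQ, hQP⟩ := (‹P.IsPrime›.prod_mem_iff).1 hs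
      exact hxP Q hQ hQP
    have hrad : s * aeval f t ∈ (Ideal.span {aeval f h}).radical := by
      rw [← Ideal.sInf_minimalPrimes, Submodule.mem_sInf]
      intro Q hQ
      by_cases hQP : Q = P
      · exact hQP ▸ Ideal.mul_mem_left _ _ htP
      · refine Ideal.mul_mem_right _ _ (Ideal.mem_of_dvd _ (Finset.dvd_prod_of_mem x ?_) (hx Q ?_))
        <;> exact Finset.mem_erase.2 ⟨hQP, (Set.Finite.mem_toFinset _).2 hQ⟩
    obtain ⟨k, hk⟩ := hrad
    rw [mul_pow, ← map_pow] at hk
    haveI : (Ideal.span {h}).IsPrime :=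
      (Ideal.span_singleton_prime hhprime.ne_zero).2 hhprime
    set O := MvPolynomial (Fin g) K ⧸ Ideal.span {h}
    set π := Ideal.Quotient.mk (Ideal.span {h})
    have htk : π (t ^ k) ≠ 0 := fun h0 =>
      hth (Ideal.IsPrime.mem_of_pow_mem inferInstance k (Ideal.Quotient.eq_zero_iff_mem.1 h0))
    obtain ⟨c₀, hc₀⟩ := Ideal.exists_pow_inf_eq_pow_smul (I.map π)
      (Ideal.span {π (t ^ k)} : Submodule O O)
    have hsk : ∀ n, s ^ k ∈ P ⊔ RingHom.ker ev ^ n := by
      intro n
      obtain ⟨b, hb⟩ := exists_aeval_sub_mem hf (n + c₀) (s ^ k)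
      have h1 : aeval f (b * t ^ k) ∈
          (Ideal.span {h}).map (aeval f) ⊔ RingHom.ker ev ^ (n + c₀) := by
        rw [map_mul, show aeval f b * aeval f (t ^ k) = s ^ k * aeval f (t ^ k) -
          (s ^ k - aeval f b) * aeval f (t ^ k) by ring]
        refine sub_mem (Ideal.mem_sup_left ?_) (Ideal.mem_sup_right (Ideal.mul_mem_right _ _ hb))
        rwa [Ideal.map_span, Set.image_singleton]
      have h2 : b * t ^ k ∈ Ideal.span {h} ⊔ I ^ (n + c₀) := by
        obtain ⟨u, hu, v, hv, huv⟩ := Submodule.mem_sup.1 h1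
        rw [Ideal.map_span, Set.image_singleton, Ideal.mem_span_singleton] at hu
        obtain ⟨w, rfl⟩ := hu
        obtain ⟨w', hw'⟩ := exists_aeval_sub_mem hf (n + c₀) w
        rw [← add_sub_cancel (h * w') (b * t ^ k)]
        refine Submodule.add_mem_sup (Ideal.mem_span_singleton.2 (dvd_mul_right h w'))
          (mem_pow_of_aeval_mem hf ?_)
        rw [map_sub, ← huv, map_mul, add_sub_right_comm, ← mul_sub]
        exact add_mem (Ideal.mul_mem_left _ _ hw') hv
      have h3 : π (b * t ^ k) ∈ (I.map π ^ (n + c₀) • ⊤ : Submodule O O) ⊓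
          Ideal.span {π (t ^ k)} := by
        refine ⟨?_, ?_⟩
        · rw [Ideal.smul_eq_mul, Ideal.mul_top, ← Ideal.map_pow]
          obtain ⟨u, hu, v, hv, huv⟩ := Submodule.mem_sup.1 h2
          rw [← huv, map_add, Ideal.Quotient.eq_zero_iff_mem.2 hu, zero_add]
          exact Ideal.mem_map_of_mem π hv
        · exact Ideal.mem_span_singleton.2 (by rw [map_mul]; exact dvd_mul_left _ _)
      rw [hc₀ (n + c₀) (Nat.le_add_left _ _), Nat.add_sub_cancel] at h3
      have h4 : π (b * t ^ k) ∈
          ((I.map π) ^ n • Submodule.span O {π (t ^ k)} : Submodule O O) :=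
        Submodule.smul_mono le_rfl inf_le_right h3
      obtain ⟨y, hy, hye⟩ := Submodule.mem_smul_span_singleton.1 h4
      rw [smul_eq_mul, map_mul] at hye
      have hby : π b = y := (mul_right_cancel₀ htk hye).symm
      rw [← Ideal.map_pow, ← hby] at hy
      have hb2 : b ∈ Ideal.span {h} ⊔ I ^ n := by
        have := Ideal.mem_comap.2 hy
        rwa [Ideal.comap_map_of_surjective _ Ideal.Quotient.mk_surjective,
          show Ideal.comap π ⊥ = Ideal.span {h} from Ideal.mk_ker, sup_comm] at this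
      obtain ⟨u, hu, v, hv, huv⟩ := Submodule.mem_sup.1 hb2
      rw [← sub_add_cancel (s ^ k) (aeval f b), ← huv, map_add, add_comm]
      refine add_mem (add_mem (Ideal.mem_sup_left ?_) (Ideal.mem_sup_right (aeval_mem_pow hf hv)))
        (Ideal.mem_sup_right (Ideal.pow_le_pow_right (Nat.le_add_right n c₀)
          (by rwa [← huv, map_add] at hb)))
      obtain ⟨w, rfl⟩ := Ideal.mem_span_singleton.1 hu
      rw [map_mul]
      exact Ideal.mul_mem_right _ _ hhP
    obtain ⟨t', ht', ht's⟩ := exists_mul_mem_of_forall_mem (ev := ev) hsk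
    rcases Ideal.IsPrime.mem_or_mem inferInstance ht's with h' | h'
    · exact ht' (hP h')
    · exact hsP (Ideal.IsPrime.mem_of_pow_mem inferInstance k h')
  refine ⟨aeval f h, hhP, hh0, fun x hx => exists_mul_mem_of_forall_mem fun n => ?_⟩
  have := hdesc _ hqh x hx n
  rwa [Ideal.map_span, Set.image_singleton] at this

end FA.AbTors.Loc

end
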