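import Fermat.Agent.AbTors.Defs

/-!
# Torsion points from the pieces
-/

set_option autoImplicit false

noncomputable section

universe u

open CategoryTheory AlgebraicGeometry NeronModelInfra GoodReductionJacobian

namespace FA.AbTors

variable {K : Type u} [Field K] (V : AbVar K)

theorem nsmul_eq_law {T : Scheme.{u}} (t : T ⟶ Spec (CommRingCat.of K)) (n : ℕ) (x : V.Pt t) :
    n • x = V.law.nsmul t n x := by
  induction n with
  | zero => exact zero_nsmul x
  | succ n ih =>
    rw [succ_nsmul, ih]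
    rfl

theorem nsmul_eq_zero_iff {T : Scheme.{u}} (t : T ⟶ Spec (CommRingCat.of K)) (n : ℕ)
    (x : V.Pt t) : n • x = 0 ↔ V.law.IsTorsionPoint t n x := by
  rw [nsmul_eq_law V]
  exact Iff.rfl

/-- The statement on torsion points, from the pieces. -/
theorem natCard_torsion_of [IsAlgClosed K] {A : Scheme.{u}} (f : A ⟶ Spec (CommRingCat.of K))
    (L : RelativeGroupLaw K f) (hc : L.IsCommutative) (hA : AbelianSchemePropertyBundle K f)
    (g : ℕ) [hg : SmoothOfRelativeDimension g f]
    (hI : IntegralHolds (AbVar.mk A f L hc hA g hg)) (hF : FactorialStalks K)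
    (hD : ∀ [IrreducibleSpace (AbVar.mk A f L hc hA g hg).A]
      [IsIntegral (AbVar.mk A f L hc hA g hg).A], DegIsCard (AbVar.mk A f L hc hA g hg))
    (hQ : QuadraticHolds (AbVar.mk A f L hc hA g hg))
    (hS : SqueezeHolds (AbVar.mk A f L hc hA g hg)) (n : ℕ) (hn : (n : K) ≠ 0) :
    Nat.card {x : SchemeHomOver (𝟙 (Spec (CommRingCat.of K))) f //
      L.IsTorsionPoint (𝟙 (Spec (CommRingCat.of K))) n x} = n ^ (2 * g) := by
  set V := AbVar.mk A f L hc hA g hg
  haveI : IsIntegral V.A := hI.1
  refine Eq.trans (Nat.card_congr ?_) (hS hF hD hQ n hn)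
  exact Equiv.subtypeEquiv (Equiv.refl (V.Pt (𝟙 (Spec (CommRingCat.of K)))))
    fun x => (nsmul_eq_zero_iff V _ n x).symm

end FA.AbTors

end
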