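import Mathlib.AlgebraicGeometry.Restrict

/-!
# Line bundles as cocycles

A cocycle on a scheme is given by an open neighbourhood of each point and units on the
intersections.  Cocycles modulo coboundaries form an additive group `Pic X`, with a pullback along
every morphism.
-/

set_option autoImplicit false

noncomputable section

universe u

open CategoryTheory AlgebraicGeometry TopologicalSpace

namespace FA.AbTors

variable {X Y Z : Scheme.{u}}

/-- Pullback of units. -/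
def uApp (f : X ⟶ Y) (U : Y.Opens) (V : X.Opens) (e : V ≤ f ⁻¹ᵁ U) : Γ(Y, U)ˣ →* Γ(X, V)ˣ :=
  Units.map (f.appLE U V e).hom.toMonoidHom

theorem uApp_uApp (f : X ⟶ Y) (g : Y ⟶ Z) {U : Z.Opens} {V : Y.Opens} {W : X.Opens}
    (e₁ : V ≤ g ⁻¹ᵁ U) (e₂ : W ≤ f ⁻¹ᵁ V) (u : Γ(Z, U)ˣ) :
    uApp f V W e₂ (uApp g U V e₁ u) = uApp (f ≫ g) U W (fun _ hx => e₁ (e₂ hx)) u := by
  refine Units.ext ?_
  exact congrArg (fun φ : Γ(Z, U) ⟶ Γ(X, W) => φ.hom (u : Γ(Z, U)))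
    (Scheme.Hom.appLE_comp_appLE f g U V W e₁ e₂)

theorem uApp_congr {f f' : X ⟶ Y} (h : f = f') {U : Y.Opens} {V : X.Opens} (e : V ≤ f ⁻¹ᵁ U)
    (u : Γ(Y, U)ˣ) : uApp f U V e u = uApp f' U V (h ▸ e) u := by
  subst h; rfl

/-- Restriction of units. -/
def uRes (U V : X.Opens) (h : V ≤ U) : Γ(X, U)ˣ →* Γ(X, V)ˣ := uApp (𝟙 X) U V h

theorem uRes_uRes {U V W : X.Opens} (h₁ : V ≤ U) (h₂ : W ≤ V) (u : Γ(X, U)ˣ) :
    uRes V W h₂ (uRes U V h₁ u) = uRes U W (h₂.trans h₁) u :=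
  (uApp_uApp (𝟙 X) (𝟙 X) h₁ h₂ u).trans (uApp_congr (Category.comp_id _) _ _)

theorem uRes_self {U : X.Opens} (h : U ≤ U) (u : Γ(X, U)ˣ) : uRes U U h u = u := by
  refine Units.ext ?_
  show ((𝟙 X : X ⟶ X).appLE U ((𝟙 X : X ⟶ X) ⁻¹ᵁ U) le_rfl).hom (u : Γ(X, U)) =
    (u : Γ(X, U))
  rw [Scheme.Hom.appLE_eq_app]
  exact congrArg (fun φ : Γ(X, U) ⟶ Γ(X, U) => φ.hom (u : Γ(X, U))) (Scheme.Hom.id_app (X := X) U)

theorem uRes_uApp (f : X ⟶ Y) {U : Y.Opens} {V W : X.Opens} (e : V ≤ f ⁻¹ᵁ U) (h : W ≤ V)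
    (u : Γ(Y, U)ˣ) : uRes V W h (uApp f U V e u) = uApp f U W (h.trans e) u :=
  (uApp_uApp (𝟙 X) f e h u).trans (uApp_congr (Category.id_comp _) _ _)

theorem uApp_uRes (f : X ⟶ Y) {U U' : Y.Opens} {W : X.Opens} (h : U' ≤ U) (e : W ≤ f ⁻¹ᵁ U')
    (u : Γ(Y, U)ˣ) : uApp f U' W e (uRes U U' h u) = uApp f U W (fun _ hx => h (e hx)) u :=
  (uApp_uApp f (𝟙 Y) h e u).trans (uApp_congr (Category.comp_id _) _ _)

/-- A cocycle of units. -/
structure Coc (X : Scheme.{u}) where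
  /-- The neighbourhood of a point. -/
  U : X → X.Opens
  mem : ∀ x, x ∈ U x
  /-- The transition functions. -/
  g : ∀ x y, Γ(X, U x ⊓ U y)ˣ
  cocycle : ∀ (x y z : X) (W : X.Opens) (hx : W ≤ U x) (hy : W ≤ U y) (hz : W ≤ U z),
    uRes _ W (le_inf hx hz) (g x z) =
      uRes _ W (le_inf hx hy) (g x y) * uRes _ W (le_inf hy hz) (g y z)

/-- A transition function on a smaller open. -/
def Coc.at (c : Coc X) (x y : X) (W : X.Opens) (hx : W ≤ c.U x) (hy : W ≤ c.U y) : Γ(X, W)ˣ :=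
  uRes _ W (le_inf hx hy) (c.g x y)

theorem Coc.uRes_at (c : Coc X) (x y : X) {W W' : X.Opens} (hx : W ≤ c.U x) (hy : W ≤ c.U y)
    (h : W' ≤ W) : uRes W W' h (c.at x y W hx hy) = c.at x y W' (h.trans hx) (h.trans hy) := by
  rw [Coc.at, uRes_uRes]; rfl

theorem Coc.at_mul (c : Coc X) (x y z : X) {W : X.Opens} (hx : W ≤ c.U x) (hy : W ≤ c.U y)
    (hz : W ≤ c.U z) : c.at x z W hx hz = c.at x y W hx hy * c.at y z W hy hz :=
  c.cocycle x y z W hx hy hz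

theorem Coc.at_self (c : Coc X) (x : X) {W : X.Opens} (hx : W ≤ c.U x) :
    c.at x x W hx hx = 1 := by
  have h := c.at_mul x x x hx hx hx
  exact left_eq_mul.mp h

theorem Coc.at_symm (c : Coc X) (x y : X) {W : X.Opens} (hx : W ≤ c.U x) (hy : W ≤ c.U y) :
    c.at y x W hy hx = (c.at x y W hx hy)⁻¹ := by
  refine eq_inv_of_mul_eq_one_right ?_
  rw [← c.at_mul, c.at_self]

/-- Two cocycles differ by a coboundary. -/
def Coc.Rel (c d : Coc X) : Prop :=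
  ∃ (V : X → X.Opens) (_ : ∀ x, x ∈ V x) (hc : ∀ x, V x ≤ c.U x) (hd : ∀ x, V x ≤ d.U x)
    (w : ∀ x, Γ(X, V x)ˣ), ∀ (x y : X) (W : X.Opens) (hx : W ≤ V x) (hy : W ≤ V y),
      d.at x y W (hx.trans (hd x)) (hy.trans (hd y)) =
        c.at x y W (hx.trans (hc x)) (hy.trans (hc y)) *
          (uRes _ W hx (w x) / uRes _ W hy (w y))

theorem Coc.rel_refl (c : Coc X) : c.Rel c :=
  ⟨c.U, c.mem, fun _ => le_rfl, fun _ => le_rfl, fun _ => 1, fun x y W hx hy => by simp⟩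

theorem Coc.Rel.symm {c d : Coc X} (h : c.Rel d) : d.Rel c := by
  obtain ⟨V, hV, hc, hd, w, hw⟩ := h
  refine ⟨V, hV, hd, hc, fun x => (w x)⁻¹, fun x y W hx hy => ?_⟩
  rw [hw x y W hx hy, map_inv, map_inv, mul_assoc, inv_div_inv, div_mul_div_cancel, div_self', mul_one]

theorem Coc.Rel.trans {c d e : Coc X} (h : c.Rel d) (h' : d.Rel e) : c.Rel e := by
  obtain ⟨V, hV, hc, hd, w, hw⟩ := h
  obtain ⟨V', hV', hd', he', w', hw'⟩ := h'
  refine ⟨fun x => V x ⊓ V' x, fun x => ⟨hV x, hV' x⟩, fun x => inf_le_left.trans (hc x),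
    fun x => inf_le_right.trans (he' x),
    fun x => uRes _ _ inf_le_left (w x) * uRes _ _ inf_le_right (w' x), fun x y W hx hy => ?_⟩
  rw [hw' x y W (hx.trans inf_le_right) (hy.trans inf_le_right),
    hw x y W (hx.trans inf_le_left) (hy.trans inf_le_left)]
  simp only [map_mul, uRes_uRes]
  rw [mul_assoc, div_mul_div_comm]

instance : One (Coc X) :=
  ⟨⟨fun _ => ⊤, fun _ => trivial, fun _ _ => 1, fun _ _ _ _ _ _ _ => by simp⟩⟩

instance : Mul (Coc X) :=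
  ⟨fun c d => ⟨fun x => c.U x ⊓ d.U x, fun x => ⟨c.mem x, d.mem x⟩,
    fun x y => c.at x y _ (inf_le_left.trans inf_le_left) (inf_le_right.trans inf_le_left) *
      d.at x y _ (inf_le_left.trans inf_le_right) (inf_le_right.trans inf_le_right),
    fun x y z W hx hy hz => by
      simp only [map_mul]
      erw [Coc.uRes_at, Coc.uRes_at, Coc.uRes_at, Coc.uRes_at, Coc.uRes_at, Coc.uRes_at]
      rw [c.at_mul x y z (hx.trans inf_le_left) (hy.trans inf_le_left) (hz.trans inf_le_left),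
        d.at_mul x y z (hx.trans inf_le_right) (hy.trans inf_le_right) (hz.trans inf_le_right),
        mul_mul_mul_comm]⟩⟩

instance : Inv (Coc X) :=
  ⟨fun c => ⟨c.U, c.mem, fun x y => (c.g x y)⁻¹, fun x y z W hx hy hz => by
    simp only [map_inv]
    rw [c.cocycle x y z W hx hy hz, mul_inv]⟩⟩

theorem Coc.one_at (x y : X) (W : X.Opens) (hx hy) : (1 : Coc X).at x y W hx hy = 1 :=
  map_one _

theorem Coc.mul_at (c d : Coc X) (x y : X) (W : X.Opens) (hx hy) :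
    (c * d).at x y W hx hy = c.at x y W (hx.trans inf_le_left) (hy.trans inf_le_left) *
      d.at x y W (hx.trans inf_le_right) (hy.trans inf_le_right) := by
  show uRes _ _ _ (_ * _) = _
  rw [map_mul]
  erw [Coc.uRes_at, Coc.uRes_at]

theorem Coc.inv_at (c : Coc X) (x y : X) (W : X.Opens) (hx hy) :
    (c⁻¹).at x y W hx hy = (c.at x y W hx hy)⁻¹ :=
  map_inv _ _

/-- Equality of cocycles, up to shrinking the opens. -/
theorem Coc.rel_of_eq {c d : Coc X}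
    (h : ∀ (x y : X) (W : X.Opens) (hcx : W ≤ c.U x) (hcy : W ≤ c.U y) (hdx : W ≤ d.U x)
      (hdy : W ≤ d.U y), d.at x y W hdx hdy = c.at x y W hcx hcy) : c.Rel d :=
  ⟨fun x => c.U x ⊓ d.U x, fun x => ⟨c.mem x, d.mem x⟩, fun _ => inf_le_left,
    fun _ => inf_le_right, fun _ => 1, fun x y W hx hy => by
      simp [h x y W (hx.trans inf_le_left) (hy.trans inf_le_left) (hx.trans inf_le_right)
        (hy.trans inf_le_right)]⟩

theorem Coc.Rel.mul {c c' d d' : Coc X} (h : c.Rel c') (h' : d.Rel d') :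
    (c * d).Rel (c' * d') := by
  obtain ⟨V, hV, hc, hc', w, hw⟩ := h
  obtain ⟨V', hV', hd, hd', w', hw'⟩ := h'
  refine ⟨fun x => V x ⊓ V' x, fun x => ⟨hV x, hV' x⟩, fun x => inf_le_inf (hc x) (hd x),
    fun x => inf_le_inf (hc' x) (hd' x),
    fun x => uRes _ _ inf_le_left (w x) * uRes _ _ inf_le_right (w' x), fun x y W hx hy => ?_⟩
  rw [Coc.mul_at, Coc.mul_at, hw x y W (hx.trans inf_le_left) (hy.trans inf_le_left),
    hw' x y W (hx.trans inf_le_right) (hy.trans inf_le_right)]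
  simp only [map_mul, uRes_uRes]
  rw [mul_mul_mul_comm, div_mul_div_comm]

theorem Coc.Rel.inv {c c' : Coc X} (h : c.Rel c') : (c⁻¹).Rel c'⁻¹ := by
  obtain ⟨V, hV, hc, hc', w, hw⟩ := h
  refine ⟨V, hV, hc, hc', fun x => (w x)⁻¹, fun x y W hx hy => ?_⟩
  rw [Coc.inv_at, Coc.inv_at, hw x y W hx hy, map_inv, map_inv, mul_inv, inv_div, inv_div_inv]

variable (X) in
/-- Cocycles up to coboundaries. -/
def cocSetoid : Setoid (Coc X) :=
  ⟨Coc.Rel, Coc.rel_refl, Coc.Rel.symm, Coc.Rel.trans⟩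

/-- The Picard group by cocycles. -/
def Pic (X : Scheme.{u}) : Type u := Quotient (cocSetoid X)

/-- The class of a cocycle. -/
def Pic.mk (c : Coc X) : Pic X := Quotient.mk (cocSetoid X) c

theorem Pic.mk_eq_mk {c d : Coc X} : Pic.mk c = Pic.mk d ↔ c.Rel d :=
  Quotient.eq (r := cocSetoid X)

theorem Pic.mk_surjective : Function.Surjective (Pic.mk (X := X)) := Quotient.mk_surjective

instance : Zero (Pic X) := ⟨Pic.mk 1⟩
instance : Add (Pic X) := ⟨Quotient.map₂ (· * ·) fun _ _ h _ _ h' => h.mul h'⟩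
instance : Neg (Pic X) := ⟨Quotient.map (·⁻¹) fun _ _ h => h.inv⟩

theorem Pic.mk_mul (c d : Coc X) : Pic.mk (c * d) = Pic.mk c + Pic.mk d := rfl
theorem Pic.mk_one : Pic.mk (1 : Coc X) = 0 := rfl
theorem Pic.mk_inv (c : Coc X) : Pic.mk c⁻¹ = -Pic.mk c := rfl

instance : AddCommGroup (Pic X) where
  add_assoc := by
    rintro ⟨a⟩ ⟨b⟩ ⟨c⟩
    refine Pic.mk_eq_mk.mpr (Coc.rel_of_eq fun x y W _ _ _ _ => ?_)
    simp only [Coc.mul_at, mul_assoc]
  zero_add := by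
    rintro ⟨a⟩
    refine Pic.mk_eq_mk.mpr (Coc.rel_of_eq fun x y W _ _ _ _ => ?_)
    simp only [Coc.mul_at, Coc.one_at, one_mul]
  add_zero := by
    rintro ⟨a⟩
    refine Pic.mk_eq_mk.mpr (Coc.rel_of_eq fun x y W _ _ _ _ => ?_)
    simp only [Coc.mul_at, Coc.one_at, mul_one]
  neg_add_cancel := by
    rintro ⟨a⟩
    refine Pic.mk_eq_mk.mpr (Coc.rel_of_eq fun x y W _ _ _ _ => ?_)
    simp only [Coc.mul_at, Coc.one_at, Coc.inv_at, inv_mul_cancel]
  add_comm := by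
    rintro ⟨a⟩ ⟨b⟩
    refine Pic.mk_eq_mk.mpr (Coc.rel_of_eq fun x y W _ _ _ _ => ?_)
    simp only [Coc.mul_at, mul_comm]
  nsmul := nsmulRec
  zsmul := zsmulRec

/-- A class is zero iff it is a coboundary. -/
theorem Pic.mk_eq_zero {c : Coc X} : Pic.mk c = 0 ↔
    ∃ (V : X → X.Opens) (_ : ∀ x, x ∈ V x) (hc : ∀ x, V x ≤ c.U x) (w : ∀ x, Γ(X, V x)ˣ),
      ∀ (x y : X) (W : X.Opens) (hx : W ≤ V x) (hy : W ≤ V y),
        c.at x y W (hx.trans (hc x)) (hy.trans (hc y)) =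
          uRes _ W hx (w x) / uRes _ W hy (w y) := by
  rw [← Pic.mk_one, eq_comm, Pic.mk_eq_mk]
  constructor
  · rintro ⟨V, hV, h1, hc, w, hw⟩
    exact ⟨V, hV, hc, w, fun x y W hx hy => by rw [hw x y W hx hy, Coc.one_at, one_mul]⟩
  · rintro ⟨V, hV, hc, w, hw⟩
    exact ⟨V, hV, fun _ => le_top, hc, w, fun x y W hx hy => by
      rw [hw x y W hx hy, Coc.one_at, one_mul]⟩

/-- Pullback of a cocycle. -/
def Coc.pull (f : X ⟶ Y) (c : Coc Y) : Coc X where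
  U x := f ⁻¹ᵁ c.U (f x)
  mem x := c.mem (f x)
  g x y := uApp f (c.U (f x) ⊓ c.U (f y)) _ le_rfl (c.g (f x) (f y))
  cocycle x y z W hx hy hz := by
    let V := c.U (f x) ⊓ c.U (f y) ⊓ c.U (f z)
    have hW : W ≤ f ⁻¹ᵁ V := le_inf (le_inf hx hy) hz
    have h := congrArg (uApp f V W hW)
      (c.cocycle (f x) (f y) (f z) V (inf_le_left.trans inf_le_left)
        (inf_le_left.trans inf_le_right) inf_le_right)
    rw [map_mul, uApp_uRes, uApp_uRes, uApp_uRes] at h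
    erw [uRes_uApp, uRes_uApp, uRes_uApp]
    exact h

theorem Coc.pull_at (f : X ⟶ Y) (c : Coc Y) (x y : X) {W : X.Opens} {V : Y.Opens}
    (hx : W ≤ (c.pull f).U x) (hy : W ≤ (c.pull f).U y) (hVx : V ≤ c.U (f x))
    (hVy : V ≤ c.U (f y)) (hW : W ≤ f ⁻¹ᵁ V) :
    (c.pull f).at x y W hx hy = uApp f V W hW (c.at (f x) (f y) V hVx hVy) := by
  refine Eq.trans ?_ (uApp_uRes f _ hW (c.g (f x) (f y))).symm
  exact uRes_uApp f _ _ _

theorem Coc.Rel.pull (f : X ⟶ Y) {c d : Coc Y} (h : c.Rel d) :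
    (c.pull f).Rel (d.pull f) := by
  obtain ⟨V, hV, hc, hd, w, hw⟩ := h
  refine ⟨fun x => f ⁻¹ᵁ V (f x), fun x => hV (f x), fun x _ hy => hc _ hy,
    fun x _ hy => hd _ hy, fun x => uApp f _ _ le_rfl (w (f x)), fun x y W hx hy => ?_⟩
  have hW : W ≤ f ⁻¹ᵁ (V (f x) ⊓ V (f y)) := le_inf hx hy
  rw [Coc.pull_at f d x y _ _ (inf_le_left.trans (hd _)) (inf_le_right.trans (hd _)) hW,
    Coc.pull_at f c x y _ _ (inf_le_left.trans (hc _)) (inf_le_right.trans (hc _)) hW,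
    hw (f x) (f y) _ inf_le_left inf_le_right, map_mul, map_div, uApp_uRes, uApp_uRes,
    uRes_uApp, uRes_uApp]

/-- Pullback of classes. -/
def Pic.pull (f : X ⟶ Y) : Pic Y →+ Pic X where
  toFun := Quotient.map (Coc.pull f) fun _ _ h => h.pull f
  map_zero' := Pic.mk_eq_mk.mpr (Coc.rel_of_eq fun x y W _ _ hdx hdy => by
    rw [Coc.one_at, Coc.pull_at f 1 x y (V := ⊤) _ _ le_rfl le_rfl le_top, Coc.one_at, map_one])
  map_add' := by
    rintro ⟨a⟩ ⟨b⟩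
    refine Pic.mk_eq_mk.mpr (Coc.rel_of_eq fun x y W hcx hcy _ _ => ?_)
    have hW : W ≤ f ⁻¹ᵁ ((a * b).U (f x) ⊓ (a * b).U (f y)) := le_inf hcx hcy
    rw [Coc.mul_at, Coc.pull_at f (a * b) x y _ _ inf_le_left inf_le_right hW,
      Coc.pull_at f a x y _ _ (inf_le_left.trans inf_le_left) (inf_le_right.trans inf_le_left) hW,
      Coc.pull_at f b x y _ _ (inf_le_left.trans inf_le_right)
        (inf_le_right.trans inf_le_right) hW, Coc.mul_at, map_mul]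
    rfl

theorem Pic.pull_mk (f : X ⟶ Y) (c : Coc Y) : Pic.pull f (Pic.mk c) = Pic.mk (c.pull f) := rfl

theorem Pic.pull_pull (f : X ⟶ Y) (g : Y ⟶ Z) (p : Pic Z) :
    Pic.pull f (Pic.pull g p) = Pic.pull (f ≫ g) p := by
  obtain ⟨c, rfl⟩ := Pic.mk_surjective p
  refine Pic.mk_eq_mk.mpr (Coc.rel_of_eq fun x y W hcx hcy hdx hdy => ?_)
  have hW : W ≤ f ⁻¹ᵁ ((c.pull g).U (f x) ⊓ (c.pull g).U (f y)) := le_inf hcx hcy
  let V₂ : Z.Opens := c.U (g (f x)) ⊓ c.U (g (f y))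
  refine Eq.symm ((Coc.pull_at f (c.pull g) x y hcx hcy inf_le_left inf_le_right hW).trans ?_)
  refine (congrArg (uApp f _ W hW) (Coc.pull_at g c (f x) (f y) (V := V₂) inf_le_left inf_le_right
    inf_le_left inf_le_right (fun _ h => h))).trans ?_
  refine (uApp_uApp f g _ hW _).trans ?_
  exact (Coc.pull_at (f ≫ g) c x y (V := V₂) hdx hdy inf_le_left inf_le_right hW).symm

theorem Pic.pull_id (p : Pic X) : Pic.pull (𝟙 X) p = p := by
  obtain ⟨c, rfl⟩ := Pic.mk_surjective p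
  refine Pic.mk_eq_mk.mpr (Coc.rel_of_eq fun x y W hcx hcy hdx hdy => ?_)
  rw [Coc.pull_at (𝟙 X) c x y (V := W) hcx hcy hdx hdy (fun _ h => h)]
  exact (uRes_self _ _).symm

theorem Pic.pull_congr {f f' : X ⟶ Y} (h : f = f') (p : Pic Y) : Pic.pull f p = Pic.pull f' p := by
  rw [h]

end FA.AbTors

end
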