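import Fermat.Agent.AbTors.Eval
import Fermat.Agent.AbTors.Pic
import Mathlib.AlgebraicGeometry.FunctionField

/-!
# Trivialisations of classes by rational functions, on integral schemes
-/

set_option autoImplicit false

noncomputable section

universe u

open CategoryTheory AlgebraicGeometry TopologicalSpace Opposite

namespace FA.AbTors

variable {X X' : Scheme.{u}} [IsIntegral X] [IsIntegral X']

variable (X) in
/-- The generic point, as a morphism. -/
def genPt : Spec (CommRingCat.of X.functionField) ⟶ X := X.fromSpecStalk (genericPoint X)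

theorem ctr_genPt : ctr (genPt X) = genericPoint X := Scheme.fromSpecStalk_closedPoint

theorem genericPoint_mem {W : X.Opens} {z : X} (h : z ∈ W) : genericPoint X ∈ W :=
  ((genericPoint_spec X).specializes trivial).mem_open W.2 h

theorem gen_mem {W : X.Opens} {z : X} (h : z ∈ W) : ctr (genPt X) ∈ W := by
  rw [ctr_genPt]; exact genericPoint_mem h

theorem gen_le {W : X.Opens} {z : X} (h : z ∈ W) : ⊤ ≤ genPt X ⁻¹ᵁ W :=
  le_preimage_of_mem (gen_mem h)

theorem evF_res {R : Type u} [CommRing R] {Y : Scheme.{u}} (e : Spec (CommRingCat.of R) ⟶ Y)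
    {U U' : Y.Opens} (hle : U' ≤ U) (h : ⊤ ≤ e ⁻¹ᵁ U') (a : Γ(Y, U)) :
    evF e U' h ((Y.presheaf.map (homOfLE hle).op).hom a) = evF e U (fun _ hp => hle (h hp)) a :=
  congrArg (fun ψ : Γ(Y, U) ⟶ Γ(Spec (CommRingCat.of R), ⊤) =>
    (Scheme.ΓSpecIso (CommRingCat.of R)).hom.hom (ψ.hom a)) (Scheme.Hom.map_appLE e h _)

theorem fromSpecStalk_appLE {Y : Scheme.{u}} {y : Y} {W : Y.Opens} (h : y ∈ W)
    (e : ⊤ ≤ Y.fromSpecStalk y ⁻¹ᵁ W) :
    (Y.fromSpecStalk y).appLE W ⊤ e =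
      Y.presheaf.germ W y h ≫ (Scheme.ΓSpecIso (Y.presheaf.stalk y)).inv := by
  rw [show (Y.fromSpecStalk y).appLE W ⊤ e =
      (Y.fromSpecStalk y).app W ≫ (Spec _).presheaf.map (homOfLE e).op by
    rw [Scheme.Hom.app_eq_appLE, Scheme.Hom.appLE_map],
    Scheme.fromSpecStalk_app h, Category.assoc, Category.assoc, ← Functor.map_comp]
  refine congrArg (Y.presheaf.germ W y h ≫ ·) ?_
  refine Eq.trans (congrArg ((Scheme.ΓSpecIso (Y.presheaf.stalk y)).inv ≫ ·) ?_) (Category.comp_id _)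
  exact CategoryTheory.Functor.map_id _ _

theorem evF_genPt {W : X.Opens} (h : genericPoint X ∈ W) (a : Γ(X, W)) :
    evF (genPt X) W (gen_le h) a = (X.presheaf.germ W (genericPoint X) h).hom a := by
  have h1 : (genPt X).appLE W ⊤ (gen_le h) =
      X.presheaf.germ W (genericPoint X) h ≫
        (Scheme.ΓSpecIso (X.presheaf.stalk (genericPoint X))).inv :=
    fromSpecStalk_appLE h _
  refine (congrArg (fun ψ : Γ(X, W) ⟶ Γ(Spec (CommRingCat.of X.functionField), ⊤) =>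
    (Scheme.ΓSpecIso (CommRingCat.of X.functionField)).hom.hom (ψ.hom a)) h1).trans ?_
  exact congrArg (fun ψ : X.presheaf.stalk (genericPoint X) ⟶ X.presheaf.stalk (genericPoint X) =>
    ψ.hom ((X.presheaf.germ W (genericPoint X) h).hom a))
    (Scheme.ΓSpecIso (X.presheaf.stalk (genericPoint X))).inv_hom_id

theorem evF_genPt_injective {W : X.Opens} {z : X} (h : z ∈ W) :
    Function.Injective (evF (genPt X) W (gen_le h)) := by
  intro a b hab
  have h' := genericPoint_mem h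
  exact germ_injective_of_isIntegral X _ h' (by rw [← evF_genPt h', ← evF_genPt h']; exact hab)

omit [IsIntegral X] in
theorem sec_subsingleton {W : X.Opens} (h : ∀ z, z ∉ W) : Subsingleton Γ(X, W) :=
  CommRingCat.subsingleton_of_isTerminal
    (X.sheaf.isTerminalOfEqEmpty (Opens.ext (Set.eq_empty_of_forall_notMem h)))

/-- Sections with the same value at the generic point agree on the intersection. -/
theorem sec_eq {U U' W : X.Opens} (hU : W ≤ U) (hU' : W ≤ U') {z z' : X} (h : z ∈ U) (h' : z' ∈ U')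
    {a : Γ(X, U)} {b : Γ(X, U')}
    (e : evF (genPt X) U (gen_le h) a = evF (genPt X) U' (gen_le h') b) :
    (X.presheaf.map (homOfLE hU).op).hom a = (X.presheaf.map (homOfLE hU').op).hom b := by
  by_cases hW : ∃ q, q ∈ W
  · obtain ⟨q, hq⟩ := hW
    refine evF_genPt_injective hq ?_
    rw [evF_res, evF_res]
    exact e
  · exact @Subsingleton.elim _ (sec_subsingleton fun q hq => hW ⟨q, hq⟩) _ _

theorem uRes_val {Y : Scheme.{u}} {U U' : Y.Opens} (hle : U' ≤ U) (w : Γ(Y, U)ˣ) :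
    (uRes U U' hle w : Γ(Y, U')) = (Y.presheaf.map (homOfLE hle).op).hom (w : Γ(Y, U)) := by
  have h1 : ∀ e, (𝟙 Y : Y ⟶ Y).appLE U U' e = Y.presheaf.map (homOfLE hle).op := fun e =>
    (Scheme.Hom.appLE_map (𝟙 Y) (U := U) (V := U) le_rfl (homOfLE hle).op).symm.trans (by
      rw [show (𝟙 Y : Y ⟶ Y).appLE U U le_rfl = 𝟙 _ from
        (Scheme.Hom.appLE_eq_app (𝟙 Y)).trans (Scheme.Hom.id_app _), Category.id_comp])
  exact congrArg (fun ψ : Γ(Y, U) ⟶ Γ(Y, U') => ψ.hom (w : Γ(Y, U))) (h1 _)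

theorem unit_eq {U U' W : X.Opens} (hU : W ≤ U) (hU' : W ≤ U') {z z' : X} (h : z ∈ U) (h' : z' ∈ U')
    {a : Γ(X, U)ˣ} {b : Γ(X, U')ˣ}
    (e : (evU (genPt X) U (gen_le h) a : X.functionField) = evU (genPt X) U' (gen_le h') b) :
    uRes U W hU a = uRes U' W hU' b := by
  refine Units.ext ?_
  rw [uRes_val, uRes_val]
  exact sec_eq hU hU' h h' e

/-- A rational function is regular at a point. -/
def RegAt (z : X) (n : X.functionField) : Prop :=
  ∃ (W : X.Opens) (h : z ∈ W) (a : Γ(X, W)), evF (genPt X) W (gen_le h) a = n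

/-- A rational function is a unit at a point. -/
def UnitAt (z : X) (n : X.functionField) : Prop :=
  ∃ (W : X.Opens) (h : z ∈ W) (w : Γ(X, W)ˣ), (evU (genPt X) W (gen_le h) w : X.functionField) = n

variable {z : X} {m n : X.functionField}

theorem UnitAt.regAt (h : UnitAt z n) : RegAt z n := by
  obtain ⟨W, hz, w, hw⟩ := h
  exact ⟨W, hz, w, hw⟩

theorem UnitAt.ne_zero (h : UnitAt z n) : n ≠ 0 := by
  obtain ⟨W, hz, w, rfl⟩ := h
  exact Units.ne_zero _

theorem UnitAt.one : UnitAt z (1 : X.functionField) :=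
  ⟨⊤, trivial, 1, by rw [map_one, Units.val_one]⟩

theorem UnitAt.inv (h : UnitAt z n) : UnitAt z n⁻¹ := by
  obtain ⟨W, hz, w, rfl⟩ := h
  exact ⟨W, hz, w⁻¹, by rw [map_inv, Units.val_inv_eq_inv_val]⟩

theorem UnitAt.mul (h : UnitAt z m) (h' : UnitAt z n) : UnitAt z (m * n) := by
  obtain ⟨W, hz, w, rfl⟩ := h
  obtain ⟨W', hz', w', rfl⟩ := h'
  refine ⟨W ⊓ W', ⟨hz, hz'⟩, uRes W _ inf_le_left w * uRes W' _ inf_le_right w', ?_⟩
  rw [map_mul, Units.val_mul, evU_uRes, evU_uRes]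

theorem UnitAt.div (h : UnitAt z m) (h' : UnitAt z n) : UnitAt z (m / n) := by
  rw [div_eq_mul_inv]; exact h.mul h'.inv

theorem UnitAt.pow (h : UnitAt z m) (k : ℕ) : UnitAt z (m ^ k) := by
  induction k with
  | zero => rw [pow_zero]; exact UnitAt.one
  | succ k ih => rw [pow_succ]; exact ih.mul h

theorem isOpen_unitAt (n : X.functionField) : IsOpen {z : X | UnitAt z n} := by
  refine isOpen_iff_forall_mem_open.2 fun z ⟨W, hz, w, hw⟩ => ?_
  exact ⟨W, fun z' hz' => ⟨W, hz', w, hw⟩, W.2, hz⟩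

theorem unitAt_of_regAt (h : RegAt z n) (h' : RegAt z n⁻¹) (hn : n ≠ 0) : UnitAt z n := by
  obtain ⟨W, hz, a, ha⟩ := h
  obtain ⟨W', hz', b, hb⟩ := h'
  let a' := (X.presheaf.map (homOfLE (inf_le_left : W ⊓ W' ≤ W)).op).hom a
  let b' := (X.presheaf.map (homOfLE (inf_le_right : W ⊓ W' ≤ W')).op).hom b
  have hab : a' * b' = 1 := evF_genPt_injective (W := W ⊓ W') (z := z) ⟨hz, hz'⟩ (by
    rw [map_mul, map_one, evF_res, evF_res, ha, hb, mul_inv_cancel₀ hn])
  refine ⟨W ⊓ W', ⟨hz, hz'⟩, ⟨a', b', hab, mul_comm a' b' ▸ hab⟩, ?_⟩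
  rw [coe_evU]
  exact (evF_res _ _ _ _).trans ha

theorem regAt_iff_mem_range :
    RegAt z n ↔ n ∈ Set.range (algebraMap (X.presheaf.stalk z) X.functionField) := by
  constructor
  · rintro ⟨W, hz, a, rfl⟩
    refine ⟨(X.presheaf.germ W z hz).hom a, ?_⟩
    rw [evF_genPt (genericPoint_mem hz)]
    exact congrArg (fun ψ : Γ(X, W) ⟶ X.functionField => ψ.hom a)
      (X.presheaf.germ_stalkSpecializes hz _)
  · rintro ⟨s, rfl⟩
    obtain ⟨W, hz, a, rfl⟩ := X.presheaf.exists_germ_eq s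
    refine ⟨W, hz, a, ?_⟩
    rw [evF_genPt (genericPoint_mem hz)]
    exact (congrArg (fun ψ : Γ(X, W) ⟶ X.functionField => ψ.hom a)
      (X.presheaf.germ_stalkSpecializes hz _)).symm

theorem unitAt_generic (hn : n ≠ 0) : UnitAt (genericPoint X) n := by
  obtain ⟨U, -, a, hU, ha, hua⟩ := exists_isUnit_germ_eq X n hn
  obtain ⟨⟨q, hq⟩⟩ := hU
  refine ⟨U, genericPoint_mem hq, hua.unit, ?_⟩
  rw [coe_evU, IsUnit.unit_spec, evF_genPt (genericPoint_mem hq)]
  exact ha

/-- Regular rational functions on an open come from a section. -/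
theorem exists_sec {R : X.Opens} {q : X} (hq : q ∈ R) (h : ∀ z ∈ R, RegAt z n) :
    ∃ a : Γ(X, R), evF (genPt X) R (gen_le hq) a = n := by
  choose W hW a ha using h
  let U : R → X.Opens := fun z => W z z.2 ⊓ R
  let sf : ∀ z : R, Γ(X, U z) := fun z =>
    (X.presheaf.map (homOfLE (inf_le_left : U z ≤ W z z.2)).op).hom (a z z.2)
  have hcomp : TopCat.Presheaf.IsCompatible X.sheaf.1 U sf := fun z z' =>
    sec_eq (X := X) (U := U z) (U' := U z') (W := U z ⊓ U z') inf_le_left inf_le_right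
      (z := (z : X)) (z' := (z' : X)) ⟨hW _ z.2, z.2⟩
      ⟨hW _ z'.2, z'.2⟩ (((evF_res (genPt X) inf_le_left _ (a z z.2)).trans (ha z z.2)).trans
        ((evF_res (genPt X) inf_le_left _ (a z' z'.2)).trans (ha z' z'.2)).symm)
  obtain ⟨s, hs, -⟩ := X.sheaf.existsUnique_gluing' U R (fun z => homOfLE inf_le_right)
    (fun z hz => Opens.mem_iSup.2 ⟨⟨z, hz⟩, hW z hz, hz⟩) sf hcomp
  refine ⟨s, ?_⟩
  have h1 := congrArg (evF (genPt X) (U ⟨q, hq⟩) (gen_le (z := q) ⟨hW q hq, hq⟩)) (hs ⟨q, hq⟩)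
  exact (evF_res (genPt X) inf_le_right _ s).symm.trans
    (h1.trans ((evF_res (genPt X) inf_le_left _ (a q hq)).trans (ha q hq)))

/-! ### Trivialisations -/

/-- A transition function as a rational function. -/
def Coc.rat (c : Coc X) (a b : X) : X.functionField :=
  (evU (genPt X) (c.U a ⊓ c.U b)
    (le_preimage_of_mem ⟨gen_mem (c.mem a), gen_mem (c.mem b)⟩) (c.g a b) : X.functionField)

theorem Coc.rat_eq_at (c : Coc X) {a b : X} {W : X.Opens} (ha : W ≤ c.U a) (hb : W ≤ c.U b)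
    {q : X} (hq : q ∈ W) :
    c.rat a b = (evU (genPt X) W (gen_le hq) (c.at a b W ha hb) : X.functionField) := by
  rw [Coc.at, evU_uRes]; rfl

theorem Coc.rat_ne_zero (c : Coc X) (a b : X) : c.rat a b ≠ 0 := Units.ne_zero _

theorem Coc.rat_mul (c : Coc X) (a b d : X) : c.rat a d = c.rat a b * c.rat b d := by
  let W := c.U a ⊓ c.U b ⊓ c.U d
  have hq : genericPoint X ∈ W :=
    ⟨⟨genericPoint_mem (c.mem a), genericPoint_mem (c.mem b)⟩, genericPoint_mem (c.mem d)⟩
  have ha : W ≤ c.U a := inf_le_left.trans inf_le_left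
  have hb : W ≤ c.U b := inf_le_left.trans inf_le_right
  have hd : W ≤ c.U d := inf_le_right
  rw [c.rat_eq_at ha hd hq, c.rat_eq_at ha hb hq, c.rat_eq_at hb hd hq, c.at_mul a b d ha hb hd,
    map_mul, Units.val_mul]

theorem Coc.unitAt_rat (c : Coc X) {a b q : X} (ha : q ∈ c.U a) (hb : q ∈ c.U b) :
    UnitAt q (c.rat a b) :=
  ⟨c.U a ⊓ c.U b, ⟨ha, hb⟩, c.g a b, rfl⟩

theorem Coc.rat_mul_mul (c d : Coc X) (a b : X) : (c * d).rat a b = c.rat a b * d.rat a b := by
  have hq : genericPoint X ∈ (c * d).U a ⊓ (c * d).U b :=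
    ⟨genericPoint_mem ((c * d).mem a), genericPoint_mem ((c * d).mem b)⟩
  rw [(c * d).rat_eq_at inf_le_left inf_le_right hq, Coc.mul_at, map_mul, Units.val_mul,
    ← c.rat_eq_at _ _ hq, ← d.rat_eq_at _ _ hq]

theorem Coc.rat_one (a b : X) : (1 : Coc X).rat a b = 1 := by
  have hq : genericPoint X ∈ (⊤ : X.Opens) := trivial
  rw [(1 : Coc X).rat_eq_at (W := ⊤) le_rfl le_rfl hq, Coc.one_at, map_one, Units.val_one]

/-- `N` trivialises the cocycle on `O`. -/
def IsTriv (c : Coc X) (N : X.functionField) (O : X.Opens) : Prop :=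
  N ≠ 0 ∧ ∀ q ∈ O, UnitAt q (c.rat q (genericPoint X) * N)

variable {c d : Coc X} {N N' : X.functionField} {O O' : X.Opens}

theorem IsTriv.mono (h : IsTriv c N O) (hle : O' ≤ O) : IsTriv c N O' :=
  ⟨h.1, fun q hq => h.2 q (hle hq)⟩

theorem IsTriv.unitAt (h : IsTriv c N O) {q a : X} (hq : q ∈ O) (ha : q ∈ c.U a) :
    UnitAt q (c.rat a (genericPoint X) * N) := by
  rw [c.rat_mul a q, mul_assoc]
  exact (c.unitAt_rat ha (c.mem q)).mul (h.2 q hq)

theorem IsTriv.mul (h : IsTriv c N O) (h' : IsTriv d N' O) : IsTriv (c * d) (N * N') O :=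
  ⟨mul_ne_zero h.1 h'.1, fun q hq => by
    rw [Coc.rat_mul_mul, mul_mul_mul_comm]; exact (h.2 q hq).mul (h'.2 q hq)⟩

theorem isTriv_one : IsTriv (1 : Coc X) 1 O :=
  ⟨one_ne_zero, fun q _ => by rw [Coc.rat_one, mul_one]; exact UnitAt.one⟩

theorem IsTriv.ratio (h : IsTriv c N O) (h' : IsTriv c N' O) {q : X} (hq : q ∈ O) :
    UnitAt q (N / N') := by
  rw [← mul_div_mul_left N N' (c.rat_ne_zero q (genericPoint X))]
  exact (h.2 q hq).div (h'.2 q hq)

theorem IsTriv.mk_eq_zero (h : IsTriv c N ⊤) : Pic.mk c = 0 := by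
  choose W hW w hw using fun q : X => h.2 q trivial
  refine Pic.mk_eq_zero.mpr ⟨fun q => W q ⊓ c.U q, fun q => ⟨hW q, c.mem q⟩,
    fun q => inf_le_right, fun q => uRes (W q) _ inf_le_left (w q), fun x y U hx hy => ?_⟩
  rw [uRes_uRes, uRes_uRes]
  by_cases hU : ∃ q, q ∈ U
  · obtain ⟨q, hq⟩ := hU
    refine Units.ext (evF_genPt_injective (z := q) hq ?_)
    rw [← coe_evU, ← coe_evU, map_div, Units.val_div_eq_div_val, evU_uRes, evU_uRes, hw, hw,
      ← c.rat_eq_at _ _ hq, c.rat_mul x y (genericPoint X), mul_assoc]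
    exact (mul_div_cancel_right₀ _ (mul_ne_zero (c.rat_ne_zero _ _) h.1)).symm
  · exact Units.ext (@Subsingleton.elim _ (sec_subsingleton fun q hq => hU ⟨q, hq⟩) _ _)

theorem exists_isTriv_of_eq_zero (h : Pic.mk c = 0) : ∃ N, IsTriv c N ⊤ := by
  obtain ⟨V, hV, hc, w, hw⟩ := Pic.mk_eq_zero.mp h
  let v : X → X.functionField := fun q =>
    (evU (genPt X) (V q) (gen_le (hV q)) (w q) : X.functionField)
  refine ⟨v (genericPoint X), Units.ne_zero _, fun q _ => ?_⟩
  have hη : genericPoint X ∈ V q ⊓ V (genericPoint X) := ⟨genericPoint_mem (hV q), hV _⟩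
  have h1 : c.rat q (genericPoint X) = v q / v (genericPoint X) := by
    rw [c.rat_eq_at ((inf_le_left).trans (hc q)) ((inf_le_right).trans (hc _)) hη,
      hw q _ _ inf_le_left inf_le_right, map_div, Units.val_div_eq_div_val, evU_uRes, evU_uRes]
  rw [h1, div_mul_cancel₀ _ (Units.ne_zero _)]
  exact ⟨V q, hV q, w q, rfl⟩

theorem IsTriv.exists_of_rel (h : IsTriv c N O) (hr : c.Rel d) : ∃ N', IsTriv d N' O := by
  have h0 : Pic.mk (d * c⁻¹) = 0 := by
    rw [Pic.mk_mul, Pic.mk_inv, ← Pic.mk_eq_mk.mpr hr, add_neg_cancel]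
  obtain ⟨u, hu⟩ := exists_isTriv_of_eq_zero h0
  refine ⟨N * u, mul_ne_zero h.1 hu.1, fun q hq => ?_⟩
  have hci : c.rat q (genericPoint X) * c⁻¹.rat q (genericPoint X) = 1 := by
    rw [← Coc.rat_mul_mul]
    have hη : genericPoint X ∈ (c * c⁻¹).U q ⊓ (c * c⁻¹).U (genericPoint X) :=
      ⟨genericPoint_mem ((c * c⁻¹).mem q), (c * c⁻¹).mem _⟩
    rw [(c * c⁻¹).rat_eq_at inf_le_left inf_le_right hη, Coc.mul_at, Coc.inv_at, mul_inv_cancel,
      map_one, Units.val_one]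
  have h2 := (h.2 q hq).mul (hu.2 q trivial)
  rwa [Coc.rat_mul_mul, show c.rat q (genericPoint X) * N *
      (d.rat q (genericPoint X) * c⁻¹.rat q (genericPoint X) * u) =
    (c.rat q (genericPoint X) * c⁻¹.rat q (genericPoint X)) *
      (d.rat q (genericPoint X) * (N * u)) from by ring, hci, one_mul] at h2

/-! ### Pullback -/

/-- `n'` is the pullback of `n`, which is a unit at the image of the generic point. -/
def PullsTo (f : X' ⟶ X) (n : X.functionField) (n' : X'.functionField) : Prop :=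
  ∃ (W : X.Opens) (h : f (genericPoint X') ∈ W) (w : Γ(X, W)ˣ),
    (evU (genPt X) W (gen_le h) w : X.functionField) = n ∧
      (evU (genPt X' ≫ f) W
        (le_preimage_of_mem (show f (ctr (genPt X')) ∈ W by rw [ctr_genPt]; exact h)) w :
        X'.functionField) = n'

variable {f : X' ⟶ X} {n' m' : X'.functionField}

theorem PullsTo.exists (h : UnitAt (f (genericPoint X')) n) :
    ∃ n' : X'.functionField, PullsTo f n n' := by
  obtain ⟨W, hW, w, hw⟩ := h
  exact ⟨_, W, hW, w, hw, rfl⟩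

theorem PullsTo.mul (h : PullsTo f m m') (h' : PullsTo f n n') :
    PullsTo f (m * n) (m' * n') := by
  obtain ⟨W, hW, w, rfl, rfl⟩ := h
  obtain ⟨W', hW', w', rfl, rfl⟩ := h'
  refine ⟨W ⊓ W', ⟨hW, hW'⟩, uRes W _ inf_le_left w * uRes W' _ inf_le_right w', ?_, ?_⟩
  · rw [map_mul, Units.val_mul, evU_uRes, evU_uRes]
  · rw [map_mul, Units.val_mul, evU_uRes, evU_uRes]

theorem PullsTo.inv (h : PullsTo f n n') : PullsTo f n⁻¹ n'⁻¹ := by
  obtain ⟨W, hW, w, rfl, rfl⟩ := h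
  exact ⟨W, hW, w⁻¹, by rw [map_inv, Units.val_inv_eq_inv_val],
    by rw [map_inv, Units.val_inv_eq_inv_val]⟩

theorem PullsTo.unique (h : PullsTo f n n') (h' : PullsTo f n m') : n' = m' := by
  obtain ⟨W, hW, w, hw, rfl⟩ := h
  obtain ⟨W', hW', w', hw', rfl⟩ := h'
  have e := unit_eq (W := W ⊓ W') inf_le_left inf_le_right hW hW' (hw.trans hw'.symm)
  have hW2 : f (ctr (genPt X')) ∈ W ⊓ W' := by rw [ctr_genPt]; exact ⟨hW, hW'⟩
  have h1 := congrArg (fun v => (evU (genPt X' ≫ f) (W ⊓ W') (le_preimage_of_mem hW2) v :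
    X'.functionField)) e
  simpa only [evU_uRes] using h1

theorem PullsTo.unitAt (h : PullsTo f n n') {q' : X'} (hq : UnitAt (f q') n) :
    UnitAt q' n' := by
  obtain ⟨W, hW, w, hw⟩ := hq
  have hη : f (genericPoint X') ∈ W :=
    (((genericPoint_spec X').specializes trivial).map f.continuous).mem_open W.2 hW
  have h' : PullsTo f n _ := ⟨W, hη, w, hw, rfl⟩
  rw [h.unique h']
  exact ⟨f ⁻¹ᵁ W, hW, uApp f W _ le_rfl w, congrArg Units.val
    (evU_uApp (genPt X') f (U := W) (V := f ⁻¹ᵁ W) le_rfl (gen_le (z := q') hW) w)⟩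

theorem Coc.rat_pull (c : Coc X) (a b : X') :
    PullsTo f (c.rat (f a) (f b)) ((c.pull f).rat a b) := by
  have hη : ∀ q, f (genericPoint X') ∈ c.U (f q) := fun q =>
    (((genericPoint_spec X').specializes trivial).map f.continuous).mem_open (c.U _).2 (c.mem _)
  refine ⟨c.U (f a) ⊓ c.U (f b), ⟨hη a, hη b⟩, c.g (f a) (f b), rfl, ?_⟩
  exact (congrArg Units.val (evU_uApp (genPt X') f (U := c.U (f a) ⊓ c.U (f b))
    (V := f ⁻¹ᵁ (c.U (f a) ⊓ c.U (f b))) le_rfl
    (gen_le (z := genericPoint X') ⟨hη a, hη b⟩) (c.g (f a) (f b)))).symm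

/-- Pullback of a trivialisation: the value of the rescaled trivialisation at the image of the
generic point. -/
theorem IsTriv.pull (h : IsTriv c N O) (hη : f (genericPoint X') ∈ O) :
    ∃ N' : X'.functionField, IsTriv (c.pull f) N' (f ⁻¹ᵁ O) ∧
      PullsTo f (c.rat (f (genericPoint X')) (genericPoint X) * N) N' := by
  set z₁ := f (genericPoint X')
  obtain ⟨N', hN'⟩ := PullsTo.exists (h.2 z₁ hη)
  refine ⟨N', ⟨?_, fun q' hq' => ?_⟩, hN'⟩
  · obtain ⟨W, hW, w, -, rfl⟩ := hN'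
    exact Units.ne_zero _
  · refine ((c.rat_pull q' (genericPoint X')).mul hN').unitAt ?_
    rw [← mul_assoc, ← c.rat_mul]
    exact h.2 _ hq'

end FA.AbTors

end
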