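import Fermat.Agent.AbTors.Frame
import Fermat.Agent.AbTors.CubeDefs

/-!
# Reduction of the frame at a valuation centred over the generic point of the first factor
-/

set_option autoImplicit false
set_option linter.style.haveILetI false
set_option linter.unusedSectionVars false

noncomputable section

universe u

open CategoryTheory CategoryTheory.Limits AlgebraicGeometry TopologicalSpace IsLocalRing
open NeronModelInfra GoodReductionJacobian AlgebraicCurve FA.Curve FA.PicTors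

namespace FA.AbTors

instance {L : Type u} [Field L] [IsAlgClosed L] (w : ValuationSubring L) :
    IsAlgClosed (ResidueField w) :=
  isAlgClosed_residueField w

variable {K : Type u} [Field K] {V : AbVar K} [IsIntegral V.A] [IsIntegral V.A3]
variable (R : Frame V) {w : ValuationSubring V.L3} {z : V.A3} (hd : Dominates w z)
  (hz : V.hom V.pr1 z = genericPoint V.A)

namespace Frame

/-- The constants of the curve in the valuation ring. -/
def iLw : R.M →+* w := R.iL.codRestrict w.toSubring (R.iL_mem w z hd hz)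

/-- The constants in the residue field. -/
def iκ : R.M →+* ResidueField w := (IsLocalRing.residue w).comp (R.iLw hd hz)

/-- `K` in the valuation ring. -/
def iw : K →+* w := (R.iLw hd hz).comp (algebraMap K R.M)

theorem subtype_iw : w.subtype.comp (R.iw hd hz) = R.iK := rfl

theorem exists_spec (hX : ExtExists.{u}) (hS : SpecialisationHolds.{u}) :
    ∃ (Fκ : Type u) (_ : Field Fκ) (_ : Algebra (ResidueField w) Fκ) (φ₂ : R.F →+* Fκ)
      (h₂ : IsExt (R.iκ hd hz) φ₂) (W : ValuationSubring R.FL) (red : W →+* Fκ)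
      (sp : Place V.L3 R.FL → Place (ResidueField w) Fκ),
      SpecData R.h₁ h₂ w (IsLocalRing.residue w) W red sp := by
  obtain ⟨Fκ, _, _, φ₂, h₂⟩ := hX R.M (ResidueField w) R.F (R.iκ hd hz) R.hF
  obtain ⟨W, red, sp, h3, h4, h5, h6, h7, h8, h9⟩ :=
    hS R.M V.L3 (ResidueField w) R.F R.FL Fκ R.iL (R.iκ hd hz) R.φ₁ φ₂ R.h₁ h₂ w
      (IsLocalRing.residue w) IsLocalRing.residue_surjective
      (IsLocalHom.of_surjective _ IsLocalRing.residue_surjective)
      fun a => ⟨R.iL_mem w z hd hz a, rfl⟩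
  exact ⟨Fκ, _, _, φ₂, h₂, W, red, sp,
    ⟨IsLocalHom.of_surjective _ IsLocalRing.residue_surjective, h3, h4, h5, h6, h7, h8, h9⟩⟩

theorem eq_rng_of_gen {e : Spec (CommRingCat.of w) ⟶ Spec (CommRingCat.of K)}
    (h : Spec.map (CommRingCat.ofHom w.subtype) ≫ e = Spec.map (CommRingCat.ofHom R.iK)) :
    e = Spec.map (CommRingCat.ofHom (R.iw hd hz)) := by
  obtain ⟨α, rfl⟩ := Spec.map_surjective e
  rw [← Spec.map_comp] at h
  refine congrArg _ (CommRingCat.hom_ext (RingHom.ext fun r => Subtype.ext ?_))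
  exact congrArg (fun ψ : CommRingCat.of K ⟶ CommRingCat.of V.L3 => ψ.hom r) (Spec.map_injective h)

theorem domPt_str : domPt hd ≫ V.str3 = V.rng (R.iw hd hz) :=
  R.eq_rng_of_gen hd hz (by rw [← Category.assoc, domPt_gen, R.xi_str])

/-- The second generic point over the valuation ring. -/
def bw : V.Pt (V.rng (R.iw hd hz)) := V.precomp (domPt hd) (R.domPt_str hd hz) V.pr2

/-- The third generic point over the valuation ring. -/
def cw : V.Pt (V.rng (R.iw hd hz)) := V.precomp (domPt hd) (R.domPt_str hd hz) V.pr3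

/-- `K` in the residue field. -/
def iKκ : K →+* ResidueField w := (R.iκ hd hz).comp (algebraMap K R.M)

/-- The reduction of the second generic point. -/
def bκ : V.Pt (V.rng (R.iKκ hd hz)) := V.ringMap (IsLocalRing.residue w) rfl (R.bw hd hz)

/-- The reduction of the third generic point. -/
def cκ : V.Pt (V.rng (R.iKκ hd hz)) := V.ringMap (IsLocalRing.residue w) rfl (R.cw hd hz)

theorem hom_bκ_apply : V.hom (R.bκ hd hz) (closedPoint (ResidueField w)) = V.hom V.pr2 z := by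
  show ctr (Spec.map (CommRingCat.ofHom (IsLocalRing.residue w)) ≫ domPt hd ≫ V.hom V.pr2) = _
  haveI := IsLocalHom.of_surjective (IsLocalRing.residue w) IsLocalRing.residue_surjective
  rw [ctr_comp]
  exact congrArg (V.hom V.pr2) (ctr_domPt hd)

theorem hom_cκ_apply : V.hom (R.cκ hd hz) (closedPoint (ResidueField w)) = V.hom V.pr3 z := by
  show ctr (Spec.map (CommRingCat.ofHom (IsLocalRing.residue w)) ≫ domPt hd ≫ V.hom V.pr3) = _
  haveI := IsLocalHom.of_surjective (IsLocalRing.residue w) IsLocalRing.residue_surjective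
  rw [ctr_comp]
  exact congrArg (V.hom V.pr3) (ctr_domPt hd)

variable {Fκ : Type u} [Field Fκ] [Algebra (ResidueField w) Fκ] (φ₂ : R.F →+* Fκ)
  (h₂ : IsExt (R.iκ hd hz) φ₂)

include h₂ in
theorem φ₂_comp : φ₂.comp ((algebraMap R.M R.F).comp (algebraMap K R.M)) =
    (algebraMap (ResidueField w) Fκ).comp (R.iKκ hd hz) :=
  RingHom.ext fun a => h₂.comm (algebraMap K R.M a)

/-- The reduced curve and points. -/
def xκ : Spec (CommRingCat.of Fκ) ⟶ V.A3 :=
  V.mk3 (V.ringMap φ₂ (R.φ₂_comp hd hz φ₂ h₂) R.φ)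
    (V.ringMap (algebraMap (ResidueField w) Fκ) rfl (R.bκ hd hz))
    (V.ringMap (algebraMap (ResidueField w) Fκ) rfl (R.cκ hd hz))

theorem xκ_str : R.xκ hd hz φ₂ h₂ ≫ V.str3 =
    Spec.map (CommRingCat.ofHom ((algebraMap (ResidueField w) Fκ).comp (R.iKκ hd hz))) :=
  V.mk3_str _ _ _

/-- The value of the reduced curve and points at a place. -/
abbrev valκ (v : Place (ResidueField w) Fκ) : Spec (CommRingCat.of (ResidueField w)) ⟶ V.A3 :=
  valPt (R.iKκ hd hz) h₂.isFunctionField (R.xκ hd hz φ₂ h₂) (R.xκ_str hd hz φ₂ h₂) v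

/-- The value of the curve and points over the geometric generic point. -/
abbrev valL (v : Place V.L3 R.FL) : Spec (CommRingCat.of V.L3) ⟶ V.A3 :=
  valPt R.iK R.h₁.isFunctionField R.xL R.xL_str v

/-- The centre over the geometric generic point. -/
abbrev ctrL (v : Place V.L3 R.FL) : V.A3 := placeCtr R.iK R.xL R.xL_str v

/-- The centre on the reduction. -/
abbrev ctrκ (v : Place (ResidueField w) Fκ) : V.A3 :=
  placeCtr (R.iKκ hd hz) (R.xκ hd hz φ₂ h₂) (R.xκ_str hd hz φ₂ h₂) v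

variable {W : ValuationSubring R.FL} {red : W →+* Fκ}
  {sp : Place V.L3 R.FL → Place (ResidueField w) Fκ}
  (S : SpecData R.h₁ h₂ w (IsLocalRing.residue w) W red sp)

include S

theorem valκ_sp (v : Place V.L3 R.FL) (e : Spec (CommRingCat.of w) ⟶ V.A3)
    (he : Spec.map (CommRingCat.ofHom w.subtype) ≫ e = R.valL v) :
    R.valκ hd hz φ₂ h₂ (sp v) = Spec.map (CommRingCat.ofHom (IsLocalRing.residue w)) ≫ e := by
  have hes : e ≫ V.str3 = V.rng (R.iw hd hz) :=
    R.eq_rng_of_gen hd hz (by rw [← Category.assoc, he, valPt_str])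
  have hstr : ∀ a : V.Pt V.str3, (e ≫ V.hom a) ≫ V.str = V.rng (R.iw hd hz) := fun a => by
    rw [Category.assoc, V.hom_str, hes]
  refine V.hom3_ext ?_ ?_ ?_
  · rw [← valPt_comp (R.iKκ hd hz) h₂.isFunctionField _ (R.xκ_str hd hz φ₂ h₂) (V.hom V.pr1)
      (V.hom_str V.pr1), Category.assoc]
    refine (valPt_congr _ _ _ _ (map_over (algebraMap K R.M) (V.hom R.φ) (V.hom_str R.φ) h₂
      (R.iKκ hd hz) rfl) (V.mk3_pr1 _ _ _) _).trans ?_
    refine valPt_sp (algebraMap K R.M) (V.hom R.φ) (V.hom_str R.φ) R.h₁ R.iK rfl S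
      (R.iKκ hd hz) rfl v (e ≫ V.hom V.pr1) ?_ ?_
    · rw [← Category.assoc, he]; exact R.valPt_xL_pr1 v
    · rw [Category.assoc, hstr, ← Spec.map_comp]; rfl
  · rw [← valPt_comp (R.iKκ hd hz) h₂.isFunctionField _ (R.xκ_str hd hz φ₂ h₂) (V.hom V.pr2)
      (V.hom_str V.pr2), Category.assoc]
    refine (valPt_const _ _ _ _ _ (V.hom_str (R.bκ hd hz)) (V.mk3_pr2 _ _ _) _).trans ?_
    refine congrArg (Spec.map (CommRingCat.ofHom (IsLocalRing.residue w)) ≫ ·) ?_
    refine extension_unique V.str w ?_ ((V.hom_str (R.bw hd hz)).trans (hstr V.pr2).symm)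
    show Spec.map _ ≫ domPt hd ≫ V.hom V.pr2 = Spec.map _ ≫ e ≫ V.hom V.pr2
    rw [← Category.assoc, ← Category.assoc, he]
    refine Eq.trans ?_ (R.valPt_xL_pr2 v).symm
    exact congrArg (· ≫ V.hom V.pr2) (domPt_gen hd)
  · rw [← valPt_comp (R.iKκ hd hz) h₂.isFunctionField _ (R.xκ_str hd hz φ₂ h₂) (V.hom V.pr3)
      (V.hom_str V.pr3), Category.assoc]
    refine (valPt_const _ _ _ _ _ (V.hom_str (R.cκ hd hz)) (V.mk3_pr3 _ _ _) _).trans ?_
    refine congrArg (Spec.map (CommRingCat.ofHom (IsLocalRing.residue w)) ≫ ·) ?_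
    refine extension_unique V.str w ?_ ((V.hom_str (R.cw hd hz)).trans (hstr V.pr3).symm)
    show Spec.map _ ≫ domPt hd ≫ V.hom V.pr3 = Spec.map _ ≫ e ≫ V.hom V.pr3
    rw [← Category.assoc, ← Category.assoc, he]
    refine Eq.trans ?_ (R.valPt_xL_pr3 v).symm
    exact congrArg (· ≫ V.hom V.pr3) (domPt_gen hd)

theorem ctrκ_sp (v : Place V.L3 R.FL) (e : Spec (CommRingCat.of w) ⟶ V.A3)
    (he : Spec.map (CommRingCat.ofHom w.subtype) ≫ e = R.valL v) :
    R.ctrκ hd hz φ₂ h₂ (sp v) = ctr e := by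
  haveI := S.res_local
  exact (placeCtr_eq_ctr_valPt (R.iKκ hd hz) h₂.isFunctionField _ _ _).trans
    ((congrArg ctr (R.valκ_sp hd hz φ₂ h₂ S v e he)).trans (ctr_comp _ _))

theorem hctr (v : Place V.L3 R.FL) : R.ctrL v ⤳ R.ctrκ hd hz φ₂ h₂ (sp v) := by
  obtain ⟨e, he, -⟩ := exists_extension V.str3 w (R.valL v)
    (Spec.map (CommRingCat.ofHom (R.iw hd hz))) (by
      rw [valPt_str, ← Spec.map_comp, ← CommRingCat.ofHom_comp]; rfl)
  rw [R.ctrκ_sp hd hz φ₂ h₂ S v e he]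
  refine (Inseparable.of_eq ((placeCtr_eq_ctr_valPt R.iK R.h₁.isFunctionField R.xL R.xL_str
    v).trans (congrArg ctr he.symm))).specializes.trans ?_
  exact specializes_ctr w.subtype e

theorem ctrκ_Q : R.ctrκ hd hz φ₂ h₂ (sp (R.h₁.up R.Q)) = z :=
  (R.ctrκ_sp hd hz φ₂ h₂ S _ (domPt hd) ((domPt_gen hd).trans R.valPt_xL_Q.symm)).trans
    (ctr_domPt hd)

theorem ctrκ_P : R.ctrκ hd hz φ₂ h₂ (sp (R.h₁.up R.P)) = σ₀ V z := by
  refine (R.ctrκ_sp hd hz φ₂ h₂ S _ (domPt hd ≫ σ₀ V) ?_).trans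
    (congrArg (σ₀ V) (ctr_domPt hd))
  rw [← Category.assoc, domPt_gen]
  exact R.valPt_xL_P.symm

/-- The point over the Gauss valuation. -/
def xW : Spec (CommRingCat.of W) ⟶ V.A3 :=
  V.mk3
    (V.ringMap ((R.φ₁).codRestrict W.toSubring fun e => (S.red_F e).1)
      (j := (((algebraMap V.L3 R.FL).comp w.subtype).codRestrict W.toSubring
        fun a => (S.red_const a).1).comp (R.iw hd hz))
      (RingHom.ext fun a => Subtype.ext (RingHom.congr_fun R.φ₁_comp a)) R.φ)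
    (V.ringMap _ rfl (R.bw hd hz)) (V.ringMap _ rfl (R.cw hd hz))

theorem xW_gen :
    Spec.map (CommRingCat.ofHom W.subtype) ≫ R.xW hd hz φ₂ h₂ S = R.xL := by
  refine V.hom3_ext ?_ ?_ ?_
  · rw [Category.assoc, Frame.xW, AbVar.mk3_pr1, Frame.xL, AbVar.mk3_pr1]
    show Spec.map _ ≫ Spec.map _ ≫ V.hom R.φ = Spec.map _ ≫ V.hom R.φ
    rw [← Category.assoc, ← Spec.map_comp, ← CommRingCat.ofHom_comp]
    rfl
  · rw [Category.assoc, Frame.xW, AbVar.mk3_pr2, Frame.xL, AbVar.mk3_pr2]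
    show Spec.map _ ≫ Spec.map _ ≫ domPt hd ≫ V.hom V.pr2 = Spec.map _ ≫ V.xi ≫ V.hom V.pr2
    rw [AbVar.xi, ← domPt_gen hd]
    simp only [← Category.assoc, ← Spec.map_comp, ← CommRingCat.ofHom_comp]
    rfl
  · rw [Category.assoc, Frame.xW, AbVar.mk3_pr3, Frame.xL, AbVar.mk3_pr3]
    show Spec.map _ ≫ Spec.map _ ≫ domPt hd ≫ V.hom V.pr3 = Spec.map _ ≫ V.xi ≫ V.hom V.pr3
    rw [AbVar.xi, ← domPt_gen hd]
    simp only [← Category.assoc, ← Spec.map_comp, ← CommRingCat.ofHom_comp]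
    rfl

theorem xW_red :
    Spec.map (CommRingCat.ofHom red) ≫ R.xW hd hz φ₂ h₂ S = R.xκ hd hz φ₂ h₂ := by
  refine V.hom3_ext ?_ ?_ ?_
  · rw [Category.assoc, Frame.xW, AbVar.mk3_pr1, Frame.xκ, AbVar.mk3_pr1]
    show Spec.map _ ≫ Spec.map _ ≫ V.hom R.φ = Spec.map _ ≫ V.hom R.φ
    rw [← Category.assoc, ← Spec.map_comp, ← CommRingCat.ofHom_comp]
    exact congrArg (fun f => Spec.map (CommRingCat.ofHom f) ≫ V.hom R.φ)
      (RingHom.ext fun e => (S.red_F e).2)
  · rw [Category.assoc, Frame.xW, AbVar.mk3_pr2, Frame.xκ, AbVar.mk3_pr2]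
    show Spec.map _ ≫ Spec.map _ ≫ V.hom (R.bw hd hz) =
      Spec.map _ ≫ Spec.map _ ≫ V.hom (R.bw hd hz)
    simp only [← Category.assoc, ← Spec.map_comp, ← CommRingCat.ofHom_comp]
    exact congrArg (fun f => Spec.map (CommRingCat.ofHom f) ≫ V.hom (R.bw hd hz))
      (RingHom.ext fun a => (S.red_const a).2)
  · rw [Category.assoc, Frame.xW, AbVar.mk3_pr3, Frame.xκ, AbVar.mk3_pr3]
    show Spec.map _ ≫ Spec.map _ ≫ V.hom (R.cw hd hz) =
      Spec.map _ ≫ Spec.map _ ≫ V.hom (R.cw hd hz)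
    simp only [← Category.assoc, ← Spec.map_comp, ← CommRingCat.ofHom_comp]
    exact congrArg (fun f => Spec.map (CommRingCat.ofHom f) ≫ V.hom (R.cw hd hz))
      (RingHom.ext fun a => (S.red_const a).2)

theorem classMap_xL (p : Pic V.A3) :
    S.classMap (pullCl R.iK R.h₁.isFunctionField R.xL R.xL_str p) =
      pullCl (R.iKκ hd hz) h₂.isFunctionField (R.xκ hd hz φ₂ h₂) (R.xκ_str hd hz φ₂ h₂) p :=
  S.classMap_pullCl R.iK (R.iKκ hd hz) R.xL R.xL_str _ (R.xκ_str hd hz φ₂ h₂)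
    (R.xW hd hz φ₂ h₂ S) (R.xW_gen hd hz φ₂ h₂ S) (R.xW_red hd hz φ₂ h₂ S)
    (R.hctr hd hz φ₂ h₂ S) p

end Frame

end FA.AbTors

end
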