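import Fermat.Agent.AbTors.Pic
import Fermat.Prelude.Def_JacJ1Iface
import Fermat.Prelude.Def_GoodReductionJacobian_RelativeGroupLawKernel
import Mathlib.AlgebraicGeometry.FunctionField
import Mathlib.AlgebraicGeometry.Pullbacks

/-!
# An abelian variety, its points, and the cube of a class

`AbVar K` bundles the hypotheses of the statement on torsion points.  Points with values in any
scheme over `K` form an additive group; `cube` is the alternating sum of pullbacks along the sums
of three points.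
-/

set_option autoImplicit false

noncomputable section

universe u

open CategoryTheory CategoryTheory.Limits AlgebraicGeometry NeronModelInfra GoodReductionJacobian

namespace FA.AbTors

variable {K : Type u} [Field K]

/-- The data of an abelian variety. -/
structure AbVar (K : Type u) [Field K] where
  /-- The scheme. -/
  A : Scheme.{u}
  /-- The structure map. -/
  str : A ⟶ Spec (CommRingCat.of K)
  /-- The group law. -/
  law : RelativeGroupLaw K str
  comm : law.IsCommutative
  prop : AbelianSchemePropertyBundle K str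
  /-- The dimension. -/
  dim : ℕ
  smoothDim : SmoothOfRelativeDimension dim str

variable (V : AbVar K)

instance : Smooth V.str := V.prop.smooth
instance : IsProper V.str := V.prop.proper
instance : SmoothOfRelativeDimension V.dim V.str := V.smoothDim

/-- The points over `t`. -/
def AbVar.Pt {T : Scheme.{u}} (t : T ⟶ Spec (CommRingCat.of K)) : Type u := SchemeHomOver t V.str

/-- The morphism of a point. -/
def AbVar.hom {T : Scheme.{u}} {t : T ⟶ Spec (CommRingCat.of K)} (x : V.Pt t) : T ⟶ V.A := x.1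

theorem AbVar.hom_str {T : Scheme.{u}} {t : T ⟶ Spec (CommRingCat.of K)} (x : V.Pt t) :
    V.hom x ≫ V.str = t := x.2

/-- A point from a morphism. -/
def AbVar.mkPt {T : Scheme.{u}} {t : T ⟶ Spec (CommRingCat.of K)} (φ : T ⟶ V.A)
    (h : φ ≫ V.str = t) : V.Pt t := ⟨φ, h⟩

@[simp]
theorem AbVar.hom_mkPt {T : Scheme.{u}} {t : T ⟶ Spec (CommRingCat.of K)} (φ : T ⟶ V.A)
    (h : φ ≫ V.str = t) : V.hom (V.mkPt φ h) = φ := rfl

@[ext]
theorem AbVar.ptExt {T : Scheme.{u}} {t : T ⟶ Spec (CommRingCat.of K)} {x y : V.Pt t}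
    (h : V.hom x = V.hom y) : x = y := Subtype.ext h

instance {T : Scheme.{u}} (t : T ⟶ Spec (CommRingCat.of K)) : Zero (V.Pt t) := ⟨V.law.one t⟩
instance {T : Scheme.{u}} (t : T ⟶ Spec (CommRingCat.of K)) : Add (V.Pt t) := ⟨V.law.mul t⟩
instance {T : Scheme.{u}} (t : T ⟶ Spec (CommRingCat.of K)) : Neg (V.Pt t) := ⟨V.law.inv t⟩

instance {T : Scheme.{u}} (t : T ⟶ Spec (CommRingCat.of K)) : AddCommGroup (V.Pt t) where
  add_assoc := V.law.mul_assoc t
  zero_add := V.law.one_mul t
  add_zero := V.law.mul_one t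
  neg_add_cancel := V.law.inv_mul_cancel t
  add_comm := V.comm t
  nsmul := nsmulRec
  zsmul := zsmulRec

/-- Precomposition. -/
def AbVar.precomp {T T' : Scheme.{u}} {t : T ⟶ Spec (CommRingCat.of K)}
    {t' : T' ⟶ Spec (CommRingCat.of K)} (ψ : T' ⟶ T) (h : ψ ≫ t = t') : V.Pt t →+ V.Pt t' :=
  AddMonoidHom.mk' (schemeHomOverComp ψ h) (V.law.mul_natural t t' ψ h)

@[simp]
theorem AbVar.hom_precomp {T T' : Scheme.{u}} {t : T ⟶ Spec (CommRingCat.of K)}
    {t' : T' ⟶ Spec (CommRingCat.of K)} (ψ : T' ⟶ T) (h : ψ ≫ t = t') (x : V.Pt t) :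
    V.hom (V.precomp ψ h x) = ψ ≫ V.hom x := rfl

/-- The identity point. -/
def AbVar.self : V.Pt V.str := V.mkPt (𝟙 V.A) (Category.id_comp _)

/-- Multiplication by `n`. -/
def AbVar.mulHom (n : ℕ) : V.A ⟶ V.A := V.hom (n • V.self)

theorem AbVar.mulHom_str (n : ℕ) : V.mulHom n ≫ V.str = V.str := V.hom_str _

/-- The inverse. -/
def AbVar.negHom : V.A ⟶ V.A := V.hom (-V.self)

/-- The alternating sum of the pullbacks of a class along the sums of three points. -/
def AbVar.cube (p : Pic V.A) {T : Scheme.{u}} {t : T ⟶ Spec (CommRingCat.of K)}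
    (a b c : V.Pt t) : Pic T :=
  Pic.pull (V.hom (a + b + c)) p - Pic.pull (V.hom (a + b)) p - Pic.pull (V.hom (a + c)) p -
    Pic.pull (V.hom (b + c)) p + Pic.pull (V.hom a) p + Pic.pull (V.hom b) p +
    Pic.pull (V.hom c) p - Pic.pull (V.hom (0 : V.Pt t)) p

theorem AbVar.pull_cube (p : Pic V.A) {T T' : Scheme.{u}} {t : T ⟶ Spec (CommRingCat.of K)}
    {t' : T' ⟶ Spec (CommRingCat.of K)} (ψ : T' ⟶ T) (h : ψ ≫ t = t') (a b c : V.Pt t) :
    Pic.pull ψ (V.cube p a b c) =
      V.cube p (V.precomp ψ h a) (V.precomp ψ h b) (V.precomp ψ h c) := by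
  have h0 : ψ ≫ V.hom (0 : V.Pt t) = V.hom (0 : V.Pt t') :=
    (V.hom_precomp ψ h 0).symm.trans (congrArg V.hom (map_zero _))
  rw [AbVar.cube, AbVar.cube]
  simp only [← map_add (V.precomp ψ h)]
  simp only [map_sub (Pic.pull ψ), map_add (Pic.pull ψ), Pic.pull_pull, h0, AbVar.hom_precomp]

/-- The square `A × A`. -/
abbrev AbVar.A2 : Scheme.{u} := pullback V.str V.str

/-- The structure map of the square. -/
abbrev AbVar.str2 : V.A2 ⟶ Spec (CommRingCat.of K) := pullback.fst V.str V.str ≫ V.str

/-- The cube `A × A × A`. -/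
abbrev AbVar.A3 : Scheme.{u} := pullback V.str2 V.str

/-- The structure map of the cube. -/
abbrev AbVar.str3 : V.A3 ⟶ Spec (CommRingCat.of K) := pullback.fst V.str2 V.str ≫ V.str2

/-- The first projection. -/
def AbVar.pr1 : V.Pt V.str3 :=
  V.mkPt (pullback.fst V.str2 V.str ≫ pullback.fst V.str V.str) (Category.assoc _ _ _)

/-- The second projection. -/
def AbVar.pr2 : V.Pt V.str3 :=
  V.mkPt (pullback.fst V.str2 V.str ≫ pullback.snd V.str V.str) (by
    rw [Category.assoc, ← pullback.condition])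

/-- The third projection. -/
def AbVar.pr3 : V.Pt V.str3 := V.mkPt (pullback.snd V.str2 V.str) pullback.condition.symm

/-- The structure map of a field over `K`. -/
abbrev AbVar.fld (_V : AbVar K) (F : Type u) [Field F] [Algebra K F] :
    Spec (CommRingCat.of F) ⟶ Spec (CommRingCat.of K) :=
  Spec.map (CommRingCat.ofHom (algebraMap K F))

/-- The structure map of a ring over `K`. -/
abbrev AbVar.rng (_V : AbVar K) {R : Type u} [CommRing R] (i : K →+* R) :
    Spec (CommRingCat.of R) ⟶ Spec (CommRingCat.of K) :=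
  Spec.map (CommRingCat.ofHom i)

/-- The map of points along a map of rings over `K`. -/
def AbVar.ringMap {R S : Type u} [CommRing R] [CommRing S] {i : K →+* R} {j : K →+* S}
    (φ : R →+* S) (h : φ.comp i = j) : V.Pt (V.rng i) →+ V.Pt (V.rng j) :=
  V.precomp (Spec.map (CommRingCat.ofHom φ)) (by
    subst h; rw [← Spec.map_comp]; rfl)

end FA.AbTors

end
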