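import Fermat.Agent.AbTors.SpecGauss
import Fermat.Agent.AbTors.SpecPoly
import Mathlib.RingTheory.Valuation.LocalSubring

/-!
# Specialisation of places

A place of `F L` specialises to the place of `F κ` where the functions of `F` take the reduced
values.  A place of a constant extension is determined by the values of the functions of `F`, and
one function of `F` separates a place from finitely many others.
-/

set_option autoImplicit false
set_option linter.style.haveILetI false
set_option linter.unusedSectionVars false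

noncomputable section

namespace FA.AbTors

open AlgebraicCurve FA.Curve FA.PicTors FA.ModField IntermediateField Polynomial

section Ext

variable {k L F F' : Type*} [Field k] [Field L] [Field F] [Field F'] [Algebra k F] [Algebra L F']
  [IsAlgClosed k] [IsAlgClosed L] {i : k →+* L} {φ : F →+* F'} (h : IsExt i φ)

include h

/-- A place of a constant extension is determined by the values of the functions of `F`. -/
theorem place_ext_values {P Q : Place L F'}
    (hpole : ∀ e, P.ord (φ e) < 0 ↔ Q.ord (φ e) < 0)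
    (hval : ∀ e c, HasValue P (φ e) c → HasValue Q (φ e) c) : P = Q := by
  classical
  by_cases hA : ∃ g, P.ord (φ g) ≠ 0
  · obtain ⟨g, hg⟩ := hA
    obtain ⟨R, rfl⟩ := h.exists_eq_up hg
    exact (h.eq_up fun f => by rw [← hpole, h.ord_up]).symm
  by_cases hB : ∃ g, Q.ord (φ g) ≠ 0
  · obtain ⟨g, hg⟩ := hB
    obtain ⟨R, rfl⟩ := h.exists_eq_up hg
    exact h.eq_up fun f => by rw [hpole, h.ord_up]
  push Not at hA hB
  obtain ⟨x, hx, hsep⟩ := exists_sepVar h.func
  haveI := hsep
  have hF' := h.isFunctionField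
  have hx' := h.transcendental hx
  obtain ⟨c, hPc⟩ := exists_hasValue hF' (Or.inr (hA x).ge : AtLeast P 0 (φ x))
  have hQc := hval x c hPc
  have hne : φ x - algebraMap L F' c ≠ 0 := fun e =>
    hx' (by rw [sub_eq_zero.1 e]; exact isAlgebraic_algebraMap c)
  have hiff : ∀ w : Place L F', HasValue w (φ x) c ↔ 0 < w.ord (φ x - algebraMap L F' c) :=
    fun w => by rw [HasValue, atLeast_iff hne]; omega
  set S := (finite_zeros hF' (φ x - algebraMap L F' c)).toFinset
  have hS : ∀ w, w ∈ S ↔ HasValue w (φ x) c := fun w => by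
    rw [hiff]; exact Set.Finite.mem_toFinset _
  have hcm : ∀ m, c ≠ i m := fun m e => by
    have h1 := hA (x - algebraMap k F m)
    rw [map_sub, h.comm, ← e] at h1
    have := (hiff P).1 hPc
    omega
  have hreg : ∀ w ∈ S, ∀ e, AtLeast w 0 (φ e) := fun w hw e => by
    by_contra hbad
    simp only [AtLeast, not_or, not_le] at hbad
    obtain ⟨R, rfl⟩ := h.exists_eq_up hbad.2.ne
    have h1 := ((hS _).1 hw).atLeast
    rw [atLeast_iff (fun e => hx' (by rw [e]; exact isAlgebraic_zero)), h.ord_up] at h1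
    obtain ⟨m, hm⟩ := exists_hasValue h.func (Or.inr h1 : AtLeast R 0 x)
    exact hcm m (((hS _).1 hw).unique (h.hasValue_up hm))
  by_contra hPQ
  obtain ⟨g, hg⟩ := exists_approx S (fun w => if w = P then 1 else 0) 1
  have hPS : P ∈ S := (hS P).2 hPc
  have hQS : Q ∈ S := (hS Q).2 hQc
  have hgP : HasValue P g 1 := by
    have := hg P hPS
    rw [if_pos rfl] at this
    simpa [HasValue] using this
  have hgQ : HasValue Q g 0 := by
    have := hg Q hQS
    rw [if_neg (Ne.symm hPQ), sub_zero] at this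
    exact hasValue_zero_iff.2 this
  have hgS : ∀ w ∈ S, AtLeast w 0 g := fun w hw => by
    have := hg w hw
    split_ifs at this
    · simpa using (this.mono zero_le_one).add (atLeast_algebraMap (v := w) (1 : L))
    · simpa using this.mono zero_le_one
  obtain ⟨n, b, d, hsum⟩ := eq_sum_trX h hx
  have ht : φ x - algebraMap L F' c ∈ L⟮φ x⟯ :=
    sub_mem (mem_adjoin_simple_self L _) (L⟮φ x⟯.algebraMap_mem c)
  have hr : ∀ j, ∃ ρ, HasValue P (trX L (φ x) (g * φ (b j))) ρ ∧
      HasValue Q (trX L (φ x) (g * φ (b j))) ρ := fun j => by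
    have h1 := atLeast_trX hF' hx' (adjoin_sub_eq (φ x) c) ((hiff P).1 hPc) 0
      (g := g * φ (b j)) fun w hw => by
        have hwS := (hS w).2 ((hiff w).2 hw)
        exact ((hgS w hwS).mul (hreg w hwS (b j))).mono (by omega)
    obtain ⟨ρ, hρ⟩ := exists_hasValue hF' (by simpa using h1 :
      AtLeast P 0 (trX L (φ x) (g * φ (b j))))
    refine ⟨ρ, hρ, hρ.imp id fun hρ' => ?_⟩
    haveI := hF'.finiteDimensional hx'
    haveI := hasPrincipalDivisors hF'
    have hres : Q.restrict L⟮φ x⟯ = P.restrict L⟮φ x⟯ := Place.mem_fiber.1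
      ((restrict_of_pos hF' hx' ht (adjoin_sub_eq (φ x) c) (w := Q) ((hiff P).1 hPc)).2.2
        ((hiff Q).1 hQc))
    have hz : trX L (φ x) (g * φ (b j)) - algebraMap L F' ρ ∈ L⟮φ x⟯ :=
      sub_mem (trX_mem _ _) (L⟮φ x⟯.algebraMap_mem ρ)
    have h2 := ord_coe hF' hx' P ⟨_, hz⟩
    have h3 := ord_coe hF' hx' Q ⟨_, hz⟩
    rw [hres] at h3
    have h4 : (0 : ℤ) < (P.restrict L⟮φ x⟯).ord ⟨_, hz⟩ := by
      refine pos_of_mul_pos_right ?_ (Int.natCast_nonneg (P.ramificationIndex L⟮φ x⟯))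
      rw [← h2]
      exact lt_of_lt_of_le zero_lt_one hρ'
    have h5 := Q.ramificationIndex_pos (F := L⟮φ x⟯)
    show (1 : ℤ) ≤ Q.ord ((⟨_, hz⟩ : L⟮φ x⟯) : F')
    rw [h3]
    exact one_le_mul_of_one_le_of_one_le (by exact_mod_cast h5) (by omega)
  choose ρ hρ using hr
  choose δ hδ using fun j => exists_hasValue hF' (hreg P hPS (d j))
  have h1 : HasValue P g (∑ j, ρ j * δ j) := by
    rw [hsum g]; exact HasValue.finsetSum fun j _ => (hρ j).1.mul (hδ j)
  have h2 : HasValue Q g (∑ j, ρ j * δ j) := by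
    rw [hsum g]
    exact HasValue.finsetSum fun j _ => (hρ j).2.mul (hval _ _ (hδ j))
  exact one_ne_zero ((hgP.unique h1).trans (h2.unique hgQ))

/-- One function separates a place from finitely many others. -/
theorem exists_separator (S : Finset (Place L F')) {P : Place L F'} (hP : P ∉ S) :
    ∃ (x : F) (a : L), Transcendental k x ∧ HasValue P (φ x) a ∧
      ∀ Q ∈ S, ¬HasValue Q (φ x) a := by
  classical
  have hF' := h.isFunctionField
  haveI : Infinite k := IsAlgClosed.instInfinite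
  rcases S.eq_empty_or_nonempty with rfl | ⟨Q₁, hQ₁⟩
  · obtain ⟨x₀, hx₀, -⟩ := id h.func
    obtain ⟨x, hx, hreg⟩ : ∃ x, Transcendental k x ∧ 0 ≤ P.ord (φ x) := by
      rcases le_or_gt 0 (P.ord (φ x₀)) with h0 | h0
      · exact ⟨x₀, hx₀, h0⟩
      · exact ⟨x₀⁻¹, fun ha => hx₀ (by simpa using ha.inv),
          by rw [map_inv₀, P.ord_inv]; omega⟩
    obtain ⟨a, ha⟩ := exists_hasValue hF' (Or.inr hreg : AtLeast P 0 (φ x))
    exact ⟨x, a, hx, ha, by simp⟩
  set U := insert P S
  have hdist : ∀ Q : S, ∃ e : F, ¬(P.ord (φ e) < 0 ∧ Q.1.ord (φ e) < 0) ∧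
      ∀ z, ¬(HasValue P (φ e) z ∧ HasValue Q.1 (φ e) z) := by
    rintro ⟨Q, hQ⟩
    have hne : P ≠ Q := fun e => hP (e ▸ hQ)
    have hnp : ∀ {v : Place L F'} {f : F'} {z : L}, HasValue v f z → ¬v.ord f < 0 := by
      intro v f z hv hlt
      rcases hv.atLeast with h0 | h0
      · rw [h0, v.ord_zero] at hlt; omega
      · omega
    by_contra hno
    push Not at hno
    refine hne (place_ext_values h (fun e => ?_) fun e z hz => ?_)
    · by_cases hb : P.ord (φ e) < 0 ∧ Q.ord (φ e) < 0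
      · exact ⟨fun _ => hb.2, fun _ => hb.1⟩
      · obtain ⟨z, h1, h2⟩ := hno e (fun hp => not_lt.1 fun hq => hb ⟨hp, hq⟩)
        exact ⟨fun hl => absurd hl (hnp h1), fun hl => absurd hl (hnp h2)⟩
    · obtain ⟨z', h1, h2⟩ := hno e fun hl => absurd hl (hnp hz)
      exact hz.unique h1 ▸ h2
  choose e he hez using hdist
  have hshift : ∀ Q : S, ∃ t : k, ∀ v ∈ U, ¬HasValue v (φ (e Q)) (i t) := fun Q => by
    have hfin : (⋃ v ∈ U, {t : k | HasValue v (φ (e Q)) (i t)}).Finite :=
      Set.Finite.biUnion U.finite_toSet fun v _ =>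
        Set.Subsingleton.finite fun a ha b hb => i.injective (ha.unique hb)
    obtain ⟨t, ht⟩ := hfin.infinite_compl.nonempty
    exact ⟨t, fun v hv hval => ht (Set.mem_iUnion₂.2 ⟨v, hv, hval⟩)⟩
  choose t ht using hshift
  set u : S → F := fun Q => (e Q - algebraMap k F (t Q))⁻¹ with hu
  have hφu : ∀ Q, φ (u Q) = (φ (e Q) - algebraMap L F' (i (t Q)))⁻¹ := fun Q => by
    rw [hu, map_inv₀, map_sub, h.comm]
  have hord : ∀ Q, ∀ v ∈ U, φ (e Q) - algebraMap L F' (i (t Q)) ≠ 0 ∧
      v.ord (φ (e Q) - algebraMap L F' (i (t Q))) ≤ 0 := fun Q v hv => by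
    have := ht Q v hv
    simp only [HasValue, AtLeast, not_or, not_le] at this
    exact ⟨this.1, by omega⟩
  have hureg : ∀ Q, ∀ v ∈ U, AtLeast v 0 (φ (u Q)) := fun Q v hv => Or.inr (by
    rw [hφu, v.ord_inv]
    have := (hord Q v hv).2
    omega)
  have hex : ∀ (v : U) (Q : S), ∃ z, HasValue v.1 (φ (u Q)) z := fun v Q =>
    exists_hasValue hF' (hureg Q v.1 v.2)
  choose val hvval using hex
  have hPU : P ∈ U := Finset.mem_insert_self P S
  have hsep : ∀ Q : S, val ⟨P, hPU⟩ Q ≠ val ⟨Q.1, Finset.mem_insert_of_mem Q.2⟩ Q := by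
    intro Q heq
    have h1 := hvval ⟨P, hPU⟩ Q
    have h2 := hvval ⟨Q.1, Finset.mem_insert_of_mem Q.2⟩ Q
    rw [← heq] at h2
    rw [hφu] at h1 h2
    generalize val ⟨P, hPU⟩ Q = z at h1 h2
    by_cases hz : z = 0
    · subst hz
      have key : ∀ v ∈ U, HasValue v ((φ (e Q) - algebraMap L F' (i (t Q)))⁻¹) 0 →
          v.ord (φ (e Q)) < 0 := fun v hv hv0 => by
        rw [hasValue_zero_iff, atLeast_iff (inv_ne_zero (hord Q v hv).1), v.ord_inv] at hv0
        by_contra hlt
        have h3 := AtLeast.sub (Or.inr (not_lt.1 hlt) : AtLeast v 0 (φ (e Q)))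
          (atLeast_algebraMap (i (t Q)))
        rw [atLeast_iff (hord Q v hv).1] at h3
        omega
      exact he Q ⟨key P hPU h1, key Q.1 (Finset.mem_insert_of_mem Q.2) h2⟩
    · have key : ∀ v ∈ U, HasValue v ((φ (e Q) - algebraMap L F' (i (t Q)))⁻¹) z →
          HasValue v (φ (e Q)) (i (t Q) + z⁻¹) := fun v hv hv0 => by
        set y := φ (e Q) - algebraMap L F' (i (t Q)) with hy
        have hy0 : y ≠ 0 := (hord Q v hv).1
        have h0 := (hv0.ord_eq_zero hz).2
        rw [v.ord_inv] at h0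
        have hyz : HasValue v y z⁻¹ := by
          show AtLeast v 1 (y - algebraMap L F' z⁻¹)
          have h3 : AtLeast v 1 (-(algebraMap L F' z⁻¹ * ((y⁻¹ - algebraMap L F' z) * y))) :=
            ((AtLeast.mul hv0 (Or.inr (by omega) : AtLeast v 0 y)).smul z⁻¹).neg.mono
              (by norm_num)
          convert h3 using 1
          have hz' : algebraMap L F' z ≠ 0 := by simpa using hz
          rw [map_inv₀]
          field_simp
          ring
        have := (hasValue_algebraMap v (i (t Q))).add hyz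
        rwa [hy, add_sub_cancel] at this
      exact hez Q _ ⟨key P hPU h1, key Q.1 (Finset.mem_insert_of_mem Q.2) h2⟩
  let idx : S → ℕ := fun Q => (S.equivFin Q : ℕ)
  have hidx : Function.Injective idx := fun a b hab => S.equivFin.injective (Fin.ext hab)
  let π : S → L[X] := fun Q => ∑ j : S, Polynomial.C
    (val ⟨P, hPU⟩ j - val ⟨Q.1, Finset.mem_insert_of_mem Q.2⟩ j) * X ^ idx j
  have hπ : ∀ Q, π Q ≠ 0 := fun Q e0 => by
    have h1 := congrArg (fun r : L[X] => r.coeff (idx Q)) e0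
    simp only [π, finsetSum_coeff, coeff_C_mul, coeff_X_pow, coeff_zero, hidx.eq_iff, mul_ite,
      mul_one, mul_zero, Finset.sum_ite_eq, Finset.mem_univ, if_true, sub_eq_zero] at h1
    exact hsep Q h1
  obtain ⟨s, hs⟩ : ∃ s : k, (∏ Q : S, π Q).eval (i s) ≠ 0 := by
    by_contra hall
    push Not at hall
    exact Finset.prod_ne_zero_iff.2 (fun Q _ => hπ Q) (eq_zero_of_infinite_isRoot _
      ((Set.infinite_range_of_injective i.injective).mono
        (by rintro _ ⟨s, rfl⟩; exact hall s)))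
  set x : F := ∑ j : S, algebraMap k F (s ^ idx j) * u j
  have hxval : ∀ v : U, HasValue v.1 (φ x) (∑ j : S, i (s ^ idx j) * val v j) := fun v => by
    simp only [x, map_sum φ, map_mul φ, h.comm]
    exact HasValue.finsetSum fun j _ => (hvval v j).smul _
  have hne : ∀ Q : S, ¬HasValue Q.1 (φ x) (∑ j : S, i (s ^ idx j) * val ⟨P, hPU⟩ j) := by
    intro Q hQ
    have h1 := hQ.unique (hxval ⟨Q.1, Finset.mem_insert_of_mem Q.2⟩)
    rw [eval_prod, Finset.prod_ne_zero_iff] at hs
    refine hs Q (Finset.mem_univ _) ?_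
    simp only [π, eval_finsetSum, eval_mul, eval_C, eval_pow, eval_X, sub_mul,
      Finset.sum_sub_distrib, sub_eq_zero]
    simp only [map_pow] at h1
    simpa [mul_comm] using h1
  refine ⟨x, _, ?_, hxval ⟨P, hPU⟩, fun Q hQ => hne ⟨Q, hQ⟩⟩
  refine transcendental_of_not_const fun m hm => hne ⟨Q₁, hQ₁⟩ ?_
  have h1 := hxval ⟨P, hPU⟩
  rw [hm, h.comm] at h1 ⊢
  rw [h1.unique (hasValue_algebraMap P (i m))]
  exact hasValue_algebraMap Q₁ (i m)

end Ext

variable {M L κ F FL Fκ : Type*} [Field M] [Field L] [Field κ] [Field F] [Field FL] [Field Fκ]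
  [Algebra M F] [Algebra L FL] [Algebra κ Fκ] [IsAlgClosed M] [IsAlgClosed L] [IsAlgClosed κ]
  {iL : M →+* L} {iκ : M →+* κ} {φ₁ : F →+* FL} {φ₂ : F →+* Fκ} {w : ValuationSubring L}
  {res : w →+* κ}

/-- `P` is the specialisation of `v`. -/
structure SpecPt (φ₁ : F →+* FL) (φ₂ : F →+* Fκ) (res : w →+* κ) (v : Place L FL)
    (P : Place κ Fκ) : Prop where
  pole : ∀ e, v.ord (φ₁ e) < 0 → P.ord (φ₂ e) < 0
  value : ∀ e a, HasValue v (φ₁ e) a →
    (∀ ha : a ∈ w, HasValue P (φ₂ e) (res ⟨a, ha⟩)) ∧ (a ∉ w → P.ord (φ₂ e) < 0)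

variable (hc : SpecCtx iL iκ φ₁ φ₂ w res)

namespace SpecCtx

include hc

theorem specPt_up (R : Place M F) : SpecPt φ₁ φ₂ res (hc.ext₁.up R) (hc.ext₂.up R) := by
  refine ⟨fun e => by rw [hc.ext₁.ord_up, hc.ext₂.ord_up]; exact id, fun e a ha => ?_⟩
  have hR : AtLeast R 0 e := by
    rcases eq_or_ne e 0 with rfl | h0
    · exact atLeast_zero
    · have h1 := ha.atLeast
      rw [atLeast_iff ((map_ne_zero φ₁).2 h0), hc.ext₁.ord_up] at h1
      exact Or.inr h1
  obtain ⟨m, hm⟩ := exists_hasValue hc.ext₁.func hR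
  obtain rfl := ha.unique (hc.ext₁.hasValue_up hm)
  obtain ⟨hmw, hres⟩ := hc.compat m
  exact ⟨fun _ => hres ▸ hc.ext₂.hasValue_up hm, fun h' => absurd hmw h'⟩

theorem hasValue_specPt {v : Place L FL} {P : Place κ Fκ} (hs : SpecPt φ₁ φ₂ res v P) (e : F)
    (a : κ) : HasValue P (φ₂ e) a ↔ ∃ c, HasValue v (φ₁ e) c ∧ RedEq res a c := by
  refine ⟨fun ha => ?_, fun ⟨c, hc', hcw, hres⟩ => hres ▸ (hs.value e c hc').1 hcw⟩
  have hnp : ¬P.ord (φ₂ e) < 0 := fun hlt => by
    rcases ha.atLeast with h0 | h0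
    · rw [h0, P.ord_zero] at hlt; omega
    · omega
  obtain ⟨c, hvc⟩ := exists_hasValue hc.ext₁.isFunctionField
    (Or.inr (not_lt.1 fun hlt => hnp (hs.pole e hlt)) : AtLeast v 0 (φ₁ e))
  have hcw : c ∈ w := by
    by_contra hcw
    exact hnp ((hs.value e c hvc).2 hcw)
  exact ⟨c, hvc, hcw, ((hs.value e c hvc).1 hcw).unique ha⟩

theorem specPt_unique {v : Place L FL} {P P' : Place κ Fκ} (hP : SpecPt φ₁ φ₂ res v P)
    (hP' : SpecPt φ₁ φ₂ res v P') : P = P' := by
  have key : ∀ {Q Q' : Place κ Fκ}, SpecPt φ₁ φ₂ res v Q → SpecPt φ₁ φ₂ res v Q' →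
      ∀ e, Q.ord (φ₂ e) < 0 → Q'.ord (φ₂ e) < 0 := by
    intro Q Q' hQ hQ' e he
    by_contra hne
    obtain ⟨a, ha⟩ := exists_hasValue hc.ext₂.isFunctionField
      (Or.inr (not_lt.1 hne) : AtLeast Q' 0 (φ₂ e))
    have h1 := (hc.hasValue_specPt hQ e a).2 ((hc.hasValue_specPt hQ' e a).1 ha)
    rcases h1.atLeast with h0 | h0
    · rw [h0, Q.ord_zero] at he; omega
    · omega
  exact place_ext_values hc.ext₂ (fun e => ⟨key hP hP' e, key hP' hP e⟩) fun e a ha =>
    (hc.hasValue_specPt hP' e a).2 ((hc.hasValue_specPt hP e a).1 ha)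

/-- Every place specialises. -/
theorem exists_specPt (v : Place L FL) : ∃ P, SpecPt φ₁ φ₂ res v P := by
  classical
  by_cases hA : ∃ g, v.ord (φ₁ g) ≠ 0
  · obtain ⟨g, hg⟩ := hA
    obtain ⟨R, rfl⟩ := hc.ext₁.exists_eq_up hg
    exact ⟨_, hc.specPt_up R⟩
  push Not at hA
  choose ι hι using fun e => exists_hasValue hc.ext₁.isFunctionField
    (Or.inr (hA e).ge : AtLeast v 0 (φ₁ e))
  let ιh : F →+* L :=
    { toFun := ι
      map_one' := (hι 1).unique (by rw [map_one]; simpa using hasValue_algebraMap v (1 : L))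
      map_zero' := (hι 0).unique (by rw [map_zero]; simpa using hasValue_algebraMap v (0 : L))
      map_add' := fun a b => (hι _).unique (by rw [map_add]; exact (hι a).add (hι b))
      map_mul' := fun a b => (hι _).unique (by rw [map_mul]; exact (hι a).mul (hι b)) }
  have hιM : ∀ m, ι (algebraMap M F m) = iL m := fun m =>
    (hι _).unique (by rw [hc.ext₁.comm]; exact hasValue_algebraMap v (iL m))
  have hpt : ∀ P : Place κ Fκ, (∀ e, (∀ ha : ι e ∈ w, HasValue P (φ₂ e) (res ⟨ι e, ha⟩)) ∧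
      (ι e ∉ w → P.ord (φ₂ e) < 0)) → SpecPt φ₁ φ₂ res v P := fun P hP =>
    ⟨fun e he => absurd (hA e) he.ne, fun e a ha => by
      obtain rfl := ha.unique (hι e)
      exact hP e⟩
  have hres0 : ∀ {z : L} (hz : z ∈ w), (z = 0 ∨ z⁻¹ ∉ w) → res ⟨z, hz⟩ = 0 := fun {z} hz hnu => by
    by_contra hne
    haveI := hc.isLocal
    obtain ⟨u, hu⟩ := isUnit_iff_exists_inv.1
      (IsUnit.of_map res ⟨z, hz⟩ (isUnit_iff_ne_zero.2 hne))
    have h1 : z * (u : L) = 1 := congrArg Subtype.val hu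
    rcases hnu with rfl | hnu
    · rw [zero_mul] at h1; exact zero_ne_one h1
    · exact hnu (eq_inv_of_mul_eq_one_right h1 ▸ u.2)
  set O := w.comap ιh
  have hK : ∀ m : M, algebraMap M F m ∈ O := fun m => by
    show ι _ ∈ w
    rw [hιM]; exact (hc.compat m).1
  by_cases hO : O = ⊤
  · have hall : ∀ e, ι e ∈ w := fun e => (hO.symm ▸ ValuationSubring.mem_top e : e ∈ O)
    set χ : F →+* κ := res.comp (ιh.codRestrict w.toSubring hall)
    have hχM : ∀ m, χ (algebraMap M F m) = iκ m := fun m => by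
      rw [← (hc.compat m).2]
      exact congrArg res (Subtype.ext (hιM m))
    set Φ := evT ((algebraMap κ Fκ).comp (RingHom.id κ)) φ₂
    set Ψ := evT (RingHom.id κ) χ
    have hI : (RingHom.ker Ψ).map Φ.rangeRestrict ≠ ⊤ := by
      rw [Ne, Ideal.eq_top_iff_one, Ideal.mem_map_iff_of_surjective _
        Φ.rangeRestrict_surjective]
      rintro ⟨t, ht, ht1⟩
      have h1 : Φ (t - 1) = 0 := by
        rw [map_sub, map_one, show Φ t = 1 from congrArg Subtype.val ht1, sub_self]
      have h2 := descend hc.ext₂ (f := RingHom.id κ) Function.injective_id (RingHom.id κ) iκ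
        (fun _ => rfl) χ (fun m => (hχM m).symm) h1
      rw [map_sub, map_one, show evT (RingHom.id κ) χ t = 0 from ht, zero_sub] at h2
      exact one_ne_zero (neg_eq_zero.1 h2)
    obtain ⟨O', hAO, hsub⟩ := Ideal.image_subset_nonunits_valuationSubring _ hI
    have hK' : ∀ a : κ, algebraMap κ Fκ a ∈ O' := fun a =>
      hAO ⟨MonoidAlgebra.single 1 a, by simp [Φ]⟩
    have hnu : ∀ e, φ₂ e - algebraMap κ Fκ (χ e) ∈ O'.nonunits := fun e => by
      have hker : MonoidAlgebra.single e 1 - MonoidAlgebra.single 1 (χ e) ∈ RingHom.ker Ψ := by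
        simp [RingHom.mem_ker, Ψ]
      exact hsub ⟨_, Ideal.mem_map_of_mem Φ.rangeRestrict hker, by simp [Φ]⟩
    have hne : O' ≠ ⊤ := fun e0 => by
      obtain ⟨x₀, hx₀, -⟩ := id hc.ext₂.func
      have h1 := hnu x₀
      rw [e0, ValuationSubring.mem_nonunits_iff_or] at h1
      rcases h1 with h1 | h1
      · exact hc.ext₂.transcendental hx₀
          (by rw [sub_eq_zero.1 h1]; exact isAlgebraic_algebraMap _)
      · exact h1 (ValuationSubring.mem_top _)
    refine ⟨toPlace hc.ext₂.isFunctionField O' hK' hne, hpt _ fun e =>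
      ⟨fun ha => ?_, fun ha => absurd (hall e) ha⟩⟩
    have key : ∀ (T : Place κ Fκ), T.toValuationSubring = O' →
        AtLeast T 1 (φ₂ e - algebraMap κ Fκ (χ e)) := fun T hT => by
      have h1 := hnu e
      rw [ValuationSubring.mem_nonunits_iff_or] at h1
      refine h1.imp id fun hz => ?_
      by_contra hle
      refine hz (hT ▸ mem_place_of_ord_nonneg T ?_)
      rw [T.ord_inv]
      omega
    exact key _ (toPlace_toValuationSubring _ O' hK' hne)
  · set R := toPlace hc.ext₁.func O hK hO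
    refine ⟨hc.ext₂.up R, hpt _ fun e => ⟨fun ha => ?_, fun ha => ?_⟩⟩
    · obtain ⟨m, hm⟩ := exists_hasValue hc.ext₁.func
        (Or.inr (ord_nonneg_of_mem R ha) : AtLeast R 0 e)
      have hd : ι e - iL m ∈ w := sub_mem ha (hc.compat m).1
      have h0 : res ⟨ι e - iL m, hd⟩ = 0 := by
        refine hres0 hd (hm.imp (fun h0 => ?_) fun h0 hinv => ?_)
        · rw [← hιM]
          exact (map_sub ιh e _).symm.trans ((congrArg ιh h0).trans (map_zero ιh))
        · have hmem : (e - algebraMap M F m)⁻¹ ∈ O := by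
            show ιh _ ∈ w
            rw [map_inv₀, map_sub]
            show (ι e - ι (algebraMap M F m))⁻¹ ∈ w
            rwa [hιM]
          have := ord_nonneg_of_mem R hmem
          rw [R.ord_inv] at this
          omega
      rw [show (⟨ι e - iL m, hd⟩ : w) = ⟨ι e, ha⟩ - ⟨iL m, (hc.compat m).1⟩ from rfl, map_sub,
        sub_eq_zero, (hc.compat m).2] at h0
      rw [h0]
      exact hc.ext₂.hasValue_up hm
    · rw [hc.ext₂.ord_up]
      by_contra hle
      exact ha (mem_place_of_ord_nonneg R (not_lt.1 hle))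

end SpecCtx

end FA.AbTors

end
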