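import Fermat.Agent.AbTors.Value

/-!
# Specialisation of points and of pullbacks of classes
-/

set_option autoImplicit false
set_option linter.style.haveILetI false
set_option linter.unusedSectionVars false

noncomputable section

universe u

open CategoryTheory AlgebraicGeometry TopologicalSpace AlgebraicCurve FA.Curve FA.PicTors FA.ModField

namespace FA.AbTors

variable {M L κ F FL Fκ : Type u} [Field M] [Field L] [Field κ] [Field F] [Field FL] [Field Fκ]
  [IsAlgClosed M] [IsAlgClosed L] [IsAlgClosed κ] [Algebra M F] [Algebra L FL] [Algebra κ Fκ]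
variable {iL : M →+* L} {iκ : M →+* κ} {φ₁ : F →+* FL} {φ₂ : F →+* Fκ}
variable {w : ValuationSubring L} {res : w →+* κ}

/-- The data of a specialisation. -/
structure SpecData (h₁ : IsExt iL φ₁) (h₂ : IsExt iκ φ₂) (w : ValuationSubring L) (res : w →+* κ)
    (W : ValuationSubring FL) (red : W →+* Fκ) (sp : Place L FL → Place κ Fκ) : Prop where
  res_local : IsLocalHom res
  local_red : IsLocalHom red
  red_F : ∀ e : F, ∃ h : φ₁ e ∈ W, red ⟨φ₁ e, h⟩ = φ₂ e
  red_const : ∀ a : w, ∃ h : algebraMap L FL a ∈ W,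
    red ⟨algebraMap L FL a, h⟩ = algebraMap κ Fκ (res a)
  scale : ∀ f : FL, f ≠ 0 → ∃ c : L, c ≠ 0 ∧ ∃ h : algebraMap L FL c * f ∈ W,
    red ⟨algebraMap L FL c * f, h⟩ ≠ 0
  red_div : ∀ f : W, red f ≠ 0 →
    Finsupp.mapDomain sp (divOf h₁.isFunctionField (f : FL)) = divOf h₂.isFunctionField (red f)
  sp_up : ∀ R : Place M F, sp (h₁.up R) = h₂.up R
  sp_value : ∀ (v : Place L FL) (e : F) (a : L), HasValue v (φ₁ e) a →
    (∀ ha : a ∈ w, HasValue (sp v) (φ₂ e) (res ⟨a, ha⟩)) ∧ (a ∉ w → (sp v).ord (φ₂ e) < 0)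

variable {h₁ : IsExt iL φ₁} {h₂ : IsExt iκ φ₂}
variable {W : ValuationSubring FL} {red : W →+* Fκ} {sp : Place L FL → Place κ Fκ}

theorem mapDomain_eq_of_eqOn {α β : Type*} (g : α → β) {D E : α →₀ ℤ} {b : β}
    (h : ∀ a, g a = b → D a = E a) : Finsupp.mapDomain g D b = Finsupp.mapDomain g E b := by
  classical
  rw [← sub_eq_zero, ← Finsupp.sub_apply, ← Finsupp.mapDomain_sub, Finsupp.mapDomain, Finsupp.sum,
    Finsupp.finsetSum_apply]
  refine Finset.sum_eq_zero fun a _ => ?_
  by_cases ha : g a = b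
  · simp [ha, h a ha]
  · rw [Finsupp.single_eq_of_ne (Ne.symm ha)]

theorem mapDomain_nonneg {α β : Type*} (g : α → β) {D : α →₀ ℤ} (h : 0 ≤ D) :
    0 ≤ Finsupp.mapDomain g D := fun b => by
  classical
  rw [Finsupp.mapDomain, Finsupp.sum, Finsupp.finsetSum_apply, Finsupp.zero_apply]
  exact Finset.sum_nonneg fun a _ => by
    by_cases ha : g a = b
    · simpa [ha] using h a
    · rw [Finsupp.single_eq_of_ne (Ne.symm ha)]

namespace SpecData

variable (S : SpecData h₁ h₂ w res W red sp)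

include S

theorem res_ne_zero {a : L} (h : w.valuation a = 1) :
    res ⟨a, (w.valuation_le_one_iff a).1 h.le⟩ ≠ 0 := fun h0 => by
  haveI := S.res_local
  exact not_isUnit_zero (h0 ▸ ((w.valuation_eq_one_iff ⟨a, (w.valuation_le_one_iff a).1 h.le⟩).2 h).map res)

theorem res_eq_zero_iff (a : w) : res a = 0 ↔ w.valuation (a : L) < 1 := by
  haveI := S.res_local
  rw [← w.valuation_lt_one_iff a, IsLocalRing.mem_maximalIdeal, mem_nonunits_iff]
  exact ⟨fun h0 hu => not_isUnit_zero (h0 ▸ hu.map res), fun hn => by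
    by_contra h0
    exact hn (IsUnit.of_map res a (isUnit_iff_ne_zero.2 h0))⟩

theorem mem_of_mem_W {a : L} (h : algebraMap L FL a ∈ W) : a ∈ w := by
  by_contra ha
  have hinv : a⁻¹ ∈ w := (w.mem_or_inv_mem a).resolve_left ha
  have ha0 : a ≠ 0 := fun h0 => ha (h0 ▸ w.zero_mem)
  obtain ⟨h', he⟩ := S.red_const ⟨a⁻¹, hinv⟩
  have h1 : red (⟨_, h⟩ * ⟨_, h'⟩) = red ⟨_, h⟩ * red ⟨_, h'⟩ := map_mul _ _ _
  rw [show (⟨_, h⟩ * ⟨_, h'⟩ : W) = 1 from Subtype.ext (by
      show algebraMap L FL a * algebraMap L FL a⁻¹ = 1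
      rw [← map_mul, mul_inv_cancel₀ ha0, map_one]), map_one, he,
    (S.res_eq_zero_iff ⟨a⁻¹, hinv⟩).2 (lt_of_le_of_ne ((w.valuation_le_one_iff _).2 hinv)
      fun h1 => ha ((w.valuation_le_one_iff a).1 (by
        rw [show (⟨a⁻¹, hinv⟩ : w).1 = a⁻¹ from rfl, map_inv₀, inv_eq_one] at h1
        exact h1.le))), map_zero, mul_zero] at h1
  exact one_ne_zero h1

/-- Specialisation of divisors respects principal divisors. -/
theorem mapDomain_principal {D : Divisor L FL}
    (hD : D ∈ Divisor.principal (K := L) (F := FL)) :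
    Finsupp.mapDomain sp D ∈ Divisor.principal (K := κ) (F := Fκ) := by
  obtain ⟨f, hf, hD⟩ := hD
  obtain ⟨c, hc, hm, hne⟩ := S.scale f hf
  refine ⟨red ⟨_, hm⟩, hne, fun v => ?_⟩
  rw [← divOf_apply h₂.isFunctionField, ← S.red_div _ hne]
  refine congrArg (fun E : Divisor L FL => Finsupp.mapDomain sp E v) (Finsupp.ext fun u => ?_)
  rw [hD u, divOf_apply]
  show u.ord f = u.ord (algebraMap L FL c * f)
  rw [u.ord_mul ((_root_.map_ne_zero _).2 hc) hf, place_ord_algebraMap, zero_add]

/-- Specialisation of divisor classes. -/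
def classMap : AlgebraicCurve.Pic L FL →+ AlgebraicCurve.Pic κ Fκ :=
  QuotientAddGroup.map _ _ (Finsupp.mapDomain.addMonoidHom sp) fun _ hD => S.mapDomain_principal hD

theorem classMap_mk (D : Divisor L FL) :
    S.classMap (QuotientAddGroup.mk D) = QuotientAddGroup.mk (Finsupp.mapDomain sp D) := rfl

theorem degree_mapDomain (D : Divisor L FL) :
    Divisor.degree (Finsupp.mapDomain sp D) = Divisor.degree D := by
  induction D using Finsupp.induction_linear with
  | zero => simp
  | add a b ha hb => rw [Finsupp.mapDomain_add, map_add, map_add, ha, hb]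
  | single P n =>
    rw [Finsupp.mapDomain_single, Divisor.degree_single, Divisor.degree_single,
      h₂.isFunctionField.deg_eq_one, h₁.isFunctionField.deg_eq_one]

theorem mapDomain_pull (D : Divisor M F) :
    Finsupp.mapDomain sp (h₁.pull D) = h₂.pull D := by
  rw [IsExt.pull, IsExt.pull, Finsupp.mapDomain.addMonoidHom_apply,
    Finsupp.mapDomain.addMonoidHom_apply, ← Finsupp.mapDomain_comp]
  exact Finsupp.mapDomain_congr fun R _ => S.sp_up R

/-- If `f` has neither zeros nor poles above `v'`, its reduction has none at `v'`, and its values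
above `v'` are units. -/
theorem unit_value (f : W) (hf : red f ≠ 0) {v' : Place κ Fκ}
    (hord : ∀ v, sp v = v' → v.ord (f : FL) = 0) {v : Place L FL} (hv : sp v = v') {a : L}
    (ha : HasValue v (f : FL) a) : w.valuation a = 1 := by
  have hf0 : (f : FL) ≠ 0 := fun h0 => hf (by
    rw [show f = 0 from Subtype.ext h0, map_zero])
  have hzero : ∀ g : W, red g ≠ 0 → (∀ u, sp u = v' → AtLeast u 0 (g : FL)) →
      v'.ord (red g) = 0 → ∀ u, sp u = v' → u.ord (g : FL) = 0 := by
    intro g hg hreg h0 u hu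
    have hg0 : (g : FL) ≠ 0 := fun e => hg (by rw [show g = 0 from Subtype.ext e, map_zero])
    have h1 : Finsupp.mapDomain sp (divOf h₁.isFunctionField (g : FL)) v' = 0 := by
      rw [S.red_div g hg, divOf_apply, h0]
    classical
    rw [Finsupp.mapDomain, Finsupp.sum, Finsupp.finsetSum_apply,
      Finset.sum_eq_zero_iff_of_nonneg (fun x _ => ?_)] at h1
    · by_contra hne
      have := h1 u (Finsupp.mem_support_iff.2 (by rwa [divOf_apply]))
      rw [hu, Finsupp.single_eq_same, divOf_apply] at this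
      exact hne this
    · by_cases hx : sp x = v'
      · rw [hx, Finsupp.single_eq_same, divOf_apply]
        exact (atLeast_iff hg0).1 (hreg x hx)
      · rw [Finsupp.single_eq_of_ne (Ne.symm hx)]
  have hreg : ∀ u, sp u = v' → AtLeast u 0 (f : FL) := fun u hu => Or.inr (hord u hu).ge
  have hred0 : v'.ord (red f) = 0 := by
    rw [← divOf_apply h₂.isFunctionField, ← S.red_div f hf]
    refine (mapDomain_eq_of_eqOn sp (E := 0) fun u hu => ?_).trans (by simp)
    rw [divOf_apply, hord u hu]; rfl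
  have ha0 : a ≠ 0 := by
    rintro rfl
    rw [hasValue_zero_iff, atLeast_iff hf0, hord v hv] at ha
    omega
  by_contra hne
  rcases lt_or_gt_of_ne hne with hlt | hgt
  · -- `a` is in the maximal ideal
    have haw : a ∈ w := (w.valuation_le_one_iff a).1 hlt.le
    obtain ⟨hm, he⟩ := S.red_const ⟨a, haw⟩
    let g : W := f - ⟨_, hm⟩
    have hg : red g = red f := by
      rw [map_sub, he, (S.res_eq_zero_iff ⟨a, haw⟩).2 hlt, map_zero, sub_zero]
    have h1 := hzero g (hg ▸ hf) (fun u hu => (hreg u hu).sub (atLeast_algebraMap a))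
      (hg ▸ hred0) v hv
    rcases ha with h2 | h2
    · exact (hg ▸ hf : red g ≠ 0) (by rw [show g = 0 from Subtype.ext h2, map_zero])
    · exact absurd h1 (by show v.ord ((f : FL) - algebraMap L FL a) ≠ 0; omega)
  · -- `a` is not in `w`
    have hinv : w.valuation a⁻¹ < 1 := by
      rw [map_inv₀]; exact inv_lt_one_of_one_lt₀ hgt
    have haw : a⁻¹ ∈ w := (w.valuation_le_one_iff _).1 hinv.le
    obtain ⟨hm, he⟩ := S.red_const ⟨a⁻¹, haw⟩
    let g : W := ⟨_, hm⟩ * f - 1
    have hg : red g = -1 := by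
      rw [map_sub, map_mul, he, (S.res_eq_zero_iff ⟨a⁻¹, haw⟩).2 hinv, map_zero, zero_mul, map_one,
        zero_sub]
    have hg0 : red g ≠ 0 := by rw [hg]; exact neg_ne_zero.2 one_ne_zero
    have h1 := hzero g hg0 (fun u hu => ((hreg u hu).smul a⁻¹).sub (Or.inr (by simp)))
      (by rw [hg, show (-1 : Fκ) = algebraMap κ Fκ (-1) by simp, place_ord_algebraMap]) v hv
    have h2 : HasValue v (algebraMap L FL a⁻¹ * (f : FL)) 1 := by
      have := HasValue.smul ha a⁻¹
      rwa [inv_mul_cancel₀ ha0] at this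
    rw [HasValue, map_one] at h2
    rcases h2 with h2 | h2
    · exact hg0 (by rw [show g = 0 from Subtype.ext h2, map_zero])
    · exact absurd h1 (by show v.ord (algebraMap L FL a⁻¹ * (f : FL) - 1) ≠ 0; omega)

/-! ### Pullback of classes -/

variable {K : Type u} [Field K] {X : Scheme.{u}} {s : X ⟶ Spec (CommRingCat.of K)} [IsProper s]
variable (i : K →+* L) (i' : K →+* κ)
variable (x : Spec (CommRingCat.of FL) ⟶ X)
  (hx : x ≫ s = Spec.map (CommRingCat.ofHom ((algebraMap L FL).comp i)))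
variable (xκ : Spec (CommRingCat.of Fκ) ⟶ X)
  (hxκ : xκ ≫ s = Spec.map (CommRingCat.ofHom ((algebraMap κ Fκ).comp i')))
variable (xW : Spec (CommRingCat.of W) ⟶ X)
  (hgen : Spec.map (CommRingCat.ofHom W.subtype) ≫ xW = x)
  (hred : Spec.map (CommRingCat.ofHom red) ≫ xW = xκ)
  (hctr : ∀ v, placeCtr i x hx v ⤳ placeCtr i' xκ hxκ (sp v))

include hred in
theorem ctr_xW : ctr xκ = ctr xW := by
  haveI := S.local_red
  rw [← hred, ctr_comp]

include hgen hred in
theorem ctr_specializes_red : ctr x ⤳ ctr xκ := by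
  rw [S.ctr_xW xκ xW hred, ← hgen]
  exact specializes_ctr _ _

include hctr in
theorem mem_of_red_mem {v : Place L FL} {U : X.Opens} (h : placeCtr i' xκ hxκ (sp v) ∈ U) :
    placeCtr i x hx v ∈ U :=
  (hctr v).mem_open U.2 h

include hgen hred in
/-- The pullback of a transition function at the reduced point is a unit of `W`. -/
theorem exists_red_gAt (c : Coc X) {a b : X} (ha : ctr xκ ∈ c.U a) (hb : ctr xκ ∈ c.U b) :
    ∃ g : W, red g = gAt c xκ a b ha hb ∧
      (g : FL) = gAt c x a b ((S.ctr_specializes_red x xκ xW hgen hred).mem_open (c.U a).2 ha)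
        ((S.ctr_specializes_red x xκ xW hgen hred).mem_open (c.U b).2 hb) := by
  have hWle : ⊤ ≤ xW ⁻¹ᵁ (c.U a ⊓ c.U b) :=
    le_preimage_of_mem (by rw [← S.ctr_xW xκ xW hred]; exact ⟨ha, hb⟩)
  refine ⟨(evU xW _ hWle (c.g a b) : W), ?_, ?_⟩
  · subst hred
    exact (congrArg Units.val (evU_comp red xW hWle (c.g a b))).symm
  · subst hgen
    exact (congrArg Units.val (evU_comp W.subtype xW hWle (c.g a b))).symm

include hgen hred hctr in
/-- The specialisation of the divisor of the pullback is that of the reduced point, up to a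
principal divisor. -/
theorem mapDomain_pullDiv (c : Coc X) :
    Finsupp.mapDomain sp (pullDiv i h₁.isFunctionField x hx c) -
      pullDiv i' h₂.isFunctionField xκ hxκ c ∈ Divisor.principal (K := κ) (F := Fκ) := by
  have hsp := S.ctr_specializes_red x xκ xW hgen hred
  have ha0 : ctr x ∈ c.U (ctr xκ) := hsp.mem_open (c.U _).2 (c.mem _)
  set e := gAt c x (ctr xκ) (ctr x) ha0 (c.mem _)
  have he : e ≠ 0 := gAt_ne_zero _ _ _ _ _ _
  obtain ⟨c₁, hc₁, hm, hne⟩ := S.scale e he
  refine ⟨red ⟨_, hm⟩, hne, fun v' => ?_⟩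
  set z' := placeCtr i' xκ hxκ v'
  have hz' : ctr xκ ∈ c.U z' := mem_of_placeCtr_mem i' xκ hxκ v' (c.mem z')
  obtain ⟨g, hgr, hgv⟩ := S.exists_red_gAt x xκ xW hgen hred c hz' (c.mem (ctr xκ))
  have hg0 : red g ≠ 0 := hgr ▸ gAt_ne_zero _ _ _ _ _ _
  have key : ∀ v, sp v = v' →
      pullDiv i h₁.isFunctionField x hx c v =
        (divOf h₁.isFunctionField (g : FL) +
          divOf h₁.isFunctionField (algebraMap L FL c₁ * e)) v := by
    intro v hv
    have hmem : placeCtr i x hx v ∈ c.U z' := by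
      refine S.mem_of_red_mem i i' x hx xκ hxκ hctr ?_
      rw [hv]; exact c.mem z'
    have h1 := pullOrd_eq i x hx c v z' (ctr x) hmem (c.mem _)
    rw [gAt_self, v.ord_one, add_zero,
      gAt_mul c x z' (ctr xκ) (ctr x) (mem_of_placeCtr_mem i x hx v hmem) ha0 (c.mem _),
      v.ord_mul (gAt_ne_zero _ _ _ _ _ _) he] at h1
    rw [Finsupp.add_apply, pullDiv_apply, h1, divOf_apply, divOf_apply, hgv,
      v.ord_mul ((_root_.map_ne_zero _).2 hc₁) he, place_ord_algebraMap, zero_add]
  rw [Finsupp.sub_apply, mapDomain_eq_of_eqOn sp key, Finsupp.mapDomain_add, Finsupp.add_apply,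
    S.red_div g hg0, S.red_div ⟨_, hm⟩ hne, divOf_apply, divOf_apply, hgr, pullDiv_apply]
  show v'.ord (gAt c xκ z' (ctr xκ) _ _) + _ - v'.ord (gAt c xκ z' (ctr xκ) _ _) = _
  ring

include hgen hred hctr in
/-- Specialisation commutes with pullback of classes. -/
theorem classMap_pullCl (p : Pic X) :
    S.classMap (pullCl i h₁.isFunctionField x hx p) = pullCl i' h₂.isFunctionField xκ hxκ p := by
  obtain ⟨c, rfl⟩ := Pic.mk_surjective p
  rw [pullCl_mk, pullCl_mk, classMap_mk]
  refine QuotientAddGroup.eq.mpr ?_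
  have h := neg_mem (S.mapDomain_pullDiv i i' x hx xκ hxκ xW hgen hred hctr c)
  rwa [neg_sub, sub_eq_neg_add] at h

end SpecData

end FA.AbTors

end
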