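import Fermat.Agent.AbTors.GrowthDen
import Fermat.Agent.AbTors.GrowthAlg
import Mathlib.LinearAlgebra.Basis.VectorSpace

/-!
# The degree of a map against the growth of spaces of sections

If the pullback of a class along a finite separable map of degree `d` is the `N`-th multiple of
the class, then the spaces of sections satisfy `d G(m) ≤ G(m N + C)` and `G(m N) ≤ d G(m + C)`.
-/

set_option autoImplicit false
set_option linter.style.haveILetI false
set_option linter.unusedSectionVars false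

noncomputable section

universe u

open CategoryTheory AlgebraicGeometry TopologicalSpace Module

namespace FA.AbTors.Growth

section Abstract

variable {K : Type*} {F₁ F₂ : Type u} [Field K] [Field F₁] [Field F₂] [Algebra K F₁] [Algebra K F₂]
  [Algebra F₁ F₂] [IsScalarTower K F₁ F₂] [FiniteDimensional F₁ F₂]

/-- A basis among the products of generators. -/
theorem exists_basis_monomials (T : Set F₂)
    (hT : ∀ f, ∃ a ∈ Algebra.adjoin K T, ∃ b ∈ Algebra.adjoin K T, b ≠ 0 ∧ f * b = a) :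
    ∃ (ι : Type u) (_ : Fintype ι) (e : Basis ι F₁ F₂),
      Fintype.card ι = finrank F₁ F₂ ∧ ∀ j, e j ∈ Submonoid.closure T := by
  classical
  set A := Algebra.adjoin F₁ T
  have hle : ∀ a ∈ Algebra.adjoin K T, a ∈ A := fun a ha => by
    have h : Algebra.adjoin K T ≤ A.restrictScalars K := Algebra.adjoin_le fun x hx => Algebra.subset_adjoin hx
    exact h ha
  have htop : ∀ f, f ∈ A := fun f => by
    obtain ⟨a, ha, b, hb, hb0, h⟩ := hT f
    rw [show f = a * b⁻¹ by rw [← h, mul_assoc, mul_inv_cancel₀ hb0, mul_one]]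
    exact mul_mem (hle a ha) (A.inv_mem_of_algebraic (x := ⟨b, hle b hb⟩)
      (Algebra.IsAlgebraic.isAlgebraic (b : F₂)))
  have hspan : Submodule.span F₁ (Submonoid.closure T : Set F₂) = ⊤ := by
    rw [← Algebra.adjoin_eq_span]
    exact eq_top_iff.2 fun f _ => htop f
  obtain ⟨b, hbT, hb, hli⟩ := exists_linearIndependent F₁ (Submonoid.closure T : Set F₂)
  haveI : Fintype b := hli.setFinite.fintype
  let e : Basis b F₁ F₂ := Basis.mk hli (by rw [Subtype.range_coe_subtype, Set.ofPred_mem_eq, hb, hspan])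
  exact ⟨b, inferInstance, e, (finrank_eq_card_basis e).symm, fun j => by
    rw [Basis.mk_apply]; exact hbT j.2⟩

variable [Algebra.IsSeparable F₁ F₂]

theorem step_abstract {Z : Type*} (S : Z → Subring F₁)
    (hS : ∀ z, IsIntegrallyClosedIn (S z) F₁) (h : Z → F₁)
    (G₁ : ℕ → Submodule K F₁) (hfin₁ : ∀ m, Module.Finite K (G₁ m))
    (hG₁ : ∀ m x, (∀ z, h z ^ m * x ∈ S z) → x ∈ G₁ m)
    (G₂ : ℕ → Submodule K F₂) (hfin₂ : ∀ m, Module.Finite K (G₂ m)) (hmono : Monotone G₂)
    (hmul : ∀ a b, ∀ x ∈ G₂ a, ∀ y ∈ G₂ b, x * y ∈ G₂ (a + b)) (h1 : (1 : F₂) ∈ G₂ 0)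
    (T : Set F₂) (hTG : ∀ x ∈ T, x ∈ G₂ 1)
    (hT : ∀ f, ∃ a ∈ Algebra.adjoin K T, ∃ b ∈ Algebra.adjoin K T, b ≠ 0 ∧ f * b = a)
    {N : ℕ} (hN : 1 ≤ N) {u : F₂} (hu : u ≠ 0)
    (hlow : ∀ m c, ∀ f ∈ G₁ m, ∀ y ∈ G₂ c, u⁻¹ ^ m * (algebraMap F₁ F₂ f * y) ∈ G₂ (m * N + c))
    (hup : ∀ M, ∀ y ∈ G₂ (M * N), ∀ z, ∀ W : ValuationSubring F₂,
      (∀ r ∈ S z, algebraMap F₁ F₂ r ∈ W) → algebraMap F₁ F₂ (h z) ^ M * (u ^ M * y) ∈ W) :
    ∃ C, ∀ m, finrank F₁ F₂ * finrank K (G₁ m) ≤ finrank K (G₂ (m * N + C)) ∧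
      finrank K (G₂ (m * N)) ≤ finrank F₁ F₂ * finrank K (G₁ (m + C)) := by
  classical
  obtain ⟨ι, _, e, hcard, he⟩ := exists_basis_monomials (F₁ := F₁) T hT
  have hmon : ∀ x ∈ Submonoid.closure T, ∃ c, x ∈ G₂ c := by
    intro x hx
    induction hx using Submonoid.closure_induction with
    | mem x hx => exact ⟨1, hTG x hx⟩
    | one => exact ⟨0, h1⟩
    | mul x y _ _ hx hy =>
      obtain ⟨a, ha⟩ := hx
      obtain ⟨b, hb⟩ := hy
      exact ⟨a + b, hmul a b x ha y hb⟩
  choose c hc using fun j => hmon _ (he j)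
  let C := Finset.univ.sup c
  have hC : ∀ j, e j ∈ G₂ C := fun j => hmono (Finset.le_sup (Finset.mem_univ j)) (hc j)
  refine ⟨C, fun m => ?_⟩
  haveI := hfin₁
  haveI := hfin₂
  rw [← hcard]
  refine ⟨?_, ?_⟩
  · refine finrank_mul_le e (pow_ne_zero m (inv_ne_zero hu)) fun f hf j => ?_
    rw [Algebra.smul_def]
    exact hlow m C f hf (e j) (hC j)
  · refine (finrank_le_mul e (pow_ne_zero (m + C) hu) fun f hf j => hG₁ _ _ fun z => ?_).2
    haveI := hS z
    have hy : f * e j ∈ G₂ ((m + C) * N) := by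
      refine hmono ?_ (hmul (m * N) C f hf (e j) (hC j))
      rw [add_mul]
      exact Nat.add_le_add_left (Nat.le_mul_of_pos_right C hN) _
    rw [← smul_eq_mul, ← LinearMap.map_smul, Algebra.smul_def, map_pow, mul_assoc (u ^ (m + C))]
    have hint : IsIntegral (S z) (algebraMap F₁ F₂ (h z) ^ (m + C) * (u ^ (m + C) * (f * e j))) :=
      isIntegral_of_forall_mem fun W hW => hup _ _ hy z W fun r hr => hW ⟨r, hr⟩
    obtain ⟨r, hr⟩ := IsIntegrallyClosedIn.algebraMap_eq_of_integral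
      (Algebra.isIntegral_trace (L := F₁) (F := F₂) hint)
    rw [← hr]
    exact r.2

end Abstract

variable {K : Type u} [Field K] {X : Scheme.{u}} [IsIntegral X]
  {s : X ⟶ Spec (CommRingCat.of K)} [Algebra K X.functionField]
  (hK : ∀ (z : X) (c : K), RegAt z (algebraMap K X.functionField c))
  (h : X → X.functionField)

/-- The functions with poles bounded by `h ^ m`. -/
def secs (m : ℕ) : Submodule K X.functionField where
  carrier := {f | ∀ z, RegAt z (h z ^ m * f)}
  add_mem' {a b} ha hb z := by rw [mul_add]; exact regAt_add (ha z) (hb z)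
  zero_mem' z := by rw [mul_zero]; exact regAt_zero
  smul_mem' c f hf z := by
    rw [Algebra.smul_def, mul_left_comm]
    exact regAt_mul (hK z c) (hf z)

variable {h}

theorem secs_mono (hreg : ∀ z, RegAt z (h z)) : Monotone (secs hK h) := by
  intro m m' hm f hf z
  rw [← Nat.sub_add_cancel hm, pow_add, mul_assoc]
  exact regAt_mul (regAt_pow (hreg z) _) (hf z)

theorem secs_mul {a b : ℕ} {x y : X.functionField} (hx : x ∈ secs hK h a)
    (hy : y ∈ secs hK h b) : x * y ∈ secs hK h (a + b) := fun z => by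
  rw [pow_add, mul_mul_mul_comm]
  exact regAt_mul (hx z) (hy z)

theorem one_mem_secs : (1 : X.functionField) ∈ secs hK h 0 := fun z => by
  rw [pow_zero, one_mul]; exact regAt_one

variable [IsProper s]

/-- **One step of the squeeze.** -/
theorem squeeze_step (halg : algebraMap K X.functionField = kHom s)
    (hF : ∀ z : X, UniqueFactorizationMonoid (X.presheaf.stalk z))
    (hreg : ∀ z, h z ≠ 0 ∧ RegAt z (h z)) (hloc : IsLoc h)
    (hfin : ∀ m, Module.Finite K (secs hK h m))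
    (T : Set X.functionField) (hTG : ∀ x ∈ T, x ∈ secs hK h 1)
    (hT : ∀ f, ∃ a ∈ Algebra.adjoin K T, ∃ b ∈ Algebra.adjoin K T, b ≠ 0 ∧ f * b = a)
    {φ : X ⟶ X} (hφ : φ (genericPoint X) = genericPoint X) (hφs : φ ≫ s = s) {d : ℕ}
    (hd : DegData (ffMap φ hφ) d) {N : ℕ} (hN : 1 ≤ N) {u : X.functionField} (hu : u ≠ 0)
    (hq : ∀ q, UnitAt q (ffMap φ hφ (h (φ q)) * u / h q ^ N)) :
    ∃ C, ∀ m, d * finrank K (secs hK h m) ≤ finrank K (secs hK h (m * N + C)) ∧
      finrank K (secs hK h (m * N)) ≤ d * finrank K (secs hK h (m + C)) := by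
  obtain ⟨hfinite, hsep, rfl⟩ := hd
  haveI := hF
  let ψ := ffMap φ hφ
  letI : Algebra X.functionField X.functionField := ψ.toAlgebra
  refine @step_abstract K X.functionField X.functionField _ _ _ _ _ ψ.toAlgebra
    (@IsScalarTower.of_algebraMap_eq K X.functionField X.functionField _ _ _ _ ψ.toAlgebra _
      fun c => by rw [halg]; exact (ffMap_kHom hφ hφs c).symm)
    hfinite hsep X (fun z => regSubring z) (fun z => ?_) h (secs hK h) hfin
    (fun m x hx z => mem_regSubring.1 (hx z)) (secs hK h) hfin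
    (secs_mono hK fun z => (hreg z).2) (fun a b x hx y hy => secs_mul hK hx hy)
    (one_mem_secs hK) T hTG hT N hN u hu (fun m c f hf y hy q => ?_) (fun M y hy z W hW => ?_)
  · refine Subring.isIntegrallyClosedIn_iff.2 fun {x} hx => ?_
    obtain ⟨p, hp, hpx⟩ := hx
    obtain ⟨p', hp', -, hpm⟩ := Polynomial.lifts_and_degree_eq_and_monic
      ((Polynomial.mem_lifts p).2 (Polynomial.map_surjective _
        (algebraMap (X.presheaf.stalk z) X.functionField).rangeRestrict_surjective p)) hp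
    have hint : IsIntegral (X.presheaf.stalk z) x := ⟨p', hpm, by
      rw [← hp'] at hpx; exact (Polynomial.eval₂_map _ _ _).symm.trans hpx⟩
    exact IsIntegrallyClosedIn.algebraMap_eq_of_integral hint
  · show RegAt q (h q ^ (m * N + c) * (u⁻¹ ^ m * (ψ f * y)))
    have h1 := regAt_mul (regAt_mul (regAt_pow (hq q).inv.regAt m)
      (regAt_ffMap hφ (hf (φ q)))) (hy q)
    convert h1 using 1
    rw [map_mul, map_pow, inv_div, div_pow, mul_pow, ← pow_mul, pow_add, inv_pow]
    show _ = h q ^ (N * m) / (ψ (h (φ q)) ^ m * u ^ m) * (ψ (h (φ q)) ^ m * ψ f) * (h q ^ c * y)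
    have h0 : ψ (h (φ q)) ^ m ≠ 0 := pow_ne_zero _ ((_root_.map_ne_zero ψ).2 (hreg _).1)
    field_simp
    ring
  · have hKW : ∀ c, kHom s c ∈ W := fun c => by
      have h1 := hW (kHom s c) (mem_regSubring.2 (regAt_kHom s c))
      exact (ffMap_kHom hφ hφs c) ▸ h1
    obtain ⟨e, he, -⟩ := exists_centre s W hKW
    have hsp : φ (ctr e) ⤳ z :=
      specializes_of_subring (s := s) hφ (fun k hk => hW k (mem_regSubring.2 hk)) he
    obtain ⟨U, hzU, hU⟩ := hloc z
    have h1 := unitAt_ffMap hφ (hU _ (hsp.mem_open U.2 hzU))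
    have h2 := regAt_mul (regAt_pow ((hq (ctr e)).div h1).regAt M) (hy (ctr e))
    refine mem_of_regAt he ?_
    convert h2 using 1
    show ψ (h z) ^ M * (u ^ M * y) = _
    rw [map_div₀, mul_comm M N, pow_mul, ← mul_assoc, ← mul_pow, ← mul_assoc, ← mul_pow]
    congr 2
    have h0 : ψ (h (φ (ctr e))) ≠ 0 := (_root_.map_ne_zero ψ).2 (hreg _).1
    have h0' : h (ctr e) ^ N ≠ 0 := pow_ne_zero _ (hreg _).1
    show ψ (h z) * u = ψ (h (φ (ctr e))) * u / h (ctr e) ^ N /
      (ψ (h (φ (ctr e))) / ψ (h z)) * h (ctr e) ^ N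
    field_simp

end FA.AbTors.Growth

end
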