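import Fermat.Agent.AbTors.GrowthChart
import Fermat.Agent.AbTors.SqueezeStep
import Fermat.Agent.AbTors.Local
import Mathlib.AlgebraicGeometry.Morphisms.QuasiCompact
import Mathlib.RingTheory.MvPolynomial.Basic

/-!
# The degree of multiplication by `n` is `n ^ (2 g)`

The space of functions with poles bounded by the `m`-th power of a symmetric class containing a
system of generators grows like `m ^ g`, and multiplication by `n` multiplies the class by `n ^ 2`.
-/

set_option autoImplicit false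
set_option linter.style.haveILetI false
set_option linter.unusedSectionVars false

noncomputable section

universe u

open CategoryTheory AlgebraicGeometry TopologicalSpace Module

namespace FA.AbTors.Growth

/-! ### Counting -/

theorem pow_le_finrank_monomials {K F : Type*} [Field K] [Field F] [Algebra K F]
    (G : ℕ → Submodule K F) (hfin : ∀ m, Module.Finite K (G m)) (hmono : Monotone G)
    (hmul : ∀ a b, ∀ x ∈ G a, ∀ y ∈ G b, x * y ∈ G (a + b)) (h1 : (1 : F) ∈ G 0) {g : ℕ}
    {t : Fin g → F} (ht : AlgebraicIndependent K t) (htG : ∀ i, t i ∈ G 1) (k : ℕ) :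
    (k + 1) ^ g ≤ finrank K (G (g * k)) := by
  classical
  haveI := hfin
  let ex : (Fin g → Fin (k + 1)) → (Fin g →₀ ℕ) :=
    fun e => Finsupp.equivFunOnFinite.symm fun i => (e i : ℕ)
  have hex : Function.Injective ex := fun a b hab => by
    funext i
    exact Fin.ext (congrFun (Finsupp.equivFunOnFinite.symm.injective hab) i)
  have hli : LinearIndependent K fun e => MvPolynomial.aeval t (MvPolynomial.monomial (ex e) (1 : K)) := by
    have h0 : LinearIndependent K fun e => MvPolynomial.monomial (ex e) (1 : K) := by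
      have := (MvPolynomial.basisMonomials (Fin g) K).linearIndependent.comp ex hex
      rwa [MvPolynomial.coe_basisMonomials] at this
    exact h0.map' (MvPolynomial.aeval t).toLinearMap
      (LinearMap.ker_eq_bot.2 (algebraicIndependent_iff_injective_aeval.1 ht))
  have hpow : ∀ i n, t i ^ n ∈ G n := by
    intro i n
    induction n with
    | zero => rw [pow_zero]; exact h1
    | succ n ih => rw [pow_succ]; exact hmul n 1 _ ih _ (htG i)
  have hprod : ∀ (S : Finset (Fin g)) (e : Fin g → Fin (k + 1)),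
      ∏ i ∈ S, t i ^ (e i : ℕ) ∈ G (S.card * k) := by
    intro S e
    induction S using Finset.induction_on with
    | empty => rw [Finset.prod_empty, Finset.card_empty, zero_mul]; exact h1
    | insert i S hi ih =>
      rw [Finset.prod_insert hi, Finset.card_insert_of_notMem hi, add_mul, one_mul, add_comm]
      exact hmul k _ _ (hmono (Nat.lt_succ_iff.1 (e i).2) (hpow i _)) _ ih
  have hmem : ∀ e, MvPolynomial.aeval t (MvPolynomial.monomial (ex e) (1 : K)) ∈ G (g * k) := by
    intro e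
    rw [MvPolynomial.aeval_monomial, map_one, one_mul, Finsupp.prod_fintype _ _ fun i => pow_zero _]
    have := hprod Finset.univ e
    rw [Finset.card_univ, Fintype.card_fin] at this
    exact this
  have h := (LinearIndependent.of_comp (G (g * k)).subtype
    (show LinearIndependent K ((G (g * k)).subtype ∘ fun e => ⟨_, hmem e⟩) from hli)).fintype_card_le_finrank
  simpa using h

theorem squeeze_numeric {g C d N C₀ : ℕ} {G : ℕ → ℕ} (hN : 1 ≤ N)
    (hlow : ∀ k, (k + 1) ^ g ≤ G (g * k)) (hhigh : ∀ m, G m ≤ C * (m + 1) ^ g)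
    (hstep : ∀ m, d * G m ≤ G (m * N + C₀) ∧ G (m * N) ≤ d * G (m + C₀)) :
    d ≤ C * (2 * g + 2) ^ g * N ^ g ∧ N ^ g ≤ C * (2 * g + 2) ^ g * d := by
  constructor
  · have h : d * (C₀ + 1) ^ g ≤ C * (2 * g + 2) ^ g * N ^ g * (C₀ + 1) ^ g := by
      calc d * (C₀ + 1) ^ g ≤ d * G (g * C₀) := Nat.mul_le_mul_left _ (hlow C₀)
        _ ≤ G (g * C₀ * N + C₀) := (hstep _).1
        _ ≤ C * (g * C₀ * N + C₀ + 1) ^ g := hhigh _
        _ ≤ C * (((2 * g + 2) * N) * (C₀ + 1)) ^ g := by
            refine Nat.mul_le_mul_left _ (Nat.pow_le_pow_left ?_ g)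
            have h1 : C₀ + 1 ≤ N * (C₀ + 1) := Nat.le_mul_of_pos_left _ hN
            have h2 : g * C₀ * N ≤ (2 * g + 1) * (N * (C₀ + 1)) := by nlinarith
            calc g * C₀ * N + C₀ + 1 ≤ (2 * g + 1) * (N * (C₀ + 1)) + N * (C₀ + 1) := by omega
              _ = (2 * g + 2) * N * (C₀ + 1) := by ring
        _ = C * (2 * g + 2) ^ g * N ^ g * (C₀ + 1) ^ g := by rw [mul_pow, mul_pow]; ring
    exact Nat.le_of_mul_le_mul_right h (pow_pos (Nat.succ_pos _) g)
  · have h : N ^ g * (C₀ + 1) ^ g ≤ C * (2 * g + 2) ^ g * d * (C₀ + 1) ^ g := by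
      calc N ^ g * (C₀ + 1) ^ g = ((C₀ + 1) * N) ^ g := by rw [mul_pow]; ring
        _ ≤ ((C₀ + 1) * N + 1) ^ g := Nat.pow_le_pow_left (Nat.le_succ _) g
        _ ≤ G (g * ((C₀ + 1) * N)) := hlow _
        _ = G (g * (C₀ + 1) * N) := by rw [mul_assoc]
        _ ≤ d * G (g * (C₀ + 1) + C₀) := (hstep _).2
        _ ≤ d * (C * (g * (C₀ + 1) + C₀ + 1) ^ g) := Nat.mul_le_mul_left _ (hhigh _)
        _ ≤ d * (C * ((2 * g + 2) * (C₀ + 1)) ^ g) := by
            refine Nat.mul_le_mul_left _ (Nat.mul_le_mul_left _ (Nat.pow_le_pow_left ?_ g))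
            nlinarith
        _ = C * (2 * g + 2) ^ g * d * (C₀ + 1) ^ g := by rw [mul_pow]; ring
    exact Nat.le_of_mul_le_mul_right h (pow_pos (Nat.succ_pos _) g)

/-! ### Functions given locally up to units -/

variable {X Y : Scheme.{u}} [IsIntegral X] [IsIntegral Y]

theorem IsLoc.mul {h h' : X → X.functionField} (a : IsLoc h) (b : IsLoc h') :
    IsLoc fun q => h q * h' q := fun z => by
  obtain ⟨U, hU, hu⟩ := a z
  obtain ⟨U', hU', hu'⟩ := b z
  refine ⟨U ⊓ U', ⟨hU, hU'⟩, fun q hq => ?_⟩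
  rw [← div_mul_div_comm]
  exact (hu q hq.1).mul (hu' q hq.2)

theorem isLoc_one : IsLoc fun _ : X => (1 : X.functionField) := fun _ =>
  ⟨⊤, trivial, fun _ _ => by rw [div_one]; exact UnitAt.one⟩

theorem IsLoc.prod {ι : Type*} (S : Finset ι) {b : ι → X → X.functionField}
    (hb : ∀ i ∈ S, IsLoc (b i)) : IsLoc fun q => ∏ i ∈ S, b i q := by
  classical
  induction S using Finset.induction_on with
  | empty => simp only [Finset.prod_empty]; exact isLoc_one
  | insert i S hi ih =>
    simp only [Finset.prod_insert hi]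
    exact (hb i (Finset.mem_insert_self i S)).mul
      (ih fun j hj => hb j (Finset.mem_insert_of_mem hj))

theorem IsLoc.pow {h : X → X.functionField} (a : IsLoc h) (r : ℕ) :
    IsLoc fun q => h q ^ r := fun z => by
  obtain ⟨U, hU, hu⟩ := a z
  exact ⟨U, hU, fun q hq => by rw [← div_pow]; exact (hu q hq).pow r⟩

theorem IsLoc.pullback {h : Y → Y.functionField} (a : IsLoc h) {f : X ⟶ Y}
    (hf : f (genericPoint X) = genericPoint Y) : IsLoc fun q => ffMap f hf (h (f q)) := fun z => by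
  obtain ⟨U, hU, hu⟩ := a (f z)
  exact ⟨f ⁻¹ᵁ U, hU, fun q hq => by rw [← map_div₀]; exact unitAt_ffMap hf (hu (f q) hq)⟩

theorem regAt_prod {ι : Type*} (S : Finset ι) {b : ι → X.functionField} {q : X}
    (hb : ∀ i ∈ S, RegAt q (b i)) : RegAt q (∏ i ∈ S, b i) :=
  mem_regSubring.1 (prod_mem fun i hi => mem_regSubring.2 (hb i hi))

variable {K : Type u} [Field K] (V : AbVar K)

/-! ### Multiplication maps -/

theorem mulHom_one : V.mulHom 1 = 𝟙 V.A := by
  rw [AbVar.mulHom, one_nsmul]; rfl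

theorem precomp_self_mulHom (a : ℕ) :
    V.precomp (V.mulHom a) (V.mulHom_str a) V.self = a • V.self :=
  V.ptExt (by rw [AbVar.hom_precomp]; exact Category.comp_id _)

theorem mulHom_mul (a b : ℕ) : V.mulHom (b * a) = V.mulHom a ≫ V.mulHom b := by
  have h := V.hom_precomp (V.mulHom a) (V.mulHom_str a) (b • V.self)
  rw [map_nsmul, precomp_self_mulHom, ← mul_nsmul'] at h
  exact h

theorem negHom_str : V.negHom ≫ V.str = V.str := V.hom_str _

theorem negHom_negHom : V.negHom ≫ V.negHom = 𝟙 V.A := by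
  have h0 : V.precomp V.negHom (negHom_str V) V.self = -V.self :=
    V.ptExt (by rw [AbVar.hom_precomp]; exact Category.comp_id _)
  have h := V.hom_precomp V.negHom (negHom_str V) (-V.self)
  rw [map_neg, h0, neg_neg] at h
  exact h.symm

theorem negHom_generic [IrreducibleSpace V.A] [IsIntegral V.A] :
    V.negHom (genericPoint V.A) = genericPoint V.A := by
  have h : ∀ y, V.negHom (V.negHom y) = y := fun y => by
    rw [← Scheme.Hom.comp_apply, negHom_negHom]; rfl
  have h1 : V.negHom (genericPoint V.A) ⤳ genericPoint V.A := by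
    have := (((genericPoint_spec V.A).specializes trivial :
      genericPoint V.A ⤳ V.negHom (genericPoint V.A))).map V.negHom.continuous
    rwa [h] at this
  exact (h1.antisymm ((genericPoint_spec V.A).specializes trivial)).eq

theorem compactSpace : CompactSpace V.A :=
  QuasiCompact.compactSpace_of_compactSpace V.str

/-- A symmetric class given by a function with poles at the generators. -/
theorem exists_symmetric [IsAlgClosed K] [IrreducibleSpace V.A] [IsIntegral V.A]
    (hF : ∀ z : V.A, UniqueFactorizationMonoid (V.A.presheaf.stalk z))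
    (T : Finset V.A.functionField) :
    ∃ (cL : Coc V.A) (k : V.A.functionField), k ≠ 0 ∧
      Pic.pull V.negHom (Pic.mk cL) = Pic.mk cL ∧
      IsLoc (fun q => cL.rat q (genericPoint V.A) * k) ∧
      ∀ q, RegAt q (cL.rat q (genericPoint V.A) * k) ∧
        ∀ x ∈ T, RegAt q (cL.rat q (genericPoint V.A) * k * x) := by
  classical
  set η := genericPoint V.A
  choose b hb hbloc using fun x : V.A.functionField => exists_denom V.str hF x
  let h₀ : V.A → V.A.functionField := fun q => ∏ x ∈ T, b x q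
  have hloc₀ : IsLoc h₀ := IsLoc.prod T fun x _ => hbloc x
  have hne₀ : ∀ q, h₀ q ≠ 0 := fun q => Finset.prod_ne_zero_iff.2 fun x _ => (hb x q).1
  have hreg₀ : ∀ q, RegAt q (h₀ q) := fun q => regAt_prod T fun x _ => (hb x q).2.1
  have hx₀ : ∀ q, ∀ x ∈ T, RegAt q (h₀ q * x) := fun q x hx => by
    show RegAt q ((∏ y ∈ T, b y q) * x)
    rw [← Finset.prod_erase_mul T _ hx, mul_assoc]
    exact regAt_mul (regAt_prod _ fun y _ => (hb y q).2.1) (hb x q).2.2
  have hneg := negHom_generic V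
  let ψ := ffMap V.negHom hneg
  let c₀ := ofLoc hloc₀
  let k : V.A.functionField := h₀ η * ψ (h₀ η)
  have hrat : ∀ q, (c₀ * c₀.pull V.negHom).rat q η * k = h₀ q * ψ (h₀ (V.negHom q)) := fun q => by
    rw [Coc.rat_mul_mul, rat_pull_eq hneg, rat_ofLoc, rat_ofLoc, map_div₀]
    have h1 := hne₀ η
    have h2 : ψ (h₀ η) ≠ 0 := (_root_.map_ne_zero ψ).2 h1
    show h₀ q / h₀ η * (ψ (h₀ (V.negHom q)) / ψ (h₀ η)) * (h₀ η * ψ (h₀ η)) = _
    field_simp
  refine ⟨c₀ * c₀.pull V.negHom, k,
    mul_ne_zero (hne₀ η) ((_root_.map_ne_zero ψ).2 (hne₀ η)), ?_, ?_, fun q => ?_⟩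
  · rw [Pic.mk_mul, ← Pic.pull_mk, map_add, Pic.pull_pull, negHom_negHom, Pic.pull_id, add_comm]
  · simp only [hrat]
    exact hloc₀.mul (hloc₀.pullback hneg)
  · simp only [hrat]
    refine ⟨regAt_mul (hreg₀ q) (regAt_ffMap hneg (hreg₀ _)), fun x hx => ?_⟩
    rw [mul_right_comm]
    exact regAt_mul (hx₀ q x hx) (regAt_ffMap hneg (hreg₀ _))

end FA.AbTors.Growth

namespace FA.AbTors

open Growth

/-- **The squeeze.** -/
theorem squeezeHolds {K : Type u} [Field K] [IsAlgClosed K] (V : AbVar K) : SqueezeHolds V := by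
  intro _ _ hF hD hQ n hn
  classical
  set g := V.dim
  set η := genericPoint V.A
  letI : Algebra K V.A.functionField := (kHom V.str).toAlgebra
  have hK : ∀ (z : V.A) (c : K), RegAt z (algebraMap K V.A.functionField c) :=
    fun _ c => regAt_kHom V.str c
  have hF' : ∀ z : V.A, UniqueFactorizationMonoid (V.A.presheaf.stalk z) := hF V.A V.str
  obtain ⟨t, T, htT, htind, hgen, hbd⟩ := exists_generators V.str g
  obtain ⟨cL, k, hk, hsym, hloc, hreg⟩ := exists_symmetric V hF' T
  obtain ⟨r, hr, hquad⟩ := hQ (Pic.mk cL) hsym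
  set hL : V.A → V.A.functionField := fun q => cL.rat q η * k
  set h : V.A → V.A.functionField := fun q => hL q ^ r with hh
  have hhne : ∀ q, h q ≠ 0 ∧ RegAt q (h q) := fun q =>
    ⟨pow_ne_zero _ (mul_ne_zero (cL.rat_ne_zero _ _) hk), regAt_pow (hreg q).1 r⟩
  have hhloc : IsLoc h := hloc.pow r
  have hTG : ∀ x ∈ (T : Set V.A.functionField), x ∈ secs hK h 1 := fun x hx q => by
    rw [pow_one, hh]
    show RegAt q (hL q ^ r * x)
    rw [← Nat.sub_add_cancel hr, pow_succ, mul_assoc]
    exact regAt_mul (regAt_pow (hreg q).1 _) ((hreg q).2 x hx)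
  -- finitely many local equations
  haveI := compactSpace V
  obtain ⟨Z, hZ⟩ := isCompact_univ.elim_finite_subcover (fun z => (locU hhloc z : Set V.A))
    (fun z => (locU hhloc z).2) fun q _ => Set.mem_iUnion.2 ⟨q, mem_locU hhloc q⟩
  obtain ⟨C, hC⟩ := hbd (Z.image h)
  have hG : ∀ m, Module.Finite K (secs hK h m) ∧ finrank K (secs hK h m) ≤ C * (m + 1) ^ g := by
    refine fun m => hC m _ fun f hf W hW => ?_
    obtain ⟨e, he, -⟩ := exists_centre V.str W hW
    obtain ⟨z, hz, hzq⟩ := Set.mem_iUnion₂.1 (hZ (Set.mem_univ (ctr e)))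
    refine ⟨h z, Finset.mem_image_of_mem h hz, (hhne z).1, mem_of_regAt he ?_⟩
    have hu : UnitAt (ctr e) (h (ctr e) / h z) := (hhloc z).choose_spec.2 _ hzq
    have h2 := regAt_mul (regAt_pow hu.inv.regAt m) (hf (ctr e))
    rw [← mul_assoc, ← mul_pow, inv_div, div_mul_cancel₀ _ (hhne _).1] at h2
    exact h2
  -- one step
  have hstep : ∀ N : ℕ, (N : K) ≠ 0 → ∃ C₀, ∀ m,
      torsionCount V N * finrank K (secs hK h m) ≤ finrank K (secs hK h (m * N ^ 2 + C₀)) ∧
        finrank K (secs hK h (m * N ^ 2)) ≤ torsionCount V N * finrank K (secs hK h (m + C₀)) := by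
    intro N hN
    obtain ⟨hφ, hd⟩ := hD N hN
    have hN1 : 1 ≤ N := Nat.one_le_iff_ne_zero.2 fun h0 => hN (by rw [h0, Nat.cast_zero])
    let ψ := ffMap (V.mulHom N) hφ
    obtain ⟨u, hu, hu'⟩ := exists_unit_of_mk_eq (c := cpow cL (r * N ^ 2))
      (d := (cpow cL r).pull (V.mulHom N))
      (by rw [mk_cpow, ← Pic.pull_mk, mk_cpow, map_nsmul, hquad N])
    refine squeeze_step hK rfl hF' hhne hhloc (fun m => (hG m).1) (T : Set V.A.functionField) hTG
      hgen hφ (V.mulHom_str N) hd (Nat.one_le_pow _ _ hN1)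
      (u := u * k ^ (r * N ^ 2) / ψ (k ^ r))
      (div_ne_zero (mul_ne_zero hu (pow_ne_zero _ hk))
        ((_root_.map_ne_zero ψ).2 (pow_ne_zero _ hk))) fun q => ?_
    convert hu' q using 1
    rw [rat_pull_eq hφ, rat_cpow, rat_cpow]
    show ψ ((cL.rat (V.mulHom N q) η * k) ^ r) * (u * k ^ (r * N ^ 2) / ψ (k ^ r)) /
      ((cL.rat q η * k) ^ r) ^ N ^ 2 = ψ (cL.rat (V.mulHom N q) η ^ r) / cL.rat q η ^ (r * N ^ 2) * u
    rw [mul_pow, map_mul, ← pow_mul, mul_pow]
    have h1 : ψ (k ^ r) ≠ 0 := (_root_.map_ne_zero ψ).2 (pow_ne_zero _ hk)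
    have h2 : k ^ (r * N ^ 2) ≠ 0 := pow_ne_zero _ hk
    have h3 : cL.rat q η ^ (r * N ^ 2) ≠ 0 := pow_ne_zero _ (cL.rat_ne_zero _ _)
    field_simp
  have hpowK : ∀ j, ((n ^ j : ℕ) : K) ≠ 0 := fun j => by
    rw [Nat.cast_pow]; exact pow_ne_zero _ hn
  -- multiplicativity
  have hdeg : ∀ j, torsionCount V (n ^ j) = torsionCount V n ^ j := by
    have hdd : ∀ N : ℕ, ∀ hN : (N : K) ≠ 0,
        homDeg (ffMap (V.mulHom N) (hD N hN).choose) = torsionCount V N :=
      fun N hN => (hD N hN).choose_spec.2.2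
    intro j
    induction j with
    | zero =>
      rw [pow_zero, pow_zero, ← hdd 1 (by rw [Nat.cast_one]; exact one_ne_zero)]
      have hid : ∀ (f : V.A ⟶ V.A), f = 𝟙 V.A → ∀ hf : f η = η, ffMap f hf = RingHom.id _ := by
        rintro f rfl hf
        exact ffMap_id hf
      rw [hid _ (mulHom_one V) _, homDeg_id]
    | succ j ih =>
      rw [← hdd _ (hpowK (j + 1)), pow_succ (torsionCount V n), ← ih, ← hdd _ (hpowK j), ← hdd n hn,
        ← homDeg_comp]
      refine congrArg homDeg ?_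
      rw [ffMap_comp (f := V.mulHom n) (hD n hn).choose (f' := V.mulHom (n ^ j))
        (hD _ (hpowK j)).choose (by rw [pow_succ, mulHom_mul]) (hD _ (hpowK (j + 1))).choose]
  have hn1 : 1 ≤ n := Nat.one_le_iff_ne_zero.2 fun h0 => hn (by rw [h0, Nat.cast_zero])
  have key : ∀ j, torsionCount V n ^ j ≤ C * (2 * g + 2) ^ g * (n ^ (2 * g)) ^ j ∧
      (n ^ (2 * g)) ^ j ≤ C * (2 * g + 2) ^ g * torsionCount V n ^ j := by
    intro j
    obtain ⟨C₀, hC₀⟩ := hstep (n ^ j) (hpowK j)
    have := squeeze_numeric (G := fun m => finrank K (secs hK h m))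
      (Nat.one_le_pow _ _ (Nat.one_le_pow _ _ hn1))
      (pow_le_finrank_monomials (fun m => secs hK h m) (fun m => (hG m).1)
        (secs_mono hK fun z => (hhne z).2) (fun a b x hx y hy => secs_mul hK hx hy)
        (one_mem_secs hK) htind fun i => hTG _ (htT i))
      (fun m => (hG m).2) hC₀
    rw [hdeg, show ((n ^ j) ^ 2) ^ g = (n ^ (2 * g)) ^ j by ring] at this
    exact this
  exact le_antisymm (le_of_forall_pow_le fun j => (key j).1)
    (le_of_forall_pow_le fun j => (key j).2)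

end FA.AbTors

end
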