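import Fermat.Agent.AbTors.SpecPull

/-!
# Values of points under extension of constants and under specialisation
-/

set_option autoImplicit false
set_option linter.style.haveILetI false
set_option linter.unusedSectionVars false

noncomputable section

universe u

open CategoryTheory AlgebraicGeometry TopologicalSpace AlgebraicCurve FA.Curve FA.PicTors

namespace FA.AbTors

variable {X : Scheme.{u}}

theorem evF_congr {R : Type u} [CommRing R] {x x' : Spec (CommRingCat.of R) ⟶ X} (hx : x = x')
    (U : X.Opens) (h : ⊤ ≤ x ⁻¹ᵁ U) (a : Γ(X, U)) : evF x U h a = evF x' U (hx ▸ h) a := by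
  subst hx; rfl

theorem specMap_evF_fromSpec {R : Type u} [CommRing R] (x : Spec (CommRingCat.of R) ⟶ X)
    {U : X.Opens} (hU : IsAffineOpen U) (h : ⊤ ≤ x ⁻¹ᵁ U) :
    Spec.map (CommRingCat.ofHom (evF x U h)) ≫ hU.fromSpec = x := by
  have h1 := IsAffineOpen.SpecMap_appLE_fromSpec x hU (isAffineOpen_top _) h
  rw [show CommRingCat.ofHom (evF x U h) =
    x.appLE U ⊤ h ≫ (Scheme.ΓSpecIso (CommRingCat.of R)).hom from rfl, Spec.map_comp,
    Category.assoc, h1, IsAffineOpen.fromSpec_top, ← Category.assoc]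
  simp

variable {K M F : Type u} [Field K] [Field M] [Field F] [Algebra M F] [IsAlgClosed M]
variable {s : X ⟶ Spec (CommRingCat.of K)} [IsProper s]
variable (i : K →+* M) (hF : IsFunctionField M F)
variable (x : Spec (CommRingCat.of F) ⟶ X)
variable (hx : x ≫ s = Spec.map (CommRingCat.ofHom ((algebraMap M F).comp i)))

/-- A point whose functions on an affine open have the given values has that value. -/
theorem valPt_eq_of_hasValue (v : Place M F) {U : X.Opens} (hU : IsAffineOpen U)
    (hxU : ctr x ∈ U) (p : Spec (CommRingCat.of M) ⟶ X)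
    (hp : p ≫ s = Spec.map (CommRingCat.ofHom i)) (hpU : ctr p ∈ U)
    (h : ∀ a, HasValue v (evF x U (le_preimage_of_mem hxU) a) (evF p U (le_preimage_of_mem hpU) a)) :
    valPt i hF x hx v = p := by
  let ψ : Γ(X, U) →+* v.toValuationSubring :=
    (evF x U (le_preimage_of_mem hxU)).codRestrict v.toValuationSubring.toSubring
      fun a => atLeast_zero_iff_mem.1 (h a).atLeast
  let e := Spec.map (CommRingCat.ofHom ψ) ≫ hU.fromSpec
  have hval : (valueHom hF v).comp ψ = evF p U (le_preimage_of_mem hpU) :=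
    RingHom.ext fun a => valueHom_eq hF (h a)
  have he : Spec.map (CommRingCat.ofHom v.toValuationSubring.subtype) ≫ e = x := by
    show _ ≫ Spec.map (CommRingCat.ofHom ψ) ≫ hU.fromSpec = x
    rw [← Category.assoc, ← Spec.map_comp, ← CommRingCat.ofHom_comp]
    exact specMap_evF_fromSpec x hU (le_preimage_of_mem hxU)
  have hes : e ≫ s = Spec.map (CommRingCat.ofHom ((placeHom v).comp i)) := by
    have hmono : Spec.map (CommRingCat.ofHom v.toValuationSubring.subtype) ≫ e ≫ s =
        Spec.map (CommRingCat.ofHom v.toValuationSubring.subtype) ≫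
          Spec.map (CommRingCat.ofHom ((placeHom v).comp i)) := by
      rw [← Category.assoc, he, hx, ← Spec.map_comp, ← CommRingCat.ofHom_comp]; rfl
    obtain ⟨α, hα⟩ := Spec.map_surjective (e ≫ s)
    rw [← hα, ← Spec.map_comp, ← Spec.map_comp] at hmono
    have h2 := Spec.map_injective hmono
    rw [← hα]
    congr 1
    ext r
    exact congrArg (fun ψ : CommRingCat.of K ⟶ CommRingCat.of F => ψ.hom r) h2
  rw [valPt_eq_of_ext i hF x hx v e he hes]
  show _ ≫ Spec.map (CommRingCat.ofHom ψ) ≫ hU.fromSpec = p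
  rw [← Category.assoc, ← Spec.map_comp, ← CommRingCat.ofHom_comp, hval]
  exact specMap_evF_fromSpec p hU _

variable {L FL : Type u} [Field L] [Field FL] [Algebra L FL] [IsAlgClosed L]
variable {iL : M →+* L} {φ₁ : F →+* FL} (h₁ : IsExt iL φ₁)
variable (iK : K →+* L) (hiK : iL.comp i = iK)

include hx hiK h₁ in
theorem map_over : (Spec.map (CommRingCat.ofHom φ₁) ≫ x) ≫ s =
    Spec.map (CommRingCat.ofHom ((algebraMap L FL).comp iK)) := by
  subst hiK
  rw [Category.assoc, hx, ← Spec.map_comp, ← CommRingCat.ofHom_comp]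
  congr 2
  exact RingHom.ext fun a => h₁.comm (i a)

/-- Values after extension of constants. -/
theorem valPt_up (R : Place M F) :
    valPt iK h₁.isFunctionField (Spec.map (CommRingCat.ofHom φ₁) ≫ x) (map_over i x hx h₁ iK hiK)
        (h₁.up R) =
      Spec.map (CommRingCat.ofHom iL) ≫ valPt i hF x hx R := by
  have hmem : ∀ a : R.toValuationSubring, φ₁ (a : F) ∈ (h₁.up R).toValuationSubring := fun a =>
    atLeast_zero_iff_mem.1 (h₁.atLeast_up (atLeast_zero_iff_mem.2 a.2))
  let ψ : R.toValuationSubring →+* (h₁.up R).toValuationSubring :=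
    (φ₁.comp R.toValuationSubring.subtype).codRestrict (h₁.up R).toValuationSubring.toSubring hmem
  rw [valPt_eq_of_ext iK h₁.isFunctionField _ _ _
    (Spec.map (CommRingCat.ofHom ψ) ≫ placeExt i x hx R), ← Category.assoc, ← Spec.map_comp,
    ← CommRingCat.ofHom_comp, valPt, ← Category.assoc, ← Spec.map_comp, ← CommRingCat.ofHom_comp]
  · congr 3
    exact RingHom.ext fun a => valueHom_eq h₁.isFunctionField (h₁.hasValue_up (hasValue_valueHom hF R a))
  · rw [← Category.assoc, ← Spec.map_comp, ← CommRingCat.ofHom_comp,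
      show (h₁.up R).toValuationSubring.subtype.comp ψ = φ₁.comp R.toValuationSubring.subtype from rfl,
      CommRingCat.ofHom_comp, Spec.map_comp, Category.assoc, placeExt_gen]
  · rw [Category.assoc, placeExt_str, ← Spec.map_comp, ← CommRingCat.ofHom_comp]
    subst hiK
    congr 2
    exact RingHom.ext fun a => Subtype.ext (h₁.comm (i a))

variable {κ Fκ : Type u} [Field κ] [Field Fκ] [Algebra κ Fκ] [IsAlgClosed κ]
variable {iκ : M →+* κ} {φ₂ : F →+* Fκ} {h₂ : IsExt iκ φ₂}
variable {w : ValuationSubring L} {res : w →+* κ}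
variable {W : ValuationSubring FL} {red : W →+* Fκ} {sp : Place L FL → Place κ Fκ}

/-- Values of points under specialisation. -/
theorem valPt_sp (S : SpecData h₁ h₂ w res W red sp) (iK' : K →+* κ) (hiK' : iκ.comp i = iK')
    (v : Place L FL) (e : Spec (CommRingCat.of w) ⟶ X)
    (he : Spec.map (CommRingCat.ofHom w.subtype) ≫ e =
      valPt iK h₁.isFunctionField (Spec.map (CommRingCat.ofHom φ₁) ≫ x)
        (map_over i x hx h₁ iK hiK) v)
    (hes : (Spec.map (CommRingCat.ofHom res) ≫ e) ≫ s = Spec.map (CommRingCat.ofHom iK')) :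
    valPt iK' h₂.isFunctionField (Spec.map (CommRingCat.ofHom φ₂) ≫ x)
        (map_over i x hx h₂ iK' hiK') (sp v) =
      Spec.map (CommRingCat.ofHom res) ≫ e := by
  haveI := S.res_local
  set x₁ := Spec.map (CommRingCat.ofHom φ₁) ≫ x
  have hx₁ := map_over i x hx h₁ iK hiK
  obtain ⟨_, ⟨U, hU, rfl⟩, heU, -⟩ :=
    X.isBasis_affineOpens.exists_subset_of_mem_open (Set.mem_univ (ctr e)) isOpen_univ
  replace heU : ctr e ∈ U := heU
  have hvU : placeCtr iK x₁ hx₁ v ∈ U := by
    rw [placeCtr_eq_ctr_valPt iK h₁.isFunctionField, ← he]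
    exact (specializes_ctr w.subtype e).mem_open U.2 heU
  have hxU : ctr x ∈ U := by
    rw [← ctr_comp φ₁ x]; exact mem_of_placeCtr_mem iK x₁ hx₁ v hvU
  have hx2 : ctr (Spec.map (CommRingCat.ofHom φ₂) ≫ x) ∈ U := by rw [ctr_comp]; exact hxU
  refine valPt_eq_of_hasValue iK' h₂.isFunctionField _ _ (sp v) hU hx2 _ hes
    (by rw [ctr_comp]; exact heU) fun a => ?_
  rw [evF_comp φ₂ x (le_preimage_of_mem hxU) a, evF_comp res e (le_preimage_of_mem heU) a]
  have h := hasValue_evF iK h₁.isFunctionField x₁ hx₁ v hvU a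
  rw [evF_comp φ₁ x (le_preimage_of_mem hxU) a] at h
  rw [evF_congr he.symm] at h
  rw [evF_comp w.subtype e (le_preimage_of_mem heU) a] at h
  exact (S.sp_value v _ _ h).1 (Subtype.prop _)

end FA.AbTors

end
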