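import Fermat.Agent.AbTors.DivPull

/-!
# Values of points at places
-/

set_option autoImplicit false
set_option linter.style.haveILetI false

noncomputable section

universe u

open CategoryTheory AlgebraicGeometry TopologicalSpace AlgebraicCurve FA.Curve

namespace FA.AbTors

variable {X Y : Scheme.{u}} {K M F : Type u} [Field K] [Field M] [Field F] [Algebra M F]
  [IsAlgClosed M]
variable {s : X ⟶ Spec (CommRingCat.of K)} [IsProper s]
variable {t : Y ⟶ Spec (CommRingCat.of K)} [IsProper t]
variable (i : K →+* M) (hF : IsFunctionField M F)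
variable (x : Spec (CommRingCat.of F) ⟶ X)
variable (hx : x ≫ s = Spec.map (CommRingCat.ofHom ((algebraMap M F).comp i)))

include hF in
theorem exists_value (v : Place M F) (a : v.toValuationSubring) :
    ∃ c : M, HasValue v (a : F) c :=
  exists_hasValue hF (atLeast_zero_iff_mem.2 a.2)

/-- The value of a function regular at a place. -/
def valueHom (v : Place M F) : v.toValuationSubring →+* M where
  toFun a := (exists_value hF v a).choose
  map_one' := (exists_value hF v 1).choose_spec.unique (by
    rw [OneMemClass.coe_one, ← map_one (algebraMap M F)]; exact hasValue_algebraMap v 1)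
  map_zero' := (exists_value hF v 0).choose_spec.unique (by
    rw [ZeroMemClass.coe_zero, ← map_zero (algebraMap M F)]; exact hasValue_algebraMap v 0)
  map_add' a b := (exists_value hF v (a + b)).choose_spec.unique
    ((exists_value hF v a).choose_spec.add (exists_value hF v b).choose_spec)
  map_mul' a b := (exists_value hF v (a * b)).choose_spec.unique (by
    have ha := (exists_value hF v a).choose_spec
    have hb := (exists_value hF v b).choose_spec
    rw [HasValue, map_mul, show ((a * b : v.toValuationSubring) : F) = (a : F) * b from rfl,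
      show (a : F) * b - algebraMap M F (exists_value hF v a).choose *
          algebraMap M F (exists_value hF v b).choose =
        ((a : F) - algebraMap M F (exists_value hF v a).choose) * b +
          algebraMap M F (exists_value hF v a).choose *
            ((b : F) - algebraMap M F (exists_value hF v b).choose) from by ring]
    exact ((AtLeast.mul ha (atLeast_zero_iff_mem.2 b.2)).mono (by simp)).add (AtLeast.smul hb _))

theorem hasValue_valueHom (v : Place M F) (a : v.toValuationSubring) :
    HasValue v (a : F) (valueHom hF v a) :=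
  (exists_value hF v a).choose_spec

theorem valueHom_eq {v : Place M F} {a : v.toValuationSubring} {c : M}
    (h : HasValue v (a : F) c) : valueHom hF v a = c :=
  (hasValue_valueHom hF v a).unique h

theorem valueHom_placeHom (v : Place M F) (c : M) : valueHom hF v (placeHom v c) = c :=
  valueHom_eq hF (hasValue_algebraMap v c)

theorem valueHom_comp_placeHom (v : Place M F) :
    (valueHom hF v).comp (placeHom v) = RingHom.id M :=
  RingHom.ext (valueHom_placeHom hF v)

instance valueHom_isLocalHom (v : Place M F) : IsLocalHom (valueHom hF v) :=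
  IsLocalHom.of_surjective _ fun c => ⟨placeHom v c, valueHom_placeHom hF v c⟩

/-- The value of a point at a place. -/
def valPt (v : Place M F) : Spec (CommRingCat.of M) ⟶ X :=
  Spec.map (CommRingCat.ofHom (valueHom hF v)) ≫ placeExt i x hx v

theorem valPt_str (v : Place M F) :
    valPt i hF x hx v ≫ s = Spec.map (CommRingCat.ofHom i) := by
  rw [valPt, Category.assoc, placeExt_str, ← Spec.map_comp, ← CommRingCat.ofHom_comp,
    ← RingHom.comp_assoc, valueHom_comp_placeHom, RingHom.id_comp]

theorem placeCtr_eq_ctr_valPt (v : Place M F) : placeCtr i x hx v = ctr (valPt i hF x hx v) :=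
  (ctr_comp (valueHom hF v) (placeExt i x hx v)).symm

theorem valPt_eq_of_ext (v : Place M F) (e : Spec (CommRingCat.of v.toValuationSubring) ⟶ X)
    (h : Spec.map (CommRingCat.ofHom v.toValuationSubring.subtype) ≫ e = x)
    (hs : e ≫ s = Spec.map (CommRingCat.ofHom ((placeHom v).comp i))) :
    valPt i hF x hx v = Spec.map (CommRingCat.ofHom (valueHom hF v)) ≫ e := by
  rw [valPt, placeExt_unique i x hx v e h hs]

theorem valPt_congr {x' : Spec (CommRingCat.of F) ⟶ X}
    (hx' : x' ≫ s = Spec.map (CommRingCat.ofHom ((algebraMap M F).comp i))) (he : x = x')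
    (v : Place M F) : valPt i hF x hx v = valPt i hF x' hx' v := by
  subst he; rfl

omit [IsAlgClosed M] [IsProper s] [IsProper t] in
theorem comp_over (f : X ⟶ Y) (hf : f ≫ t = s) (x : Spec (CommRingCat.of F) ⟶ X)
    (hx : x ≫ s = Spec.map (CommRingCat.ofHom ((algebraMap M F).comp i))) :
    (x ≫ f) ≫ t = Spec.map (CommRingCat.ofHom ((algebraMap M F).comp i)) := by
  rw [Category.assoc, hf, hx]

omit [IsAlgClosed M] in
theorem placeExt_comp (f : X ⟶ Y) (hf : f ≫ t = s) (v : Place M F) :
    placeExt i (x ≫ f) (comp_over i f hf x hx) v = placeExt i x hx v ≫ f := by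
  refine (placeExt_unique i _ _ v _ ?_ ?_).symm
  · rw [← Category.assoc, placeExt_gen]
  · rw [Category.assoc, hf, placeExt_str]

theorem valPt_comp (f : X ⟶ Y) (hf : f ≫ t = s) (v : Place M F) :
    valPt i hF (x ≫ f) (comp_over i f hf x hx) v = valPt i hF x hx v ≫ f := by
  rw [valPt, valPt, placeExt_comp i x hx f hf v, Category.assoc]

theorem valPt_const (b : Spec (CommRingCat.of M) ⟶ X)
    (hb : b ≫ s = Spec.map (CommRingCat.ofHom i))
    (hxb : x = Spec.map (CommRingCat.ofHom (algebraMap M F)) ≫ b) (v : Place M F) :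
    valPt i hF x hx v = b := by
  rw [valPt_eq_of_ext i hF x hx v (Spec.map (CommRingCat.ofHom (placeHom v)) ≫ b),
    ← Category.assoc, ← Spec.map_comp, ← CommRingCat.ofHom_comp, valueHom_comp_placeHom,
    CommRingCat.ofHom_id, Spec.map_id, Category.id_comp]
  · rw [← Category.assoc, ← Spec.map_comp, ← CommRingCat.ofHom_comp, hxb]
    rfl
  · rw [Category.assoc, hb, ← Spec.map_comp, ← CommRingCat.ofHom_comp]

variable (c : Coc Y)

omit [IsAlgClosed M] in
theorem pullOrd_pull (f : X ⟶ Y) (hf : f ≫ t = s) (v : Place M F) :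
    pullOrd i x hx (c.pull f) v = pullOrd i (x ≫ f) (comp_over i f hf x hx) c v := by
  have hc : placeCtr i (x ≫ f) (comp_over i f hf x hx) v = f (placeCtr i x hx v) := by
    rw [placeCtr, placeExt_comp i x hx f hf]; rfl
  have key : ∀ (a b : X) (ha : ctr x ∈ (c.pull f).U a) (hb : ctr x ∈ (c.pull f).U b),
      gAt (c.pull f) x a b ha hb = gAt c (x ≫ f) (f a) (f b) ha hb := fun a b ha hb =>
    congrArg Units.val (evU_uApp x f (U := c.U (f a) ⊓ c.U (f b))
      (V := f ⁻¹ᵁ (c.U (f a) ⊓ c.U (f b))) le_rfl (le_preimage_of_mem ⟨ha, hb⟩) (c.g (f a) (f b)))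
  unfold pullOrd
  rw [key]
  simp only [hc]
  rfl

theorem pullCl_pull (f : X ⟶ Y) (hf : f ≫ t = s) (p : Pic Y) :
    pullCl i hF x hx (Pic.pull f p) = pullCl i hF (x ≫ f) (comp_over i f hf x hx) p := by
  obtain ⟨c, rfl⟩ := Pic.mk_surjective p
  rw [Pic.pull_mk, pullCl_mk, pullCl_mk]
  exact congrArg _ (Finsupp.ext fun v => pullOrd_pull i x hx c f hf v)

theorem pullCl_congr {x' : Spec (CommRingCat.of F) ⟶ X}
    (hx' : x' ≫ s = Spec.map (CommRingCat.ofHom ((algebraMap M F).comp i))) (he : x = x')
    (p : Pic X) : pullCl i hF x hx p = pullCl i hF x' hx' p := by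
  subst he; rfl

omit [IsAlgClosed M] in
theorem mem_place_of_evF {U : X.Opens} (v : Place M F) (h : placeCtr i x hx v ∈ U) (a : Γ(X, U)) :
    evF x U (le_preimage_of_mem (mem_of_placeCtr_mem i x hx v h)) a ∈ v.toValuationSubring := by
  have h1 := evF_comp v.toValuationSubring.subtype (placeExt i x hx v) (le_preimage_of_mem h) a
  simp only [placeExt_gen] at h1
  rw [h1]
  exact Subtype.prop _

theorem hasValue_evF {U : X.Opens} (v : Place M F) (h : placeCtr i x hx v ∈ U) (a : Γ(X, U)) :
    HasValue v (evF x U (le_preimage_of_mem (mem_of_placeCtr_mem i x hx v h)) a)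
      (evF (valPt i hF x hx v) U (le_preimage_of_mem (placeCtr_eq_ctr_valPt i hF x hx v ▸ h)) a) := by
  have h1 := evF_comp v.toValuationSubring.subtype (placeExt i x hx v) (le_preimage_of_mem h) a
  simp only [placeExt_gen] at h1
  have h2 := evF_comp (valueHom hF v) (placeExt i x hx v) (le_preimage_of_mem h) a
  rw [h1]
  refine Eq.mpr (congrArg (HasValue v _) h2) ?_
  exact hasValue_valueHom hF v _

end FA.AbTors

end
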